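/-
Item 69 (AJ), Layer P5, generic part (helper4): EXACT ramification in the algebraic block of
S24lib.  For `D : FiberData K F L u I g`:
* `fiber_place_ord_u_eq` : `(D.place i).ord u = #orbit(i)` (orbit of `i` under `⟨g⟩`);
* `fiber_exact_index`    : `ord (σ i f) = e * (D.place i).ord f` with `e * #orbit(i) = s`.
-/
import Mathlib
import Fermat.Agent.S24lib.AlgCount

set_option autoImplicit false

noncomputable section

namespace Fermat.Agent.AJlib

open Fermat.Agent.S24lib AlgebraicCurve IntermediateField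

/-- Counting lemma (strengthening of `algCount_aux`): the weights agree. -/
theorem algCount_eq {Ω P : Type*} [Fintype Ω] [Fintype P] (Φ : Ω → P)
    (hΦ : Function.Surjective Φ) (c : Ω → ℕ) (e : P → ℕ) (hc : ∀ ω, 0 < c ω)
    (he : ∀ ω, e (Φ ω) ≤ c ω) (hsum : ∑ v, e v = ∑ ω, c ω) :
    ∀ ω, e (Φ ω) = c ω := by
  classical
  have hcard := algCount_aux Φ hΦ c e hc he hsum
  have hbij : Function.Bijective Φ :=
    (Fintype.bijective_iff_surjective_and_card Φ).2 ⟨hΦ, hcard.symm⟩
  have h1 : ∑ ω, e (Φ ω) = ∑ v, e v := hbij.sum_comp e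
  have h2 : ∑ ω, e (Φ ω) = ∑ ω, c ω := h1.trans hsum
  intro ω
  exact (Finset.sum_eq_sum_iff_of_le (fun i _ => he i)).1 h2 ω (Finset.mem_univ ω)

variable {K F L : Type} [Field K] [Field F] [Algebra K F] [Field L] [Algebra K L]
variable {u : F} {G : Type} [Group G] {I : Type} [Fintype I] [MulAction G I] {g : G}
variable (D : FiberData K F L u I g)
variable [IsAlgClosed K] [CharZero K]

include D in
/-- **Exact ramification.** The order of `u` at the place of the expansion `i` is the length of the
orbit of `i` under `⟨g⟩`. -/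
theorem fiber_place_ord_u_eq [Nonempty I] (i : I) :
    (D.place i).ord u = Nat.card (MulAction.orbit (Subgroup.zpowers g) i) := by
  classical
  have hFF : FFData K u := D.ffData
  letI : Fintype {v : Place K F // 0 < v.ord u} :=
    Fintype.subtype (ffZeros K u) (fun v ↦ ffMem_zeros_iff v)
  letI : Fintype (MulAction.orbitRel.Quotient (Subgroup.zpowers g) I) := Fintype.ofFinite _
  let Φ : MulAction.orbitRel.Quotient (Subgroup.zpowers g) I → {v : Place K F // 0 < v.ord u} :=
    Quotient.lift (fun i ↦ ⟨D.place i, D.place_ord_u_pos i⟩) (by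
      rintro a b ⟨h, rfl⟩
      exact Subtype.ext (D.place_zpowers_smul h b))
  have hΦ : Function.Surjective Φ := by
    rintro ⟨v, hv⟩
    obtain ⟨i, m, hm, h⟩ := D.exists_index v hv
    exact ⟨⟦i⟧, Subtype.ext (D.place_eq_of_index hm h)⟩
  let c : MulAction.orbitRel.Quotient (Subgroup.zpowers g) I → ℕ := fun ω ↦ Nat.card ω.orbit
  let e : {v : Place K F // 0 < v.ord u} → ℕ := fun v ↦ (v.1.ord u).toNat
  have hc : ∀ ω, 0 < c ω := by
    intro ω
    induction ω using Quotient.inductionOn' with
    | h i =>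
      show 0 < Nat.card (MulAction.orbitRel.Quotient.orbit (Quotient.mk'' i))
      rw [MulAction.orbitRel.Quotient.orbit_mk, Nat.card_pos_iff]
      exact ⟨⟨⟨i, MulAction.mem_orbit_self i⟩⟩, Set.toFinite _ |>.to_subtype⟩
  have he : ∀ ω, e (Φ ω) ≤ c ω := by
    intro ω
    induction ω using Quotient.inductionOn' with
    | h i =>
      show ((D.place i).ord u).toNat ≤
        Nat.card (MulAction.orbitRel.Quotient.orbit (Quotient.mk'' i))
      rw [MulAction.orbitRel.Quotient.orbit_mk]
      have := D.place_ord_u_le i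
      omega
  have hsum : ∑ v, e v = ∑ ω, c ω := by
    have h1 : ∑ ω, c ω = Fintype.card I := by
      have := Fintype.card_congr (MulAction.selfEquivSigmaOrbits' (Subgroup.zpowers g) I)
      rw [this, Fintype.card_sigma]
      refine Finset.sum_congr rfl fun ω _ ↦ ?_
      show Nat.card ω.orbit = _
      rw [Nat.card_eq_fintype_card]
    have h2 : ((∑ v, e v : ℕ) : ℤ) = Module.finrank K⟮u⟯ F := by
      rw [← ffSum_ord_zeros (K := K) (x := u)]
      push_cast
      rw [Finset.sum_subtype (ffZeros K u) (fun v ↦ ffMem_zeros_iff v) (fun v ↦ v.ord u)]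
      refine Finset.sum_congr rfl fun v _ ↦ ?_
      show (((v.1.ord u).toNat : ℕ) : ℤ) = v.1.ord u
      exact Int.toNat_of_nonneg v.2.le
    rw [D.finrank_eq] at h2
    rw [h1]
    exact_mod_cast h2
  have key := algCount_eq Φ hΦ c e hc he hsum (Quotient.mk'' i)
  have key' : ((D.place i).ord u).toNat =
      Nat.card (MulAction.orbitRel.Quotient.orbit
        (Quotient.mk'' i : MulAction.orbitRel.Quotient (Subgroup.zpowers g) I)) := key
  rw [MulAction.orbitRel.Quotient.orbit_mk] at key'
  have hpos := D.place_ord_u_pos i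
  omega

include D in
/-- **Exact index.** `ord (σ i f) = e · ord_{place i} f` with `e · #orbit(i) = s`. -/
theorem fiber_exact_index [Nonempty I] (i : I) :
    ∃ e : ℕ, 0 < e ∧ e * Nat.card (MulAction.orbit (Subgroup.zpowers g) i) = D.s ∧
      ∀ f : F, f ≠ 0 → (D.σ i f).order = e * (D.place i).ord f := by
  obtain ⟨e, he, h⟩ := D.place_spec i
  refine ⟨e, he, ?_, h⟩
  have h1 := h u D.u_ne_zero
  rw [D.order_u, fiber_place_ord_u_eq D i] at h1
  exact_mod_cast h1.symm

end Fermat.Agent.AJlib
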