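/-
Item 69 (AJ), Layer P1: the function field of `X₀(N)` over `ℂ`, `FC N = ℂ(j(q^d) : d ∣ N) ⊂ ℂ((q))`,
and its embedding into the field `MF N` of meromorphic modular functions.
PORT of `S24lib/Defs.lean` + `S24lib/Embed.lean` (helper4) from the constant field `ℚ̄` to `ℂ`
(`Kbar → ℂ`, `ιC → id`); the `ℚ̄`-rationality bookkeeping (`KRat`) disappears.
-/
import Mathlib
import Fermat.Agent.S24lib.Embed

set_option autoImplicit false

open scoped MatrixGroups ModularForm Manifold Topology
open UpperHalfPlane ModularForm CongruenceSubgroup Filter ModularCurve IntermediateField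

namespace Fermat.Agent.AJlib

open Fermat.Agent.S24lib

/-- The function field of `X₀(N)` over `ℂ` (as a type). -/
abbrev FC (N : ℕ) : Type := ↥(laurentBaseChange ℂ (modularFunctionFieldFull N))

/-- `j(q^d)` as an element of the function field over `ℂ`, for `d ∣ N`. -/
noncomputable def jdFC (N : ℕ) (d : ℕ) [NeZero d] (hd : d ∣ N) : FC N :=
  ⟨coeffEmb ℂ (qExpand ℚ d jq), coeffEmb_mem_laurentBaseChange ℂ (jqd_mem_full N hd)⟩

/-- `j` as an element of the function field over `ℂ`. -/
noncomputable def jFC (N : ℕ) : FC N :=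
  ⟨coeffEmb ℂ jq, coeffEmb_mem_laurentBaseChange ℂ (by
    have h := jqd_mem_full N (one_dvd N)
    rwa [qExpand_one_apply] at h)⟩

@[simp] lemma coe_jFC (N : ℕ) : ((jFC N : FC N) : LaurentSeries ℂ) = coeffEmb ℂ jq := rfl

@[simp] lemma coe_jdFC (N : ℕ) (d : ℕ) [NeZero d] (hd : d ∣ N) :
    ((jdFC N d hd : FC N) : LaurentSeries ℂ) = coeffEmb ℂ (qExpand ℚ d jq) := rfl

/-- coefficient embedding followed by `q ↦ q_N^N` -/
noncomputable def inclLC (N : ℕ) [NeZero N] : LaurentSeries ℂ →+* LaurentSeries ℂ :=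
  qExpand ℂ N

lemma inclLC_coeffEmb (N : ℕ) [NeZero N] (x : LaurentSeries ℚ) :
    inclLC N (coeffEmb ℂ x) = qExpand ℂ N (coeffMap (algebraMap ℚ ℂ) x) := by
  rfl

lemma inclLC_algebraMap (N : ℕ) [NeZero N] (c : ℂ) :
    inclLC N (algebraMap ℂ (LaurentSeries ℂ) c) = HahnSeries.C c := by
  unfold inclLC
  rw [algebraMap_laurentSeries_eq_single, qExpand_single, mul_zero]
  rfl

/-- the image of `FC N` in `ℂ((q_N))` lies in the range of the expansion of `MF N` -/
lemma inclLC_mem_range (N : ℕ) [NeZero N] (x : LaurentSeries ℂ)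
    (hx : x ∈ laurentBaseChange ℂ (modularFunctionFieldFull N)) :
    inclLC N x ∈ (liftMF N (expInf N) (expInf_injective N)).fieldRange := by
  set R := (liftMF N (expInf N) (expInf_injective N)).fieldRange with hR
  have key : ∀ a : WH N, expInf N a ∈ R := fun a =>
    ⟨algebraMap (WH N) (MF N) a, liftMF_algebraMap N _ _ a⟩
  rw [mem_laurentBaseChange_iff] at hx
  have hle : Subfield.closure (Set.range (algebraMap ℂ (LaurentSeries ℂ)) ∪
      (⇑(coeffEmb ℂ) '' ((modularFunctionFieldFull N : IntermediateField ℚ (LaurentSeries ℚ)) :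
        Set (LaurentSeries ℚ)))) ≤ R.comap (inclLC N) := by
    rw [Subfield.closure_le]
    rintro y (⟨c, rfl⟩ | ⟨z, hz, rfl⟩)
    · show inclLC N _ ∈ R
      rw [inclLC_algebraMap, ← expInf_whC N]
      exact key _
    · show inclLC N _ ∈ R
      have hz' : z ∈ Subfield.closure (Set.range (algebraMap ℚ (LaurentSeries ℚ)) ∪
          divisorExpansions N) := hz
      have hle2 : Subfield.closure (Set.range (algebraMap ℚ (LaurentSeries ℚ)) ∪
          divisorExpansions N) ≤ (R.comap (inclLC N)).comap (coeffEmb ℂ) := by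
        rw [Subfield.closure_le]
        rintro w (⟨c, rfl⟩ | ⟨d, hd0, hd, rfl⟩)
        · show inclLC N (coeffEmb ℂ _) ∈ R
          have : coeffEmb ℂ (algebraMap ℚ (LaurentSeries ℚ) c) =
              algebraMap ℂ (LaurentSeries ℂ) (algebraMap ℚ ℂ c) := by
            rw [algebraMap_apply_eq_single, algebraMap_laurentSeries_eq_single]
            unfold coeffEmb
            rw [coeffMap_single]
          rw [this, inclLC_algebraMap, ← expInf_whC N]
          exact key _
        · show inclLC N (coeffEmb ℂ _) ∈ R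
          haveI := hd0
          rw [inclLC_coeffEmb, coeffMap_qExpand, ← expInf_jdWH N d hd]
          exact key _
      exact hle2 hz'
  exact hle hx


/-- the embedding `FC N → MF N` (inverse of the expansion at `i∞`) -/
noncomputable def ιFC (N : ℕ) [NeZero N] : FC N →+* MF N where
  toFun f := (inclLC_mem_range N (f : LaurentSeries ℂ) f.2).choose
  map_one' := by
    apply (liftMF N (expInf N) (expInf_injective N)).injective
    rw [(inclLC_mem_range N ((1 : FC N) : LaurentSeries ℂ) (1 : FC N).2).choose_spec]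
    simp
  map_mul' f g := by
    apply (liftMF N (expInf N) (expInf_injective N)).injective
    rw [map_mul, (inclLC_mem_range N ((f * g : FC N) : LaurentSeries ℂ) (f * g).2).choose_spec,
      (inclLC_mem_range N (f : LaurentSeries ℂ) f.2).choose_spec,
      (inclLC_mem_range N (g : LaurentSeries ℂ) g.2).choose_spec]
    simp
  map_zero' := by
    apply (liftMF N (expInf N) (expInf_injective N)).injective
    rw [(inclLC_mem_range N ((0 : FC N) : LaurentSeries ℂ) (0 : FC N).2).choose_spec]
    simp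
  map_add' f g := by
    apply (liftMF N (expInf N) (expInf_injective N)).injective
    rw [map_add, (inclLC_mem_range N ((f + g : FC N) : LaurentSeries ℂ) (f + g).2).choose_spec,
      (inclLC_mem_range N (f : LaurentSeries ℂ) f.2).choose_spec,
      (inclLC_mem_range N (g : LaurentSeries ℂ) g.2).choose_spec]
    simp

lemma liftMF_ιFC (N : ℕ) [NeZero N] (f : FC N) :
    liftMF N (expInf N) (expInf_injective N) (ιFC N f) = inclLC N (f : LaurentSeries ℂ) :=
  (inclLC_mem_range N (f : LaurentSeries ℂ) f.2).choose_spec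

lemma ιFC_eq_algebraMap (N : ℕ) [NeZero N] (f : FC N) (a : WH N)
    (h : expInf N a = inclLC N (f : LaurentSeries ℂ)) :
    ιFC N f = algebraMap (WH N) (MF N) a := by
  apply (liftMF N (expInf N) (expInf_injective N)).injective
  rw [liftMF_ιFC, liftMF_algebraMap, h]

lemma ιFC_const (N : ℕ) [NeZero N] (c : ℂ) :
    ιFC N (algebraMap ℂ (FC N) c) = algebraMap (WH N) (MF N) (whC N c) := by
  apply ιFC_eq_algebraMap
  rw [expInf_whC]
  exact (inclLC_algebraMap N c).symm

lemma ιFC_jdFC (N : ℕ) [NeZero N] (d : ℕ) [NeZero d] (hd : d ∣ N) :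
    ιFC N (jdFC N d hd) = algebraMap (WH N) (MF N) (jdWH N d hd) := by
  apply ιFC_eq_algebraMap
  rw [expInf_jdWH N d hd, coe_jdFC, inclLC_coeffEmb, coeffMap_qExpand]

lemma ιFC_jFC (N : ℕ) [NeZero N] :
    ιFC N (jFC N) = algebraMap (WH N) (MF N) (jWH N) := by
  apply ιFC_eq_algebraMap
  rw [expInf_jWH N, coe_jFC, inclLC_coeffEmb]

/-- The embedding of the function field induced by an expansion `E`. -/
noncomputable def embFC (N : ℕ) [NeZero N] (E : WH N →+* LaurentSeries ℂ)
    (hE : Function.Injective E) : FC N →+* LaurentSeries ℂ :=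
  (liftMF N E hE).comp (ιFC N)

theorem embFC_const (N : ℕ) [NeZero N] (E : WH N →+* LaurentSeries ℂ)
    (hE : Function.Injective E) (c : ℂ) :
    embFC N E hE (algebraMap ℂ (FC N) c) = E (whC N c) := by
  unfold embFC
  rw [RingHom.comp_apply, ιFC_const, liftMF_algebraMap]

theorem embFC_jdFC (N : ℕ) [NeZero N] (E : WH N →+* LaurentSeries ℂ)
    (hE : Function.Injective E) (d : ℕ) [NeZero d] (hd : d ∣ N) :
    embFC N E hE (jdFC N d hd) = E (jdWH N d hd) := by
  unfold embFC
  rw [RingHom.comp_apply, ιFC_jdFC, liftMF_algebraMap]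

theorem embFC_jFC (N : ℕ) [NeZero N] (E : WH N →+* LaurentSeries ℂ)
    (hE : Function.Injective E) :
    embFC N E hE (jFC N) = E (jWH N) := by
  unfold embFC
  rw [RingHom.comp_apply, ιFC_jFC, liftMF_algebraMap]

/-- `embFC` on a fraction `a / b` -/
lemma embFC_of_ιFC_mul (N : ℕ) [NeZero N] (E : WH N →+* LaurentSeries ℂ)
    (hE : Function.Injective E) (f : FC N) (a b : WH N)
    (h : ιFC N f * algebraMap (WH N) (MF N) b = algebraMap (WH N) (MF N) a) :
    embFC N E hE f * E b = E a := by
  unfold embFC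
  rw [RingHom.comp_apply, ← liftMF_algebraMap N E hE b, ← map_mul, h, liftMF_algebraMap]


/-- Induction principle: `FC N` is generated as a field by the constants and the `j(q^d)`. -/
theorem FC_induction (N : ℕ) [NeZero N] {p : FC N → Prop}
    (hc : ∀ c : ℂ, p (algebraMap ℂ (FC N) c))
    (hj : ∀ (d : ℕ) [NeZero d] (hd : d ∣ N), p (jdFC N d hd))
    (hadd : ∀ x y, p x → p y → p (x + y)) (hneg : ∀ x, p x → p (-x))
    (hmul : ∀ x y, p x → p y → p (x * y)) (hinv : ∀ x, p x → p x⁻¹) : ∀ x, p x := by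
  have h1 : p 1 := by simpa using hc 1
  -- first the elements `coeffEmb z`, `z ∈ F₀`
  have hF0 : ∀ z : LaurentSeries ℚ, ∀ hz : z ∈ modularFunctionFieldFull N,
      p ⟨coeffEmb ℂ z, coeffEmb_mem_laurentBaseChange ℂ hz⟩ := by
    intro z hz
    have hz' : z ∈ Subfield.closure (Set.range (algebraMap ℚ (LaurentSeries ℚ)) ∪
        divisorExpansions N) := hz
    induction hz' using Subfield.closure_induction with
    | mem y hy =>
      rcases hy with ⟨c, rfl⟩ | ⟨d, hd0, hd, rfl⟩
      · have : (⟨coeffEmb ℂ (algebraMap ℚ (LaurentSeries ℚ) c),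
            coeffEmb_mem_laurentBaseChange ℂ hz⟩ : FC N) =
            algebraMap ℂ (FC N) (algebraMap ℚ ℂ c) := by
          apply Subtype.ext
          show coeffEmb ℂ (algebraMap ℚ (LaurentSeries ℚ) c) =
            algebraMap ℂ (LaurentSeries ℂ) (algebraMap ℚ ℂ c)
          rw [algebraMap_apply_eq_single, algebraMap_laurentSeries_eq_single]
          unfold coeffEmb
          rw [coeffMap_single]
        rw [this]; exact hc _
      · haveI := hd0
        exact hj d hd
    | one =>
      have : (⟨coeffEmb ℂ 1, coeffEmb_mem_laurentBaseChange ℂ hz⟩ : FC N) = 1 := by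
        apply Subtype.ext; simp
      rw [this]; exact h1
    | add x y hx hy ihx ihy =>
      have hx' : x ∈ modularFunctionFieldFull N := hx
      have hy' : y ∈ modularFunctionFieldFull N := hy
      have := hadd _ _ (ihx hx') (ihy hy')
      convert this using 1
      apply Subtype.ext; simp
    | neg x hx ihx =>
      have hx' : x ∈ modularFunctionFieldFull N := hx
      have := hneg _ (ihx hx')
      convert this using 1
      apply Subtype.ext; simp
    | inv x hx ihx =>
      have hx' : x ∈ modularFunctionFieldFull N := hx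
      have := hinv _ (ihx hx')
      convert this using 1
      apply Subtype.ext
      simp
    | mul x y hx hy ihx ihy =>
      have hx' : x ∈ modularFunctionFieldFull N := hx
      have hy' : y ∈ modularFunctionFieldFull N := hy
      have := hmul _ _ (ihx hx') (ihy hy')
      convert this using 1
      apply Subtype.ext; simp
  rintro ⟨x, hx⟩
  have hx' := hx
  rw [mem_laurentBaseChange_iff] at hx'
  induction hx' using Subfield.closure_induction with
  | mem y hy =>
    rcases hy with ⟨c, rfl⟩ | ⟨z, hz, rfl⟩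
    · exact hc c
    · exact hF0 z hz
  | one => exact h1
  | add x y hx1 hy1 ihx ihy =>
    exact hadd ⟨x, hx1⟩ ⟨y, hy1⟩ (ihx hx1) (ihy hy1)
  | neg x hx1 ihx => exact hneg ⟨x, hx1⟩ (ihx hx1)
  | inv x hx1 ihx => exact hinv ⟨x, hx1⟩ (ihx hx1)
  | mul x y hx1 hy1 ihx ihy =>
    exact hmul ⟨x, hx1⟩ ⟨y, hy1⟩ (ihx hx1) (ihy hy1)

/-- two ring homs on `FC N` agreeing on the constants and on the `j(q^d)` are equal -/
theorem FC_ringHom_ext (N : ℕ) [NeZero N] {R : Type*} [Field R] (φ ψ : FC N →+* R)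
    (hc : ∀ c : ℂ, φ (algebraMap ℂ (FC N) c) = ψ (algebraMap ℂ (FC N) c))
    (hj : ∀ (d : ℕ) [NeZero d] (hd : d ∣ N), φ (jdFC N d hd) = ψ (jdFC N d hd)) : φ = ψ := by
  ext x
  induction x using FC_induction with
  | hc c => exact hc c
  | hj d hd => exact hj d hd
  | hadd x y hx hy => rw [map_add, map_add, hx, hy]
  | hneg x hx => rw [map_neg, map_neg, hx]
  | hmul x y hx hy => rw [map_mul, map_mul, hx, hy]
  | hinv x hx => rw [map_inv₀, map_inv₀, hx]

theorem embFC_twist_mul (N : ℕ) [NeZero N] {E : WH N →+* LaurentSeries ℂ}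
    (hE : Function.Injective E) (g γ : SL(2, ℤ)) (hγ : γ ∈ Gamma0 N) :
    embFC N (twist N E (g * γ)) (twist_injective N hE _) =
      embFC N (twist N E g) (twist_injective N hE _) := by
  apply FC_ringHom_ext
  · intro c
    rw [embFC_const, embFC_const, twist_apply, twist_apply, smul_whC, smul_whC]
  · intro d _ hd
    rw [embFC_jdFC, embFC_jdFC, twist_apply, twist_apply, mul_smul, smul_jdWH hd γ hγ]

theorem embFC_twist_injective (N : ℕ) [NeZero N] {E : WH N →+* LaurentSeries ℂ}
    (hE : Function.Injective E) (g g' : SL(2, ℤ))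
    (h : embFC N (twist N E g) (twist_injective N hE _) =
      embFC N (twist N E g') (twist_injective N hE _)) :
    g⁻¹ * g' ∈ Gamma0 N := by
  have h1 := congrArg (fun φ => φ (jdFC N N dvd_rfl)) h
  simp only [embFC_jdFC, twist_apply] at h1
  have h2 : g • jdWH N N dvd_rfl = g' • jdWH N N dvd_rfl := hE h1
  apply jN_comp_inv_injective
  intro z
  have h3 := congrArg (fun φ : WH N => (φ : ℍ → ℂ) z) h2
  simp only [wh_smul_apply] at h3
  have e1 : ((jdWH N N dvd_rfl : WH N) : ℍ → ℂ) = jdH N := rfl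
  rw [e1, jdH_eq_jFun, jdH_eq_jFun] at h3
  exact h3


/-! ### polynomials in `j` -/

/-- `p(j)` as an element of `WH N`, for `p ∈ ℚ̄[X]` -/
noncomputable def jpolyC (N : ℕ) (p : Polynomial ℂ) : WH N :=
  p.eval₂ (whC N) (jWH N)

/-- `p(j)` as an element of `FC N` -/
noncomputable def jpolyFC (N : ℕ) (p : Polynomial ℂ) : FC N :=
  p.eval₂ (algebraMap ℂ (FC N)) (jFC N)

lemma jpolyFC_mem (N : ℕ) (p : Polynomial ℂ) : jpolyFC N p ∈ ℂ⟮jFC N⟯ := by
  unfold jpolyFC
  rw [Polynomial.eval₂_eq_sum_range]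
  refine sum_mem fun i _ => mul_mem (IntermediateField.algebraMap_mem _ _) (pow_mem (mem_adjoin_simple_self _ _) _)

lemma smul_jpolyC (N : ℕ) (g : SL(2, ℤ)) (p : Polynomial ℂ) : g • jpolyC N p = jpolyC N p := by
  have h := Polynomial.hom_eval₂ p (whC N) (whAct N g) (jWH N)
  simp only [whAct_apply] at h
  unfold jpolyC
  rw [h, smul_jWH]
  congr 1
  ext c : 1
  simp only [RingHom.comp_apply, whAct_apply, smul_whC]

lemma ιFC_jpolyFC (N : ℕ) [NeZero N] (p : Polynomial ℂ) :
    ιFC N (jpolyFC N p) = algebraMap (WH N) (MF N) (jpolyC N p) := by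
  unfold jpolyFC jpolyC
  rw [Polynomial.hom_eval₂, Polynomial.hom_eval₂, ιFC_jFC]
  congr 1
  ext c : 1
  simp only [RingHom.comp_apply, ιFC_const]

lemma embFC_jpolyFC (N : ℕ) [NeZero N] (E : WH N →+* LaurentSeries ℂ)
    (hE : Function.Injective E) (p : Polynomial ℂ) :
    embFC N E hE (jpolyFC N p) = E (jpolyC N p) := by
  unfold embFC
  rw [RingHom.comp_apply, ιFC_jpolyFC, liftMF_algebraMap]

lemma jpolyC_apply (N : ℕ) (p : Polynomial ℂ) (z : ℍ) :
    ((jpolyC N p : WH N) : ℍ → ℂ) z = p.eval (jH z) := by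
  rw [← whEval_apply]
  unfold jpolyC
  rw [Polynomial.hom_eval₂]
  have h4 : (whEval N z).comp (whC N) = RingHom.id ℂ := by
    ext c; rfl
  rw [h4, Polynomial.eval₂_id]
  rfl

lemma jpolyC_ne_zero (N : ℕ) {p : Polynomial ℂ} (hp : p ≠ 0) : jpolyC N p ≠ 0 := by
  intro h
  apply hp
  apply Polynomial.funext
  intro c
  obtain ⟨z, rfl⟩ := jH_surjective c
  rw [← jpolyC_apply N p z, h]
  simp

lemma jpolyC_mul (N : ℕ) (p p' : Polynomial ℂ) : jpolyC N (p * p') = jpolyC N p * jpolyC N p' := by
  unfold jpolyC; rw [Polynomial.eval₂_mul]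

lemma jpolyC_one (N : ℕ) : jpolyC N 1 = 1 := by
  unfold jpolyC; rw [Polynomial.eval₂_one]

lemma jpolyFC_mul (N : ℕ) (p p' : Polynomial ℂ) :
    jpolyFC N (p * p') = jpolyFC N p * jpolyFC N p' := by
  unfold jpolyFC; rw [Polynomial.eval₂_mul]


end Fermat.Agent.AJlib
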