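/-
Item 69 (AJ), piece D0: base change `bcF N : FF N →+* FC N` of the function field of `X₀(N)`
along the fixed embedding `ιC : ℚ̄ → ℂ` (coefficientwise on `q`-expansions).  (helper22)
-/
import Mathlib
import Fermat.Agent.AJlib.CEmbed

set_option autoImplicit false

open scoped MatrixGroups ModularForm Manifold Topology
open UpperHalfPlane ModularForm CongruenceSubgroup Filter ModularCurve IntermediateField

namespace Fermat.Agent.AJlib

open Fermat.Agent.S24lib

/-- coefficientwise base change maps `laurentBaseChange K F₀` into `laurentBaseChange L F₀` -/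
theorem coeffMap_mem_laurentBaseChange_of_ringHom {K L : Type*} [Field K] [Field L] [Algebra ℚ K]
    [Algebra ℚ L] (ι : K →+* L) (F₀ : IntermediateField ℚ (LaurentSeries ℚ))
    {x : LaurentSeries K} (hx : x ∈ laurentBaseChange K F₀) :
    coeffMap ι x ∈ laurentBaseChange L F₀ := by
  rw [mem_laurentBaseChange_iff] at hx
  induction hx using Subfield.closure_induction with
  | mem y hy =>
      rcases hy with ⟨a, rfl⟩ | ⟨z, hz, rfl⟩
      · rw [algebraMap_laurentSeries_eq_single, coeffMap_single,
          ← algebraMap_laurentSeries_eq_single]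
        exact (laurentBaseChange L F₀).algebraMap_mem _
      · have h : coeffMap ι (coeffEmb K z) = coeffEmb L z := by
          rw [coeffEmb, coeffMap_coeffMap]
          exact coeffMap_congr (Subsingleton.elim _ _) z
        rw [h]
        exact coeffEmb_mem_laurentBaseChange L hz
  | one => simp
  | add x y _ _ hx hy => simpa using add_mem hx hy
  | neg x _ hx => simpa using neg_mem hx
  | inv x _ hx => simpa using inv_mem hx
  | mul x y _ _ hx hy => simpa using mul_mem hx hy

/-- D0: base change of the function field along `ιC : ℚ̄ → ℂ`. -/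
noncomputable def bcF (N : ℕ) : FF N →+* FC N where
  toFun f := ⟨coeffMap ιC (f : LaurentSeries Kbar),
    coeffMap_mem_laurentBaseChange_of_ringHom ιC _ f.2⟩
  map_one' := Subtype.ext (map_one _)
  map_mul' _ _ := Subtype.ext (map_mul _ _ _)
  map_zero' := Subtype.ext (map_zero _)
  map_add' _ _ := Subtype.ext (map_add _ _ _)

@[simp] lemma coe_bcF (N : ℕ) (f : FF N) :
    ((bcF N f : FC N) : LaurentSeries ℂ) = coeffMap ιC (f : LaurentSeries Kbar) := rfl

lemma bcF_injective (N : ℕ) : Function.Injective (bcF N) := (bcF N).injective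

lemma bcF_const (N : ℕ) (c : Kbar) :
    bcF N (algebraMap Kbar (FF N) c) = algebraMap ℂ (FC N) (ιC c) := by
  apply Subtype.ext
  show coeffMap ιC (algebraMap Kbar (LaurentSeries Kbar) c) = algebraMap ℂ (LaurentSeries ℂ) (ιC c)
  rw [algebraMap_laurentSeries_eq_single, coeffMap_single, ← algebraMap_laurentSeries_eq_single]

lemma bcF_jdF (N : ℕ) (d : ℕ) [NeZero d] (hd : d ∣ N) : bcF N (jdF N d hd) = jdFC N d hd := by
  apply Subtype.ext
  show coeffMap ιC (coeffEmb Kbar (qExpand ℚ d jq)) = coeffEmb ℂ (qExpand ℚ d jq)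
  rw [coeffEmb, coeffMap_coeffMap]
  exact coeffMap_congr (Subsingleton.elim _ _) _

lemma bcF_jF (N : ℕ) : bcF N (jF N) = jFC N := by
  apply Subtype.ext
  show coeffMap ιC (coeffEmb Kbar jq) = coeffEmb ℂ jq
  rw [coeffEmb, coeffMap_coeffMap]
  exact coeffMap_congr (Subsingleton.elim _ _) _

/-- D0': the analytic embeddings are compatible. -/
theorem ιFC_bcF (N : ℕ) [NeZero N] (f : FF N) : ιFC N (bcF N f) = ιF N f := by
  apply (liftMF N (expInf N) (expInf_injective N)).injective
  rw [liftMF_ιFC, liftMF_ιF]
  rfl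

theorem embFC_bcF (N : ℕ) [NeZero N] (E : WH N →+* LaurentSeries ℂ) (hE : Function.Injective E)
    (f : FF N) : embFC N E hE (bcF N f) = embF N E hE f := by
  unfold embFC embF
  rw [RingHom.comp_apply, RingHom.comp_apply, ιFC_bcF]

end Fermat.Agent.AJlib
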