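/-
Item 69 (AJ), Layer P2: representation of elements of `FC N` as `a / p(j)` and the symmetric-function
property over `ℂ`.  PORT of `S24lib/Sym.lean` (helper4) to the constant field `ℂ` (no `KRat`).
-/
import Mathlib
import Fermat.Agent.S24lib.Sym
import Fermat.Agent.AJlib.CEmbed

set_option autoImplicit false

open scoped MatrixGroups ModularForm Manifold Topology
open UpperHalfPlane ModularForm CongruenceSubgroup Filter ModularCurve IntermediateField

namespace Fermat.Agent.AJlib

open Fermat.Agent.S24lib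

lemma exists_jpolyC_eq (N : ℕ) [NeZero N] {b : WH N}
    (hinv : ∀ g : SL(2, ℤ), g • b = b) : ∃ P : Polynomial ℂ, b = jpolyC N P :=
  levelOne_poly_complex N b hinv

/-- Every element of `FC N` is `a / p(j)` with `a` a `Γ₀(N)`-invariant `ℚ̄`-rational weakly
holomorphic function and `p ∈ ℚ̄[X]` nonzero. -/
theorem FC_repr (N : ℕ) [NeZero N] (f : FC N) :
    ∃ (a : WH N) (p : Polynomial ℂ), p ≠ 0 ∧
      (∀ γ ∈ Gamma0 N, γ • a = a) ∧
      ιFC N f * algebraMap (WH N) (MF N) (jpolyC N p) = algebraMap (WH N) (MF N) a := by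
  induction f using FC_induction with
  | hc c =>
    refine ⟨whC N c, 1, one_ne_zero, fun γ _ => smul_whC N γ _, ?_⟩
    rw [jpolyC_one, map_one, mul_one, ιFC_const]
  | hj d hd =>
    refine ⟨jdWH N d hd, 1, one_ne_zero, fun γ hγ => smul_jdWH hd γ hγ, ?_⟩
    rw [jpolyC_one, map_one, mul_one, ιFC_jdFC]
  | hadd x y hx hy =>
    obtain ⟨a, p, hp, hai, hap⟩ := hx
    obtain ⟨a', p', hp', hai', hap'⟩ := hy
    refine ⟨a * jpolyC N p' + a' * jpolyC N p, p * p', mul_ne_zero hp hp',
      ?_, ?_⟩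
    · intro γ hγ
      rw [smul_add, smul_mul', smul_mul', hai γ hγ, hai' γ hγ, smul_jpolyC, smul_jpolyC]
    · have e1 : ιFC N (x + y) = ιFC N x + ιFC N y := (ιFC N).map_add x y
      rw [jpolyC_mul, e1, (algebraMap (WH N) (MF N)).map_mul, (algebraMap (WH N) (MF N)).map_add,
        (algebraMap (WH N) (MF N)).map_mul, (algebraMap (WH N) (MF N)).map_mul, ← hap, ← hap']
      ring
  | hneg x hx =>
    obtain ⟨a, p, hp, hai, hap⟩ := hx
    refine ⟨-a, p, hp, ?_, ?_⟩
    · intro γ hγ
      rw [smul_neg, hai γ hγ]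
    · rw [(ιFC N).map_neg, (algebraMap (WH N) (MF N)).map_neg, ← hap, neg_mul]
  | hmul x y hx hy =>
    obtain ⟨a, p, hp, hai, hap⟩ := hx
    obtain ⟨a', p', hp', hai', hap'⟩ := hy
    refine ⟨a * a', p * p', mul_ne_zero hp hp', ?_, ?_⟩
    · intro γ hγ
      rw [smul_mul', hai γ hγ, hai' γ hγ]
    · rw [jpolyC_mul, (ιFC N).map_mul, (algebraMap (WH N) (MF N)).map_mul,
        (algebraMap (WH N) (MF N)).map_mul, ← hap, ← hap']
      ring
  | hinv x hx =>
    obtain ⟨a, p, hp, hai, hap⟩ := hx
    by_cases ha0 : a = 0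
    · -- then `x = 0`
      have hx0 : x = 0 := by
        have h1 : algebraMap (WH N) (MF N) (jpolyC N p) ≠ 0 := fun h =>
          jpolyC_ne_zero N hp (algebraMap_MF_injective N (by rw [h, map_zero]))
        rw [ha0, map_zero] at hap
        have h2 : ιFC N x = 0 := (mul_eq_zero.1 hap).resolve_right h1
        exact (ιFC N).injective (by rw [h2, map_zero])
      refine ⟨0, 1, one_ne_zero, fun γ _ => smul_zero γ, ?_⟩
      rw [hx0, inv_zero, map_zero, zero_mul, map_zero]
    · -- norm trick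
      classical
      set q₁ : SL(2, ℤ) ⧸ Gamma0 N := QuotientGroup.mk 1 with hq₁
      set b : WH N := ∏ q ∈ (Finset.univ.erase q₁), q.out • a with hb
      have hq₁a : q₁.out • a = a := by
        rw [hq₁, sym_smul_out N hai, one_smul]
      have hn : symNorm N a = a * b := by
        unfold symNorm
        rw [← Finset.mul_prod_erase Finset.univ _ (Finset.mem_univ q₁), hq₁a]
      have hbinv : ∀ γ ∈ Gamma0 N, γ • b = b := by
        intro γ hγ
        have h1 : γ • symNorm N a = symNorm N a := smul_symNorm N hai γ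
        rw [hn, smul_mul', hai γ hγ] at h1
        exact mul_left_cancel₀ ha0 h1
      obtain ⟨P, hP⟩ := exists_jpolyC_eq N (smul_symNorm N hai)
      have hP0 : P ≠ 0 := by
        rintro rfl
        apply symNorm_ne_zero N ha0
        rw [hP]
        unfold jpolyC
        rw [Polynomial.eval₂_zero]
      refine ⟨jpolyC N p * b, P, hP0, ?_, ?_⟩
      · intro γ hγ
        rw [smul_mul', smul_jpolyC, hbinv γ hγ]
      · have haM : algebraMap (WH N) (MF N) a ≠ 0 := fun h =>
          ha0 (algebraMap_MF_injective N (by rw [h, map_zero]))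
        have hx0 : ιFC N x ≠ 0 := by
          intro h
          rw [h, zero_mul] at hap
          exact haM hap.symm
        rw [map_inv₀, ← hP, hn, (algebraMap (WH N) (MF N)).map_mul,
          (algebraMap (WH N) (MF N)).map_mul, ← hap]
        have hj : algebraMap (WH N) (MF N) (jpolyC N p) ≠ 0 := fun h =>
          jpolyC_ne_zero N hp (algebraMap_MF_injective N (by rw [h, map_zero]))
        field_simp

/-- consequence of `FC_repr` for any expansion -/
theorem embFC_repr (N : ℕ) [NeZero N] (f : FC N) :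
    ∃ (a : WH N) (p : Polynomial ℂ), p ≠ 0 ∧
      (∀ γ ∈ Gamma0 N, γ • a = a) ∧
      ∀ (E : WH N →+* LaurentSeries ℂ) (hE : Function.Injective E) (g : SL(2, ℤ)),
        embFC N (twist N E g) (twist_injective N hE g) f * E (jpolyC N p) = E (g • a) := by
  obtain ⟨a, p, hp, hinv, h⟩ := FC_repr N f
  refine ⟨a, p, hp, hinv, fun E hE g => ?_⟩
  have := embFC_of_ιFC_mul N (twist N E g) (twist_injective N hE g) f a (jpolyC N p) h
  rwa [twist_apply, twist_apply, smul_jpolyC] at this

/-- every `f ∈ FC N` is a quotient `a / b` of `Γ₀(N)`-invariant elements of `WH N`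
(form requested by helper28 for AN-10) -/
theorem embFC_exists_div (N : ℕ) [NeZero N] (f : FC N) :
    ∃ a b : WH N, b ≠ 0 ∧ (∀ γ ∈ Gamma0 N, γ • a = a) ∧ (∀ γ ∈ Gamma0 N, γ • b = b) ∧
      ∀ (E : WH N →+* LaurentSeries ℂ) (hE : Function.Injective E),
        embFC N E hE f * E b = E a := by
  obtain ⟨a, p, hp, hinv, h⟩ := FC_repr N f
  exact ⟨a, jpolyC N p, jpolyC_ne_zero N hp, hinv, fun γ _ => smul_jpolyC N γ p,
    fun E hE => embFC_of_ιFC_mul N E hE f a (jpolyC N p) h⟩

set_option synthInstance.maxHeartbeats 400000 in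
set_option maxHeartbeats 1000000 in
open Polynomial in
/-- AN-7 (sym): the characteristic polynomial of `f` w.r.t. the conjugate embeddings has
coefficients in `ℚ̄(j)`. -/
theorem sym_embFC (N : ℕ) [NeZero N] {E : WH N →+* LaurentSeries ℂ}
    (hE : Function.Injective E) (f : FC N) :
    ∃ P : Polynomial (FC N), (∀ k, P.coeff k ∈ ℂ⟮jFC N⟯) ∧
      ∀ g₀ : SL(2, ℤ), P.map (embFC N (twist N E g₀) (twist_injective N hE _)) =
        ∏ q : SL(2, ℤ) ⧸ Gamma0 N, (Polynomial.X - Polynomial.C
          (embFC N (twist N E q.out) (twist_injective N hE _) f)) := by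
  classical
  obtain ⟨a, p, hp, hai, hap⟩ := embFC_repr N f
  choose Pk hPk using fun k => exists_jpolyC_eq N (symPoly_coeff_smul N hai k)
  set n := Fintype.card (SL(2, ℤ) ⧸ Gamma0 N) with hn
  let jK : Polynomial ℂ → ℂ⟮jFC N⟯ := fun r => ⟨jpolyFC N r, jpolyFC_mem N r⟩
  let QK : Polynomial (ℂ⟮jFC N⟯) := ∑ k ∈ Finset.range (n + 1), C (jK (Pk k)) * X ^ k
  let PK : Polynomial (ℂ⟮jFC N⟯) := C ((jK p) ^ n)⁻¹ * QK.comp (C (jK p) * X)
  refine ⟨PK.map (algebraMap ℂ⟮jFC N⟯ (FC N)), ?_, ?_⟩
  · intro k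
    rw [Polynomial.coeff_map]
    exact (PK.coeff k).2
  · intro g₀
    rw [Polynomial.map_map]
    set τ : ℂ⟮jFC N⟯ →+* LaurentSeries ℂ :=
      (embFC N (twist N E g₀) (twist_injective N hE _)).comp (algebraMap ℂ⟮jFC N⟯ (FC N)) with hτdef
    have hτ : ∀ r, τ (jK r) = E (jpolyC N r) := fun r => by
      show embFC N (twist N E g₀) (twist_injective N hE _) (jpolyFC N r) = _
      rw [embFC_jpolyFC, twist_apply, smul_jpolyC]
    have hdeg : ((symPoly N a).map E).natDegree < n + 1 := by
      have := Polynomial.natDegree_map_le (f := E) (p := symPoly N a)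
      rw [symPoly_natDegree] at this
      omega
    have hQK : QK.map τ = (symPoly N a).map E := by
      rw [Polynomial.as_sum_range' ((symPoly N a).map E) (n + 1) hdeg, Polynomial.map_sum]
      refine Finset.sum_congr rfl fun k _ => ?_
      rw [Polynomial.map_mul, Polynomial.map_C, Polynomial.map_pow, Polynomial.map_X, hτ,
        ← hPk k, Polynomial.coeff_map, ← Polynomial.C_mul_X_pow_eq_monomial]
    have he : E (jpolyC N p) ≠ 0 := fun h =>
      jpolyC_ne_zero N hp (hE (by rw [h, map_zero]))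
    have hPK : PK.map τ = C ((E (jpolyC N p)) ^ n)⁻¹ *
        ((symPoly N a).map E).comp (C (E (jpolyC N p)) * X) := by
      show (C ((jK p) ^ n)⁻¹ * QK.comp (C (jK p) * X)).map τ = _
      rw [Polynomial.map_mul, Polynomial.map_C, Polynomial.map_comp, Polynomial.map_mul,
        Polynomial.map_C, Polynomial.map_X, hQK, map_inv₀, map_pow, hτ]
    rw [hPK]
    unfold symPoly
    rw [Polynomial.map_prod, Polynomial.prod_comp]
    have hconst : (C ((E (jpolyC N p)) ^ n)⁻¹ : Polynomial (LaurentSeries ℂ)) =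
        ∏ _q : SL(2, ℤ) ⧸ Gamma0 N, C (E (jpolyC N p))⁻¹ := by
      rw [Finset.prod_const, Finset.card_univ, ← inv_pow, Polynomial.C_pow]
    rw [hconst, ← Finset.prod_mul_distrib]
    refine Finset.prod_congr rfl fun q _ => ?_
    have hq := hap E hE q.out
    have hq' : embFC N (twist N E q.out) (twist_injective N hE _) f =
        E (q.out • a) / E (jpolyC N p) := by
      rw [eq_div_iff he]; exact hq
    rw [hq', Polynomial.map_sub, Polynomial.map_X, Polynomial.map_C, Polynomial.sub_comp,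
      Polynomial.X_comp, Polynomial.C_comp, div_eq_inv_mul, Polynomial.C_mul]
    have h1 : (C (E (jpolyC N p))⁻¹ : Polynomial (LaurentSeries ℂ)) * C (E (jpolyC N p)) = 1 := by
      rw [← Polynomial.C_mul, inv_mul_cancel₀ he, Polynomial.C_1]
    exact sym_aux_ring (R := Polynomial (LaurentSeries ℂ)) _ _ _ _ h1


end Fermat.Agent.AJlib
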