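/-
Item 69 (AJ), Layer P4 (cusp fibre over `ℂ`): the `FiberData` of `FC N` over `j = ∞`.
PORT of `S24lib/FibersInf.lean` (helper2) to the constant field `ℂ`.
-/
import Mathlib
import Fermat.Agent.S24lib.FibersInf
import Fermat.Agent.AJlib.CSym

set_option autoImplicit false

open scoped MatrixGroups ModularForm Manifold Topology
open UpperHalfPlane ModularForm CongruenceSubgroup Filter ModularCurve IntermediateField

namespace Fermat.Agent.AJlib

open Fermat.Agent.S24lib

/-! ### the expansions at the cusps -/

/-- expansion at the cusp attached to the coset `q` -/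
noncomputable def σInfC (N : ℕ) [NeZero N] (q : SL(2, ℤ) ⧸ Gamma0 N) :
    FC N →+* LaurentSeries ℂ :=
  embFC N (twist N (expInf N) q.out) (twist_injective N (expInf_injective N) _)

lemma finf_embFC_congr (N : ℕ) [NeZero N] {E E' : WH N →+* LaurentSeries ℂ}
    (hE : Function.Injective E) (hE' : Function.Injective E') (h : E = E') :
    embFC N E hE = embFC N E' hE' := by
  subst h; rfl

lemma σInfC_eq_of_mk (N : ℕ) [NeZero N] (q : SL(2, ℤ) ⧸ Gamma0 N) (g : SL(2, ℤ))
    (hg : (QuotientGroup.mk g : SL(2, ℤ) ⧸ Gamma0 N) = q) :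
    σInfC N q = embFC N (twist N (expInf N) g) (twist_injective N (expInf_injective N) _) := by
  have h : g⁻¹ * q.out ∈ Gamma0 N := by
    rw [← QuotientGroup.eq, hg]
    exact (QuotientGroup.out_eq' _).symm
  have e : q.out = g * (g⁻¹ * q.out) := by group
  have e' : twist N (expInf N) q.out = twist N (expInf N) (g * (g⁻¹ * q.out)) := by rw [← e]
  unfold σInfC
  rw [finf_embFC_congr N (twist_injective N (expInf_injective N) _)
    (twist_injective N (expInf_injective N) _) e']
  exact embFC_twist_mul N (expInf_injective N) g _ h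

/-- `σInfC q f · E(p(j)) = E(g • a)` for a representation `f = a / p(j)` and `g` in the coset -/
lemma σInfC_mul (N : ℕ) [NeZero N] (q : SL(2, ℤ) ⧸ Gamma0 N) (g : SL(2, ℤ))
    (hg : (QuotientGroup.mk g : SL(2, ℤ) ⧸ Gamma0 N) = q) (f : FC N) (a : WH N)
    (p : Polynomial ℂ)
    (h : ∀ (E : WH N →+* LaurentSeries ℂ) (hE : Function.Injective E) (g : SL(2, ℤ)),
        embFC N (twist N E g) (twist_injective N hE g) f * E (jpolyC N p) = E (g • a)) :
    σInfC N q f * expInf N (jpolyC N p) = expInf N (g • a) := by
  rw [σInfC_eq_of_mk N q g hg]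
  exact h (expInf N) (expInf_injective N) g

lemma finf_expInf_jpolyC_ne_zero (N : ℕ) [NeZero N] {p : Polynomial ℂ} (hp : p ≠ 0) :
    expInf N (jpolyC N p) ≠ 0 := by
  intro h
  exact jpolyC_ne_zero N hp (expInf_injective N (by rw [h, map_zero]))

lemma finf_dvd_order_jpolyC (N : ℕ) [NeZero N] {p : Polynomial ℂ} (hp : p ≠ 0) :
    (N : ℤ) ∣ (expInf N (jpolyC N p)).order := by
  have h := finf_dvd_of_T_pow_fixed N (jpolyC N p) 1 (by rw [pow_one, smul_jpolyC])
    (expInf N (jpolyC N p)).order
    (HahnSeries.coeff_order_eq_zero.not.mpr (finf_expInf_jpolyC_ne_zero N hp))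
  simpa using h

/-- The fibre data of `FC N` over the cusps (`j = ∞`). -/
noncomputable def fiberInfC (N : ℕ) [NeZero N] :
    FiberData ℂ (FC N) ℂ ((jFC N)⁻¹) (SL(2, ℤ) ⧸ Gamma0 N) ModularGroup.T :=
  { σ := σInfC N
    s := N
    s_pos := Nat.pos_of_ne_zero (NeZero.ne N)
    map_const := by
      intro i c
      unfold σInfC
      rw [embFC_const, twist_apply, smul_whC, expInf_whC]
      rfl
    map_u := by
      intro i i'
      unfold σInfC
      rw [map_inv₀, map_inv₀, embFC_jFC, embFC_jFC, twist_apply, twist_apply, smul_jWH, smul_jWH]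
    order_u := by
      intro i
      unfold σInfC
      rw [map_inv₀, embFC_jFC, twist_apply, smul_jWH, expInf_jWH, finf_order_inv, finf_order_J,
        neg_neg]
      intro h
      have := finf_order_J N
      rw [h, HahnSeries.order_zero] at this
      have hN : (N : ℤ) ≠ 0 := by exact_mod_cast NeZero.ne N
      omega
    inj := by
      intro i i' h
      have h1 := embFC_twist_injective N (expInf_injective N) i.out i'.out h
      rw [← QuotientGroup.eq, QuotientGroup.out_eq', QuotientGroup.out_eq'] at h1
      exact h1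
    sym := by
      intro f
      obtain ⟨P, hP, hmap⟩ := sym_embFC N (expInf_injective N) f
      refine ⟨P, fun k => ?_, fun i₀ => hmap i₀.out⟩
      rw [finf_adjoin_inv]
      exact hP k
    order_smul := by
      intro i f
      by_cases hf : f = 0
      · rw [hf, map_zero, map_zero]
      obtain ⟨a, p, hp, -, h⟩ := embFC_repr N f
      have h1 := σInfC_mul N (ModularGroup.T • i) (ModularGroup.T * i.out)
        (by conv_rhs => rw [← QuotientGroup.out_eq' i]
            rfl) f a p h
      have h2 := σInfC_mul N i i.out (QuotientGroup.out_eq' i) f a p h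
      rw [mul_smul] at h1
      have hp0 := finf_expInf_jpolyC_ne_zero N hp
      have hf1 : σInfC N (ModularGroup.T • i) f ≠ 0 := (map_ne_zero _).mpr hf
      have hf2 : σInfC N i f ≠ 0 := (map_ne_zero _).mpr hf
      have e1 := HahnSeries.order_mul hf1 hp0
      have e2 := HahnSeries.order_mul hf2 hp0
      rw [h1, finf_order_T_smul, ← h2, e2] at e1
      linarith
    dvd := by
      intro i f hf
      obtain ⟨a, p, hp, -, h⟩ := embFC_repr N f
      set c := Nat.card (MulAction.orbit (Subgroup.zpowers ModularGroup.T) i) with hc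
      have hper : ModularGroup.T ^ c • i = i := by
        rw [MulAction.pow_smul_eq_iff_minimalPeriod_dvd, hc]
        have h0 : Nat.card (MulAction.orbit (Subgroup.zpowers ModularGroup.T) i)
            = Function.minimalPeriod (ModularGroup.T • ·) i :=
          (Nat.card_congr (MulAction.orbitZPowersEquiv ModularGroup.T i)).trans (Nat.card_zmod _)
        exact dvd_of_eq h0.symm
      have h1 := σInfC_mul N i (ModularGroup.T ^ c * i.out)
        (by conv_rhs => rw [← hper, ← QuotientGroup.out_eq' i]
            rfl) f a p h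
      have h2 := σInfC_mul N i i.out (QuotientGroup.out_eq' i) f a p h
      rw [mul_smul] at h1
      have hp0 := finf_expInf_jpolyC_ne_zero N hp
      have hf2 : σInfC N i f ≠ 0 := (map_ne_zero _).mpr hf
      have hb0 : expInf N (i.out • a) ≠ 0 := by
        rw [← h2]
        exact mul_ne_zero hf2 hp0
      have d1 := finf_dvd_of_T_pow_fixed N (i.out • a) c (by rw [← h1, h2])
        (expInf N (i.out • a)).order (HahnSeries.coeff_order_eq_zero.not.mpr hb0)
      have d2 := finf_dvd_order_jpolyC N hp
      have e2 := HahnSeries.order_mul hf2 hp0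
      rw [h2] at e2
      have e3 : (σInfC N i f).order
          = (expInf N (i.out • a)).order - (expInf N (jpolyC N p)).order := by linarith
      show ((N : ℕ) : ℤ) ∣ (c : ℤ) * (σInfC N i f).order
      rw [e3, mul_sub]
      exact dvd_sub d1 (Dvd.dvd.mul_left d2 _) }


end Fermat.Agent.AJlib
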