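/-
Item 69 (AJ), Layer P3 = K2 (helper4): every `Γ₀(N)`-invariant weakly holomorphic function of level
`Γ(N)` lies in (the image of) the function field `FC N = ℂ(j(q^d) : d ∣ N)`.

Proof by a degree count: the `Γ₀(N)`-invariant quotients `a / b` form a subfield `S` of
`MF N = Frac (WH N)` containing `FC N`; every element of `S` is a root of a polynomial of degree
`ψ(N) = [FC N : ℂ(j)]` over `ℂ(j)` (the "characteristic polynomial" `∏_q (p(j) X - q • a)`), hence
`[S : ℂ(j)] ≤ ψ(N)` and `S = FC N`.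
-/
import Mathlib
import Fermat.Agent.S24lib.AlgCount
import Fermat.Agent.AJlib.CSym
import Fermat.Agent.AJlib.CFibersInf

set_option autoImplicit false

open scoped MatrixGroups ModularForm Manifold Topology
open UpperHalfPlane ModularForm CongruenceSubgroup Filter ModularCurve IntermediateField

namespace Fermat.Agent.AJlib

open Fermat.Agent.S24lib

section abstract

variable {E F M : Type*} [Field E] [Field F] [Field M] [Algebra E F] [Algebra F M]
  [Algebra E M] [IsScalarTower E F M]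

/-- An intermediate field `S` of `M / F` all of whose elements have degree `≤ [F : E]` over `E`
is equal to `F` (characteristic zero). -/
theorem k2_abstract [CharZero E] [FiniteDimensional E F] (S : IntermediateField F M)
    (h : ∀ θ ∈ S, ∃ P : Polynomial E, P ≠ 0 ∧ P.natDegree ≤ Module.finrank E F ∧
      Polynomial.aeval θ P = 0) :
    S = ⊥ := by
  have hroot : ∀ θ : S, ∃ P : Polynomial E, P ≠ 0 ∧ P.natDegree ≤ Module.finrank E F ∧
      Polynomial.aeval θ P = 0 := by
    intro θ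
    obtain ⟨P, hP0, hdeg, hP⟩ := h θ θ.2
    refine ⟨P, hP0, hdeg, ?_⟩
    have h1 : (S.val.restrictScalars E) (Polynomial.aeval θ P) = 0 := by
      rw [← Polynomial.aeval_algHom_apply]
      exact hP
    have hinj : Function.Injective (S.val.restrictScalars E) := (S.val.restrictScalars E).injective
    exact hinj (by rw [h1, map_zero])
  have halg : Algebra.IsAlgebraic E S := ⟨fun θ => by
    obtain ⟨P, hP0, -, hP⟩ := hroot θ
    exact ⟨P, hP0, hP⟩⟩
  have hsep : Algebra.IsSeparable E S := Algebra.IsAlgebraic.isSeparable_of_perfectField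
  have hdeg : ∀ θ : S, (minpoly E θ).natDegree ≤ Module.finrank E F := by
    intro θ
    obtain ⟨P, hP0, hdeg, hP⟩ := hroot θ
    exact (Polynomial.natDegree_le_of_dvd (minpoly.dvd E θ hP) hP0).trans hdeg
  obtain ⟨hfd, hle⟩ := algFinite_of_natDegree_le (Module.finrank E F) hdeg
  have htower := Module.finrank_mul_finrank E F S
  have hpos : 0 < Module.finrank E F := Module.finrank_pos
  have hfdS : FiniteDimensional F S := FiniteDimensional.right E F S
  have hposS : 0 < Module.finrank F S := Module.finrank_pos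
  have h1 : Module.finrank F S = 1 := by
    rcases Nat.lt_or_ge 1 (Module.finrank F S) with h2 | h2
    · exfalso
      have : Module.finrank E F * 2 ≤ Module.finrank E F * Module.finrank F S :=
        Nat.mul_le_mul_left _ h2
      omega
    · omega
  exact IntermediateField.finrank_eq_one_iff.1 h1

end abstract

variable (N : ℕ) [NeZero N]

/-- the degree of `FC N` over `ℂ(j)` -/
theorem k2_finrank_FC :
    Module.finrank ℂ⟮jFC N⟯ (FC N) = Fintype.card (SL(2, ℤ) ⧸ Gamma0 N) := by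
  haveI : Nonempty (SL(2, ℤ) ⧸ Gamma0 N) := ⟨QuotientGroup.mk 1⟩
  rw [← ffFinrank_of_adjoin_eq (ffAdjoin_inv (jFC N)), (fiberInfC N).finrank_eq]

theorem k2_ffData_FC : FFData ℂ (jFC N) := by
  haveI : Nonempty (SL(2, ℤ) ⧸ Gamma0 N) := ⟨QuotientGroup.mk 1⟩
  haveI : FFData ℂ (jFC N)⁻¹ := (fiberInfC N).ffData
  exact FFData.of_adjoin_eq (ffAdjoin_inv (jFC N)).symm

/-- `θ ∈ MF N` is a quotient of two `Γ₀(N)`-invariant elements of `WH N`. -/
def K2Rel (θ : MF N) : Prop :=
  ∃ a b : WH N, b ≠ 0 ∧ (∀ γ ∈ Gamma0 N, γ • a = a) ∧ (∀ γ ∈ Gamma0 N, γ • b = b) ∧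
    θ * algebraMap (WH N) (MF N) b = algebraMap (WH N) (MF N) a

lemma k2Rel_algebraMap (a : WH N) (ha : ∀ γ ∈ Gamma0 N, γ • a = a) :
    K2Rel N (algebraMap (WH N) (MF N) a) :=
  ⟨a, 1, one_ne_zero, ha, fun γ _ => smul_one γ, by rw [map_one, mul_one]⟩

lemma k2Rel_ιFC (f : FC N) : K2Rel N (ιFC N f) := by
  obtain ⟨a, p, hp, hinv, h⟩ := FC_repr N f
  exact ⟨a, jpolyC N p, jpolyC_ne_zero N hp, hinv, fun γ _ => smul_jpolyC N γ p, h⟩

lemma k2Rel_zero : K2Rel N 0 :=
  ⟨0, 1, one_ne_zero, fun γ _ => smul_zero γ, fun γ _ => smul_one γ, by simp⟩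

lemma k2Rel_one : K2Rel N 1 :=
  ⟨1, 1, one_ne_zero, fun γ _ => smul_one γ, fun γ _ => smul_one γ, by simp⟩

lemma k2Rel_add {x y : MF N} (hx : K2Rel N x) (hy : K2Rel N y) : K2Rel N (x + y) := by
  obtain ⟨a, b, hb, hai, hbi, hab⟩ := hx
  obtain ⟨a', b', hb', hai', hbi', hab'⟩ := hy
  refine ⟨a * b' + a' * b, b * b', mul_ne_zero hb hb', ?_, ?_, ?_⟩
  · intro γ hγ
    rw [smul_add, smul_mul', smul_mul', hai γ hγ, hai' γ hγ, hbi γ hγ, hbi' γ hγ]
  · intro γ hγ
    rw [smul_mul', hbi γ hγ, hbi' γ hγ]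
  · rw [(algebraMap (WH N) (MF N)).map_mul, (algebraMap (WH N) (MF N)).map_add,
      (algebraMap (WH N) (MF N)).map_mul, (algebraMap (WH N) (MF N)).map_mul, ← hab, ← hab']
    ring

lemma k2Rel_mul {x y : MF N} (hx : K2Rel N x) (hy : K2Rel N y) : K2Rel N (x * y) := by
  obtain ⟨a, b, hb, hai, hbi, hab⟩ := hx
  obtain ⟨a', b', hb', hai', hbi', hab'⟩ := hy
  refine ⟨a * a', b * b', mul_ne_zero hb hb', ?_, ?_, ?_⟩
  · intro γ hγ
    rw [smul_mul', hai γ hγ, hai' γ hγ]
  · intro γ hγ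
    rw [smul_mul', hbi γ hγ, hbi' γ hγ]
  · rw [(algebraMap (WH N) (MF N)).map_mul, (algebraMap (WH N) (MF N)).map_mul, ← hab, ← hab']
    ring

lemma k2Rel_inv {x : MF N} (hx : K2Rel N x) : K2Rel N x⁻¹ := by
  obtain ⟨a, b, hb, hai, hbi, hab⟩ := hx
  have hbM : algebraMap (WH N) (MF N) b ≠ 0 := fun h =>
    hb (algebraMap_MF_injective N (by rw [h, map_zero]))
  by_cases ha0 : a = 0
  · have hx0 : x = 0 := by
      rw [ha0, map_zero] at hab
      exact (mul_eq_zero.1 hab).resolve_right hbM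
    rw [hx0, inv_zero]
    exact k2Rel_zero N
  · have haM : algebraMap (WH N) (MF N) a ≠ 0 := fun h =>
      ha0 (algebraMap_MF_injective N (by rw [h, map_zero]))
    have hx0 : x ≠ 0 := by
      rintro rfl
      rw [zero_mul] at hab
      exact haM hab.symm
    refine ⟨b, a, ha0, hbi, hai, ?_⟩
    rw [← hab]
    field_simp

/-- the norm trick: the denominator can be taken of the form `p(j)` -/
lemma k2Rel_jpoly {x : MF N} (hx : K2Rel N x) :
    ∃ (a : WH N) (P : Polynomial ℂ), P ≠ 0 ∧ (∀ γ ∈ Gamma0 N, γ • a = a) ∧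
      x * algebraMap (WH N) (MF N) (jpolyC N P) = algebraMap (WH N) (MF N) a := by
  classical
  obtain ⟨a, b, hb, hai, hbi, hab⟩ := hx
  set q₁ : SL(2, ℤ) ⧸ Gamma0 N := QuotientGroup.mk 1 with hq₁
  set b₂ : WH N := ∏ q ∈ (Finset.univ.erase q₁), q.out • b with hb₂
  have hq₁b : q₁.out • b = b := by
    rw [hq₁, sym_smul_out N hbi, one_smul]
  have hn : symNorm N b = b * b₂ := by
    unfold symNorm
    rw [← Finset.mul_prod_erase Finset.univ _ (Finset.mem_univ q₁), hq₁b]
  have hb₂inv : ∀ γ ∈ Gamma0 N, γ • b₂ = b₂ := by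
    intro γ hγ
    have h1 : γ • symNorm N b = symNorm N b := smul_symNorm N hbi γ
    rw [hn, smul_mul', hbi γ hγ] at h1
    exact mul_left_cancel₀ hb h1
  obtain ⟨P, hP⟩ := exists_jpolyC_eq N (smul_symNorm N hbi)
  have hP0 : P ≠ 0 := by
    rintro rfl
    apply symNorm_ne_zero N hb
    rw [hP]
    unfold jpolyC
    rw [Polynomial.eval₂_zero]
  refine ⟨a * b₂, P, hP0, ?_, ?_⟩
  · intro γ hγ
    rw [smul_mul', hai γ hγ, hb₂inv γ hγ]
  · rw [← hP, hn, (algebraMap (WH N) (MF N)).map_mul, (algebraMap (WH N) (MF N)).map_mul, ← hab]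
    ring

/-- the coefficient map `ℂ(j) → MF N` -/
noncomputable def k2φ : ℂ⟮jFC N⟯ →+* MF N := (ιFC N).comp (algebraMap ℂ⟮jFC N⟯ (FC N))

lemma k2φ_jK (r : Polynomial ℂ) :
    k2φ N ⟨jpolyFC N r, jpolyFC_mem N r⟩ = algebraMap (WH N) (MF N) (jpolyC N r) := by
  show ιFC N (jpolyFC N r) = _
  exact ιFC_jpolyFC N r

set_option maxHeartbeats 1000000 in
open Polynomial in
/-- every invariant quotient is a root of a polynomial of degree `≤ ψ(N)` over `ℂ(j)` -/
theorem k2_exists_poly {θ : MF N} (hθ : K2Rel N θ) :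
    ∃ Q : Polynomial ℂ⟮jFC N⟯, Q ≠ 0 ∧ Q.natDegree ≤ Fintype.card (SL(2, ℤ) ⧸ Gamma0 N) ∧
      Q.eval₂ (k2φ N) θ = 0 := by
  classical
  obtain ⟨a, P, hP0, hai, hab⟩ := k2Rel_jpoly N hθ
  set n := Fintype.card (SL(2, ℤ) ⧸ Gamma0 N) with hn
  have hnpos : 0 < n := Fintype.card_pos_iff.2 ⟨QuotientGroup.mk 1⟩
  have hjP : jpolyC N P ≠ 0 := jpolyC_ne_zero N hP0
  set R : Polynomial (WH N) := (symPoly N a).comp (C (jpolyC N P) * X) with hR
  have hlin : (C (jpolyC N P) * X : Polynomial (WH N)).natDegree = 1 :=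
    Polynomial.natDegree_C_mul_X _ hjP
  have hRdeg : R.natDegree = n := by
    rw [hR, Polynomial.natDegree_comp, symPoly_natDegree, hlin, mul_one]
  have hR0 : R ≠ 0 := by
    intro h
    rw [h, Polynomial.natDegree_zero] at hRdeg
    omega
  have hRinv : ∀ (k : ℕ) (g : SL(2, ℤ)), g • R.coeff k = R.coeff k := by
    intro k g
    have h1 : R.map (whAct N g) = R := by
      rw [hR, Polynomial.map_comp, symPoly_map_whAct N hai g, Polynomial.map_mul,
        Polynomial.map_C, Polynomial.map_X, whAct_apply, smul_jpolyC]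
    have h2 := congrArg (fun Q => Polynomial.coeff Q k) h1
    simpa [Polynomial.coeff_map] using h2
  choose Rk hRk using fun k => exists_jpolyC_eq N (hRinv k)
  let jK : Polynomial ℂ → ℂ⟮jFC N⟯ := fun r => ⟨jpolyFC N r, jpolyFC_mem N r⟩
  let Q : Polynomial ℂ⟮jFC N⟯ := ∑ k ∈ Finset.range (n + 1), C (jK (Rk k)) * X ^ k
  have hinjM : Function.Injective (algebraMap (WH N) (MF N)) := algebraMap_MF_injective N
  have hdegM : (R.map (algebraMap (WH N) (MF N))).natDegree < n + 1 := by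
    have := Polynomial.natDegree_map_le (f := algebraMap (WH N) (MF N)) (p := R)
    omega
  have hQmap : Q.map (k2φ N) = R.map (algebraMap (WH N) (MF N)) := by
    rw [Polynomial.as_sum_range' (R.map (algebraMap (WH N) (MF N))) (n + 1) hdegM,
      Polynomial.map_sum]
    refine Finset.sum_congr rfl fun k _ => ?_
    rw [Polynomial.map_mul, Polynomial.map_C, Polynomial.map_pow, Polynomial.map_X, k2φ_jK,
      ← hRk k, Polynomial.coeff_map, ← Polynomial.C_mul_X_pow_eq_monomial]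
  refine ⟨Q, ?_, ?_, ?_⟩
  · intro hQ
    have h1 : R.map (algebraMap (WH N) (MF N)) = 0 := by rw [← hQmap, hQ, Polynomial.map_zero]
    exact hR0 ((Polynomial.map_eq_zero_iff hinjM).1 h1)
  · refine Polynomial.natDegree_sum_le_of_forall_le _ _ fun k hk => ?_
    have hk' : k ≤ n := by
      rw [Finset.mem_range] at hk
      omega
    exact (Polynomial.natDegree_C_mul_X_pow_le _ _).trans hk'
  · rw [Polynomial.eval₂_eq_eval_map, hQmap, hR, Polynomial.map_comp, Polynomial.eval_comp,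
      Polynomial.map_mul, Polynomial.map_C, Polynomial.map_X, Polynomial.eval_mul,
      Polynomial.eval_C, Polynomial.eval_X, mul_comm, hab]
    unfold symPoly
    rw [Polynomial.map_prod, Polynomial.eval_prod]
    refine Finset.prod_eq_zero (Finset.mem_univ (QuotientGroup.mk 1 : SL(2, ℤ) ⧸ Gamma0 N)) ?_
    rw [Polynomial.map_sub, Polynomial.map_X, Polynomial.map_C, Polynomial.eval_sub,
      Polynomial.eval_X, Polynomial.eval_C, sym_smul_out N hai, one_smul, sub_self]

/-- **K2.** Every `Γ₀(N)`-invariant element of `WH N` lies in the image of the function field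
`FC N`. -/
theorem k2_mem_range (a : WH N) (hinv : ∀ γ ∈ Gamma0 N, γ • a = a) :
    ∃ f : FC N, ιFC N f = algebraMap (WH N) (MF N) a := by
  letI algFM : Algebra (FC N) (MF N) := (ιFC N).toAlgebra
  haveI := k2_ffData_FC N
  haveI hfd : FiniteDimensional ℂ⟮jFC N⟯ (FC N) := FFData.fin
  haveI : CharZero ℂ⟮jFC N⟯ := charZero_of_injective_algebraMap (algebraMap ℂ ℂ⟮jFC N⟯).injective
  let S : IntermediateField (FC N) (MF N) :=
    { carrier := {θ | K2Rel N θ}
      mul_mem' := fun hx hy => k2Rel_mul N hx hy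
      one_mem' := k2Rel_one N
      add_mem' := fun hx hy => k2Rel_add N hx hy
      zero_mem' := k2Rel_zero N
      algebraMap_mem' := fun f => k2Rel_ιFC N f
      inv_mem' := fun _ hx => k2Rel_inv N hx }
  have hS : S = ⊥ := by
    apply k2_abstract (E := ℂ⟮jFC N⟯)
    intro θ hθ
    obtain ⟨Q, hQ0, hQdeg, hQ⟩ := k2_exists_poly N (show K2Rel N θ from hθ)
    refine ⟨Q, hQ0, ?_, ?_⟩
    · rw [k2_finrank_FC]
      exact hQdeg
    · rw [Polynomial.aeval_def]
      exact hQ
  have ha : algebraMap (WH N) (MF N) a ∈ S := k2Rel_algebraMap N a hinv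
  rw [hS, IntermediateField.mem_bot] at ha
  obtain ⟨f, hf⟩ := ha
  exact ⟨f, hf⟩

end Fermat.Agent.AJlib
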