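/-
Item 69 (AJ), piece A1: Kummer description of the `n`-torsion of `Pic⁰`:
`Pic⁰(F)[n] ≃ U_n(F) / (Fˣ)ⁿ`, `[D] ↦ [f]` when `n · D = div f` (helper27).
Blueprint: NOTES/AJ_blueprint.md; signatures: NOTES/AJ_signatures.lean.txt.
-/
import Mathlib
import Fermat.Prelude.Def_AlgebraicCurve_DivisorClassGroup

set_option autoImplicit false

open AlgebraicCurve

namespace Fermat.Agent.AJlib

section Kummer
variable (K F : Type*) [Field K] [Field F] [Algebra K F]

/-- units of `F` whose divisor is divisible by `n` -/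
def Un (n : ℕ) : Subgroup Fˣ where
  carrier := {f | ∀ v : Place K F, (n : ℤ) ∣ v.ord (f : F)}
  one_mem' := fun v => by simp
  mul_mem' := by
    intro a b ha hb v
    rw [Units.val_mul, v.ord_mul a.ne_zero b.ne_zero]
    exact dvd_add (ha v) (hb v)
  inv_mem' := by
    intro a ha v
    rw [Units.val_inv_eq_inv_val, v.ord_inv]
    exact (dvd_neg).2 (ha v)

/-- the `n`-th powers inside `Un` -/
def Pn (n : ℕ) : Subgroup (Un K F n) :=
  ((powMonoidHom n : Fˣ →* Fˣ).range).subgroupOf (Un K F n)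

variable {K F}

theorem kum_mem_Un_iff {n : ℕ} {f : Fˣ} :
    f ∈ Un K F n ↔ ∀ v : Place K F, (n : ℤ) ∣ v.ord (f : F) := Iff.rfl

theorem kum_mem_Pn_iff {n : ℕ} {f : Un K F n} :
    f ∈ Pn K F n ↔ ∃ g : Fˣ, g ^ n = (f : Fˣ) := by
  rw [Pn, Subgroup.mem_subgroupOf, MonoidHom.mem_range]
  rfl

/-- a divisor is determined by its `n`-fold -/
theorem kum_divisor_ext {n : ℕ} (hn : 0 < n) {D E : Divisor K F}
    (h : ∀ v : Place K F, (n : ℤ) * D v = (n : ℤ) * E v) : D = E := by
  ext v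
  have hn' : (n : ℤ) ≠ 0 := by exact_mod_cast hn.ne'
  exact mul_left_cancel₀ hn' (h v)

/-- existence of the divisor `(1/n) div f` -/
theorem kum_exists_div [HasPrincipalDivisors K F] {n : ℕ} (hn : 0 < n) (f : Un K F n) :
    ∃ E : Divisor K F, (∀ v : Place K F, (n : ℤ) * E v = v.ord (((f : Fˣ) : F))) ∧
      Divisor.degree E = 0 := by
  obtain ⟨D, hD, hdeg⟩ :=
    HasPrincipalDivisors.exists_divisor (K := K) (((f : Fˣ) : F)) (Units.ne_zero _)
  have hn' : (n : ℤ) ≠ 0 := by exact_mod_cast hn.ne'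
  have hval : ∀ v : Place K F,
      (n : ℤ) * (D.mapRange (· / (n : ℤ)) (by simp) : Divisor K F) v = v.ord (((f : Fˣ) : F)) := by
    intro v
    rw [Finsupp.mapRange_apply, hD]
    exact Int.mul_ediv_cancel' (f.2 v)
  refine ⟨D.mapRange (· / (n : ℤ)) (by simp), hval, ?_⟩
  have hsmul : (n : ℤ) • (D.mapRange (· / (n : ℤ)) (by simp) : Divisor K F) = D := by
    ext v
    rw [Finsupp.smul_apply, smul_eq_mul, hval, hD]
  have h2 := congrArg Divisor.degree hsmul
  rw [map_zsmul, hdeg, smul_eq_mul] at h2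
  exact (mul_eq_zero.mp h2).resolve_left hn'

/-- the divisor `(1/n) div f`, of degree `0` -/
noncomputable def kumDiv [HasPrincipalDivisors K F] {n : ℕ} (hn : 0 < n) (f : Un K F n) :
    Divisor.degZero (K := K) (F := F) :=
  ⟨(kum_exists_div hn f).choose, (kum_exists_div hn f).choose_spec.2⟩

theorem kumDiv_apply [HasPrincipalDivisors K F] {n : ℕ} (hn : 0 < n) (f : Un K F n)
    (v : Place K F) :
    (n : ℤ) * (kumDiv hn f : Divisor K F) v = v.ord (((f : Fˣ) : F)) :=
  (kum_exists_div hn f).choose_spec.1 v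

theorem kumDiv_eq_of [HasPrincipalDivisors K F] {n : ℕ} (hn : 0 < n) (f : Un K F n)
    (D : Divisor.degZero (K := K) (F := F))
    (h : ∀ v : Place K F, (n : ℤ) * (D : Divisor K F) v = v.ord (((f : Fˣ) : F))) :
    kumDiv hn f = D := by
  apply Subtype.ext
  apply kum_divisor_ext hn
  intro v
  rw [kumDiv_apply, h]

theorem kumDiv_one [HasPrincipalDivisors K F] {n : ℕ} (hn : 0 < n) :
    kumDiv hn (1 : Un K F n) = 0 := by
  apply kumDiv_eq_of
  intro v
  simp

theorem kumDiv_mul [HasPrincipalDivisors K F] {n : ℕ} (hn : 0 < n) (f g : Un K F n) :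
    kumDiv hn (f * g) = kumDiv hn f + kumDiv hn g := by
  apply kumDiv_eq_of
  intro v
  have hf : (((f : Fˣ) : F)) ≠ 0 := Units.ne_zero _
  have hg : (((g : Fˣ) : F)) ≠ 0 := Units.ne_zero _
  rw [AddSubgroup.coe_add, Finsupp.add_apply, mul_add, kumDiv_apply, kumDiv_apply,
    Subgroup.coe_mul, Units.val_mul, v.ord_mul hf hg]

theorem kum_mk_eq_zero_iff (D : Divisor.degZero (K := K) (F := F)) :
    Pic0.mk D = 0 ↔ (D : Divisor K F) ∈ Divisor.principal (K := K) (F := F) := by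
  rw [Pic0.mk, QuotientAddGroup.eq_zero_iff, AddSubgroup.mem_addSubgroupOf]

theorem kum_smul_kumDiv_mem_principal [HasPrincipalDivisors K F] {n : ℕ} (hn : 0 < n)
    (f : Un K F n) :
    (((n : ℤ) • kumDiv hn f : Divisor.degZero (K := K) (F := F)) : Divisor K F)
      ∈ Divisor.principal (K := K) (F := F) := by
  refine ⟨((f : Fˣ) : F), Units.ne_zero _, fun v => ?_⟩
  rw [AddSubgroup.coe_zsmul, Finsupp.smul_apply, smul_eq_mul, kumDiv_apply]

theorem kum_mk_kumDiv_mem_torsion [HasPrincipalDivisors K F] {n : ℕ} (hn : 0 < n)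
    (f : Un K F n) : Pic0.mk (kumDiv hn f) ∈ Pic0.torsion K F n := by
  rw [Pic0.mem_torsion]
  have : (n : ℤ) • Pic0.mk (kumDiv hn f) = Pic0.mk ((n : ℤ) • kumDiv hn f) := rfl
  rw [this, kum_mk_eq_zero_iff]
  exact kum_smul_kumDiv_mem_principal hn f

/-- the Kummer map `U_n → Pic⁰[n]`, `f ↦ [(1/n) div f]` -/
noncomputable def kumHom [HasPrincipalDivisors K F] {n : ℕ} (hn : 0 < n) :
    Un K F n →* Multiplicative (Pic0.torsion K F n) where
  toFun f := Multiplicative.ofAdd ⟨Pic0.mk (kumDiv hn f), kum_mk_kumDiv_mem_torsion hn f⟩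
  map_one' := by
    rw [← ofAdd_zero]
    congr 1
    apply Subtype.ext
    show Pic0.mk (kumDiv hn (1 : Un K F n)) = 0
    rw [kumDiv_one]
    rfl
  map_mul' f g := by
    rw [← ofAdd_add]
    congr 1
    apply Subtype.ext
    show Pic0.mk (kumDiv hn (f * g)) = Pic0.mk (kumDiv hn f) + Pic0.mk (kumDiv hn g)
    rw [kumDiv_mul]
    rfl

theorem kumHom_apply_coe [HasPrincipalDivisors K F] {n : ℕ} (hn : 0 < n) (f : Un K F n) :
    ((Multiplicative.toAdd (kumHom hn f) : Pic0.torsion K F n) : Pic0 K F)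
      = Pic0.mk (kumDiv hn f) := rfl

theorem kumHom_surjective [HasPrincipalDivisors K F] {n : ℕ} (hn : 0 < n) :
    Function.Surjective (kumHom (K := K) (F := F) hn) := by
  intro x
  obtain ⟨D, hD⟩ := Pic0.mk_surjective ((Multiplicative.toAdd x : Pic0.torsion K F n) : Pic0 K F)
  have htors := (Multiplicative.toAdd x).2
  rw [Pic0.mem_torsion, ← hD] at htors
  have h1 : (n : ℤ) • Pic0.mk D = Pic0.mk ((n : ℤ) • D) := rfl
  rw [h1, kum_mk_eq_zero_iff] at htors
  obtain ⟨f, hf0, hf⟩ := htors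
  have hfU : Units.mk0 f hf0 ∈ Un K F n := by
    intro v
    rw [Units.val_mk0, ← hf v, AddSubgroup.coe_zsmul, Finsupp.smul_apply, smul_eq_mul]
    exact dvd_mul_right _ _
  refine ⟨⟨Units.mk0 f hf0, hfU⟩, ?_⟩
  have hkd : kumDiv hn ⟨Units.mk0 f hf0, hfU⟩ = D := by
    apply kumDiv_eq_of
    intro v
    rw [Units.val_mk0, ← hf v, AddSubgroup.coe_zsmul, Finsupp.smul_apply, smul_eq_mul]
  apply Multiplicative.toAdd.injective
  apply Subtype.ext
  rw [kumHom_apply_coe, hkd, hD]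

theorem kumHom_ker [IsAlgClosed K] [HasPrincipalDivisors K F]
    (hconst : ∀ f : F, f ≠ 0 → (∀ v : Place K F, v.ord f = 0) → f ∈ (algebraMap K F).range)
    {n : ℕ} (hn : 0 < n) : (kumHom (K := K) (F := F) hn).ker = Pn K F n := by
  have hn' : (n : ℤ) ≠ 0 := by exact_mod_cast hn.ne'
  ext f
  rw [MonoidHom.mem_ker, kum_mem_Pn_iff]
  have key : kumHom hn f = 1 ↔
      ((kumDiv hn f : Divisor.degZero (K := K) (F := F)) : Divisor K F)
        ∈ Divisor.principal (K := K) (F := F) := by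
    rw [← kum_mk_eq_zero_iff, ← kumHom_apply_coe]
    constructor
    · intro h
      rw [h]
      rfl
    · intro h
      apply Multiplicative.toAdd.injective
      apply Subtype.ext
      rw [h]
      rfl
  rw [key]
  constructor
  · rintro ⟨g, hg0, hg⟩
    -- `f / gⁿ` has trivial divisor, hence is a constant, hence an `n`-th power
    have hf0 : (((f : Fˣ) : F)) ≠ 0 := Units.ne_zero _
    have hgn0 : g ^ n ≠ 0 := pow_ne_zero n hg0
    have hq0 : (((f : Fˣ) : F)) / g ^ n ≠ 0 := div_ne_zero hf0 hgn0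
    have hord : ∀ v : Place K F, v.ord ((((f : Fˣ) : F)) / g ^ n) = 0 := by
      intro v
      rw [div_eq_mul_inv, v.ord_mul hf0 (inv_ne_zero hgn0), v.ord_inv, ← zpow_natCast,
        v.ord_zpow, ← kumDiv_apply hn f v, hg v]
      ring
    obtain ⟨c, hc⟩ := hconst _ hq0 hord
    have hc0 : c ≠ 0 := by
      rintro rfl
      rw [map_zero] at hc
      exact hq0 hc.symm
    obtain ⟨d, hd⟩ := IsAlgClosed.exists_pow_nat_eq c hn
    have hd0 : d ≠ 0 := by
      rintro rfl
      rw [zero_pow hn.ne'] at hd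
      exact hc0 hd.symm
    have hdF : algebraMap K F d ≠ 0 := by
      rw [Ne, map_eq_zero]
      exact hd0
    refine ⟨Units.mk0 (algebraMap K F d * g) (mul_ne_zero hdF hg0), ?_⟩
    apply Units.ext
    rw [Units.val_pow_eq_pow_val, Units.val_mk0, mul_pow, ← map_pow, hd, hc,
      div_mul_cancel₀ _ hgn0]
  · rintro ⟨g, hg⟩
    refine ⟨(g : F), Units.ne_zero _, fun v => ?_⟩
    apply mul_left_cancel₀ hn'
    rw [kumDiv_apply, ← hg, Units.val_pow_eq_pow_val, ← zpow_natCast, v.ord_zpow]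

theorem kummer_equiv [IsAlgClosed K] [HasPrincipalDivisors K F]
    (hconst : ∀ f : F, f ≠ 0 → (∀ v : Place K F, v.ord f = 0) → f ∈ (algebraMap K F).range)
    (n : ℕ) (hn : 0 < n) :
    ∃ κ : Pic0.torsion K F n ≃+ Additive (Un K F n ⧸ Pn K F n),
      ∀ (x : Pic0.torsion K F n) (D : Divisor.degZero (K := K) (F := F)) (f : Un K F n),
        (x : Pic0 K F) = Pic0.mk D →
        (∀ v : Place K F, (n : ℤ) * (D : Divisor K F) v = v.ord (((f : Fˣ) : F))) →
        κ x = Additive.ofMul (QuotientGroup.mk f) := by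
  -- the isomorphism `U_n / P_n ≃* Pic⁰[n]`
  let e₁ : Un K F n ⧸ Pn K F n ≃* Un K F n ⧸ (kumHom (K := K) (F := F) hn).ker :=
    QuotientGroup.quotientMulEquivOfEq (kumHom_ker hconst hn).symm
  let e₂ : Un K F n ⧸ (kumHom (K := K) (F := F) hn).ker ≃* Multiplicative (Pic0.torsion K F n) :=
    QuotientGroup.quotientKerEquivOfSurjective (kumHom hn) (kumHom_surjective hn)
  let e : Un K F n ⧸ Pn K F n ≃* Multiplicative (Pic0.torsion K F n) := e₁.trans e₂
  have he : ∀ f : Un K F n, e (QuotientGroup.mk f) = kumHom hn f := fun f => rfl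
  let κ' : Additive (Un K F n ⧸ Pn K F n) ≃+ Pic0.torsion K F n := MulEquiv.toAdditiveLeft e
  have hκ' : ∀ f : Un K F n, κ' (Additive.ofMul (QuotientGroup.mk f))
      = Multiplicative.toAdd (kumHom hn f) := fun f => rfl
  refine ⟨κ'.symm, ?_⟩
  intro x D f hx hf
  rw [AddEquiv.symm_apply_eq, hκ']
  apply Subtype.ext
  rw [kumHom_apply_coe, kumDiv_eq_of hn f D hf, hx]

end Kummer

end Fermat.Agent.AJlib
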