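import Mathlib
import Fermat.Prelude.Def_ModularCurve_PeriodHomPair

set_option autoImplicit false

/-!
# Item 69 (AJ), piece A2: unramified characters of `Γ₀(N)` — definitions

`UnramHom N A` is the group of characters `Γ₀(N) → A` that are trivial on every element of
trace in `[-2, 2]` (i.e. on `±1`, the elliptic and the parabolic elements).  For `A = μ_n` this is
`Hom(H₁(X₀(N), ℤ), μ_n)`.
-/

open CongruenceSubgroup
open scoped MatrixGroups

namespace Fermat.Agent.AJlib

/-- characters of `Γ₀(N)` trivial on every element of trace in `[-2,2]`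
(= `±1`, elliptic, parabolic) -/
def UnramHom (N : ℕ) (A : Type*) [CommGroup A] : Subgroup (↥(Gamma0 N) →* A) where
  carrier := {χ | ∀ γ : ↥(Gamma0 N),
    |((γ : SL(2, ℤ)) : Matrix (Fin 2) (Fin 2) ℤ).trace| ≤ 2 → χ γ = 1}
  one_mem' := fun _ _ => rfl
  mul_mem' := by
    intro a b ha hb γ h
    rw [MonoidHom.mul_apply, ha γ h, hb γ h, one_mul]
  inv_mem' := by
    intro a ha γ h
    rw [MonoidHom.inv_apply, ha γ h, inv_one]

theorem mem_unramHom {N : ℕ} {A : Type*} [CommGroup A] {χ : ↥(Gamma0 N) →* A} :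
    χ ∈ UnramHom N A ↔ ∀ γ : ↥(Gamma0 N),
      |((γ : SL(2, ℤ)) : Matrix (Fin 2) (Fin 2) ℤ).trace| ≤ 2 → χ γ = 1 := Iff.rfl

/-- functoriality in the coefficient group -/
def UnramHom.map (N : ℕ) {A B : Type*} [CommGroup A] [CommGroup B] (f : A →* B) :
    UnramHom N A →* UnramHom N B where
  toFun χ := ⟨f.comp χ.1, fun γ h => by
    rw [MonoidHom.comp_apply, χ.2 γ h, map_one]⟩
  map_one' := by
    apply Subtype.ext
    ext γ
    simp
  map_mul' χ ψ := by
    apply Subtype.ext
    ext γ
    simp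

@[simp] theorem UnramHom.map_apply (N : ℕ) {A B : Type*} [CommGroup A] [CommGroup B] (f : A →* B)
    (χ : UnramHom N A) (γ : ↥(Gamma0 N)) : (UnramHom.map N f χ).1 γ = f (χ.1 γ) := rfl

/-- reduction modulo `n` of integer-valued unramified characters -/
noncomputable def redMod (N n : ℕ) :
    UnramHom N (Multiplicative ℤ) →* UnramHom N (Multiplicative (ZMod n)) :=
  UnramHom.map N (AddMonoidHom.toMultiplicative (Int.castAddHom (ZMod n)))

end Fermat.Agent.AJlib
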