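/-
Item 69 (AJ), assembly lemma: unramified characters with values in the `n`-th roots of unity of `ℂ`
are the same as unramified characters with values in `ℤ/n`.  (helper22)
-/
import Mathlib
import Fermat.Agent.AJlib.CountDefs

set_option autoImplicit false

open scoped MatrixGroups
open CongruenceSubgroup

namespace Fermat.Agent.AJlib

/-- the standard primitive `n`-th root of unity `exp(2πi/n)` as a unit of `ℂ` -/
noncomputable def zetaUnit (n : ℕ) : ℂˣ :=
  Units.mk0 (Complex.exp (2 * Real.pi * Complex.I / n)) (Complex.exp_ne_zero _)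

lemma zetaUnit_coe_isPrimitiveRoot {n : ℕ} (hn : n ≠ 0) :
    IsPrimitiveRoot ((zetaUnit n : ℂˣ) : ℂ) n :=
  Complex.isPrimitiveRoot_exp n hn

lemma zetaUnit_pow (n : ℕ) [NeZero n] : zetaUnit n ^ n = 1 := by
  apply Units.ext
  rw [Units.val_pow_eq_pow_val, (zetaUnit_coe_isPrimitiveRoot (NeZero.ne n)).pow_eq_one]
  rfl

/-- the embedding `ℤ/n → ℂˣ`, `k ↦ exp(2πi k/n)` -/
noncomputable def zmodToUnits (n : ℕ) [NeZero n] : Multiplicative (ZMod n) →* ℂˣ where
  toFun a := zetaUnit n ^ (Multiplicative.toAdd a).val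
  map_one' := by simp
  map_mul' a b := by
    rw [toAdd_mul, ZMod.val_add, ← pow_add, ← pow_eq_pow_mod _ (zetaUnit_pow n)]

lemma zmodToUnits_apply (n : ℕ) [NeZero n] (a : Multiplicative (ZMod n)) :
    zmodToUnits n a = zetaUnit n ^ (Multiplicative.toAdd a).val := rfl

lemma zmodToUnits_injective (n : ℕ) [NeZero n] : Function.Injective (zmodToUnits n) := by
  intro a b h
  rw [zmodToUnits_apply, zmodToUnits_apply] at h
  have h' := congrArg (fun u : ℂˣ => (u : ℂ)) h
  simp only [Units.val_pow_eq_pow_val] at h'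
  have h1 := (zetaUnit_coe_isPrimitiveRoot (NeZero.ne n)).pow_inj (ZMod.val_lt _) (ZMod.val_lt _) h'
  exact congrArg Multiplicative.ofAdd (ZMod.val_injective n h1)

lemma zmodToUnits_pow (n : ℕ) [NeZero n] (a : Multiplicative (ZMod n)) :
    zmodToUnits n a ^ n = 1 := by
  rw [zmodToUnits_apply, ← pow_mul, mul_comm, pow_mul, zetaUnit_pow, one_pow]

lemma exists_zmodToUnits_eq (n : ℕ) [NeZero n] {z : ℂˣ} (hz : z ^ n = 1) :
    ∃ a : Multiplicative (ZMod n), zmodToUnits n a = z := by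
  have hz' : ((z : ℂˣ) : ℂ) ^ n = 1 := by
    rw [← Units.val_pow_eq_pow_val, hz]; rfl
  obtain ⟨i, hi, hiz⟩ := (zetaUnit_coe_isPrimitiveRoot (NeZero.ne n)).eq_pow_of_pow_eq_one hz'
  refine ⟨Multiplicative.ofAdd ((i : ℕ) : ZMod n), ?_⟩
  apply Units.ext
  rw [zmodToUnits_apply, Units.val_pow_eq_pow_val, toAdd_ofAdd, ZMod.val_natCast,
    Nat.mod_eq_of_lt hi, hiz]

/-- unramified characters killed by `n` -/
def UnramHomTors (N n : ℕ) : Subgroup (↥(Gamma0 N) →* ℂˣ) where
  carrier := {χ | χ ∈ UnramHom N ℂˣ ∧ χ ^ n = 1}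
  one_mem' := ⟨one_mem _, one_pow n⟩
  mul_mem' := by
    rintro a b ⟨ha, ha'⟩ ⟨hb, hb'⟩
    exact ⟨mul_mem ha hb, by rw [mul_pow, ha', hb']; simp⟩
  inv_mem' := by
    rintro a ⟨ha, ha'⟩
    exact ⟨inv_mem ha, by rw [inv_pow, ha']; simp⟩

lemma mem_unramHomTors {N n : ℕ} {χ : ↥(Gamma0 N) →* ℂˣ} :
    χ ∈ UnramHomTors N n ↔ χ ∈ UnramHom N ℂˣ ∧ χ ^ n = 1 := Iff.rfl

/-- `UnramHom N (ℤ/n) ≃ UnramHomTors N n`. -/
theorem card_unramHomTors (N n : ℕ) [NeZero n] :
    Nat.card (UnramHomTors N n) = Nat.card (UnramHom N (Multiplicative (ZMod n))) := by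
  symm
  refine Nat.card_congr (Equiv.ofBijective
    (fun χ => ⟨(zmodToUnits n).comp χ.1, ⟨fun γ h => by
      rw [MonoidHom.comp_apply, χ.2 γ h, map_one], by
      ext γ
      rw [MonoidHom.pow_apply, MonoidHom.comp_apply, zmodToUnits_pow]
      rfl⟩⟩) ⟨?_, ?_⟩)
  · intro χ χ' h
    apply Subtype.ext
    ext γ
    have h1 := congrArg (fun ψ : UnramHomTors N n => ψ.1 γ) h
    exact congrArg Multiplicative.toAdd (zmodToUnits_injective n h1)
  · rintro ⟨ψ, hψ, hψn⟩
    have hex : ∀ γ : ↥(Gamma0 N), ∃ a : Multiplicative (ZMod n), zmodToUnits n a = ψ γ := by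
      intro γ
      apply exists_zmodToUnits_eq
      have := congrArg (fun φ : ↥(Gamma0 N) →* ℂˣ => φ γ) hψn
      simpa using this
    choose a ha using hex
    have ha1 : a 1 = 1 := by
      apply zmodToUnits_injective n
      rw [ha, map_one, map_one]
    have hamul : ∀ x y, a (x * y) = a x * a y := by
      intro x y
      apply zmodToUnits_injective n
      rw [ha, map_mul, map_mul, ha, ha]
    let χ : ↥(Gamma0 N) →* Multiplicative (ZMod n) :=
      { toFun := a, map_one' := ha1, map_mul' := hamul }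
    refine ⟨⟨χ, fun γ h => ?_⟩, ?_⟩
    · apply zmodToUnits_injective n
      show zmodToUnits n (a γ) = _
      rw [ha, hψ γ h, map_one]
    · apply Subtype.ext
      ext γ
      show ((zmodToUnits n (a γ) : ℂˣ) : ℂ) = _
      rw [ha]

end Fermat.Agent.AJlib
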