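/-
Item 69 (AJ), piece T1 (assembly): the cardinality of the `n`-torsion of `Pic⁰` of the function
field of `X₀(N)` over `ℚ̄`, from the Kummer isomorphism (A1), the analytic Kummer character over `ℂ`
(Layer C), the descent `ℂ → ℚ̄` (Layer D) and the count of unramified characters (A2).
All inputs are hypotheses here, in the exact forms of NOTES/AJ_signatures.lean.txt.  (helper22)
-/
import Mathlib
import Fermat.Agent.AJlib.Kummer
import Fermat.Agent.AJlib.BcF
import Fermat.Agent.AJlib.KummerCharDef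
import Fermat.Agent.AJlib.RootsOfUnityChar
import Fermat.Agent.AJlib.CK2
import Fermat.Agent.S24lib.Final
import Fermat.Agent.S24lib.FFPrincipal

set_option autoImplicit false

open scoped MatrixGroups ModularForm Manifold Topology
open UpperHalfPlane ModularForm CongruenceSubgroup Filter AlgebraicCurve ModularCurve

namespace Fermat.Agent.AJlib
open Fermat.Agent.S24lib

/-- principal divisors exist in `FF N` -/
theorem hasPrincipalDivisors_FF (N : ℕ) [NeZero N] : HasPrincipalDivisors Kbar (FF N) := by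
  haveI : FFData Kbar (jF N) := fin_ffData N
  exact ⟨fun f _ => ffExists_principal (x := jF N) f⟩

/-- functions without zeros and poles in `FF N` are constant -/
theorem const_of_ord_eq_zero_FF (N : ℕ) [NeZero N] (f : FF N) (_hf : f ≠ 0)
    (h : ∀ v : Place Kbar (FF N), v.ord f = 0) : f ∈ (algebraMap Kbar (FF N)).range := by
  haveI : FFData Kbar (jF N) := fin_ffData N
  exact ffConst_of_forall_ord_nonneg (x := jF N) f (fun v => (h v).ge)

/-- principal divisors exist in `FC N` -/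
theorem hasPrincipalDivisors_FC (N : ℕ) [NeZero N] : HasPrincipalDivisors ℂ (FC N) := by
  haveI : FFData ℂ (jFC N) := k2_ffData_FC N
  exact ⟨fun f _ => ffExists_principal (x := jFC N) f⟩

/-- functions without zeros and poles in `FC N` are constant -/
theorem const_of_ord_eq_zero_FC (N : ℕ) [NeZero N] (f : FC N) (_hf : f ≠ 0)
    (h : ∀ v : Place ℂ (FC N), v.ord f = 0) : f ∈ (algebraMap ℂ (FC N)).range := by
  haveI : FFData ℂ (jFC N) := k2_ffData_FC N
  exact ffConst_of_forall_ord_nonneg (x := jFC N) f (fun v => (h v).ge)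

/-- the hypotheses of Layers C and D, bundled -/
structure KummerInputs (N n : ℕ) [NeZero N] : Prop where
  unique : ∀ {f : FC N} {χ χ' : ↥(Gamma0 N) →* ℂˣ},
    IsKummerChar N n f χ → IsKummerChar N n f χ' → χ = χ'
  mul : ∀ {f f' : FC N} {χ χ' : ↥(Gamma0 N) →* ℂˣ},
    IsKummerChar N n f χ → IsKummerChar N n f' χ' → IsKummerChar N n (f * f') (χ * χ')
  pow : ∀ {f : FC N}, f ≠ 0 → IsKummerChar N n (f ^ n) 1
  pow_eq_one : ∀ {f : FC N} {χ : ↥(Gamma0 N) →* ℂˣ}, IsKummerChar N n f χ → χ ^ n = 1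
  exists_char : ∀ f : (FC N)ˣ, f ∈ Un ℂ (FC N) n →
    ∃ χ : ↥(Gamma0 N) →* ℂˣ, χ ∈ UnramHom N ℂˣ ∧ IsKummerChar N n (f : FC N) χ
  root_of_one : ∀ {f : FC N}, IsKummerChar N n f 1 → ∃ f₁ : FC N, f₁ ^ n = f
  exists_fun : ∀ χ : ↥(Gamma0 N) →* ℂˣ, χ ∈ UnramHom N ℂˣ → χ ^ n = 1 →
    ∃ f : (FC N)ˣ, f ∈ Un ℂ (FC N) n ∧ IsKummerChar N n (f : FC N) χ
  bc_mem : ∀ f : (FF N)ˣ, f ∈ Un Kbar (FF N) n →
    Units.map (bcF N : FF N →* FC N) f ∈ Un ℂ (FC N) n
  bc_root : ∀ f : FF N, f ≠ 0 → ∀ ψ : FC N, ψ ^ n = bcF N f → ∃ f₁ : FF N, f₁ ^ n = f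
  rational_rep : ∀ φ : (FC N)ˣ, φ ∈ Un ℂ (FC N) n →
    ∃ (f : (FF N)ˣ) (ψ : (FC N)ˣ), (bcF N (f : FF N) : FC N) = (φ : FC N) * (ψ : FC N) ^ n
  mem_of_bc_mem : ∀ f : (FF N)ˣ,
    Units.map (bcF N : FF N →* FC N) f ∈ Un ℂ (FC N) n → f ∈ Un Kbar (FF N) n

namespace KummerInputs

variable {N n : ℕ} [NeZero N] (H : KummerInputs N n)

/-- the Kummer character of a rational function with divisor divisible by `n` -/
noncomputable def charFun (f : Un Kbar (FF N) n) : ↥(Gamma0 N) →* ℂˣ :=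
  (H.exists_char (Units.map (bcF N : FF N →* FC N) f.1) (H.bc_mem f.1 f.2)).choose

lemma charFun_mem (f : Un Kbar (FF N) n) : H.charFun f ∈ UnramHom N ℂˣ :=
  (H.exists_char (Units.map (bcF N : FF N →* FC N) f.1) (H.bc_mem f.1 f.2)).choose_spec.1

lemma charFun_spec (f : Un Kbar (FF N) n) :
    IsKummerChar N n (bcF N ((f : (FF N)ˣ) : FF N)) (H.charFun f) :=
  (H.exists_char (Units.map (bcF N : FF N →* FC N) f.1) (H.bc_mem f.1 f.2)).choose_spec.2

lemma charFun_eq_of (f : Un Kbar (FF N) n) {χ : ↥(Gamma0 N) →* ℂˣ}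
    (h : IsKummerChar N n (bcF N ((f : (FF N)ˣ) : FF N)) χ) : H.charFun f = χ :=
  H.unique (H.charFun_spec f) h

/-- the Kummer character as a homomorphism -/
noncomputable def charHom : Un Kbar (FF N) n →* (↥(Gamma0 N) →* ℂˣ) :=
  MonoidHom.mk' H.charFun (fun f g => by
    apply H.charFun_eq_of
    have := H.mul (H.charFun_spec f) (H.charFun_spec g)
    rwa [← map_mul] at this)

lemma charHom_apply (f : Un Kbar (FF N) n) : H.charHom f = H.charFun f := rfl

lemma charHom_ker (hn : 0 < n) : H.charHom.ker = Pn Kbar (FF N) n := by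
  ext f
  rw [MonoidHom.mem_ker, kum_mem_Pn_iff, charHom_apply]
  constructor
  · intro h
    have h1 := H.charFun_spec f
    rw [h] at h1
    obtain ⟨ψ, hψ⟩ := H.root_of_one h1
    obtain ⟨f₁, hf₁⟩ := H.bc_root _ (f : (FF N)ˣ).ne_zero ψ hψ
    have hf₁0 : f₁ ≠ 0 := by
      rintro rfl
      apply (f : (FF N)ˣ).ne_zero
      rw [← hf₁]
      exact zero_pow hn.ne'
    exact ⟨Units.mk0 f₁ hf₁0, Units.ext (by simpa using hf₁)⟩
  · rintro ⟨g, hg⟩
    apply H.charFun_eq_of
    rw [← hg, Units.val_pow_eq_pow_val, map_pow]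
    exact H.pow (by rw [Ne, map_eq_zero]; exact g.ne_zero)

lemma charHom_range : H.charHom.range = UnramHomTors N n := by
  ext χ
  rw [MonoidHom.mem_range, mem_unramHomTors]
  constructor
  · rintro ⟨f, rfl⟩
    exact ⟨H.charFun_mem f, H.pow_eq_one (H.charFun_spec f)⟩
  · rintro ⟨hχ, hχn⟩
    obtain ⟨φ, hφ, hφχ⟩ := H.exists_fun χ hχ hχn
    obtain ⟨f, ψ, hfψ⟩ := H.rational_rep φ hφ
    have hmem : Units.map (bcF N : FF N →* FC N) f ∈ Un ℂ (FC N) n := by
      have hE : Units.map (bcF N : FF N →* FC N) f = φ * ψ ^ n := by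
        apply Units.ext
        rw [Units.coe_map, Units.val_mul, Units.val_pow_eq_pow_val]
        exact hfψ
      rw [hE]
      refine mul_mem hφ ?_
      intro v
      rw [Units.val_pow_eq_pow_val, ← zpow_natCast, v.ord_zpow]
      exact dvd_mul_right _ _
    have hf := H.mem_of_bc_mem f hmem
    refine ⟨⟨f, hf⟩, ?_⟩
    rw [charHom_apply]
    apply H.charFun_eq_of
    show IsKummerChar N n (bcF N (f : FF N)) χ
    rw [hfψ]
    have h1 := H.mul hφχ (H.pow (f := (ψ : FC N)) ψ.ne_zero)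
    have h2 : χ * (1 : ↥(Gamma0 N) →* ℂˣ) = χ := by
      ext γ
      simp
    rwa [h2] at h1

include H in
/-- **T1 (conditional)**: the number of `n`-torsion points of `Pic⁰` of the function field of
`X₀(N)` over `ℚ̄`. -/
theorem card_torsion (hn : 0 < n)
    (hcount : Nat.card (UnramHom N (Multiplicative (ZMod n))) =
      n ^ (2 * Module.finrank ℂ (CuspForm (Gamma0 N) 2))) :
    Nat.card (Pic0.torsion Kbar (FF N) n) = n ^ (2 * Module.finrank ℂ (CuspForm (Gamma0 N) 2)) := by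
  haveI : NeZero n := ⟨hn.ne'⟩
  haveI := hasPrincipalDivisors_FF N
  obtain ⟨κ, -⟩ := kummer_equiv (K := Kbar) (F := FF N) (const_of_ord_eq_zero_FF N) n hn
  rw [Nat.card_congr κ.toEquiv, ← hcount, ← card_unramHomTors N n, ← H.charHom_range]
  have e1 : Un Kbar (FF N) n ⧸ Pn Kbar (FF N) n ≃* Un Kbar (FF N) n ⧸ H.charHom.ker :=
    QuotientGroup.quotientMulEquivOfEq (H.charHom_ker hn).symm
  have e2 : Un Kbar (FF N) n ⧸ H.charHom.ker ≃* H.charHom.range :=
    QuotientGroup.quotientKerEquivRange H.charHom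
  exact Nat.card_congr (Additive.toMul.trans (e1.trans e2).toEquiv)

end KummerInputs

end Fermat.Agent.AJlib
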