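/-
Item 69, piece A3 (helper1): an element of `ℂ` with finite orbit under `Aut(ℂ/K)`, `K`
algebraically closed, lies in `K`.
-/
import Mathlib

set_option autoImplicit false

noncomputable section

namespace Fermat.Agent.AJlib

/-- the shift automorphism `X_b ↦ X_b + f b` of a polynomial ring -/
def autcShift (K : Type*) [CommRing K] (B : Type*) (f : B → K) :
    MvPolynomial B K ≃ₐ[K] MvPolynomial B K :=
  AlgEquiv.ofAlgHom (MvPolynomial.aeval fun b => MvPolynomial.X b + MvPolynomial.C (f b))
    (MvPolynomial.aeval fun b => MvPolynomial.X b - MvPolynomial.C (f b))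
    (by ext b; simp) (by ext b; simp)

@[simp] theorem autcShift_X (K : Type*) [CommRing K] (B : Type*) (f : B → K) (b : B) :
    autcShift K B f (MvPolynomial.X b) = MvPolynomial.X b + MvPolynomial.C (f b) := by
  simp [autcShift]

/-- translations along a transcendence basis extend to automorphisms of an algebraically closed
field. -/
theorem autc_exists_shift (K : Type*) [Field K] (L : Type*) [Field L] [IsAlgClosed L]
    [Algebra K L] {B : Type*} (v : B → L) (hv : IsTranscendenceBasis K v) (f : B → K) :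
    ∃ σ : L ≃+* L, (∀ c : K, σ (algebraMap K L c) = algebraMap K L c) ∧
      ∀ b, σ (v b) = v b + algebraMap K L (f b) := by
  let A := Algebra.adjoin K (Set.range v)
  have hcl : IsAlgClosure A L := IsAlgClosed.isAlgClosure_of_transcendence_basis v hv
  let e : A ≃ₐ[K] A := hv.1.aevalEquiv.symm.trans ((autcShift K B f).trans hv.1.aevalEquiv)
  let σ : L ≃+* L := IsAlgClosure.equivOfEquiv L L e.toRingEquiv
  have hσ : ∀ a : A, σ (algebraMap A L a) = algebraMap A L (e a) := fun a =>
    IsAlgClosure.equivOfEquiv_algebraMap L L e.toRingEquiv a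
  refine ⟨σ, fun c => ?_, fun b => ?_⟩
  · have h1 : algebraMap K L c = algebraMap A L (algebraMap K A c) := rfl
    rw [h1, hσ, e.commutes]
  · have h1 : v b = algebraMap A L (hv.1.aevalEquiv (MvPolynomial.X b)) := by
      rw [hv.1.algebraMap_aevalEquiv, MvPolynomial.aeval_X]
    have h2 : e (hv.1.aevalEquiv (MvPolynomial.X b)) =
        hv.1.aevalEquiv (MvPolynomial.X b + MvPolynomial.C (f b)) := by
      simp [e]
    rw [h1, hσ, h2, hv.1.algebraMap_aevalEquiv, hv.1.algebraMap_aevalEquiv]
    simp

theorem mem_range_of_finite_orbit (K : Type) [Field K] [IsAlgClosed K] (ι : K →+* ℂ) (t : ℂ)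
    (h : Set.Finite {x : ℂ | ∃ σ : ℂ ≃+* ℂ, (∀ c : K, σ (ι c) = ι c) ∧ σ t = x}) :
    t ∈ ι.range := by
  by_contra ht
  let _ : Algebra K ℂ := ι.toAlgebra
  have htr : Transcendental K t := by
    intro halg
    have hint : IsIntegral K t := halg.isIntegral
    have hdeg := IsAlgClosed.degree_eq_one_of_irreducible K (minpoly.irreducible hint)
    exact ht (minpoly.mem_range_of_degree_eq_one K t hdeg)
  have hind : AlgebraicIndepOn K id ({t} : Set ℂ) := by
    have : AlgebraicIndependent K (fun x : ({t} : Set ℂ) => (x : ℂ)) := by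
      rw [algebraicIndependent_singleton_iff (⟨t, Set.mem_singleton t⟩ : ({t} : Set ℂ))]
      exact htr
    exact this
  obtain ⟨B, hB, hv⟩ := exists_isTranscendenceBasis_superset hind
  let t₀ : B := ⟨t, hB (Set.mem_singleton t)⟩
  classical
  have key : ∀ k : ℕ, t + (k : ℂ) ∈
      {x : ℂ | ∃ σ : ℂ ≃+* ℂ, (∀ c : K, σ (ι c) = ι c) ∧ σ t = x} := by
    intro k
    obtain ⟨σ, hσ1, hσ2⟩ := autc_exists_shift K ℂ (Subtype.val : B → ℂ) hv
      (fun b => if b = t₀ then (k : K) else 0)
    refine ⟨σ, hσ1, ?_⟩
    have := hσ2 t₀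
    simpa [t₀] using this
  have hinf : Set.Infinite (Set.range fun k : ℕ => t + (k : ℂ)) := by
    apply Set.infinite_range_of_injective
    intro a b hab
    have : (a : ℂ) = b := add_left_cancel hab
    exact_mod_cast this
  apply hinf
  apply h.subset
  rintro _ ⟨k, rfl⟩
  exact key k

end Fermat.Agent.AJlib

end
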