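/-
Item 69 (AJ), piece C0 (helper9): elementary facts on `SL(2,ℤ)` acting on `ℍ`.

Main results (namespace `Fermat.Agent.AJlib`):
* `exists_fixed_of_abs_trace_lt_two` (E1) : `|tr γ| < 2 ⇒ ∃ τ : ℍ, γ • τ = τ`.
* `abs_trace_lt_two_of_fixed` (E1') : `γ • τ = τ ⇒ |tr γ| < 2 ∨ γ = 1 ∨ γ = -1`.
* `exists_conj_T_zpow_of_abs_trace_eq_two` (E2) :
  `|tr γ| = 2 ⇒ ∃ g m, γ = g * T^m * g⁻¹ ∨ γ = -(g * T^m * g⁻¹)`.
No sorry in this file.
-/
import Mathlib

set_option autoImplicit false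

open scoped MatrixGroups ModularForm Manifold Topology
open UpperHalfPlane ModularForm Filter Metric Set

namespace Fermat.Agent.AJlib

/-- the entries of an element of `SL(2,ℤ)` satisfy `ad - bc = 1` -/
lemma sl2_det_entries (γ : SL(2, ℤ)) : γ 0 0 * γ 1 1 - γ 0 1 * γ 1 0 = 1 := by
  have h := γ.det_coe
  rw [Matrix.det_fin_two] at h
  exact h

/-- the Moebius action in coordinates -/
lemma sl2_smul_coe (γ : SL(2, ℤ)) (z : ℍ) :
    ((γ • z : ℍ) : ℂ) =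
      (((γ 0 0 : ℤ) : ℂ) * (z : ℂ) + ((γ 0 1 : ℤ) : ℂ)) /
        (((γ 1 0 : ℤ) : ℂ) * (z : ℂ) + ((γ 1 1 : ℤ) : ℂ)) := by
  rw [UpperHalfPlane.coe_specialLinearGroup_apply]
  simp

lemma sl2_denom_ne_zero (γ : SL(2, ℤ)) (z : ℍ) :
    ((γ 1 0 : ℤ) : ℂ) * (z : ℂ) + ((γ 1 1 : ℤ) : ℂ) ≠ 0 := by
  have := UpperHalfPlane.denom_ne_zero (γ : GL (Fin 2) ℝ) z
  rw [ModularGroup.denom_apply] at this
  exact this

/-- fixed points are the roots of `c z² + (d - a) z - b` -/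
lemma sl2_smul_eq_self_iff (γ : SL(2, ℤ)) (z : ℍ) :
    γ • z = z ↔
      ((γ 1 0 : ℤ) : ℂ) * (z : ℂ) ^ 2 + (((γ 1 1 : ℤ) : ℂ) - ((γ 0 0 : ℤ) : ℂ)) * (z : ℂ)
        - ((γ 0 1 : ℤ) : ℂ) = 0 := by
  rw [UpperHalfPlane.ext_iff, sl2_smul_coe, div_eq_iff (sl2_denom_ne_zero γ z)]
  constructor
  · intro h
    linear_combination -h
  · intro h
    linear_combination -h

/-- **E1.** An element of `SL(2,ℤ)` with `|tr| < 2` has a fixed point in `ℍ`. -/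
theorem exists_fixed_of_abs_trace_lt_two (γ : SL(2, ℤ))
    (h : |(γ : Matrix (Fin 2) (Fin 2) ℤ).trace| < 2) : ∃ τ : ℍ, γ • τ = τ := by
  have hdet := sl2_det_entries γ
  rw [Matrix.trace_fin_two] at h
  obtain ⟨a, ha⟩ : ∃ a : ℤ, a = γ 0 0 := ⟨_, rfl⟩
  obtain ⟨b, hb⟩ : ∃ b : ℤ, b = γ 0 1 := ⟨_, rfl⟩
  obtain ⟨c, hc⟩ : ∃ c : ℤ, c = γ 1 0 := ⟨_, rfl⟩
  obtain ⟨d, hd⟩ : ∃ d : ℤ, d = γ 1 1 := ⟨_, rfl⟩
  have hγ00 : (γ : Matrix (Fin 2) (Fin 2) ℤ) 0 0 = a := ha.symm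
  have hγ11 : (γ : Matrix (Fin 2) (Fin 2) ℤ) 1 1 = d := hd.symm
  rw [hγ00, hγ11] at h
  rw [← ha, ← hb, ← hc, ← hd] at hdet
  obtain ⟨h1, h2⟩ := abs_lt.mp h
  have hc0 : c ≠ 0 := by
    intro hc0
    rw [hc0] at hdet
    nlinarith [sq_nonneg (a - d)]
  have ht : (0 : ℝ) < 4 - ((a : ℝ) + d) ^ 2 := by
    have h1' : (-2 : ℝ) < (a : ℝ) + d := by exact_mod_cast h1
    have h2' : (a : ℝ) + d < 2 := by exact_mod_cast h2
    nlinarith
  obtain ⟨s, hs⟩ : ∃ s : ℝ, s = Real.sqrt (4 - ((a : ℝ) + d) ^ 2) := ⟨_, rfl⟩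
  have hs0 : 0 < s := by rw [hs]; exact Real.sqrt_pos.mpr ht
  have hs2 : s ^ 2 = 4 - ((a : ℝ) + d) ^ 2 := by rw [hs]; exact Real.sq_sqrt ht.le
  -- the signed square root
  obtain ⟨s', hs'2, hs'c⟩ : ∃ s' : ℝ, s' ^ 2 = 4 - ((a : ℝ) + d) ^ 2 ∧ 0 < s' / (2 * (c : ℝ)) := by
    rcases lt_or_gt_of_ne hc0 with hneg | hpos
    · refine ⟨-s, by rw [neg_sq, hs2], ?_⟩
      have : (c : ℝ) < 0 := by exact_mod_cast hneg
      apply div_pos_of_neg_of_neg <;> linarith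
    · refine ⟨s, hs2, ?_⟩
      have : (0 : ℝ) < c := by exact_mod_cast hpos
      apply div_pos <;> linarith
  obtain ⟨w, hw⟩ : ∃ w : ℂ, w = (((a : ℂ) - d) + s' * Complex.I) / (2 * (c : ℂ)) := ⟨_, rfl⟩
  have hcC : (c : ℂ) ≠ 0 := by exact_mod_cast hc0
  have hwim : 0 < w.im := by
    obtain ⟨u, hu⟩ : ∃ u : ℝ, u = ((a : ℝ) - d) / (2 * (c : ℝ)) := ⟨_, rfl⟩
    obtain ⟨v, hv⟩ : ∃ v : ℝ, v = s' / (2 * (c : ℝ)) := ⟨_, rfl⟩
    have : w = (u : ℂ) + (v : ℂ) * Complex.I := by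
      rw [hw, hu, hv]
      push_cast
      field_simp
    rw [this]
    have hv0 : 0 < v := by rw [hv]; exact hs'c
    simpa using hv0
  have hw2 : 2 * (c : ℂ) * w = ((a : ℂ) - d) + s' * Complex.I := by
    rw [hw]
    field_simp
  have hs'C : (s' : ℂ) ^ 2 = 4 - ((a : ℂ) + d) ^ 2 := by exact_mod_cast hs'2
  have hdetC : (a : ℂ) * d - b * c = 1 := by exact_mod_cast hdet
  refine ⟨⟨w, hwim⟩, ?_⟩
  rw [sl2_smul_eq_self_iff, ← ha, ← hb, ← hc, ← hd]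
  show (c : ℂ) * w ^ 2 + ((d : ℂ) - a) * w - b = 0
  have key : 4 * (c : ℂ) * ((c : ℂ) * w ^ 2 + ((d : ℂ) - a) * w - b) = 0 := by
    have hI : Complex.I ^ 2 = -1 := Complex.I_sq
    linear_combination (2 * (c : ℂ) * w + ((a : ℂ) - d) + s' * Complex.I - 2 * ((a : ℂ) - d)) * hw2
      + (s' : ℂ) ^ 2 * hI - hs'C + 4 * hdetC
  rcases mul_eq_zero.mp key with h4c | hq
  · exfalso
    rcases mul_eq_zero.mp h4c with h4 | hc'
    · norm_num at h4
    · exact hcC hc'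
  · exact hq

/-- **E1'.** An element of `SL(2,ℤ)` with a fixed point in `ℍ` has `|tr| < 2` or is `±1`. -/
theorem abs_trace_lt_two_of_fixed (γ : SL(2, ℤ)) (τ : ℍ) (h : γ • τ = τ) :
    |(γ : Matrix (Fin 2) (Fin 2) ℤ).trace| < 2 ∨ γ = 1 ∨ γ = -1 := by
  have hdet := sl2_det_entries γ
  rw [sl2_smul_eq_self_iff] at h
  rw [Matrix.trace_fin_two]
  obtain ⟨a, ha⟩ : ∃ a : ℤ, a = γ 0 0 := ⟨_, rfl⟩
  obtain ⟨b, hb⟩ : ∃ b : ℤ, b = γ 0 1 := ⟨_, rfl⟩
  obtain ⟨c, hc⟩ : ∃ c : ℤ, c = γ 1 0 := ⟨_, rfl⟩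
  obtain ⟨d, hd⟩ : ∃ d : ℤ, d = γ 1 1 := ⟨_, rfl⟩
  have hγ00 : (γ : Matrix (Fin 2) (Fin 2) ℤ) 0 0 = a := ha.symm
  have hγ11 : (γ : Matrix (Fin 2) (Fin 2) ℤ) 1 1 = d := hd.symm
  rw [hγ00, hγ11]
  rw [← ha, ← hb, ← hc, ← hd] at hdet h
  obtain ⟨x, hx⟩ : ∃ x : ℝ, x = (τ : ℂ).re := ⟨_, rfl⟩
  obtain ⟨y, hy⟩ : ∃ y : ℝ, y = (τ : ℂ).im := ⟨_, rfl⟩
  have hy0 : 0 < y := by rw [hy]; exact τ.im_pos
  have hτ : (τ : ℂ) = (x : ℂ) + y * Complex.I := by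
    rw [hx, hy]
    exact (Complex.re_add_im _).symm
  rw [hτ] at h
  -- real and imaginary parts
  have hre : (c : ℝ) * (x ^ 2 - y ^ 2) + ((d : ℝ) - a) * x - b = 0 := by
    have := congrArg Complex.re h
    simp [pow_two] at this
    linarith
  have him : (c : ℝ) * (2 * x * y) + ((d : ℝ) - a) * y = 0 := by
    have := congrArg Complex.im h
    simp [pow_two] at this
    linarith
  have him' : (c : ℝ) * (2 * x) + ((d : ℝ) - a) = 0 := by
    have : ((c : ℝ) * (2 * x) + ((d : ℝ) - a)) * y = 0 := by linarith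
    rcases mul_eq_zero.mp this with h0 | h0
    · exact h0
    · exact absurd h0 hy0.ne'
  have hdetR : (a : ℝ) * d - b * c = 1 := by exact_mod_cast hdet
  by_cases hc0 : c = 0
  · right
    have hcR : (c : ℝ) = 0 := by exact_mod_cast hc0
    rw [hcR] at hre him'
    have hda : (d : ℝ) = a := by linarith
    have hbR : (b : ℝ) = 0 := by rw [hda] at hre; linarith
    have hda' : d = a := by exact_mod_cast hda
    have hb0 : b = 0 := by exact_mod_cast hbR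
    rw [hc0, hb0, hda'] at hdet
    have haa : a * a = 1 := by linarith
    rcases Int.eq_one_or_neg_one_of_mul_eq_one haa with h1 | h1
    · left
      ext i j
      fin_cases i <;> fin_cases j
      · simp [← ha, h1]
      · simp [← hb, hb0]
      · simp [← hc, hc0]
      · simp [← hd, hda', h1]
    · right
      ext i j
      fin_cases i <;> fin_cases j
      · simp [← ha, h1]
      · simp [← hb, hb0]
      · simp [← hc, hc0]
      · simp [← hd, hda', h1]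
  · left
    have hcR : (c : ℝ) ≠ 0 := by exact_mod_cast hc0
    have hkey : ((a : ℝ) + d) ^ 2 - 4 = -4 * (c : ℝ) ^ 2 * y ^ 2 := by
      have hb' : (b : ℝ) = (c : ℝ) * (x ^ 2 - y ^ 2) + ((d : ℝ) - a) * x := by linarith
      have hda : (d : ℝ) - a = -((c : ℝ) * (2 * x)) := by linarith
      have : ((a : ℝ) + d) ^ 2 - 4 = ((d : ℝ) - a) ^ 2 + 4 * (b * c) := by
        linear_combination 4 * hdetR
      rw [this, hb', hda]
      ring
    have hlt : ((a : ℝ) + d) ^ 2 < 4 := by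
      have : 0 < (c : ℝ) ^ 2 * y ^ 2 := by positivity
      linarith
    have hlt' : (a + d) ^ 2 < 2 ^ 2 := by
      have : (((a + d) ^ 2 : ℤ) : ℝ) < ((4 : ℤ) : ℝ) := by push_cast; exact hlt
      have := Int.cast_lt.mp this
      linarith
    exact abs_lt_of_sq_lt_sq hlt' (by norm_num)

/-- **E2.** An element of `SL(2,ℤ)` with `|tr| = 2` is `±` a conjugate of a power of `T`. -/
theorem exists_conj_T_zpow_of_trace_eq_two (γ : SL(2, ℤ))
    (h : (γ : Matrix (Fin 2) (Fin 2) ℤ).trace = 2) :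
    ∃ (g : SL(2, ℤ)) (m : ℤ), γ = g * ModularGroup.T ^ m * g⁻¹ := by
  have hdet := sl2_det_entries γ
  rw [Matrix.trace_fin_two] at h
  obtain ⟨a, ha⟩ : ∃ a : ℤ, a = γ 0 0 := ⟨_, rfl⟩
  obtain ⟨b, hb⟩ : ∃ b : ℤ, b = γ 0 1 := ⟨_, rfl⟩
  obtain ⟨c, hc⟩ : ∃ c : ℤ, c = γ 1 0 := ⟨_, rfl⟩
  obtain ⟨d, hd⟩ : ∃ d : ℤ, d = γ 1 1 := ⟨_, rfl⟩
  have hγ00 : (γ : Matrix (Fin 2) (Fin 2) ℤ) 0 0 = a := ha.symm
  have hγ11 : (γ : Matrix (Fin 2) (Fin 2) ℤ) 1 1 = d := hd.symm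
  rw [hγ00, hγ11] at h
  rw [← ha, ← hb, ← hc, ← hd] at hdet
  -- a primitive fixed vector `(p, q)`
  obtain ⟨p, q, hpq, hfix1, hfix2⟩ : ∃ p q : ℤ, IsCoprime p q ∧ a * p + b * q = p ∧
      c * p + d * q = q := by
    by_cases hdeg : b = 0 ∧ a = 1
    · obtain ⟨hb0, ha1⟩ := hdeg
      refine ⟨0, 1, isCoprime_zero_left.mpr isUnit_one, ?_, ?_⟩
      · rw [hb0]; ring
      · have hd1 : d = 1 := by linarith
        rw [hd1]; ring
    · have hne : ¬ (b = 0 ∧ 1 - a = 0) := by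
        rintro ⟨h1, h2⟩
        exact hdeg ⟨h1, by linarith⟩
      have hg0 : Int.gcd b (1 - a) ≠ 0 := by
        rw [Ne, Int.gcd_eq_zero_iff]
        exact hne
      have hgpos : 0 < Int.gcd b (1 - a) := Nat.pos_of_ne_zero hg0
      obtain ⟨p, hp⟩ : ∃ p, b = p * (Int.gcd b (1 - a) : ℤ) :=
        ⟨b / (Int.gcd b (1 - a) : ℤ), (Int.ediv_mul_cancel (Int.gcd_dvd_left _ _)).symm⟩
      obtain ⟨q, hq⟩ : ∃ q, 1 - a = q * (Int.gcd b (1 - a) : ℤ) :=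
        ⟨(1 - a) / (Int.gcd b (1 - a) : ℤ), (Int.ediv_mul_cancel (Int.gcd_dvd_right _ _)).symm⟩
      obtain ⟨G, hG⟩ : ∃ G : ℤ, G = (Int.gcd b (1 - a) : ℤ) := ⟨_, rfl⟩
      have hGne : G ≠ 0 := by rw [hG]; exact_mod_cast hg0
      rw [← hG] at hp hq
      have hcop : IsCoprime p q := by
        rw [Int.isCoprime_iff_gcd_eq_one]
        have h1 : Int.gcd b (1 - a) = Int.gcd p q * Int.natAbs G := by
          conv_lhs => rw [hp, hq]
          rw [Int.gcd_mul_right]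
        have h2 : Int.natAbs G = Int.gcd b (1 - a) := by rw [hG]; simp
        rw [h2] at h1
        have h3 : Int.gcd p q * Int.gcd b (1 - a) = 1 * Int.gcd b (1 - a) := by
          rw [one_mul]; exact h1.symm
        exact Nat.eq_of_mul_eq_mul_right hgpos h3
      refine ⟨p, q, hcop, ?_, ?_⟩
      · -- G * (a p + b q - p) = a b + b (1 - a) - b = 0
        have : G * (a * p + b * q - p) = 0 := by
          linear_combination (a - 1) * (-hp) + b * (-hq)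
        rcases mul_eq_zero.mp this with h0 | h0
        · exact absurd h0 hGne
        · linarith
      · have : G * (c * p + d * q - q) = 0 := by
          have hbc : b * c + (1 - a) ^ 2 = 0 := by
            have hd' : d = 2 - a := by linarith
            have := hdet
            rw [hd'] at this
            linear_combination -this
          linear_combination (-c) * hp + (-(d - 1)) * hq + hbc + (1 - a) * h
        rcases mul_eq_zero.mp this with h0 | h0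
        · exact absurd h0 hGne
        · linarith
  obtain ⟨g, hg0, hg1⟩ := hpq.exists_SL2_col 0
  obtain ⟨M, hM⟩ : ∃ M : SL(2, ℤ), M = g⁻¹ * γ * g := ⟨_, rfl⟩
  have hgdet := sl2_det_entries g
  rw [← hg0, ← hg1, ha, hb] at hfix1
  rw [← hg0, ← hg1, hc, hd] at hfix2
  have hMcoe : (M : Matrix (Fin 2) (Fin 2) ℤ) =
      (Matrix.adjugate (g : Matrix (Fin 2) (Fin 2) ℤ)) * (γ : Matrix (Fin 2) (Fin 2) ℤ) *
        (g : Matrix (Fin 2) (Fin 2) ℤ) := by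
    rw [hM, Matrix.SpecialLinearGroup.coe_mul, Matrix.SpecialLinearGroup.coe_mul,
      Matrix.SpecialLinearGroup.coe_inv]
  have hM00 : M 0 0 = 1 := by
    show (M : Matrix (Fin 2) (Fin 2) ℤ) 0 0 = 1
    rw [hMcoe, Matrix.adjugate_fin_two]
    simp only [Matrix.mul_apply, Fin.sum_univ_two, Matrix.of_apply, Matrix.cons_val',
      Matrix.cons_val_zero, Matrix.cons_val_one, Matrix.cons_val_fin_one]
    linear_combination (g 1 1) * hfix1 - (g 0 1) * hfix2 + hgdet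
  have hM10 : M 1 0 = 0 := by
    show (M : Matrix (Fin 2) (Fin 2) ℤ) 1 0 = 0
    rw [hMcoe, Matrix.adjugate_fin_two]
    simp only [Matrix.mul_apply, Fin.sum_univ_two, Matrix.of_apply, Matrix.cons_val',
      Matrix.cons_val_zero, Matrix.cons_val_one, Matrix.cons_val_fin_one]
    linear_combination (-(g 1 0)) * hfix1 + (g 0 0) * hfix2
  have hMdet := sl2_det_entries M
  rw [hM00, hM10] at hMdet
  have hM11 : M 1 1 = 1 := by linarith
  refine ⟨g, M 0 1, ?_⟩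
  have hMT : M = ModularGroup.T ^ (M 0 1) := by
    ext i j
    rw [ModularGroup.coe_T_zpow]
    fin_cases i <;> fin_cases j
    · simpa using hM00
    · simp
    · simpa using hM10
    · simpa using hM11
  rw [← hMT, hM]
  group

/-- **E2.** An element of `SL(2,ℤ)` with `|tr| = 2` is `±` a conjugate of a power of `T`. -/
theorem exists_conj_T_zpow_of_abs_trace_eq_two (γ : SL(2, ℤ))
    (h : |(γ : Matrix (Fin 2) (Fin 2) ℤ).trace| = 2) :
    ∃ (g : SL(2, ℤ)) (m : ℤ), γ = g * ModularGroup.T ^ m * g⁻¹ ∨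
      γ = -(g * ModularGroup.T ^ m * g⁻¹) := by
  rcases (abs_eq (by norm_num : (0 : ℤ) ≤ 2)).mp h with h2 | h2
  · obtain ⟨g, m, hgm⟩ := exists_conj_T_zpow_of_trace_eq_two γ h2
    exact ⟨g, m, Or.inl hgm⟩
  · have h2' : ((-γ : SL(2, ℤ)) : Matrix (Fin 2) (Fin 2) ℤ).trace = 2 := by
      rw [Matrix.SpecialLinearGroup.coe_neg, Matrix.trace_neg, h2]
      norm_num
    obtain ⟨g, m, hgm⟩ := exists_conj_T_zpow_of_trace_eq_two (-γ) h2'
    refine ⟨g, m, Or.inr ?_⟩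
    rw [← hgm, neg_neg]

end Fermat.Agent.AJlib
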