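/-
Item 69 (AJ), piece C0/LIM (helper9): the leading term of the `q_N`-expansion at `i∞` as a limit.

Main result (namespace `Fermat.Agent.AJlib`):
* `tendsto_mul_exp_order` : for `H : WH N`, `H ≠ 0`, `o := (expInf N H).order`,
  `H z · exp(-2πi·o·z/N) → (expInf N H).coeff o` at `i∞`.
* `expInf_coeff_order_ne_zero` : the limit is nonzero.
No sorry in this file.
-/
import Mathlib
import Fermat.Agent.S24lib.ExpInfDef
import Fermat.Agent.S24lib.ExpAt

set_option autoImplicit false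

open scoped MatrixGroups ModularForm Manifold Topology Real
open UpperHalfPlane ModularForm CongruenceSubgroup Filter

namespace Fermat.Agent.AJlib

open Fermat.Agent.S24lib Fermat.Agent.S20lib

/-- Taylor series of `q ↦ q^m` at `0` -/
lemma taylorAtPS_pow_id (m : ℕ) : taylorAtPS (fun q : ℂ => q ^ m) 0 = PowerSeries.X ^ m := by
  ext i
  rw [coeff_taylorAtPS, PowerSeries.coeff_X_pow, iteratedDeriv_fun_pow_zero]
  by_cases h : i = m
  · subst h
    simp [Nat.factorial_ne_zero]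
  · simp [h]

/-- The leading Taylor coefficient of an analytic function as a limit. -/
lemma tendsto_div_pow_order {φ : ℂ → ℂ} (hφ : AnalyticAt ℂ φ 0)
    (hfin : analyticOrderAt φ 0 ≠ ⊤) :
    PowerSeries.coeff (analyticOrderNatAt φ 0) (taylorAtPS φ 0) ≠ 0 ∧
    Tendsto (fun q => φ q / q ^ (analyticOrderNatAt φ 0)) (𝓝[≠] 0)
      (𝓝 (PowerSeries.coeff (analyticOrderNatAt φ 0) (taylorAtPS φ 0))) := by
  obtain ⟨m, hm⟩ : ∃ m, m = analyticOrderNatAt φ 0 := ⟨_, rfl⟩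
  rw [← hm]
  have hord : analyticOrderAt φ 0 = (m : ℕ∞) := by
    rw [hm]
    exact (Nat.cast_analyticOrderNatAt hfin).symm
  obtain ⟨g, hg, hg0, hfac⟩ := hφ.analyticOrderAt_eq_natCast.mp hord
  have hfac' : φ =ᶠ[𝓝 0] (fun q : ℂ => q ^ m) * g := by
    filter_upwards [hfac] with q hq
    rw [hq]
    simp
  have hpow : AnalyticAt ℂ (fun q : ℂ => q ^ m) 0 := by fun_prop
  have hT : taylorAtPS φ 0 = PowerSeries.X ^ m * taylorAtPS g 0 := by
    rw [taylorAtPS_congr hfac', taylorAtPS_mul hpow hg, taylorAtPS_pow_id]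
  have hc : PowerSeries.coeff m (taylorAtPS φ 0) = g 0 := by
    rw [hT, PowerSeries.coeff_X_pow_mul', if_pos le_rfl, Nat.sub_self, coeff_taylorAtPS]
    simp
  rw [hc]
  refine ⟨hg0, ?_⟩
  have h1 : Tendsto g (𝓝[≠] 0) (𝓝 (g 0)) := hg.continuousAt.tendsto.mono_left nhdsWithin_le_nhds
  refine h1.congr' ?_
  filter_upwards [self_mem_nhdsWithin, nhdsWithin_le_nhds hfac] with q hq0 hq
  have hq0' : q ≠ 0 := hq0
  rw [hq]
  simp only [sub_zero, smul_eq_mul]
  rw [mul_comm, mul_div_assoc, div_self (pow_ne_zero m hq0'), mul_one]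

/-- the leading coefficient of the expansion at `i∞` of a nonzero element is nonzero -/
lemma expInf_coeff_order_ne_zero {N : ℕ} [NeZero N] (H : WH N) (hH : H ≠ 0) :
    (expInf N H).coeff (expInf N H).order ≠ 0 := by
  intro hc
  have h0 := HahnSeries.coeff_order_eq_zero.mp hc
  apply hH
  apply expInf_injective N
  rw [h0, map_zero]

/-- **LIM.** The leading term of the expansion at `i∞` as a limit. -/
theorem tendsto_mul_exp_order {N : ℕ} [NeZero N] (H : WH N) (hH : H ≠ 0) :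
    Tendsto (fun z : ℍ => (H : ℍ → ℂ) z *
      Complex.exp (-2 * π * Complex.I * (((expInf N H).order : ℤ) : ℂ) * (z : ℂ) / (N : ℂ)))
      atImInfty (𝓝 ((expInf N H).coeff (expInf N H).order)) := by
  have hN : (0 : ℝ) < (N : ℝ) := ei_N_pos
  have hNC : (N : ℂ) ≠ 0 := Nat.cast_ne_zero.mpr (NeZero.ne N)
  obtain ⟨k, hk⟩ := H.2
  have hΔ : IsMF (Gamma N) (12 * (k : ℤ)) (discriminant ^ k) :=
    wh_isMF_discriminant_pow (Gamma N) k
  obtain ⟨L, hL⟩ : ∃ L, L = expInf N H := ⟨_, rfl⟩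
  have hLne : L ≠ 0 := by
    rw [hL]
    intro h0
    apply hH
    apply expInf_injective N
    rw [h0, map_zero]
  obtain ⟨Φ, hΦ⟩ : ∃ Φ : ℂ → ℂ, Φ = cuspFunction (N : ℝ) ((H : ℍ → ℂ) * discriminant ^ k) :=
    ⟨_, rfl⟩
  obtain ⟨E, hE⟩ : ∃ E : ℂ → ℂ, E = cuspFunction (N : ℝ) (discriminant ^ k) := ⟨_, rfl⟩
  have hΦan : AnalyticAt ℂ Φ 0 := by rw [hΦ]; exact ei_analyticAt hk
  have hEan : AnalyticAt ℂ E 0 := by rw [hE]; exact ei_analyticAt hΔ
  have hP : qExpansion (N : ℝ) ((H : ℍ → ℂ) * discriminant ^ k) = taylorAtPS Φ 0 := by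
    ext i
    rw [hΦ, coeff_taylorAtPS, qExpansion_coeff]
  have hQ : qExpansion (N : ℝ) discriminant ^ k = taylorAtPS E 0 := by
    rw [← ei_qExpansion_discriminant_pow]
    ext i
    rw [hE, coeff_taylorAtPS, qExpansion_coeff]
  have hmul : L * HahnSeries.ofPowerSeries ℤ ℂ (taylorAtPS E 0) =
      HahnSeries.ofPowerSeries ℤ ℂ (taylorAtPS Φ 0) := by
    have := expInf_mul_pow H k hk
    rw [← hL, deltaL, ← map_pow, hQ, hP] at this
    exact this
  have hAne : HahnSeries.ofPowerSeries ℤ ℂ (taylorAtPS E 0) ≠ 0 := by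
    rw [← hQ, map_pow]
    exact pow_ne_zero _ (deltaL_ne_zero N)
  have hBne : HahnSeries.ofPowerSeries ℤ ℂ (taylorAtPS Φ 0) ≠ 0 := by
    rw [← hmul]
    exact mul_ne_zero hLne hAne
  have hEfin : analyticOrderAt E 0 ≠ ⊤ := by
    intro h
    apply hAne
    rw [(taylorAtPS_eq_zero_iff hEan).mpr h, map_zero]
  have hΦfin : analyticOrderAt Φ 0 ≠ ⊤ := by
    intro h
    apply hBne
    rw [(taylorAtPS_eq_zero_iff hΦan).mpr h, map_zero]
  obtain ⟨hcE, hlimE⟩ := tendsto_div_pow_order hEan hEfin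
  obtain ⟨hcΦ, hlimΦ⟩ := tendsto_div_pow_order hΦan hΦfin
  obtain ⟨mE, hmE⟩ : ∃ m, m = analyticOrderNatAt E 0 := ⟨_, rfl⟩
  obtain ⟨mΦ, hmΦ⟩ : ∃ m, m = analyticOrderNatAt Φ 0 := ⟨_, rfl⟩
  rw [← hmE] at hcE hlimE
  rw [← hmΦ] at hcΦ hlimΦ
  have hordA : (HahnSeries.ofPowerSeries ℤ ℂ (taylorAtPS E 0)).order = (mE : ℤ) := by
    rw [expAt_order_ofPowerSeries, taylorAtPS_order hEan, hmE]
    rfl
  have hordB : (HahnSeries.ofPowerSeries ℤ ℂ (taylorAtPS Φ 0)).order = (mΦ : ℤ) := by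
    rw [expAt_order_ofPowerSeries, taylorAtPS_order hΦan, hmΦ]
    rfl
  have hord : L.order + (mE : ℤ) = (mΦ : ℤ) := by
    rw [← hordA, ← hordB, ← hmul, HahnSeries.order_mul hLne hAne]
  have hcoef : L.coeff L.order * PowerSeries.coeff mE (taylorAtPS E 0) =
      PowerSeries.coeff mΦ (taylorAtPS Φ 0) := by
    have := HahnSeries.leadingCoeff_mul L (HahnSeries.ofPowerSeries ℤ ℂ (taylorAtPS E 0))
    rw [hmul, HahnSeries.leadingCoeff_eq, HahnSeries.leadingCoeff_eq, HahnSeries.leadingCoeff_eq,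
      hordA, hordB, HahnSeries.ofPowerSeries_apply_coeff, HahnSeries.ofPowerSeries_apply_coeff]
      at this
    exact this.symm
  have hc0 : L.coeff L.order =
      PowerSeries.coeff mΦ (taylorAtPS Φ 0) / PowerSeries.coeff mE (taylorAtPS E 0) := by
    rw [← hcoef, mul_div_assoc, div_self hcE, mul_one]
  rw [← hL, hc0]
  have hlim : Tendsto (fun q => (Φ q / q ^ mΦ) / (E q / q ^ mE)) (𝓝[≠] 0)
      (𝓝 (PowerSeries.coeff mΦ (taylorAtPS Φ 0) / PowerSeries.coeff mE (taylorAtPS E 0))) :=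
    hlimΦ.div hlimE hcE
  have hq : Tendsto (fun z : ℍ => Function.Periodic.qParam (N : ℝ) (z : ℂ)) atImInfty (𝓝[≠] 0) :=
    (Function.Periodic.qParam_tendsto hN).comp tendsto_coe_atImInfty
  refine (hlim.comp hq).congr ?_
  intro z
  simp only [Function.comp_apply]
  have e1 : Φ (Function.Periodic.qParam (N : ℝ) (z : ℂ)) = (H : ℍ → ℂ) z * discriminant z ^ k := by
    rw [hΦ]
    have := UpperHalfPlane.eq_cuspFunction (h := (N : ℝ)) z hN.ne' (ei_periodic hk)
    rw [this]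
    simp
  have e2 : E (Function.Periodic.qParam (N : ℝ) (z : ℂ)) = discriminant z ^ k := by
    rw [hE]
    have := UpperHalfPlane.eq_cuspFunction (h := (N : ℝ)) z hN.ne' (ei_periodic hΔ)
    rw [this]
    simp
  have hΔne : discriminant z ^ k ≠ 0 := pow_ne_zero _ (discriminant_ne_zero z)
  have hqne : Function.Periodic.qParam (N : ℝ) (z : ℂ) ≠ 0 := Function.Periodic.qParam_ne_zero _
  have hexp : Complex.exp (-2 * π * Complex.I * ((L.order : ℤ) : ℂ) * (z : ℂ) / (N : ℂ)) =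
      (Function.Periodic.qParam (N : ℝ) (z : ℂ)) ^ mE /
        (Function.Periodic.qParam (N : ℝ) (z : ℂ)) ^ mΦ := by
    have ho : ((L.order : ℤ) : ℂ) = (mΦ : ℂ) - (mE : ℂ) := by
      have : L.order = (mΦ : ℤ) - (mE : ℤ) := by linarith
      rw [this]
      push_cast
      ring
    rw [ho, Function.Periodic.qParam, ← Complex.exp_nat_mul, ← Complex.exp_nat_mul,
      ← Complex.exp_sub]
    congr 1
    push_cast
    ring
  rw [e1, e2, hexp]
  field_simp

end Fermat.Agent.AJlib
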