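/-
Item 69 (AJ), piece B1 (helper9): holomorphic `n`-th roots on the upper half plane.

Main result (namespace `Fermat.Agent.AJlib`):
* `exists_mdiff_root` : a holomorphic `h ≠ 0` on `ℍ` all of whose zeros have order divisible by `n`
  has a holomorphic `n`-th root.

Route: (A) a continuous `n`-th root of an analytic function with isolated zeros is holomorphic
(inverse function theorem off the zeros, removable singularities at the zeros); (B) on a convex
open set with finitely many zeros divide the zeros out one by one and use Mathlib's continuous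
roots of non-vanishing functions on simply connected sets; (C) exhaust `ℍ` by discs, normalise the
roots at a base point and glue by the identity theorem.
No sorry in this file.
-/
import Mathlib

set_option autoImplicit false

open UpperHalfPlane Filter Topology Metric Set
open scoped Manifold

namespace Fermat.Agent.AJlib

/-! ### (A) continuous roots are holomorphic -/

/-- Near a point where `r₁ = r₂ ≠ 0`, two continuous functions with the same `n`-th power agree. -/
lemma root_eventuallyEq {n : ℕ} (hn : 0 < n) {r₁ r₂ : ℂ → ℂ} {w : ℂ}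
    (h₁ : ContinuousAt r₁ w) (h₂ : ContinuousAt r₂ w) (hw : r₁ w = r₂ w) (hne : r₁ w ≠ 0)
    (hpow : ∀ᶠ z in 𝓝 w, r₁ z ^ n = r₂ z ^ n) : r₁ =ᶠ[𝓝 w] r₂ := by
  have hp : HasStrictDerivAt (fun x : ℂ => x ^ n) ((n : ℂ) * r₁ w ^ (n - 1)) (r₁ w) :=
    hasStrictDerivAt_pow n (r₁ w)
  have hd : (n : ℂ) * r₁ w ^ (n - 1) ≠ 0 :=
    mul_ne_zero (Nat.cast_ne_zero.mpr hn.ne') (pow_ne_zero _ hne)
  have hinv := hp.eventually_left_inverse hd
  have e₁ := h₁.eventually hinv
  have hinv' : ∀ᶠ x in 𝓝 (r₂ w), hp.localInverse _ _ _ hd (x ^ n) = x := by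
    rw [← hw]; exact hinv
  have e₂ := h₂.eventually hinv'
  filter_upwards [e₁, e₂, hpow] with z hz₁ hz₂ hz
  rw [← hz₁, ← hz₂, hz]

/-- A continuous `n`-th root of a differentiable function is differentiable where it does not
vanish. -/
lemma root_differentiableAt_of_ne {n : ℕ} (hn : 0 < n) {H r : ℂ → ℂ} {w : ℂ}
    (hH : DifferentiableAt ℂ H w) (hr : ContinuousAt r w)
    (hpow : ∀ᶠ z in 𝓝 w, r z ^ n = H z) (hne : H w ≠ 0) : DifferentiableAt ℂ r w := by
  have hrw : r w ^ n = H w := hpow.self_of_nhds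
  have hrne : r w ≠ 0 := by
    intro h0
    rw [h0, zero_pow hn.ne'] at hrw
    exact hne hrw.symm
  have hp : HasStrictDerivAt (fun x : ℂ => x ^ n) ((n : ℂ) * r w ^ (n - 1)) (r w) :=
    hasStrictDerivAt_pow n (r w)
  have hd : (n : ℂ) * r w ^ (n - 1) ≠ 0 :=
    mul_ne_zero (Nat.cast_ne_zero.mpr hn.ne') (pow_ne_zero _ hrne)
  have hinv := hr.eventually (hp.eventually_left_inverse hd)
  have heq : r =ᶠ[𝓝 w] fun z => hp.localInverse _ _ _ hd (H z) := by
    filter_upwards [hinv, hpow] with z hz₁ hz₂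
    rw [← hz₂, hz₁]
  have hloc : DifferentiableAt ℂ (hp.localInverse _ _ _ hd) (H w) := by
    have := (hp.to_localInverse hd).hasDerivAt.differentiableAt
    rw [← hrw]
    exact this
  have hcomp : DifferentiableAt ℂ (fun z => hp.localInverse _ _ _ hd (H z)) w :=
    hloc.comp w hH
  exact hcomp.congr_of_eventuallyEq heq

/-- **(A)** A continuous `n`-th root of an analytic function with isolated zeros is holomorphic. -/
theorem root_differentiableOn {V : Set ℂ} (hV : IsOpen V) {n : ℕ} (hn : 0 < n) {H r : ℂ → ℂ}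
    (hH : AnalyticOnNhd ℂ H V) (hfin : ∀ w ∈ V, analyticOrderAt H w ≠ ⊤)
    (hr : ContinuousOn r V) (hpow : ∀ w ∈ V, r w ^ n = H w) : DifferentiableOn ℂ r V := by
  have hne_case : ∀ w ∈ V, H w ≠ 0 → DifferentiableAt ℂ r w := by
    intro w hw hne
    refine root_differentiableAt_of_ne hn (hH w hw).differentiableAt
      (hr.continuousAt (hV.mem_nhds hw)) ?_ hne
    filter_upwards [hV.mem_nhds hw] with z hz using hpow z hz
  intro w hw
  apply DifferentiableAt.differentiableWithinAt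
  by_cases h0 : H w = 0
  · have hiso : ∀ᶠ z in 𝓝[≠] w, H z ≠ 0 := by
      rcases (hH w hw).eventually_eq_zero_or_eventually_ne_zero with h | h
      · exact absurd (analyticOrderAt_eq_top.mpr h) (hfin w hw)
      · exact h
    have hd : ∀ᶠ z in 𝓝[≠] w, DifferentiableAt ℂ r z := by
      have hVw : ∀ᶠ z in 𝓝[≠] w, z ∈ V := nhdsWithin_le_nhds (hV.mem_nhds hw)
      filter_upwards [hiso, hVw] with z hz hzV using hne_case z hzV hz
    exact (Complex.analyticAt_of_differentiable_on_punctured_nhds_of_continuousAt hd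
      (hr.continuousAt (hV.mem_nhds hw))).differentiableAt
  · exact hne_case w hw h0

/-! ### (B) roots on a convex open set with finitely many zeros -/

lemma isSimplyConnected_of_convex {V : Set ℂ} (hVc : Convex ℝ V) (hVne : V.Nonempty) :
    IsSimplyConnected V := by
  have := hVc.contractibleSpace hVne
  exact (inferInstance : SimplyConnectedSpace V)

/-- dividing out a zero: the function `H / (z - a)^k` extended by `g a` at `a`. -/
noncomputable def divZero (H : ℂ → ℂ) (a : ℂ) (k : ℕ) (c : ℂ) : ℂ → ℂ :=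
  fun z => if z = a then c else H z / (z - a) ^ k

lemma divZero_self (H : ℂ → ℂ) (a : ℂ) (k : ℕ) (c : ℂ) : divZero H a k c a = c := by
  simp [divZero]

lemma divZero_of_ne (H : ℂ → ℂ) (a : ℂ) (k : ℕ) (c : ℂ) {z : ℂ} (hz : z ≠ a) :
    divZero H a k c z = H z / (z - a) ^ k := by
  simp [divZero, hz]

lemma divZero_mul (H : ℂ → ℂ) (a : ℂ) (k : ℕ) (c : ℂ) {z : ℂ} (hz : z ≠ a) :
    (z - a) ^ k * divZero H a k c z = H z := by
  rw [divZero_of_ne H a k c hz]
  field_simp [sub_ne_zero.mpr hz]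

lemma divZero_eventuallyEq_of_ne (H : ℂ → ℂ) (a : ℂ) (k : ℕ) (c : ℂ) {b : ℂ} (hb : b ≠ a) :
    divZero H a k c =ᶠ[𝓝 b] fun z => H z / (z - a) ^ k := by
  filter_upwards [isOpen_ne.mem_nhds hb] with z hz
  exact divZero_of_ne H a k c hz

lemma divZero_analyticAt_of_ne {H : ℂ → ℂ} (a : ℂ) (k : ℕ) (c : ℂ) {b : ℂ} (hb : b ≠ a)
    (hH : AnalyticAt ℂ H b) : AnalyticAt ℂ (divZero H a k c) b := by
  have h1 : AnalyticAt ℂ (fun z : ℂ => H z / (z - a) ^ k) b := by
    apply hH.div
    · fun_prop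
    · exact pow_ne_zero _ (sub_ne_zero.mpr hb)
  exact h1.congr (divZero_eventuallyEq_of_ne H a k c hb).symm

lemma divZero_order_of_ne {H : ℂ → ℂ} (a : ℂ) (k : ℕ) (c : ℂ) {b : ℂ} (hb : b ≠ a)
    (hH : AnalyticAt ℂ H b) :
    analyticOrderAt (divZero H a k c) b = analyticOrderAt H b := by
  have hpa : AnalyticAt ℂ (fun z : ℂ => (z - a) ^ k) b := by fun_prop
  have hp0 : analyticOrderAt (fun z : ℂ => (z - a) ^ k) b = 0 := by
    rw [hpa.analyticOrderAt_eq_zero]
    exact pow_ne_zero _ (sub_ne_zero.mpr hb)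
  have hmul : H =ᶠ[𝓝 b] (fun z : ℂ => (z - a) ^ k) * divZero H a k c := by
    filter_upwards [isOpen_ne.mem_nhds hb] with z hz
    simp only [Pi.mul_apply]
    rw [divZero_mul H a k c hz]
  rw [analyticOrderAt_congr hmul, analyticOrderAt_mul hpa (divZero_analyticAt_of_ne a k c hb hH),
    hp0, zero_add]

/-- **(B)** Roots on a convex open set with finitely many zeros. -/
theorem exists_root_of_finite_zeros {V : Set ℂ} (hV : IsOpen V) (hVc : Convex ℝ V)
    (hVne : V.Nonempty) {n : ℕ} (hn : 0 < n) (s : Finset ℂ) :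
    ∀ H : ℂ → ℂ, AnalyticOnNhd ℂ H V → (∀ w ∈ V, analyticOrderAt H w ≠ ⊤) →
      (∀ w ∈ V, n ∣ analyticOrderNatAt H w) → (∀ w ∈ V, H w = 0 → w ∈ s) →
      ∃ r : ℂ → ℂ, ContinuousOn r V ∧ ∀ w ∈ V, r w ^ n = H w := by
  classical
  induction s using Finset.induction_on with
  | empty =>
    intro H hH _ _ hz
    have h0 : (0 : ℂ) ∉ H '' V := by
      rintro ⟨w, hw, hw0⟩
      exact absurd (hz w hw hw0) (Finset.notMem_empty w)
    obtain ⟨f, hf, hf'⟩ := Complex.exists_continuousOn_pow_eq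
      (isSimplyConnected_of_convex hVc hVne) hV hH.continuousOn h0 hn.ne'
    exact ⟨f, hf, fun w _ => hf' w⟩
  | insert a s ha ih =>
    intro H hH hfin hord hz
    by_cases hcase : a ∈ V ∧ H a = 0
    · obtain ⟨haV, ha0⟩ := hcase
      have hHa := hH a haV
      obtain ⟨k, hk⟩ : ∃ k : ℕ, k = analyticOrderNatAt H a := ⟨_, rfl⟩
      have hkord : analyticOrderAt H a = (k : ℕ∞) := by
        rw [hk, Nat.cast_analyticOrderNatAt (hfin a haV)]
      obtain ⟨g, hg, hga, hgH⟩ := hHa.analyticOrderAt_eq_natCast.mp hkord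
      have hk0 : k ≠ 0 := by
        intro h0
        rw [h0] at hkord
        have := (hHa.analyticOrderAt_eq_zero).mp (by simpa using hkord)
        exact this ha0
      obtain ⟨m, hm⟩ : n ∣ k := hk ▸ hord a haV
      -- the new function
      have hH₁a : divZero H a k (g a) =ᶠ[𝓝 a] g := by
        filter_upwards [hgH] with z hz'
        by_cases hza : z = a
        · rw [hza, divZero_self]
        · rw [divZero_of_ne H a k (g a) hza, hz', smul_eq_mul]
          field_simp [sub_ne_zero.mpr hza]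
      have hH₁ : AnalyticOnNhd ℂ (divZero H a k (g a)) V := by
        intro b hb
        by_cases hba : b = a
        · rw [hba]; exact hg.congr hH₁a.symm
        · exact divZero_analyticAt_of_ne a k (g a) hba (hH b hb)
      have hord₁ : ∀ b ∈ V, analyticOrderAt (divZero H a k (g a)) b =
          if b = a then 0 else analyticOrderAt H b := by
        intro b hb
        by_cases hba : b = a
        · rw [if_pos hba, hba, (hH₁ a haV).analyticOrderAt_eq_zero, divZero_self]
          exact hga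
        · rw [if_neg hba]
          exact divZero_order_of_ne a k (g a) hba (hH b hb)
      obtain ⟨r₁, hr₁, hr₁'⟩ := ih (divZero H a k (g a)) hH₁
        (by
          intro b hb
          rw [hord₁ b hb]
          split_ifs
          · exact ENat.zero_ne_top
          · exact hfin b hb)
        (by
          intro b hb
          unfold analyticOrderNatAt
          rw [hord₁ b hb]
          split_ifs
          · simp
          · exact hord b hb)
        (by
          intro b hb hb0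
          have hba : b ≠ a := by
            intro h
            rw [h, divZero_self] at hb0
            exact hga hb0
          have hHb : H b = 0 := by
            rw [← divZero_mul H a k (g a) hba, hb0, mul_zero]
          rcases Finset.mem_insert.mp (hz b hb hHb) with h | h
          · exact absurd h hba
          · exact h)
      refine ⟨fun z => (z - a) ^ m * r₁ z, ?_, ?_⟩
      · exact (by fun_prop : Continuous fun z : ℂ => (z - a) ^ m).continuousOn.mul hr₁
      · intro w hw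
        simp only
        rw [mul_pow, ← pow_mul, mul_comm m n, ← hm, hr₁' w hw]
        by_cases hwa : w = a
        · rw [hwa, sub_self, zero_pow hk0, zero_mul, ha0]
        · exact divZero_mul H a k (g a) hwa
    · refine ih H hH hfin hord ?_
      intro w hw hw0
      rcases Finset.mem_insert.mp (hz w hw hw0) with h | h
      · exact absurd ⟨h ▸ hw, h ▸ hw0⟩ hcase
      · exact h

/-! ### (C) exhaustion and gluing -/

/-- zeros of an analytic function (not locally zero) in a compact set are finite -/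
lemma finite_zeros_of_isCompact {K : Set ℂ} (hK : IsCompact K) {H : ℂ → ℂ}
    (hH : AnalyticOnNhd ℂ H K) (hfin : ∀ w ∈ K, analyticOrderAt H w ≠ ⊤) :
    {w | w ∈ K ∧ H w = 0}.Finite := by
  have hsupp := (MeromorphicOn.divisor H K).finiteSupport hK
  refine hsupp.subset ?_
  rintro w ⟨hwK, hw0⟩
  rw [Function.mem_support, MeromorphicOn.AnalyticOnNhd.divisor_apply hH hwK]
  have h1 : analyticOrderAt H w ≠ 0 := by
    rw [(hH w hwK).analyticOrderAt_ne_zero]
    exact hw0
  have h2 := hfin w hwK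
  lift analyticOrderAt H w to ℕ using h2 with k hk
  have hk0 : k ≠ 0 := by
    intro h
    apply h1
    rw [h]
    rfl
  simp only [ENat.map_natCast, WithTop.untop₀_coe]
  exact_mod_cast hk0

/-- the upper half plane is exhausted by discs -/
lemma exists_ball_upperHalfPlane (z₁ z₂ : ℂ) (h₁ : 0 < z₁.im) (h₂ : 0 < z₂.im) :
    ∃ (c : ℂ) (R : ℝ), 0 < R ∧ closedBall c R ⊆ {w : ℂ | 0 < w.im} ∧ z₁ ∈ ball c R ∧
      z₂ ∈ ball c R := by
  obtain ⟨δ, hδ⟩ : ∃ δ : ℝ, δ = min z₁.im z₂.im / 2 := ⟨_, rfl⟩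
  have hδ0 : 0 < δ := by
    rw [hδ]
    have := lt_min h₁ h₂
    linarith
  have hδ1 : 2 * δ ≤ z₁.im := by
    rw [hδ]
    have := min_le_left z₁.im z₂.im
    linarith
  have hδ2 : 2 * δ ≤ z₂.im := by
    rw [hδ]
    have := min_le_right z₁.im z₂.im
    linarith
  obtain ⟨T, hT⟩ : ∃ T : ℝ, T = (Complex.normSq z₁ + Complex.normSq z₂) / (2 * δ) + 1 + δ :=
    ⟨_, rfl⟩
  have hn1 : 0 ≤ Complex.normSq z₁ := Complex.normSq_nonneg _
  have hn2 : 0 ≤ Complex.normSq z₂ := Complex.normSq_nonneg _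
  have hTδ : 0 < T - δ := by
    rw [hT]
    have : 0 ≤ (Complex.normSq z₁ + Complex.normSq z₂) / (2 * δ) := by positivity
    linarith
  have hT2 : Complex.normSq z₁ + Complex.normSq z₂ < 2 * δ * T := by
    rw [hT]
    have e : 2 * δ * ((Complex.normSq z₁ + Complex.normSq z₂) / (2 * δ) + 1 + δ) =
        (Complex.normSq z₁ + Complex.normSq z₂) + 2 * δ + 2 * δ ^ 2 := by
      field_simp
    rw [e]
    nlinarith
  have key : ∀ z : ℂ, 2 * δ ≤ z.im → Complex.normSq z < 2 * δ * T →
      z ∈ ball ((T : ℂ) * Complex.I) (T - δ) := by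
    intro z hz hzn
    rw [mem_ball, dist_eq_norm]
    have hsq : ‖z - (T : ℂ) * Complex.I‖ ^ 2 < (T - δ) ^ 2 := by
      rw [Complex.sq_norm, Complex.normSq_apply]
      simp only [Complex.sub_re, Complex.sub_im, Complex.mul_re, Complex.mul_im,
        Complex.ofReal_re, Complex.ofReal_im, Complex.I_re, Complex.I_im, mul_zero, mul_one,
        sub_zero, add_zero]
      rw [Complex.normSq_apply] at hzn
      nlinarith
    exact lt_of_pow_lt_pow_left₀ 2 hTδ.le hsq
  refine ⟨(T : ℂ) * Complex.I, T - δ, hTδ, ?_, ?_, ?_⟩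
  · intro w hw
    rw [mem_closedBall, dist_eq_norm] at hw
    have h1 : |(w - (T : ℂ) * Complex.I).im| ≤ ‖w - (T : ℂ) * Complex.I‖ :=
      Complex.abs_im_le_norm _
    have h2 : (w - (T : ℂ) * Complex.I).im = w.im - T := by simp
    rw [h2] at h1
    have h3 := (abs_le.mp (h1.trans hw)).1
    show 0 < w.im
    linarith
  · exact key z₁ hδ1 (by linarith)
  · exact key z₂ hδ2 (by linarith)

/-- **(C)** Holomorphic `n`-th roots on the upper half plane, for functions on `ℂ`. -/
theorem exists_differentiableOn_root {n : ℕ} (hn : 0 < n) {H : ℂ → ℂ}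
    (hH : AnalyticOnNhd ℂ H {w : ℂ | 0 < w.im}) (z₀ : ℂ) (hz₀ : 0 < z₀.im) (hHz₀ : H z₀ ≠ 0)
    (hord : ∀ w : ℂ, 0 < w.im → n ∣ analyticOrderNatAt H w) :
    ∃ G : ℂ → ℂ, DifferentiableOn ℂ G {w : ℂ | 0 < w.im} ∧ ∀ w : ℂ, 0 < w.im → G w ^ n = H w := by
  classical
  have hUopen : IsOpen {w : ℂ | 0 < w.im} := isOpen_lt continuous_const Complex.continuous_im
  have hUconv : Convex ℝ {w : ℂ | 0 < w.im} := convex_halfSpace_im_gt 0
  have hfin : ∀ w : ℂ, 0 < w.im → analyticOrderAt H w ≠ ⊤ := by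
    intro w hw
    have h0 : analyticOrderAt H z₀ ≠ ⊤ := by
      rw [(hH z₀ hz₀).analyticOrderAt_eq_zero.mpr hHz₀]
      exact ENat.zero_ne_top
    exact hH.analyticOrderAt_ne_top_of_isPreconnected hUconv.isPreconnected hz₀ hw h0
  -- a fixed root of `H z₀`
  obtain ⟨c₀, hc₀⟩ : ∃ c₀ : ℂ, c₀ ^ n = H z₀ := by
    refine ⟨H z₀ ^ ((n : ℂ)⁻¹), ?_⟩
    exact Complex.cpow_nat_inv_pow _ hn.ne'
  have hc₀ne : c₀ ≠ 0 := by
    intro h
    rw [h, zero_pow hn.ne'] at hc₀
    exact hHz₀ hc₀.symm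
  -- local normalised roots
  have hloc : ∀ z : ℂ, 0 < z.im → ∃ (B : Set ℂ) (ρ : ℂ → ℂ), IsOpen B ∧ Convex ℝ B ∧
      B ⊆ {w : ℂ | 0 < w.im} ∧ z₀ ∈ B ∧ z ∈ B ∧ DifferentiableOn ℂ ρ B ∧
      (∀ w ∈ B, ρ w ^ n = H w) ∧ ρ z₀ = c₀ := by
    intro z hz
    obtain ⟨c, R, hR, hsub, hz₀B, hzB⟩ := exists_ball_upperHalfPlane z₀ z hz₀ hz
    have hsubB : ball c R ⊆ {w : ℂ | 0 < w.im} := ball_subset_closedBall.trans hsub
    have hzeros := finite_zeros_of_isCompact (isCompact_closedBall c R)
      (hH.mono hsub) (fun w hw => hfin w (hsub hw))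
    obtain ⟨r, hr, hr'⟩ := exists_root_of_finite_zeros isOpen_ball (convex_ball c R)
      ⟨z₀, hz₀B⟩ hn hzeros.toFinset H (hH.mono hsubB) (fun w hw => hfin w (hsubB hw))
      (fun w hw => hord w (hsubB hw))
      (fun w hw hw0 => hzeros.mem_toFinset.mpr ⟨ball_subset_closedBall hw, hw0⟩)
    have hrz₀ : r z₀ ^ n = H z₀ := hr' z₀ hz₀B
    have hrne : r z₀ ≠ 0 := by
      intro h
      rw [h, zero_pow hn.ne'] at hrz₀
      exact hHz₀ hrz₀.symm
    have hdiff : DifferentiableOn ℂ r (ball c R) :=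
      root_differentiableOn isOpen_ball hn (hH.mono hsubB) (fun w hw => hfin w (hsubB hw)) hr hr'
    refine ⟨ball c R, fun w => c₀ / r z₀ * r w, isOpen_ball, convex_ball c R, hsubB, hz₀B, hzB,
      hdiff.const_mul _, ?_, ?_⟩
    · intro w hw
      simp only
      rw [mul_pow, div_pow, hc₀, hrz₀, div_self hHz₀, one_mul, hr' w hw]
    · simp only
      rw [div_mul_cancel₀ _ hrne]
  choose! B ρ hBopen hBconv hBsub hBz₀ hBz hρd hρpow hρz₀ using hloc
  -- uniqueness on overlaps
  have huniq : ∀ z z' : ℂ, 0 < z.im → 0 < z'.im → ∀ w ∈ B z ∩ B z', ρ z w = ρ z' w := by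
    intro z z' hz hz' w hw
    have hopen : IsOpen (B z ∩ B z') := (hBopen z hz).inter (hBopen z' hz')
    have hconv : Convex ℝ (B z ∩ B z') := (hBconv z hz).inter (hBconv z' hz')
    have hmem : z₀ ∈ B z ∩ B z' := ⟨hBz₀ z hz, hBz₀ z' hz'⟩
    have ha1 : AnalyticOnNhd ℂ (ρ z) (B z ∩ B z') :=
      ((hρd z hz).mono inter_subset_left).analyticOnNhd hopen
    have ha2 : AnalyticOnNhd ℂ (ρ z') (B z ∩ B z') :=
      ((hρd z' hz').mono inter_subset_right).analyticOnNhd hopen
    have hev : ρ z =ᶠ[𝓝 z₀] ρ z' := by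
      refine root_eventuallyEq hn (ha1 z₀ hmem).continuousAt (ha2 z₀ hmem).continuousAt
        (by rw [hρz₀ z hz, hρz₀ z' hz']) (by rw [hρz₀ z hz]; exact hc₀ne) ?_
      filter_upwards [hopen.mem_nhds hmem] with x hx
      rw [hρpow z hz x hx.1, hρpow z' hz' x hx.2]
    exact ha1.eqOn_of_preconnected_of_eventuallyEq ha2 hconv.isPreconnected hmem hev hw
  refine ⟨fun w => ρ w w, ?_, ?_⟩
  · intro z hz
    have hz' : 0 < z.im := hz
    have heq : (fun w => ρ w w) =ᶠ[𝓝 z] ρ z := by
      filter_upwards [(hBopen z hz').mem_nhds (hBz z hz')] with w hw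
      have hw' : 0 < w.im := hBsub z hz' hw
      exact huniq w z hw' hz' w ⟨hBz w hw', hw⟩
    have hd : DifferentiableAt ℂ (ρ z) z :=
      (hρd z hz').differentiableAt ((hBopen z hz').mem_nhds (hBz z hz'))
    exact (hd.congr_of_eventuallyEq heq).differentiableWithinAt
  · intro w hw
    exact hρpow w hw w (hBz w hw)

/-- **B1.** Holomorphic `n`-th roots on `ℍ`. -/
theorem exists_mdiff_root (n : ℕ) (hn : 0 < n) (h : ℍ → ℂ) (hh : MDiff h) (hne : h ≠ 0)
    (hord : ∀ τ : ℍ, n ∣ analyticOrderNatAt (h ∘ ofComplex) (τ : ℂ)) :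
    ∃ g : ℍ → ℂ, MDiff g ∧ ∀ z, g z ^ n = h z := by
  have hUopen : IsOpen {w : ℂ | 0 < w.im} := isOpen_lt continuous_const Complex.continuous_im
  have hdiff : DifferentiableOn ℂ (h ∘ ofComplex) {w : ℂ | 0 < w.im} :=
    UpperHalfPlane.mdifferentiable_iff.mp hh
  have hH : AnalyticOnNhd ℂ (h ∘ ofComplex) {w : ℂ | 0 < w.im} := hdiff.analyticOnNhd hUopen
  obtain ⟨τ₀, hτ₀⟩ : ∃ τ₀ : ℍ, h τ₀ ≠ 0 := by
    by_contra hcon
    apply hne
    funext τ
    by_contra hτ
    exact hcon ⟨τ, hτ⟩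
  have hHz₀ : (h ∘ ofComplex) (τ₀ : ℂ) ≠ 0 := by
    simp only [Function.comp_apply, ofComplex_apply]
    exact hτ₀
  obtain ⟨G, hG, hG'⟩ := exists_differentiableOn_root hn hH (τ₀ : ℂ) τ₀.im_pos hHz₀
    (fun w hw => hord ⟨w, hw⟩)
  refine ⟨fun z : ℍ => G (z : ℂ), ?_, ?_⟩
  · rw [UpperHalfPlane.mdifferentiable_iff]
    refine hG.congr fun w hw => ?_
    simp only [Function.comp_apply]
    rw [ofComplex_apply_of_im_pos hw]
  · intro z
    have := hG' (z : ℂ) z.im_pos
    simpa [Function.comp_apply, ofComplex_apply] using this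

end Fermat.Agent.AJlib
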