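/-
Item 69 (AJ), piece C0/RC (helper9): two holomorphic functions on `ℍ` with the same `n`-th power
differ by an `n`-th root of unity.

Main result (namespace `Fermat.Agent.AJlib`):
* `roots_differ_by_const` : `G₁ G₂` holomorphic on `ℍ`, `G₂ ≠ 0`, `G₁^n = G₂^n` ⇒
  `∃ ζ, ζ^n = 1 ∧ G₁ = ζ • G₂`.
No sorry in this file.
-/
import Mathlib
import Fermat.Agent.AJlib.Roots

set_option autoImplicit false

open UpperHalfPlane Filter Topology Metric Set
open scoped Manifold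

namespace Fermat.Agent.AJlib

/-- holomorphic functions on `ℍ` are analytic on the upper half plane of `ℂ` -/
lemma analyticOnNhd_comp_ofComplex {G : ℍ → ℂ} (hG : MDiff G) :
    AnalyticOnNhd ℂ (G ∘ ofComplex) {w : ℂ | 0 < w.im} :=
  (UpperHalfPlane.mdifferentiable_iff.mp hG).analyticOnNhd
    (isOpen_lt continuous_const Complex.continuous_im)

/-- identity theorem on `ℍ` -/
lemma eq_of_eventuallyEq_comp_ofComplex {G₁ G₂ : ℍ → ℂ} (h₁ : MDiff G₁) (h₂ : MDiff G₂)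
    (z₀ : ℍ) (h : (G₁ ∘ ofComplex) =ᶠ[𝓝 (z₀ : ℂ)] (G₂ ∘ ofComplex)) : G₁ = G₂ := by
  have heq := (analyticOnNhd_comp_ofComplex h₁).eqOn_of_preconnected_of_eventuallyEq
    (analyticOnNhd_comp_ofComplex h₂) (convex_halfSpace_im_gt 0).isPreconnected z₀.im_pos h
  funext z
  have := heq z.im_pos
  simpa [Function.comp_apply, ofComplex_apply] using this

/-- **RC.** Roots of the same function differ by a root of unity. -/
theorem roots_differ_by_const {n : ℕ} (hn : 0 < n) {G₁ G₂ : ℍ → ℂ} (h₁ : MDiff G₁)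
    (h₂ : MDiff G₂) (hne : G₂ ≠ 0) (hpow : ∀ z, G₁ z ^ n = G₂ z ^ n) :
    ∃ ζ : ℂ, ζ ^ n = 1 ∧ G₁ = ζ • G₂ := by
  obtain ⟨z₀, hz₀⟩ : ∃ z₀ : ℍ, G₂ z₀ ≠ 0 := by
    by_contra hcon
    apply hne
    funext z
    by_contra hz
    exact hcon ⟨z, hz⟩
  have hG₁z₀ : G₁ z₀ ≠ 0 := by
    intro h0
    have := hpow z₀
    rw [h0, zero_pow hn.ne'] at this
    exact pow_ne_zero n hz₀ this.symm
  refine ⟨G₁ z₀ / G₂ z₀, ?_, ?_⟩
  · rw [div_pow, hpow z₀, div_self (pow_ne_zero n hz₀)]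
  · have h₂' : MDiff ((G₁ z₀ / G₂ z₀) • G₂) := h₂.const_smul _
    apply eq_of_eventuallyEq_comp_ofComplex h₁ h₂' z₀
    have hU : {w : ℂ | 0 < w.im} ∈ 𝓝 (z₀ : ℂ) :=
      (isOpen_lt continuous_const Complex.continuous_im).mem_nhds z₀.im_pos
    refine root_eventuallyEq hn
      ((analyticOnNhd_comp_ofComplex h₁) z₀ z₀.im_pos).continuousAt
      ((analyticOnNhd_comp_ofComplex h₂') z₀ z₀.im_pos).continuousAt ?_ ?_ ?_
    · simp only [Function.comp_apply, ofComplex_apply, Pi.smul_apply, smul_eq_mul]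
      rw [div_mul_cancel₀ _ hz₀]
    · simp only [Function.comp_apply, ofComplex_apply]
      exact hG₁z₀
    · filter_upwards with w
      simp only [Function.comp_apply, Pi.smul_apply, smul_eq_mul]
      rw [mul_pow, div_pow, hpow z₀, div_self (pow_ne_zero n hz₀), one_mul, hpow]

end Fermat.Agent.AJlib
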