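/-
Item 69 (AJ), Layer P4 (finite fibres over `ℂ`): the `FiberData` over `j = c` for EVERY `c ∈ ℂ`.
PORT of `S24lib/FibersFin.lean` (helper28) to the constant field `ℂ`.
-/
import Mathlib
import Fermat.Agent.S24lib.FibersFin
import Fermat.Agent.AJlib.CSym

set_option autoImplicit false

open scoped MatrixGroups ModularForm Manifold Topology
open UpperHalfPlane ModularForm CongruenceSubgroup Filter ModularGroup ModularCurve

namespace Fermat.Agent.AJlib

open Fermat.Agent.S24lib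

section generic

variable (N : ℕ) [NeZero N]

/-- The local expansion attached to the coset `q` and the base point `τ₀`. -/
noncomputable def sigmaAtC (τ₀ : ℍ) (q : SL(2, ℤ) ⧸ Gamma0 N) : FC N →+* LaurentSeries ℂ :=
  embFC N (twist N (expAt N τ₀) q.out) (twist_injective N (expAt_injective N τ₀) q.out)

lemma sigmaAtC_const (τ₀ : ℍ) (q : SL(2, ℤ) ⧸ Gamma0 N) (c : ℂ) :
    sigmaAtC N τ₀ q (algebraMap ℂ (FC N) c) = HahnSeries.C c := by
  unfold sigmaAtC
  rw [embFC_const, twist_apply, smul_whC]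
  exact expAt_const N τ₀ c

lemma sigmaAtC_jFC (τ₀ : ℍ) (q : SL(2, ℤ) ⧸ Gamma0 N) :
    sigmaAtC N τ₀ q (jFC N) = expAt N τ₀ (jWH N) := by
  unfold sigmaAtC
  rw [embFC_jFC, twist_apply, smul_jWH]

lemma sigmaAtC_u (τ₀ : ℍ) (q : SL(2, ℤ) ⧸ Gamma0 N) (c : ℂ) (hc : jH τ₀ = c) :
    sigmaAtC N τ₀ q (jFC N - algebraMap ℂ (FC N) c)
      = expAt N τ₀ (jWH N - ⟨Function.const ℍ (jH τ₀), isWH_const N (jH τ₀)⟩) := by
  rw [map_sub, map_sub, sigmaAtC_jFC, sigmaAtC_const, expAt_const, hc]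

lemma sigmaAtC_injective (τ₀ : ℍ) : Function.Injective (sigmaAtC N τ₀) := by
  intro q q' h
  have h1 := embFC_twist_injective N (expAt_injective N τ₀) q.out q'.out h
  rw [← QuotientGroup.out_eq' q, ← QuotientGroup.out_eq' q']
  exact QuotientGroup.eq.2 h1


lemma embFC_twist_congr (E : WH N →+* LaurentSeries ℂ) (hE : Function.Injective E)
    {g g' : SL(2, ℤ)} (h : g = g') :
    embFC N (twist N E g) (twist_injective N hE g) = embFC N (twist N E g') (twist_injective N hE g') := by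
  subst h; rfl

/-- `σ_{g • q}` is the expansion twisted by `g * q.out`. -/
lemma sigmaAtC_smul (τ₀ : ℍ) (g : SL(2, ℤ)) (q : SL(2, ℤ) ⧸ Gamma0 N) :
    sigmaAtC N τ₀ (g • q) = embFC N (twist N (expAt N τ₀) (g * q.out))
      (twist_injective N (expAt_injective N τ₀) _) := by
  unfold sigmaAtC
  have hγ : (g * q.out)⁻¹ * (g • q).out ∈ Gamma0 N := by
    rw [← QuotientGroup.eq]
    rw [QuotientGroup.out_eq', fib_smul_out]
  have e : (g • q).out = (g * q.out) * ((g * q.out)⁻¹ * (g • q).out) := by group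
  have := embFC_twist_mul N (expAt_injective N τ₀) (g * q.out) ((g * q.out)⁻¹ * (g • q).out) hγ
  rw [← this]
  exact embFC_twist_congr N _ (expAt_injective N τ₀) e

/-- The order of `embFC E f` in terms of a representation `f = a / b`. -/
lemma order_embFC_of_repr {f : FC N} (hf : f ≠ 0) {a b : WH N} (hb : b ≠ 0)
    (E : WH N →+* LaurentSeries ℂ) (hE : Function.Injective E)
    (h : embFC N E hE f * E b = E a) :
    (embFC N E hE f).order = (E a).order - (E b).order := by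
  have h1 : embFC N E hE f ≠ 0 := by
    intro h0
    exact hf ((embFC N E hE).injective (by rw [h0, map_zero]))
  have h2 : E b ≠ 0 := fun h0 => hb (hE (by rw [h0, map_zero]))
  rw [← h, HahnSeries.order_mul h1 h2]
  ring

/-- `order_smul` for a stabiliser element `g` of `τ₀`. -/
lemma sigmaAtC_order_smul (τ₀ : ℍ) (g : SL(2, ℤ)) (hg : g⁻¹ • τ₀ = τ₀)
    (q : SL(2, ℤ) ⧸ Gamma0 N) (f : FC N) :
    (sigmaAtC N τ₀ (g • q) f).order = (sigmaAtC N τ₀ q f).order := by
  by_cases hf : f = 0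
  · subst hf; simp
  obtain ⟨a, b, hb, -, -, hab⟩ := embFC_exists_div N f
  rw [sigmaAtC_smul]
  unfold sigmaAtC
  have hinj := expAt_injective N τ₀
  rw [order_embFC_of_repr N hf hb _ (twist_injective N hinj _) (hab _ _),
    order_embFC_of_repr N hf hb _ (twist_injective N hinj _) (hab _ _)]
  simp only [twist_apply N, mul_smul]
  rw [expAt_order_smul N τ₀ g, expAt_order_smul N τ₀ g, hg]

/-- `dvd` at a fixed coset. -/
lemma sigmaAtC_dvd_of_fixed (τ₀ : ℍ) (g : SL(2, ℤ)) (s : ℕ)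
    (hdvd : ∀ f : WH N, g • f = f → (s : ℤ) ∣ (expAt N τ₀ f).order)
    (q : SL(2, ℤ) ⧸ Gamma0 N) (hq : g • q = q) (f : FC N) (hf : f ≠ 0) :
    (s : ℤ) ∣ (sigmaAtC N τ₀ q f).order := by
  obtain ⟨a, b, hb, ha_inv, hb_inv, hab⟩ := embFC_exists_div N f
  unfold sigmaAtC
  have hinj := expAt_injective N τ₀
  rw [order_embFC_of_repr N hf hb _ (twist_injective N hinj _) (hab _ _)]
  simp only [twist_apply N]
  obtain ⟨h, hh⟩ : ∃ h : SL(2, ℤ), h = q.out := ⟨_, rfl⟩
  rw [← hh]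
  have hγ : h⁻¹ * g * h ∈ Gamma0 N := by
    have : (h : SL(2, ℤ) ⧸ Gamma0 N) = ((g * h : SL(2, ℤ)) : SL(2, ℤ) ⧸ Gamma0 N) := by
      rw [hh, fib_smul_out, hq, QuotientGroup.out_eq']
    have := QuotientGroup.eq.1 this
    rwa [← mul_assoc] at this
  have key : ∀ x : WH N, (∀ γ ∈ Gamma0 N, γ • x = x) → g • (h • x) = h • x := by
    intro x hx
    rw [← mul_smul]
    have : g * h = h * (h⁻¹ * g * h) := by group
    rw [this, mul_smul, hx _ hγ]
  exact dvd_sub (hdvd _ (key a ha_inv)) (hdvd _ (key b hb_inv))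


omit [NeZero N] in
lemma fib_adjoin_jFC_sub (c : ℂ) :
    IntermediateField.adjoin ℂ {jFC N - algebraMap ℂ (FC N) c}
      = IntermediateField.adjoin ℂ {jFC N} := by
  apply le_antisymm
  · rw [IntermediateField.adjoin_simple_le_iff]
    exact sub_mem (IntermediateField.mem_adjoin_simple_self ℂ (jFC N))
      (IntermediateField.algebraMap_mem _ c)
  · rw [IntermediateField.adjoin_simple_le_iff]
    have : jFC N = (jFC N - algebraMap ℂ (FC N) c) + algebraMap ℂ (FC N) c := by ring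
    have h2 := add_mem (IntermediateField.mem_adjoin_simple_self ℂ
      (jFC N - algebraMap ℂ (FC N) c)) (IntermediateField.algebraMap_mem
        (IntermediateField.adjoin ℂ {jFC N - algebraMap ℂ (FC N) c}) c)
    rwa [← this] at h2

/-- The general finite fibre. -/
noncomputable def fiberAtC (c : ℂ) (τ₀ : ℍ) (hτ : jH τ₀ = c)
    (g : SL(2, ℤ)) (hg : g⁻¹ • τ₀ = τ₀) (s : ℕ) (hs : 0 < s)
    (hord : (expAt N τ₀ (jWH N - ⟨Function.const ℍ (jH τ₀), isWH_const N (jH τ₀)⟩)).order = s)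
    (hdvd : ∀ f : WH N, g • f = f → (s : ℤ) ∣ (expAt N τ₀ f).order)
    (horb : ∀ q : SL(2, ℤ) ⧸ Gamma0 N,
      g • q = q ∨ Nat.card (MulAction.orbit (Subgroup.zpowers g) q) = s) :
    FiberData ℂ (FC N) ℂ (jFC N - algebraMap ℂ (FC N) c) (SL(2, ℤ) ⧸ Gamma0 N) g :=
  { σ := sigmaAtC N τ₀
    s := s
    s_pos := hs
    map_const := fun i c' => sigmaAtC_const N τ₀ i c'
    map_u := fun i i' => by rw [sigmaAtC_u N τ₀ i c hτ, sigmaAtC_u N τ₀ i' c hτ]
    order_u := fun i => by rw [sigmaAtC_u N τ₀ i c hτ, hord]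
    inj := sigmaAtC_injective N τ₀
    sym := fun f => by
      obtain ⟨P, hP, hP'⟩ := sym_embFC N (expAt_injective N τ₀) f
      refine ⟨P, fun k => ?_, fun i₀ => hP' i₀.out⟩
      rw [fib_adjoin_jFC_sub]
      exact hP k
    order_smul := fun i f => sigmaAtC_order_smul N τ₀ g hg i f
    dvd := fun i f hf => by
      rcases horb i with h | h
      · exact Dvd.dvd.mul_left (sigmaAtC_dvd_of_fixed N τ₀ g s hdvd i h f hf) _
      · exact ⟨_, congrArg (fun n : ℕ => (n : ℤ) * (sigmaAtC N τ₀ i f).order) h⟩ }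


/-- The fibre over `j = c`, `c ≠ 0, 1728`. -/
noncomputable def fiberGenericC (c : ℂ) (τ₀ : ℍ) (hτ : jH τ₀ = c)
    (h0 : c ≠ 0) (h1 : c ≠ 1728) :
    FiberData ℂ (FC N) ℂ (jFC N - algebraMap ℂ (FC N) c) (SL(2, ℤ) ⧸ Gamma0 N)
      (1 : SL(2, ℤ)) :=
  fiberAtC N c τ₀ hτ 1 (by simp) 1 one_pos
    (by rw [expAt_order_jWH_sub_generic N τ₀ (hτ ▸ h0) (hτ ▸ h1)]; rfl)
    (fun f _ => by simp) (fun q => Or.inl (one_smul _ q))

/-- The fibre over `j = 1728`. -/
noncomputable def fiberIC :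
    FiberData ℂ (FC N) ℂ (jFC N - algebraMap ℂ (FC N) 1728) (SL(2, ℤ) ⧸ Gamma0 N)
      (S : SL(2, ℤ)) :=
  fiberAtC N 1728 I (by rw [jH_I]) S expAt_S_smul_I 2 two_pos
    (by
      have h := expAt_order_jWH_sub_I N
      have e : (⟨Function.const ℍ (jH I), isWH_const N (jH I)⟩ : WH N)
          = ⟨Function.const ℍ 1728, isWH_const N 1728⟩ := by
        apply Subtype.ext; simp only [jH_I]
      rw [e, h]; rfl)
    (expAt_two_dvd_I N)
    (fun q => fib_orbit_card N S Nat.prime_two q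
      (by rw [fib_S_pow_two]; exact fib_neg_one_smul N q))

/-- The fibre over `j = 0`. -/
noncomputable def fiberRhoC :
    FiberData ℂ (FC N) ℂ (jFC N - algebraMap ℂ (FC N) 0) (SL(2, ℤ) ⧸ Gamma0 N)
      (S * T : SL(2, ℤ)) :=
  fiberAtC N 0 ρ (by rw [jH_ρ]) (S * T) expAt_ST_smul_ρ 3 (by norm_num)
    (by
      have h := expAt_order_jWH_ρ N
      have e : (jWH N - ⟨Function.const ℍ (jH ρ), isWH_const N (jH ρ)⟩ : WH N) = jWH N := by
        apply Subtype.ext
        funext z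
        simp [jH_ρ]
      rw [e, h]; rfl)
    (expAt_three_dvd_ρ N)
    (fun q => fib_orbit_card N (S * T) Nat.prime_three q
      (by rw [fib_ST_pow_three]; exact fib_neg_one_smul N q))

lemma fiberGenericC_s (c : ℂ) (τ₀ : ℍ) (hτ : jH τ₀ = c)
    (h0 : c ≠ 0) (h1 : c ≠ 1728) :
    (fiberGenericC N c τ₀ hτ h0 h1).s = 1 := rfl

lemma fiberIC_s :
    (fiberIC N).s = 2 := rfl

lemma fiberRhoC_s :
    (fiberRhoC N).s = 3 := rfl

omit [NeZero N] in
/-- every `c ∈ ℚ̄` is a value of `j` -/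
lemma exists_jH_eq_C (c : ℂ) : ∃ τ₀ : ℍ, jH τ₀ = c := exists_jH_eq c

end generic

end Fermat.Agent.AJlib
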