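/-
Item 69 (AJ), Layer P5 (helper4): the places ↔ points dictionary of `FC N` over `ℂ` in usable form,
with EXACT ramification.

* `IsDictAt N τ w e` : the place `w` is the place of the point `τ ∈ ℍ`, with ramification index `e`
  (`ord_τ f = e · w.ord f`, and `e` is the order of the stabiliser of `τ` in `Γ₀(N)/±1` in the two
  usable forms: `denom γ τ ^ (2e) = 1` for `γ ∈ Γ₀(N)` fixing `τ`, and `e ∣ ord_τ G` for every
  holomorphic `G` invariant under these `γ`);
* `dict_fin`  : every `τ ∈ ℍ` has a place;  `dict_fin'` : every place with `ord j ≥ 0` is of this form.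
-/
import Mathlib
import Fermat.Agent.AJlib.CK2
import Fermat.Agent.AJlib.CFibersFin
import Fermat.Agent.AJlib.AlgExact

set_option autoImplicit false

open scoped MatrixGroups ModularForm Manifold Topology
open UpperHalfPlane ModularForm CongruenceSubgroup Filter ModularGroup ModularCurve
  IntermediateField AlgebraicCurve

namespace Fermat.Agent.AJlib

open Fermat.Agent.S24lib

/-! ### The automorphy factor -/

lemma dict_denom_cocycle (g h : SL(2, ℤ)) (z : ℍ) :
    denom ((g * h : SL(2, ℤ)) : GL (Fin 2) ℝ) z = denom g ((h • z : ℍ) : ℂ) * denom h z := by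
  have := UpperHalfPlane.denom_cocycle_σ (g : GL (Fin 2) ℝ) (h : GL (Fin 2) ℝ) z
  simpa [σ] using this

lemma dict_denom_one (z : ℍ) : denom ((1 : SL(2, ℤ)) : GL (Fin 2) ℝ) z = 1 := by
  simp [denom]

lemma dict_denom_conj (h g : SL(2, ℤ)) (τ₀ : ℍ) (hg : g • τ₀ = τ₀) :
    denom ((h * g * h⁻¹ : SL(2, ℤ)) : GL (Fin 2) ℝ) ((h • τ₀ : ℍ) : ℂ) = denom g τ₀ := by
  have h1 := dict_denom_cocycle (h * g) h⁻¹ (h • τ₀)
  have h2 := dict_denom_cocycle h g τ₀
  have h3 := dict_denom_cocycle h h⁻¹ (h • τ₀)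
  rw [inv_smul_smul] at h1 h3
  rw [mul_inv_cancel, dict_denom_one] at h3
  rw [hg] at h2
  rw [h1, h2]
  rw [mul_comm (denom h τ₀), mul_assoc, ← h3, mul_one]

/-- invariance under a stabiliser element: `denom ^ (2 · order) = 1` (holomorphic form) -/
lemma dict_denom_pow_eq_one {G : ℍ → ℂ} (hG : MDiff G) (γ : SL(2, ℤ)) (τ : ℍ) (hγτ : γ • τ = τ)
    (hinv : ∀ z : ℍ, G (γ • z) = G z) :
    (denom γ τ) ^ (2 * analyticOrderNatAt (G ∘ ofComplex) (τ : ℂ)) = 1 := by
  by_cases hne : analyticOrderAt (G ∘ ofComplex) (τ : ℂ) = ⊤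
  · have : analyticOrderNatAt (G ∘ ofComplex) (τ : ℂ) = 0 := by
      unfold analyticOrderNatAt
      rw [hne]
      rfl
    rw [this, mul_zero, pow_zero]
  have han : AnalyticAt ℂ (G ∘ ofComplex) (τ : ℂ) :=
    (UpperHalfPlane.mdifferentiable_iff.1 hG).analyticAt
      (isOpen_upperHalfPlaneSet.mem_nhds τ.im_pos)
  have hm : meromorphicOrderAt (G ∘ ofComplex) (τ : ℂ)
      = ((analyticOrderNatAt (G ∘ ofComplex) (τ : ℂ) : ℕ) : ℤ) := by
    rw [han.meromorphicOrderAt_eq, ← Nat.cast_analyticOrderNatAt hne]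
    rfl
  have h := local_denom_zpow_eq_one γ τ hγτ hinv han.meromorphicAt hm
  have e : (2 : ℤ) * ((analyticOrderNatAt (G ∘ ofComplex) (τ : ℂ) : ℕ) : ℤ)
      = ((2 * analyticOrderNatAt (G ∘ ofComplex) (τ : ℂ) : ℕ) : ℤ) := by push_cast; ring
  rw [e, zpow_natCast] at h
  exact h

/-- divisibility of the order of an invariant holomorphic function at a fixed point -/
lemma dict_dvd_of_invariant {G : ℍ → ℂ} (hG : MDiff G) (γ : SL(2, ℤ)) (τ : ℍ) (hγτ : γ • τ = τ)
    (hinv : ∀ z : ℍ, G (γ • z) = G z) (s : ℕ) (hprim : IsPrimitiveRoot ((denom γ τ) ^ 2) s) :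
    s ∣ analyticOrderNatAt (G ∘ ofComplex) (τ : ℂ) := by
  have h := dict_denom_pow_eq_one hG γ τ hγτ hinv
  rw [pow_mul] at h
  exact (hprim.pow_eq_one_iff_dvd _).1 h

variable (N : ℕ) [NeZero N]

/-- a `Γ₀(N)`-invariant element of `WH N`, as a function -/
lemma dict_inv_apply {a : WH N} (hai : ∀ γ ∈ Gamma0 N, γ • a = a) (γ : SL(2, ℤ))
    (hγ : γ ∈ Gamma0 N) (z : ℍ) : (a : ℍ → ℂ) (γ • z) = (a : ℍ → ℂ) z := by
  have h1 := wh_smul_apply γ⁻¹ a z
  rw [hai _ (inv_mem hγ), inv_inv] at h1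
  exact h1.symm

lemma dict_smul_apply {a : WH N} (g : SL(2, ℤ)) (hai : g • a = a) (z : ℍ) :
    (a : ℍ → ℂ) (g • z) = (a : ℍ → ℂ) z := by
  have h1 := wh_smul_apply g a (g • z)
  rw [hai, inv_smul_smul] at h1
  exact h1

/-- twisting by an element of `Γ₀(N)` does not change the embedding of the function field -/
lemma dict_embFC_twist_mem {E : WH N →+* LaurentSeries ℂ} (hE : Function.Injective E)
    (γ : SL(2, ℤ)) (hγ : γ ∈ Gamma0 N) :
    embFC N (twist N E γ) (twist_injective N hE γ) = embFC N E hE := by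
  apply FC_ringHom_ext
  · intro c
    rw [embFC_const, embFC_const, twist_apply, smul_whC]
  · intro d _ hd
    rw [embFC_jdFC, embFC_jdFC, twist_apply, smul_jdWH hd γ hγ]

/-- the order of an expansion at `g⁻¹ • τ₀` -/
lemma dict_order_twist (τ₀ : ℍ) (g : SL(2, ℤ)) (f : FC N) :
    (embFC N (twist N (expAt N τ₀) g) (twist_injective N (expAt_injective N τ₀) g) f).order
      = (embFC N (expAt N (g⁻¹ • τ₀)) (expAt_injective N _) f).order := by
  by_cases hf : f = 0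
  · subst hf; simp
  obtain ⟨a, b, hb, -, -, hab⟩ := embFC_exists_div N f
  rw [order_embFC_of_repr N hf hb _ (twist_injective N (expAt_injective N τ₀) g) (hab _ _),
    order_embFC_of_repr N hf hb _ (expAt_injective N _) (hab _ _), twist_apply, twist_apply,
    expAt_order_smul, expAt_order_smul]

/-! ### The stabiliser generator at a point of `ℍ` -/

lemma dict_conj_pow_neg_one (h g : SL(2, ℤ)) (n : ℕ) (hg : g ^ n = -1) :
    (h * g * h⁻¹) ^ n = -1 := by
  rw [conj_pow, hg, mul_neg, mul_one, neg_mul, mul_inv_cancel]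

lemma dict_isPrimitiveRoot_neg_one : IsPrimitiveRoot (-1 : ℂ) 2 :=
  IsPrimitiveRoot.neg_one 0 (by norm_num)

omit [NeZero N] in
/-- the generator `g₀` of the stabiliser of `τ` in `SL(2,ℤ)/±1`, with its order `s`. -/
theorem dict_exists_gen (τ : ℍ) : ∃ (g₀ : SL(2, ℤ)) (s : ℕ), 0 < s ∧ g₀ • τ = τ ∧
    (expAt N τ (jWH N - ⟨Function.const ℍ (jH τ), isWH_const N (jH τ)⟩)).order = s ∧
    IsPrimitiveRoot ((denom g₀ τ) ^ 2) s ∧
    ((s = 1 ∧ g₀ = 1) ∨ (s.Prime ∧ g₀ ^ s = -1)) := by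
  by_cases h4 : E₄ τ = 0
  · obtain ⟨γ, hγ⟩ := (E₄_eq_zero_iff τ).1 h4
    have hST : (S * T : SL(2, ℤ)) • (ρ : ℍ) = ρ := by
      have := expAt_ST_smul_ρ
      rw [inv_smul_eq_iff] at this
      exact this.symm
    refine ⟨γ * (S * T) * γ⁻¹, 3, by norm_num, ?_, ?_, ?_, Or.inr ⟨Nat.prime_three, ?_⟩⟩
    · rw [← hγ, mul_smul, mul_smul, inv_smul_smul, hST]
    · rw [expAt_order_jWH_sub, if_pos h4]
      rfl
    · rw [← hγ, dict_denom_conj γ (S * T) ρ hST, local_denom_ST_ρ]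
      have e1 : ((ρ : ℂ) + 1) ^ 2 = (ρ : ℂ) := by linear_combination local_ρ_sq_add
      rw [e1]
      exact local_isPrimitiveRoot_ρ
    · exact dict_conj_pow_neg_one γ (S * T) 3 fib_ST_pow_three
  by_cases h6 : E₆ τ = 0
  · obtain ⟨γ, hγ⟩ := (E₆_eq_zero_iff τ).1 h6
    have hS : (S : SL(2, ℤ)) • (I : ℍ) = I := by
      have := expAt_S_smul_I
      rw [inv_smul_eq_iff] at this
      exact this.symm
    refine ⟨γ * S * γ⁻¹, 2, by norm_num, ?_, ?_, ?_, Or.inr ⟨Nat.prime_two, ?_⟩⟩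
    · rw [← hγ, mul_smul, mul_smul, inv_smul_smul, hS]
    · rw [expAt_order_jWH_sub, if_neg h4, if_pos h6]
      rfl
    · rw [← hγ, dict_denom_conj γ S I hS, local_denom_S_I]
      have e1 : (Complex.I) ^ 2 = -1 := Complex.I_sq
      rw [e1]
      exact dict_isPrimitiveRoot_neg_one
    · exact dict_conj_pow_neg_one γ S 2 fib_S_pow_two
  · refine ⟨1, 1, one_pos, one_smul _ _, ?_, ?_, Or.inl ⟨rfl, rfl⟩⟩
    · rw [expAt_order_jWH_sub, if_neg h4, if_neg h6]
      rfl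
    · rw [dict_denom_one, one_pow]
      exact IsPrimitiveRoot.one

/-! ### The dictionary at the points of `ℍ` -/

/-- `w` is the place of `FC N` at the point `τ ∈ ℍ`, with ramification index `e`. -/
def IsDictAt (τ : ℍ) (w : Place ℂ (FC N)) (e : ℕ) : Prop :=
  0 < e ∧
  (∀ f : FC N, f ≠ 0 →
    (embFC N (expAt N τ) (expAt_injective N τ) f).order = (e : ℤ) * w.ord f) ∧
  (∀ γ ∈ Gamma0 N, γ • τ = τ → (denom γ τ) ^ (2 * e) = 1) ∧
  (∀ G : ℍ → ℂ, MDiff G → (∀ γ ∈ Gamma0 N, γ • τ = τ → ∀ z : ℍ, G (γ • z) = G z) →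
    e ∣ analyticOrderNatAt (G ∘ ofComplex) (τ : ℂ))

/-- the `denom`-form of the ramification index is a consequence of the order formula -/
lemma dict_denom_of_order {τ : ℍ} {w : Place ℂ (FC N)} {e : ℕ}
    (hform : ∀ f : FC N, f ≠ 0 →
      (embFC N (expAt N τ) (expAt_injective N τ) f).order = (e : ℤ) * w.ord f)
    (γ : SL(2, ℤ)) (hγ : γ ∈ Gamma0 N) (hγτ : γ • τ = τ) : (denom γ τ) ^ (2 * e) = 1 := by
  obtain ⟨π, hπ⟩ := ffExistsIrreducible w
  have hπ0 : (π : FC N) ≠ 0 := by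
    simpa [ne_eq, ZeroMemClass.coe_eq_zero] using hπ.ne_zero
  have hπ1 : w.ord (π : FC N) = 1 := w.ord_coe_irreducible hπ
  have h1 := hform π hπ0
  rw [hπ1, mul_one] at h1
  obtain ⟨a, b, hb, hai, hbi, hab⟩ := embFC_exists_div N (π : FC N)
  have h2 := order_embFC_of_repr N hπ0 hb _ (expAt_injective N τ) (hab _ _)
  rw [h1, expAt_order, expAt_order] at h2
  have ha := dict_denom_pow_eq_one a.2.mdiff γ τ hγτ (dict_inv_apply N hai γ hγ)
  have hb' := dict_denom_pow_eq_one b.2.mdiff γ τ hγτ (dict_inv_apply N hbi γ hγ)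
  set ma := analyticOrderNatAt ((a : ℍ → ℂ) ∘ ofComplex) (τ : ℂ) with hma
  set mb := analyticOrderNatAt ((b : ℍ → ℂ) ∘ ofComplex) (τ : ℂ) with hmb
  have h3 : ma = e + mb := by omega
  rw [h3, mul_add, pow_add, hb', mul_one] at ha
  exact ha

omit [NeZero N] in
lemma dict_card_orbit_of_fixed (g : SL(2, ℤ)) (q : SL(2, ℤ) ⧸ Gamma0 N) (hq : g • q = q) :
    Nat.card (MulAction.orbit (Subgroup.zpowers g) q) = 1 := by
  have h : MulAction.orbit (Subgroup.zpowers g) q = {q} := by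
    ext x
    constructor
    · rintro ⟨⟨c, hc⟩, rfl⟩
      obtain ⟨k, rfl⟩ := Subgroup.mem_zpowers_iff.1 hc
      show g ^ k • q = q
      exact MulAction.zpow_smul_eq_iff_period_dvd.2 (by
        have : MulAction.period g q = 1 := MulAction.period_eq_one_iff.2 hq
        rw [this]; exact one_dvd _)
    · rintro rfl
      exact MulAction.mem_orbit_self _
  rw [h]
  simp

/-- the fibre data over `j = j(τ)` with base point `τ` -/
theorem dict_exists_fiber (τ : ℍ) : ∃ (g₀ : SL(2, ℤ)) (s : ℕ)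
    (D : FiberData ℂ (FC N) ℂ (jFC N - algebraMap ℂ (FC N) (jH τ)) (SL(2, ℤ) ⧸ Gamma0 N) g₀),
    0 < s ∧ D.s = s ∧ D.σ = sigmaAtC N τ ∧ g₀ • τ = τ ∧ IsPrimitiveRoot ((denom g₀ τ) ^ 2) s ∧
    (∀ q : SL(2, ℤ) ⧸ Gamma0 N,
      g₀ • q = q ∨ Nat.card (MulAction.orbit (Subgroup.zpowers g₀) q) = s) := by
  obtain ⟨g₀, s, hs, hfix, hord, hprim, hcase⟩ := dict_exists_gen N τ
  have hg : g₀⁻¹ • τ = τ := by rw [inv_smul_eq_iff, hfix]
  have hdvd : ∀ f : WH N, g₀ • f = f → (s : ℤ) ∣ (expAt N τ f).order := by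
    intro f hf
    rw [expAt_order]
    have hinv : ∀ z : ℍ, (f : ℍ → ℂ) (g₀ • z) = (f : ℍ → ℂ) z := dict_smul_apply N g₀ hf
    exact_mod_cast dict_dvd_of_invariant f.2.mdiff g₀ τ hfix hinv s hprim
  have horb : ∀ q : SL(2, ℤ) ⧸ Gamma0 N,
      g₀ • q = q ∨ Nat.card (MulAction.orbit (Subgroup.zpowers g₀) q) = s := by
    intro q
    rcases hcase with ⟨-, rfl⟩ | ⟨hsp, hpow⟩
    · exact Or.inl (one_smul _ q)
    · exact fib_orbit_card N g₀ hsp q (by rw [hpow]; exact fib_neg_one_smul N q)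
  exact ⟨g₀, s, fiberAtC N (jH τ) τ rfl g₀ hg s hs hord hdvd horb, hs, rfl, rfl, hfix, hprim, horb⟩

/-- **Dictionary, finite part (existence).** Every point of `ℍ` has a place. -/
theorem dict_fin (τ : ℍ) : ∃ (w : Place ℂ (FC N)) (e : ℕ), IsDictAt N τ w e := by
  obtain ⟨g₀, s, D, hs, hDs, hDσ, hfix, hprim, horb⟩ := dict_exists_fiber N τ
  haveI : Nonempty (SL(2, ℤ) ⧸ Gamma0 N) := ⟨QuotientGroup.mk 1⟩
  set i : SL(2, ℤ) ⧸ Gamma0 N := QuotientGroup.mk 1 with hi
  obtain ⟨e, he, hes, hform⟩ := fiber_exact_index D i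
  rw [hDs] at hes
  have hout : i.out ∈ Gamma0 N := by
    have h1 : (1 : SL(2, ℤ))⁻¹ * i.out ∈ Gamma0 N := by
      rw [← QuotientGroup.eq, hi]
      exact (QuotientGroup.out_eq' _).symm
    simpa using h1
  have hσ : D.σ i = embFC N (expAt N τ) (expAt_injective N τ) := by
    rw [hDσ]
    exact dict_embFC_twist_mem N (expAt_injective N τ) i.out hout
  have hform' : ∀ f : FC N, f ≠ 0 →
      (embFC N (expAt N τ) (expAt_injective N τ) f).order = (e : ℤ) * (D.place i).ord f := by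
    intro f hf
    rw [← hσ]
    exact hform f hf
  refine ⟨D.place i, e, he, hform', fun γ hγ hγτ => dict_denom_of_order N hform' γ hγ hγτ, ?_⟩
  intro G hG hGinv
  rcases horb i with hfixed | hcard
  · -- `g₀ ∈ Γ₀(N)` and `e = s`
    have hmem : g₀ ∈ Gamma0 N := by
      have h1 : (1 : SL(2, ℤ))⁻¹ * g₀ ∈ Gamma0 N := by
        rw [← QuotientGroup.eq]
        have : g₀ • i = ((g₀ * 1 : SL(2, ℤ)) : SL(2, ℤ) ⧸ Gamma0 N) := rfl
        rw [mul_one] at this
        rw [← this, hfixed]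
      simpa using h1
    have hone := dict_card_orbit_of_fixed N g₀ i hfixed
    have hes' : e * 1 = s := (congrArg (fun n => e * n) hone).symm.trans hes
    rw [mul_one] at hes'
    rw [hes']
    exact dict_dvd_of_invariant hG g₀ τ hfix (hGinv g₀ hmem hfix) s hprim
  · have hes' : e * s = s := (congrArg (fun n => e * n) hcard).symm.trans hes
    have he1 : e = 1 := by
      have : e * s = 1 * s := by rw [hes', one_mul]
      exact Nat.eq_of_mul_eq_mul_right hs this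
    rw [he1]
    exact one_dvd _

/-- two places with proportional order functions are equal -/
lemma dict_place_eq {K F : Type*} [Field K] [Field F] [Algebra K F] {w w' : Place K F} {e m : ℕ}
    (he : 0 < e) (hm : 0 < m)
    (h : ∀ f : F, f ≠ 0 → (e : ℤ) * w'.ord f = (m : ℤ) * w.ord f) : w' = w := by
  apply Place.ext
  ext f
  rcases eq_or_ne f 0 with rfl | hf
  · simp
  rw [ffMem_iff_ord_nonneg, ffMem_iff_ord_nonneg]
  have he' : (0 : ℤ) < e := by exact_mod_cast he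
  have hm' : (0 : ℤ) < m := by exact_mod_cast hm
  have := h f hf
  constructor
  · intro h1
    by_contra h2
    push Not at h2
    have h3 := mul_neg_of_pos_of_neg hm' h2
    have h4 := mul_nonneg he'.le h1
    omega
  · intro h1
    by_contra h2
    push Not at h2
    have h3 := mul_neg_of_pos_of_neg he' h2
    have h4 := mul_nonneg hm'.le h1
    omega

/-- **Dictionary, finite part (exhaustion).** Every place at which `j` is regular is the place of
a point of `ℍ`. -/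
theorem dict_fin' (w : Place ℂ (FC N)) (hw : 0 ≤ w.ord (jFC N)) :
    ∃ (τ : ℍ) (e : ℕ), IsDictAt N τ w e := by
  haveI := k2_ffData_FC N
  haveI : Nonempty (SL(2, ℤ) ⧸ Gamma0 N) := ⟨QuotientGroup.mk 1⟩
  obtain ⟨c, hc⟩ := ffExists_center w (FFData.trans (K := ℂ) (x := jFC N)) hw
  obtain ⟨τ₁, rfl⟩ := exists_jH_eq c
  obtain ⟨g₀, s, D, -, -, hDσ, -, -, -⟩ := dict_exists_fiber N τ₁
  obtain ⟨i, m, hm, h⟩ := D.exists_index w hc
  obtain ⟨w', e, hdict⟩ := dict_fin N (i.out⁻¹ • τ₁)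
  have hww' : w' = w := by
    refine dict_place_eq hdict.1 hm fun f hf => ?_
    rw [← hdict.2.1 f hf, ← h f hf, hDσ]
    exact (dict_order_twist N τ₁ i.out f).symm
  exact ⟨i.out⁻¹ • τ₁, e, hww' ▸ hdict⟩

end Fermat.Agent.AJlib
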