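/-
Item 69 (AJ), Layer P5, cusps (helper4): the places ↔ cusps dictionary of `FC N` over `ℂ` with
EXACT ramification.

* `IsDictInf N g w e` : `w` is the place of `FC N` at the cusp `g⁻¹ ∞`: for all `f ≠ 0` the
  `q_N`-expansion of `f ∘ g⁻¹` (= `embFC N (twist N (expInf N) g) f`) has order `e · w.ord f`,
  where `e · width = N` and `width` is the width of the cusp: `g⁻¹ T^k g ∈ Γ₀(N) ↔ width ∣ k`;
* `dict_inf`  : every `g ∈ SL(2,ℤ)` has a place;
* `dict_inf'` : every place with `ord j < 0` is of this form.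
-/
import Mathlib
import Fermat.Agent.AJlib.CK2
import Fermat.Agent.AJlib.CFibersInf
import Fermat.Agent.AJlib.AlgExact

set_option autoImplicit false

open scoped MatrixGroups ModularForm Manifold Topology
open UpperHalfPlane ModularForm CongruenceSubgroup Filter ModularGroup ModularCurve
  IntermediateField AlgebraicCurve

namespace Fermat.Agent.AJlib

open Fermat.Agent.S24lib

variable (N : ℕ) [NeZero N]

/-- `w` is the place of `FC N` at the cusp `g⁻¹ ∞`, with ramification index `e` relative to `q_N`. -/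
def IsDictInf (g : SL(2, ℤ)) (w : Place ℂ (FC N)) (e : ℕ) : Prop :=
  0 < e ∧
  (∀ f : FC N, f ≠ 0 →
    (embFC N (twist N (expInf N) g) (twist_injective N (expInf_injective N) g) f).order
      = (e : ℤ) * w.ord f) ∧
  ∃ width : ℕ, 0 < width ∧ e * width = N ∧
    ∀ k : ℤ, g⁻¹ * T ^ k * g ∈ Gamma0 N ↔ (width : ℤ) ∣ k

omit [NeZero N] in
lemma dictInf_smul_eq_iff (g : SL(2, ℤ)) (k : ℤ) :
    (T ^ k : SL(2, ℤ)) • (QuotientGroup.mk g : SL(2, ℤ) ⧸ Gamma0 N) = QuotientGroup.mk g ↔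
      g⁻¹ * T ^ k * g ∈ Gamma0 N := by
  have h : (T ^ k : SL(2, ℤ)) • (QuotientGroup.mk g : SL(2, ℤ) ⧸ Gamma0 N)
      = QuotientGroup.mk (T ^ k * g) := rfl
  rw [h, eq_comm, QuotientGroup.eq, mul_assoc]

omit [NeZero N] in
lemma dictInf_card_orbit (q : SL(2, ℤ) ⧸ Gamma0 N) [Fintype (SL(2, ℤ) ⧸ Gamma0 N)] :
    Nat.card (MulAction.orbit (Subgroup.zpowers (T : SL(2, ℤ))) q)
      = Function.minimalPeriod ((T : SL(2, ℤ)) • · ) q := by
  classical
  have e := MulAction.orbitZPowersEquiv (T : SL(2, ℤ)) q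
  have hpos : Function.minimalPeriod ((T : SL(2, ℤ)) • · ) q ≠ 0 := by
    haveI : Finite (MulAction.orbit (Subgroup.zpowers (T : SL(2, ℤ))) q) :=
      Finite.of_injective (fun x => (x : SL(2, ℤ) ⧸ Gamma0 N)) Subtype.val_injective
    exact (MulAction.minimalPeriod_pos (a := (T : SL(2, ℤ))) (b := q)).out
  haveI : NeZero (Function.minimalPeriod ((T : SL(2, ℤ)) • · ) q) := ⟨hpos⟩
  exact (Nat.card_congr e).trans (Nat.card_zmod _)

/-- the dictionary at the expansion with index `i` -/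
theorem dict_inf_index (i : SL(2, ℤ) ⧸ Gamma0 N) (g : SL(2, ℤ))
    (hg : (QuotientGroup.mk g : SL(2, ℤ) ⧸ Gamma0 N) = i) :
    ∃ e : ℕ, IsDictInf N g ((fiberInfC N).place i) e := by
  haveI : Nonempty (SL(2, ℤ) ⧸ Gamma0 N) := ⟨QuotientGroup.mk 1⟩
  obtain ⟨e, he, hes, hform⟩ := fiber_exact_index (fiberInfC N) i
  have hs : (fiberInfC N).s = N := rfl
  rw [hs] at hes
  have hσ : (fiberInfC N).σ i = embFC N (twist N (expInf N) g)
      (twist_injective N (expInf_injective N) g) := σInfC_eq_of_mk N i g hg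
  refine ⟨e, he, fun f hf => ?_, ?_⟩
  · rw [← hσ]
    exact hform f hf
  · have hcard := dictInf_card_orbit N i
    have hes' : e * Function.minimalPeriod ((T : SL(2, ℤ)) • · ) i = N :=
      (congrArg (fun n => e * n) hcard).symm.trans hes
    have hN : 0 < N := Nat.pos_of_ne_zero (NeZero.ne N)
    refine ⟨Function.minimalPeriod ((T : SL(2, ℤ)) • · ) i, ?_, hes', fun k => ?_⟩
    · rcases Nat.eq_zero_or_pos (Function.minimalPeriod ((T : SL(2, ℤ)) • · ) i) with h0 | h0
      · rw [h0, mul_zero] at hes'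
        omega
      · exact h0
    · rw [← dictInf_smul_eq_iff, hg]
      exact MulAction.zpow_smul_eq_iff_minimalPeriod_dvd

/-- **Dictionary at the cusps (existence).** -/
theorem dict_inf (g : SL(2, ℤ)) : ∃ (w : Place ℂ (FC N)) (e : ℕ), IsDictInf N g w e := by
  obtain ⟨e, he⟩ := dict_inf_index N (QuotientGroup.mk g) g rfl
  exact ⟨_, e, he⟩

/-- **Dictionary at the cusps (exhaustion).** Every pole of `j` is the place of a cusp. -/
theorem dict_inf' (w : Place ℂ (FC N)) (hw : w.ord (jFC N) < 0) :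
    ∃ (g : SL(2, ℤ)) (e : ℕ), IsDictInf N g w e := by
  haveI : Nonempty (SL(2, ℤ) ⧸ Gamma0 N) := ⟨QuotientGroup.mk 1⟩
  have hw' : 0 < w.ord (jFC N)⁻¹ := by
    rw [w.ord_inv]; omega
  obtain ⟨i, m, hm, h⟩ := (fiberInfC N).exists_index w hw'
  have hpl : (fiberInfC N).place i = w := (fiberInfC N).place_eq_of_index hm h
  obtain ⟨e, he⟩ := dict_inf_index N i i.out (QuotientGroup.out_eq' i)
  exact ⟨i.out, e, hpl ▸ he⟩

end Fermat.Agent.AJlib
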