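/-
Item 69 (AJ), corollaries of K2 and of the dictionary (helper4): a `Γ₀(N)`-invariant `b ∈ WH N` is
(the image of) an element `f` of `FC N`, all expansions of `f` are the expansions of `b`, hence
the orders of the expansions of `b` are `e · w.ord f`.
-/
import Mathlib
import Fermat.Agent.AJlib.CDict
import Fermat.Agent.AJlib.CDictInf

set_option autoImplicit false

open scoped MatrixGroups ModularForm Manifold Topology
open UpperHalfPlane ModularForm CongruenceSubgroup Filter ModularGroup ModularCurve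
  IntermediateField AlgebraicCurve

namespace Fermat.Agent.AJlib

open Fermat.Agent.S24lib

variable (N : ℕ) [NeZero N]

/-- K2 in terms of expansions. -/
theorem k2_embFC_eq (b : WH N) (hinv : ∀ γ ∈ Gamma0 N, γ • b = b) :
    ∃ f : FC N, ιFC N f = algebraMap (WH N) (MF N) b ∧ (b ≠ 0 → f ≠ 0) ∧
      ∀ (E : WH N →+* LaurentSeries ℂ) (hE : Function.Injective E), embFC N E hE f = E b := by
  obtain ⟨f, hf⟩ := k2_mem_range N b hinv
  refine ⟨f, hf, ?_, fun E hE => ?_⟩
  · rintro hb rfl
    apply hb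
    rw [map_zero] at hf
    exact algebraMap_MF_injective N (by rw [← hf, map_zero])
  · unfold embFC
    rw [RingHom.comp_apply, hf, liftMF_algebraMap]

/-- orders of a `Γ₀(N)`-invariant element of `WH N` at the points of `ℍ` and at the cusps -/
theorem dict_order_of_invariant (b : WH N) (hb : b ≠ 0) (hinv : ∀ γ ∈ Gamma0 N, γ • b = b) :
    ∃ f : FC N, f ≠ 0 ∧ ιFC N f = algebraMap (WH N) (MF N) b ∧
      (∀ (τ : ℍ) (w : Place ℂ (FC N)) (e : ℕ), IsDictAt N τ w e →
        (expAt N τ b).order = (e : ℤ) * w.ord f) ∧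
      (∀ (g : SL(2, ℤ)) (w : Place ℂ (FC N)) (e : ℕ), IsDictInf N g w e →
        (expInf N (g • b)).order = (e : ℤ) * w.ord f) := by
  obtain ⟨f, hf, hf0, hE⟩ := k2_embFC_eq N b hinv
  refine ⟨f, hf0 hb, hf, fun τ w e h => ?_, fun g w e h => ?_⟩
  · rw [← h.2.1 f (hf0 hb), hE]
  · rw [← h.2.1 f (hf0 hb), hE, twist_apply]

end Fermat.Agent.AJlib
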