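/-
Item 69 (AJ), Layer C, definition: the character of an analytic `n`-th root of a modular function
(helper22).  Blueprint: NOTES/AJ_blueprint.md.
-/
import Mathlib
import Fermat.Agent.AJlib.CSym

set_option autoImplicit false

open scoped MatrixGroups ModularForm Manifold Topology
open UpperHalfPlane ModularForm CongruenceSubgroup Filter ModularCurve

namespace Fermat.Agent.AJlib

open Fermat.Agent.S24lib

/-- `χ` is the character of an analytic `n`-th root of `f ∈ FC N`: `f = a / b` with `a, b` weakly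
holomorphic and `Γ₀(N)`-invariant, `G` holomorphic on `ℍ` with `G ^ n = a * b ^ (n-1)`
(so that `(G / b) ^ n = f`) and `G ∘ γ = χ(γ) · G` for `γ ∈ Γ₀(N)`. -/
def IsKummerChar (N n : ℕ) [NeZero N] (f : FC N) (χ : ↥(Gamma0 N) →* ℂˣ) : Prop :=
  ∃ (a b : WH N) (G : ℍ → ℂ), b ≠ 0 ∧ (∀ γ ∈ Gamma0 N, γ • a = a) ∧ (∀ γ ∈ Gamma0 N, γ • b = b) ∧
    ιFC N f * algebraMap (WH N) (MF N) b = algebraMap (WH N) (MF N) a ∧
    MDiff G ∧ G ≠ 0 ∧ (∀ z, G z ^ n = (a : ℍ → ℂ) z * (b : ℍ → ℂ) z ^ (n - 1)) ∧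
    ∀ (γ : ↥(Gamma0 N)) (z : ℍ), G ((γ : SL(2, ℤ)) • z) = ((χ γ : ℂˣ) : ℂ) * G z

end Fermat.Agent.AJlib
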