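/-
Item 69 (AJ), piece C1 (+ RC of C0): formal properties of the analytic Kummer character
(`IsKummerChar`): uniqueness, multiplicativity, `n`-th powers have trivial character, the character
is killed by `n`.  (helper22)
-/
import Mathlib
import Fermat.Agent.AJlib.CSym
import Fermat.Agent.AJlib.KummerCharDef
import Fermat.Agent.AJlib.Roots

set_option autoImplicit false

open scoped MatrixGroups ModularForm Manifold Topology
open UpperHalfPlane ModularForm CongruenceSubgroup Filter AlgebraicCurve ModularCurve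

namespace Fermat.Agent.AJlib
open Fermat.Agent.S24lib

/-! ### holomorphic functions on `ℍ` -/

/-- identity theorem on `ℍ`: a holomorphic function vanishing near a point vanishes. -/
theorem kc_eq_zero_of_eventually {f : ℍ → ℂ} (hf : MDiff f) {τ : ℍ}
    (h : ∀ᶠ z in 𝓝 τ, f z = 0) : f = 0 := by
  apply UpperHalfPlane.eq_zero_of_frequently hf (τ := τ)
  exact (h.filter_mono nhdsWithin_le_nhds).frequently

lemma kc_exists_ne {f : ℍ → ℂ} (hf : f ≠ 0) : ∃ z, f z ≠ 0 := by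
  by_contra h
  push Not at h
  exact hf (funext h)

/-- the holomorphic functions on `ℍ` have no zero divisors -/
theorem kc_mul_ne_zero {f g : ℍ → ℂ} (hf : MDiff f) (hg : MDiff g) (hf0 : f ≠ 0) (hg0 : g ≠ 0) :
    f * g ≠ 0 := by
  intro h
  obtain ⟨z, hz⟩ := kc_exists_ne hf0
  apply hg0
  apply kc_eq_zero_of_eventually hg (τ := z)
  have hc : ContinuousAt f z := (hf z).continuousAt
  filter_upwards [hc.eventually_ne hz] with w hw
  have := congrFun h w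
  simp only [Pi.mul_apply, Pi.zero_apply, mul_eq_zero] at this
  exact this.resolve_left hw

theorem kc_pow_ne_zero {f : ℍ → ℂ} (hf0 : f ≠ 0) (n : ℕ) : f ^ n ≠ 0 := by
  obtain ⟨z, hz⟩ := kc_exists_ne hf0
  intro h
  have h1 : f z ^ n = 0 := congrFun h z
  exact pow_ne_zero n hz h1

/-- **RC**: two holomorphic functions on `ℍ` with the same `n`-th power differ by an `n`-th root
of unity. -/
theorem kc_roots_differ {n : ℕ} (hn : 0 < n) {G₁ G₂ : ℍ → ℂ} (h₁ : MDiff G₁) (h₂ : MDiff G₂)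
    (h0 : G₂ ≠ 0) (hpow : ∀ z, G₁ z ^ n = G₂ z ^ n) :
    ∃ ζ : ℂ, ζ ^ n = 1 ∧ ∀ z, G₁ z = ζ * G₂ z := by
  obtain ⟨z₀, hz₀⟩ := kc_exists_ne h0
  set ζ : ℂ := G₁ z₀ / G₂ z₀ with hζ
  have hζn : ζ ^ n = 1 := by
    rw [hζ, div_pow, hpow z₀, div_self (pow_ne_zero n hz₀)]
  have hζ0 : ζ ≠ 0 := by
    intro h
    rw [h, zero_pow hn.ne'] at hζn
    exact zero_ne_one hζn
  refine ⟨ζ, hζn, ?_⟩
  -- the difference vanishes near `z₀`
  have hd : MDiff (fun z => G₁ z - ζ * G₂ z) := h₁.sub (mdifferentiable_const.mul h₂)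
  have hev : ∀ᶠ z in 𝓝 z₀, G₁ z - ζ * G₂ z = 0 := by
    have e := root_eventuallyEq hn (r₁ := G₁ ∘ ofComplex) (r₂ := fun w => ζ * G₂ (ofComplex w))
      (w := (z₀ : ℂ)) ?_ ?_ ?_ ?_ ?_
    · have hcoe : Tendsto ((↑) : ℍ → ℂ) (𝓝 z₀) (𝓝 (z₀ : ℂ)) :=
        continuous_induced_dom.continuousAt
      filter_upwards [hcoe.eventually e] with z hz
      simp only [Function.comp_apply, ofComplex_apply] at hz
      rw [hz, sub_self]
    · exact (mdifferentiableAt_iff.1 (h₁ z₀)).continuousAt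
    · exact (continuousAt_const.mul (mdifferentiableAt_iff.1 (h₂ z₀)).continuousAt)
    · simp only [Function.comp_apply, ofComplex_apply]
      rw [hζ, div_mul_cancel₀ _ hz₀]
    · simp only [Function.comp_apply, ofComplex_apply]
      intro h
      apply hζ0
      rw [hζ, h, zero_div]
    · refine Eventually.of_forall fun w => ?_
      simp only [Function.comp_apply]
      rw [mul_pow, hζn, one_mul, hpow]
  intro z
  have h3 : G₁ z - ζ * G₂ z = 0 := congrFun (kc_eq_zero_of_eventually hd hev) z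
  exact sub_eq_zero.1 h3

/-! ### invariance -/

lemma kc_inv_apply {N : ℕ} {a : WH N} (ha : ∀ γ ∈ Gamma0 N, γ • a = a) (γ : ↥(Gamma0 N)) (z : ℍ) :
    (a : ℍ → ℂ) ((γ : SL(2, ℤ)) • z) = (a : ℍ → ℂ) z := by
  have h := ha (γ⁻¹ : ↥(Gamma0 N)) (γ⁻¹ : ↥(Gamma0 N)).2
  have h2 : ((((γ⁻¹ : ↥(Gamma0 N)) : SL(2, ℤ)) • a : WH N) : ℍ → ℂ) z = (a : ℍ → ℂ) z :=
    congrArg (fun b : WH N => (b : ℍ → ℂ) z) h
  rw [wh_smul_apply] at h2
  simpa using h2

lemma kc_coe_ne_zero {N : ℕ} {b : WH N} (hb : b ≠ 0) : (b : ℍ → ℂ) ≠ 0 := by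
  intro h
  exact hb (Subtype.ext h)

/-! ### C1 -/

/-- C1a -/
theorem isKummerChar_unique {N n : ℕ} [NeZero N] (hn : 0 < n) {f : FC N}
    {χ χ' : ↥(Gamma0 N) →* ℂˣ} (h : IsKummerChar N n f χ) (h' : IsKummerChar N n f χ') :
    χ = χ' := by
  obtain ⟨a, b, G, hb, ha_inv, hb_inv, hab, hG, hG0, hGn, hGχ⟩ := h
  obtain ⟨a', b', G', hb', ha'_inv, hb'_inv, hab', hG', hG'0, hG'n, hG'χ⟩ := h'
  -- `a * b' = a' * b`
  have hcross : a * b' = a' * b := by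
    apply IsFractionRing.injective (WH N) (MF N)
    rw [map_mul, map_mul, ← hab, ← hab']
    ring
  have hcross' : ∀ z, (a : ℍ → ℂ) z * (b' : ℍ → ℂ) z = (a' : ℍ → ℂ) z * (b : ℍ → ℂ) z := by
    intro z
    have := congrArg (fun c : WH N => (c : ℍ → ℂ) z) hcross
    simpa using this
  have hbm : MDiff (b : ℍ → ℂ) := IsWH.mdiff b.2
  have hb'm : MDiff (b' : ℍ → ℂ) := IsWH.mdiff b'.2
  have hne : G' * (b : ℍ → ℂ) ≠ 0 := kc_mul_ne_zero hG' hbm hG'0 (kc_coe_ne_zero hb)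
  obtain ⟨ζ, hζn, hζ⟩ := kc_roots_differ hn (G₁ := G * (b' : ℍ → ℂ)) (G₂ := G' * (b : ℍ → ℂ))
    (hG.mul hb'm) (hG'.mul hbm) hne (by
      intro z
      simp only [Pi.mul_apply]
      rw [mul_pow, mul_pow, hGn, hG'n]
      obtain ⟨m, rfl⟩ : ∃ m, n = m + 1 := ⟨n - 1, by omega⟩
      simp only [Nat.add_sub_cancel]
      have := hcross' z
      calc (a : ℍ → ℂ) z * (b : ℍ → ℂ) z ^ m * (b' : ℍ → ℂ) z ^ (m + 1)
          = ((a : ℍ → ℂ) z * (b' : ℍ → ℂ) z) * ((b : ℍ → ℂ) z ^ m * (b' : ℍ → ℂ) z ^ m) := by ring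
        _ = ((a' : ℍ → ℂ) z * (b : ℍ → ℂ) z) * ((b : ℍ → ℂ) z ^ m * (b' : ℍ → ℂ) z ^ m) := by
            rw [this]
        _ = (a' : ℍ → ℂ) z * (b' : ℍ → ℂ) z ^ m * (b : ℍ → ℂ) z ^ (m + 1) := by ring)
  have hζ0 : ζ ≠ 0 := by
    intro h
    rw [h, zero_pow hn.ne'] at hζn
    exact zero_ne_one hζn
  obtain ⟨z, hz⟩ := kc_exists_ne hne
  ext γ
  have e1 := hζ ((γ : SL(2, ℤ)) • z)
  simp only [Pi.mul_apply] at e1 hz
  rw [hGχ, hG'χ, kc_inv_apply hb_inv, kc_inv_apply hb'_inv] at e1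
  have e2 := hζ z
  simp only [Pi.mul_apply] at e2
  have e3 : ((χ γ : ℂˣ) : ℂ) * (ζ * (G' z * (b : ℍ → ℂ) z)) =
      ((χ' γ : ℂˣ) : ℂ) * (ζ * (G' z * (b : ℍ → ℂ) z)) := by
    linear_combination e1 - ((χ γ : ℂˣ) : ℂ) * e2
  exact mul_right_cancel₀ (mul_ne_zero hζ0 hz) e3

/-- C1b -/
theorem isKummerChar_mul {N n : ℕ} [NeZero N] (_hn : 0 < n) {f f' : FC N}
    {χ χ' : ↥(Gamma0 N) →* ℂˣ} (h : IsKummerChar N n f χ) (h' : IsKummerChar N n f' χ') :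
    IsKummerChar N n (f * f') (χ * χ') := by
  obtain ⟨a, b, G, hb, ha_inv, hb_inv, hab, hG, hG0, hGn, hGχ⟩ := h
  obtain ⟨a', b', G', hb', ha'_inv, hb'_inv, hab', hG', hG'0, hG'n, hG'χ⟩ := h'
  refine ⟨a * a', b * b', G * G', mul_ne_zero hb hb', ?_, ?_, ?_, hG.mul hG',
    kc_mul_ne_zero hG hG' hG0 hG'0, ?_, ?_⟩
  · intro γ hγ
    rw [smul_mul', ha_inv γ hγ, ha'_inv γ hγ]
  · intro γ hγ
    rw [smul_mul', hb_inv γ hγ, hb'_inv γ hγ]
  · rw [map_mul, map_mul, map_mul, ← hab, ← hab']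
    ring
  · intro z
    simp only [Pi.mul_apply, Subring.coe_mul]
    rw [mul_pow, hGn, hG'n, mul_pow]
    ring
  · intro γ z
    simp only [Pi.mul_apply, MonoidHom.mul_apply, Units.val_mul]
    rw [hGχ, hG'χ]
    ring

/-- C1c -/
theorem isKummerChar_pow {N n : ℕ} [NeZero N] (_hn : 0 < n) {f : FC N} (hf : f ≠ 0) :
    IsKummerChar N n (f ^ n) 1 := by
  obtain ⟨a, p, hp, ha_inv, hab⟩ := FC_repr N f
  set b := jpolyC N p with hbdef
  have hb : b ≠ 0 := jpolyC_ne_zero N hp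
  have hb_inv : ∀ γ ∈ Gamma0 N, γ • b = b := fun γ _ => smul_jpolyC N γ p
  have ha : a ≠ 0 := by
    rintro rfl
    rw [map_zero, mul_eq_zero] at hab
    rcases hab with h | h
    · exact hf ((map_eq_zero (ιFC N)).1 h)
    · exact hb ((map_eq_zero_iff _ (IsFractionRing.injective (WH N) (MF N))).1 h)
  refine ⟨a ^ n, b ^ n, (a : ℍ → ℂ) * (b : ℍ → ℂ) ^ (n - 1), pow_ne_zero n hb, ?_, ?_, ?_, ?_, ?_,
    ?_, ?_⟩
  · intro γ hγ
    rw [smul_pow', ha_inv γ hγ]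
  · intro γ hγ
    rw [smul_pow', hb_inv γ hγ]
  · rw [map_pow, map_pow, map_pow, ← hab, mul_pow]
  · exact (IsWH.mdiff a.2).mul ((IsWH.mdiff b.2).pow _)
  · exact kc_mul_ne_zero (IsWH.mdiff a.2) ((IsWH.mdiff b.2).pow _) (kc_coe_ne_zero ha)
      (kc_pow_ne_zero (kc_coe_ne_zero hb) _)
  · intro z
    simp only [Pi.mul_apply, Pi.pow_apply, Subring.coe_pow]
    rw [mul_pow, ← pow_mul, ← pow_mul, mul_comm (n - 1) n]
  · intro γ z
    simp only [Pi.mul_apply, Pi.pow_apply, MonoidHom.one_apply, Units.val_one, one_mul]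
    rw [kc_inv_apply ha_inv, kc_inv_apply hb_inv]

/-- C1d -/
theorem isKummerChar_pow_eq_one {N n : ℕ} [NeZero N] (_hn : 0 < n) {f : FC N}
    {χ : ↥(Gamma0 N) →* ℂˣ} (h : IsKummerChar N n f χ) : χ ^ n = 1 := by
  obtain ⟨a, b, G, hb, ha_inv, hb_inv, hab, hG, hG0, hGn, hGχ⟩ := h
  obtain ⟨z, hz⟩ := kc_exists_ne hG0
  ext γ
  have e1 := hGn ((γ : SL(2, ℤ)) • z)
  rw [hGχ, kc_inv_apply ha_inv, kc_inv_apply hb_inv, ← hGn z, mul_pow] at e1
  have e2 : ((χ γ : ℂˣ) : ℂ) ^ n = 1 := by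
    have hz' : G z ^ n ≠ 0 := pow_ne_zero n hz
    exact mul_right_cancel₀ hz' (by rw [e1, one_mul])
  simp only [MonoidHom.pow_apply, Units.val_pow_eq_pow_val, MonoidHom.one_apply, Units.val_one]
  exact e2

end Fermat.Agent.AJlib
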