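/-
Item 69 (AJ), pieces B3 and C3a (helper9): multipliers of roots at a cusp and at an elliptic
fixed point.

Main results (namespace `Fermat.Agent.AJlib`):
* `cusp_multiplier` : `G` continuous on `ℍ`, `G (T^w z) = c G z`, `G^n → a ≠ 0` at `i∞` ⇒ `c = 1`.
* `elliptic_multiplier` : `γ τ = τ`, `G (γ z) = c G z`, `G` holomorphic, `G ≠ 0` ⇒
  `c · denom(γ, τ)^(2 · ord_τ G) = 1`.
No sorry in this file.
-/
import Mathlib

set_option autoImplicit false

open scoped MatrixGroups ModularForm Manifold Topology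
open UpperHalfPlane ModularForm Filter Metric Set

namespace Fermat.Agent.AJlib

/-! ### B3: the multiplier at a cusp -/

/-- the principal `n`-th root near `1` -/
noncomputable def prRoot (n : ℕ) (x : ℂ) : ℂ := Complex.exp (Complex.log x / n)

lemma prRoot_ne_zero (n : ℕ) (x : ℂ) : prRoot n x ≠ 0 := Complex.exp_ne_zero _

lemma prRoot_one (n : ℕ) : prRoot n 1 = 1 := by simp [prRoot]

lemma prRoot_pow {n : ℕ} (hn : 0 < n) {x : ℂ} (hx : x ≠ 0) : prRoot n x ^ n = x := by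
  have hnC : (n : ℂ) ≠ 0 := Nat.cast_ne_zero.mpr hn.ne'
  rw [prRoot, ← Complex.exp_nat_mul, mul_div_cancel₀ _ hnC, Complex.exp_log hx]

lemma mem_slitPlane_of_mem_ball_one {x : ℂ} (hx : x ∈ ball (1 : ℂ) 1) : x ∈ Complex.slitPlane := by
  rw [Complex.mem_slitPlane_iff]
  left
  rw [mem_ball, dist_eq_norm] at hx
  have h1 : |(x - 1).re| ≤ ‖x - 1‖ := Complex.abs_re_le_norm _
  have h2 : (x - 1).re = x.re - 1 := by simp
  rw [h2] at h1
  have := (abs_le.mp (h1.trans hx.le)).1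
  have h3 : |x.re - 1| < 1 := lt_of_le_of_lt h1 hx
  have := (abs_lt.mp h3).1
  linarith

lemma ne_zero_of_mem_ball_one {x : ℂ} (hx : x ∈ ball (1 : ℂ) 1) : x ≠ 0 :=
  Complex.slitPlane_ne_zero (mem_slitPlane_of_mem_ball_one hx)

lemma prRoot_continuousAt (n : ℕ) {x : ℂ} (hx : x ∈ ball (1 : ℂ) 1) :
    ContinuousAt (prRoot n) x := by
  have h1 : ContinuousAt Complex.log x := continuousAt_clog (mem_slitPlane_of_mem_ball_one hx)
  unfold prRoot
  exact Complex.continuous_exp.continuousAt.comp (h1.div_const _)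

lemma isPreconnected_im_gt (R : ℝ) : IsPreconnected {z : ℍ | R < z.im} := by
  have hconv : Convex ℝ ({w : ℂ | 0 < w.im} ∩ {w : ℂ | R < w.im}) :=
    (convex_halfSpace_im_gt 0).inter (convex_halfSpace_im_gt R)
  have himg : ((↑) : ℍ → ℂ) '' {z : ℍ | R < z.im} = {w : ℂ | 0 < w.im} ∩ {w : ℂ | R < w.im} := by
    ext w
    constructor
    · rintro ⟨z, hz, rfl⟩
      exact ⟨z.im_pos, hz⟩
    · rintro ⟨hw0, hwR⟩
      exact ⟨⟨w, hw0⟩, hwR, rfl⟩
  have hind : Topology.IsInducing ((↑) : ℍ → ℂ) := UpperHalfPlane.isEmbedding_coe.isInducing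
  rw [← hind.isPreconnected_image, himg]
  exact hconv.isPreconnected

lemma im_T_pow_smul (w : ℕ) (z : ℍ) : ((ModularGroup.T ^ w) • z).im = z.im := by
  have := ModularGroup.im_T_zpow_smul z (w : ℤ)
  rwa [zpow_natCast] at this

lemma tendsto_T_pow_smul (w : ℕ) :
    Tendsto (fun z : ℍ => (ModularGroup.T ^ w) • z) atImInfty atImInfty := by
  unfold atImInfty
  rw [tendsto_comap_iff]
  have : (UpperHalfPlane.im ∘ fun z : ℍ => (ModularGroup.T ^ w) • z) = UpperHalfPlane.im := by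
    funext z
    exact im_T_pow_smul w z
  rw [this]
  exact tendsto_comap

/-- **B3.** The multiplier of a root at a cusp is trivial if the power has a nonzero limit. -/
theorem cusp_multiplier (n : ℕ) (hn : 0 < n) (G : ℍ → ℂ) (hG : Continuous G) (w : ℕ) (c a : ℂ)
    (ha : a ≠ 0) (hper : ∀ z : ℍ, G ((ModularGroup.T ^ w) • z) = c * G z)
    (hlim : Tendsto (fun z : ℍ => G z ^ n) atImInfty (𝓝 a)) : c = 1 := by
  have hu : Tendsto (fun z : ℍ => G z ^ n / a) atImInfty (𝓝 1) := by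
    have := hlim.div_const a
    rwa [div_self ha] at this
  have hev : ∀ᶠ z in atImInfty, G z ^ n / a ∈ ball (1 : ℂ) 1 := hu (ball_mem_nhds 1 one_pos)
  obtain ⟨R, hR⟩ := (atImInfty_mem _).mp hev
  have hball : ∀ z : ℍ, R < z.im → G z ^ n / a ∈ ball (1 : ℂ) 1 := fun z hz => hR z hz.le
  have hGne : ∀ z : ℍ, R < z.im → G z ≠ 0 := by
    intro z hz h0
    have := ne_zero_of_mem_ball_one (hball z hz)
    rw [h0, zero_pow hn.ne', zero_div] at this
    exact this rfl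
  -- the function `g = G / P(G^n/a)` is continuous with values in the roots of `a`
  have hgcont : ContinuousOn (fun z : ℍ => G z / prRoot n (G z ^ n / a)) {z : ℍ | R < z.im} := by
    intro z hz
    apply ContinuousAt.continuousWithinAt
    refine hG.continuousAt.div ?_ (prRoot_ne_zero _ _)
    have h1 : ContinuousAt (fun z : ℍ => G z ^ n / a) z := by fun_prop
    exact ContinuousAt.comp (f := fun z : ℍ => G z ^ n / a) (g := prRoot n)
      (prRoot_continuousAt n (hball z hz)) h1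
  have hgmaps : MapsTo (fun z : ℍ => G z / prRoot n (G z ^ n / a)) {z : ℍ | R < z.im}
      {x : ℂ | x ^ n = a} := by
    intro z hz
    simp only [Set.mem_ofPred_eq]
    rw [div_pow, prRoot_pow hn (ne_zero_of_mem_ball_one (hball z hz))]
    have := pow_ne_zero n (hGne z hz)
    field_simp
  have hdisc : IsDiscrete {x : ℂ | x ^ n = a} := by
    apply Set.Finite.isDiscrete
    have : {x : ℂ | x ^ n = a} = ↑(Polynomial.nthRoots n a).toFinset := by
      ext x
      simp [Polynomial.mem_nthRoots hn]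
    rw [this]
    exact Finset.finite_toSet _
  have hkey : ∀ z : ℍ, R < z.im →
      c * prRoot n (G z ^ n / a) = prRoot n (G ((ModularGroup.T ^ w) • z) ^ n / a) := by
    intro z hz
    have hz' : ((ModularGroup.T ^ w) • z) ∈ {z : ℍ | R < z.im} := by
      show R < ((ModularGroup.T ^ w) • z).im
      rw [im_T_pow_smul]; exact hz
    have h1 := (isPreconnected_im_gt R).constant_of_mapsTo hdisc hgcont hgmaps hz hz'
    rw [hper z] at h1
    have hG0 := hGne z hz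
    have hP1 := prRoot_ne_zero n (G z ^ n / a)
    have hP2 := prRoot_ne_zero n ((c * G z) ^ n / a)
    rw [hper z]
    rw [div_eq_div_iff hP1 hP2] at h1
    have h2 : G z * (c * prRoot n (G z ^ n / a)) = G z * prRoot n ((c * G z) ^ n / a) := by
      rw [h1]; ring
    exact mul_left_cancel₀ hG0 h2
  have hl1 : Tendsto (fun z : ℍ => c * prRoot n (G z ^ n / a)) atImInfty (𝓝 (c * 1)) := by
    have hP : ContinuousAt (prRoot n) 1 := prRoot_continuousAt n (mem_ball_self one_pos)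
    have h1 : Tendsto (fun z : ℍ => prRoot n (G z ^ n / a)) atImInfty (𝓝 (prRoot n 1)) :=
      hP.tendsto.comp hu
    rw [prRoot_one] at h1
    exact h1.const_mul c
  have hl2 : Tendsto (fun z : ℍ => prRoot n (G ((ModularGroup.T ^ w) • z) ^ n / a)) atImInfty
      (𝓝 1) := by
    have hP : ContinuousAt (prRoot n) 1 := prRoot_continuousAt n (mem_ball_self one_pos)
    have h1 : Tendsto (fun z : ℍ => prRoot n (G z ^ n / a)) atImInfty (𝓝 (prRoot n 1)) :=
      hP.tendsto.comp hu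
    rw [prRoot_one] at h1
    exact h1.comp (tendsto_T_pow_smul w)
  have hevq : (fun z : ℍ => c * prRoot n (G z ^ n / a)) =ᶠ[atImInfty]
      fun z : ℍ => prRoot n (G ((ModularGroup.T ^ w) • z) ^ n / a) := by
    rw [Filter.EventuallyEq, Filter.Eventually, atImInfty_mem]
    refine ⟨R + 1, fun z hz => ?_⟩
    exact hkey z (by linarith)
  have := tendsto_nhds_unique_of_eventuallyEq hl1 hl2 hevq
  simpa using this

/-! ### C3a: the multiplier at an elliptic fixed point -/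

/-- **C3a.** The multiplier at a fixed point `τ` of `γ`: `c · (cτ+d)^(2·ord_τ G) = 1`. -/
theorem elliptic_multiplier (γ : SL(2, ℤ)) (τ : ℍ) (hγτ : γ • τ = τ) {G : ℍ → ℂ} (hG : MDiff G)
    (hG0 : G ≠ 0) (c : ℂ) (hinv : ∀ z : ℍ, G (γ • z) = c * G z) :
    c * (denom γ τ) ^ (2 * analyticOrderNatAt (G ∘ ofComplex) (τ : ℂ)) = 1 := by
  -- entries
  obtain ⟨A, hA⟩ : ∃ A : ℂ, A = ((γ 0 0 : ℤ) : ℂ) := ⟨_, rfl⟩
  obtain ⟨B, hB⟩ : ∃ B : ℂ, B = ((γ 0 1 : ℤ) : ℂ) := ⟨_, rfl⟩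
  obtain ⟨C, hC⟩ : ∃ C : ℂ, C = ((γ 1 0 : ℤ) : ℂ) := ⟨_, rfl⟩
  obtain ⟨D, hD⟩ : ∃ D : ℂ, D = ((γ 1 1 : ℤ) : ℂ) := ⟨_, rfl⟩
  have hdet : A * D - B * C = 1 := by
    have h := γ.det_coe
    rw [Matrix.det_fin_two] at h
    rw [hA, hB, hC, hD]
    exact_mod_cast h
  have hden : denom γ τ = C * (τ : ℂ) + D := by
    rw [ModularGroup.denom_apply, hC, hD]
  have hcoe : ∀ z : ℍ, ((γ • z : ℍ) : ℂ) = (A * (z : ℂ) + B) / (C * (z : ℂ) + D) := by
    intro z
    rw [UpperHalfPlane.coe_specialLinearGroup_apply, hA, hB, hC, hD]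
    simp
  have hdenne : ∀ z : ℍ, C * (z : ℂ) + D ≠ 0 := by
    intro z
    have := UpperHalfPlane.denom_ne_zero (γ : GL (Fin 2) ℝ) z
    rw [ModularGroup.denom_apply] at this
    rw [hC, hD]
    exact this
  have hτne : C * (τ : ℂ) + D ≠ 0 := hdenne τ
  have hfix : A * (τ : ℂ) + B = (τ : ℂ) * (C * (τ : ℂ) + D) := by
    have h := hcoe τ
    rw [hγτ] at h
    rw [eq_div_iff hτne] at h
    exact h.symm
  -- the Moebius map on `ℂ`
  obtain ⟨φ, hφ⟩ : ∃ φ : ℂ → ℂ, φ = fun z => (A * z + B) / (C * z + D) := ⟨_, rfl⟩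
  have hφτ : φ (τ : ℂ) = (τ : ℂ) := by
    rw [hφ]
    simp only
    rw [hfix, mul_div_assoc, div_self hτne, mul_one]
  have hφcont : ContinuousAt φ (τ : ℂ) := by
    rw [hφ]
    refine ContinuousAt.div (by fun_prop) (by fun_prop) hτne
  have hφsub : ∀ z : ℂ, C * z + D ≠ 0 →
      φ z - (τ : ℂ) = (z - (τ : ℂ)) / ((C * z + D) * (C * (τ : ℂ) + D)) := by
    intro z hz
    rw [hφ]
    simp only
    rw [div_sub' hz, div_eq_div_iff hz (mul_ne_zero hz hτne)]
    linear_combination (z - (τ : ℂ)) * (C * z + D) * hdet + (C * z + D) * (C * z + D) * hfix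
  -- the function on `ℂ`
  have hUopen : IsOpen {w : ℂ | 0 < w.im} := isOpen_lt continuous_const Complex.continuous_im
  have hdiff : DifferentiableOn ℂ (G ∘ ofComplex) {w : ℂ | 0 < w.im} :=
    UpperHalfPlane.mdifferentiable_iff.mp hG
  have hH : AnalyticOnNhd ℂ (G ∘ ofComplex) {w : ℂ | 0 < w.im} := hdiff.analyticOnNhd hUopen
  have hinvC : ∀ z : ℂ, 0 < z.im → (G ∘ ofComplex) (φ z) = c * (G ∘ ofComplex) z := by
    intro z hz
    have h1 := hcoe ⟨z, hz⟩
    have h2 : φ z = ((γ • (⟨z, hz⟩ : ℍ) : ℍ) : ℂ) := by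
      rw [h1, hφ]
    simp only [Function.comp_apply]
    rw [h2, ofComplex_apply, ofComplex_apply_of_im_pos hz]
    exact hinv ⟨z, hz⟩
  -- order at `τ` is finite
  obtain ⟨τ₀, hτ₀⟩ : ∃ τ₀ : ℍ, G τ₀ ≠ 0 := by
    by_contra hcon
    apply hG0
    funext z
    by_contra hz
    exact hcon ⟨z, hz⟩
  have hfin : analyticOrderAt (G ∘ ofComplex) (τ : ℂ) ≠ ⊤ := by
    have h0 : analyticOrderAt (G ∘ ofComplex) (τ₀ : ℂ) ≠ ⊤ := by
      have hne : (G ∘ ofComplex) (τ₀ : ℂ) ≠ 0 := by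
        simp only [Function.comp_apply, ofComplex_apply]
        exact hτ₀
      rw [(hH τ₀ τ₀.im_pos).analyticOrderAt_eq_zero.mpr hne]
      exact ENat.zero_ne_top
    exact hH.analyticOrderAt_ne_top_of_isPreconnected (convex_halfSpace_im_gt 0).isPreconnected
      τ₀.im_pos τ.im_pos h0
  obtain ⟨m, hm⟩ : ∃ m : ℕ, m = analyticOrderNatAt (G ∘ ofComplex) (τ : ℂ) := ⟨_, rfl⟩
  have hmord : analyticOrderAt (G ∘ ofComplex) (τ : ℂ) = (m : ℕ∞) := by
    rw [hm, Nat.cast_analyticOrderNatAt hfin]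
  obtain ⟨u, hu, huτ, huH⟩ := (hH τ τ.im_pos).analyticOrderAt_eq_natCast.mp hmord
  rw [← hm, hden]
  -- the two continuous functions agreeing off `τ`
  have hL : ContinuousAt (fun z : ℂ => c * u z * ((C * z + D) * (C * (τ : ℂ) + D)) ^ m) (τ : ℂ) := by
    refine (continuousAt_const.mul hu.continuousAt).mul ?_
    fun_prop
  have hR : ContinuousAt (fun z : ℂ => u (φ z)) (τ : ℂ) := by
    have h1 : ContinuousAt u (φ (τ : ℂ)) := by rw [hφτ]; exact hu.continuousAt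
    exact ContinuousAt.comp (f := φ) (g := u) h1 hφcont
  have hev : ∀ᶠ z in 𝓝[≠] (τ : ℂ),
      c * u z * ((C * z + D) * (C * (τ : ℂ) + D)) ^ m = u (φ z) := by
    have e1 : ∀ᶠ z in 𝓝 (τ : ℂ), 0 < z.im := hUopen.mem_nhds τ.im_pos
    have e2 : ∀ᶠ z in 𝓝 (τ : ℂ), (G ∘ ofComplex) (φ z) = (φ z - (τ : ℂ)) ^ m • u (φ z) := by
      have : Tendsto φ (𝓝 (τ : ℂ)) (𝓝 (τ : ℂ)) := by
        have := hφcont.tendsto
        rwa [hφτ] at this
      exact this.eventually huH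
    have e3 : ∀ᶠ z in 𝓝 (τ : ℂ), C * z + D ≠ 0 := by
      have hc : ContinuousAt (fun z : ℂ => C * z + D) (τ : ℂ) := by fun_prop
      exact hc.eventually_ne hτne
    have e123 := (e1.and (e2.and (e3.and huH)))
    have e4 : ∀ᶠ z in 𝓝[≠] (τ : ℂ), z ≠ (τ : ℂ) := eventually_mem_nhdsWithin
    filter_upwards [nhdsWithin_le_nhds e123, e4] with z hz hzne
    obtain ⟨hz1, hz2, hz3, hz4⟩ := hz
    have h1 := hinvC z hz1
    rw [hz2, hz4, hφsub z hz3, smul_eq_mul, smul_eq_mul, div_pow] at h1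
    have hzτ : (z - (τ : ℂ)) ^ m ≠ 0 := pow_ne_zero _ (sub_ne_zero.mpr hzne)
    have hdd : ((C * z + D) * (C * (τ : ℂ) + D)) ^ m ≠ 0 := pow_ne_zero _ (mul_ne_zero hz3 hτne)
    rw [div_mul_eq_mul_div, div_eq_iff hdd] at h1
    have h2 : (z - (τ : ℂ)) ^ m * (c * u z * ((C * z + D) * (C * (τ : ℂ) + D)) ^ m) =
        (z - (τ : ℂ)) ^ m * u (φ z) := by
      linear_combination -h1
    exact mul_left_cancel₀ hzτ h2
  have hlim1 := hL.tendsto.mono_left (nhdsWithin_le_nhds (s := {(τ : ℂ)}ᶜ))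
  have hlim2 := hR.tendsto.mono_left (nhdsWithin_le_nhds (s := {(τ : ℂ)}ᶜ))
  have huniq := tendsto_nhds_unique_of_eventuallyEq hlim1 hlim2 hev
  rw [hφτ] at huniq
  have h3 : u (τ : ℂ) * (c * (C * (τ : ℂ) + D) ^ (2 * m)) = u (τ : ℂ) * 1 := by
    have e : ((C * (τ : ℂ) + D) * (C * (τ : ℂ) + D)) ^ m = (C * (τ : ℂ) + D) ^ (2 * m) := by
      rw [← sq, ← pow_mul]
    rw [e] at huniq
    linear_combination huniq
  exact mul_left_cancel₀ huτ h3

end Fermat.Agent.AJlib
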