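/-
Item 69 (AJ), piece C2: existence of the analytic Kummer character of `f ∈ U_n(FC N)`, and it is
unramified (trivial on `±1`, on elliptic and on parabolic elements of `Γ₀(N)`).  (helper22)
-/
import Mathlib
import Fermat.Agent.AJlib.KummerChar
import Fermat.Agent.AJlib.Kummer
import Fermat.Agent.AJlib.CountDefs
import Fermat.Agent.AJlib.CDict
import Fermat.Agent.AJlib.CDictInf
import Fermat.Agent.AJlib.Multiplier
import Fermat.Agent.AJlib.AuxElliptic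
import Fermat.Agent.AJlib.AuxLim

set_option autoImplicit false

open scoped MatrixGroups ModularForm Manifold Topology
open UpperHalfPlane ModularForm CongruenceSubgroup Filter AlgebraicCurve ModularCurve

namespace Fermat.Agent.AJlib
open Fermat.Agent.S24lib Fermat.Agent.S20lib

/-! ### orders of `a * b ^ (n-1)` -/

/-- the order of the expansion of `a * b ^ (n-1)` when `f = a / b` -/
lemma ce_order_h {N n : ℕ} [NeZero N] (hn : 0 < n) (E : WH N →+* LaurentSeries ℂ)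
    (hE : Function.Injective E) {f : FC N} (hf : f ≠ 0) {a b : WH N} (hb : b ≠ 0)
    (hab : ιFC N f * algebraMap (WH N) (MF N) b = algebraMap (WH N) (MF N) a) :
    (E (a * b ^ (n - 1))).order = (embFC N E hE f).order + (n : ℤ) * (E b).order := by
  have h1 := embFC_of_ιFC_mul N E hE f a b hab
  have hEb : E b ≠ 0 := (map_ne_zero_iff E hE).2 hb
  have hEf : embFC N E hE f ≠ 0 := (map_ne_zero (embFC N E hE)).2 hf
  rw [map_mul, map_pow, ← h1, mul_assoc, ← pow_succ', Nat.sub_add_cancel hn,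
    HahnSeries.order_mul hEf (pow_ne_zero n hEb), HahnSeries.order_pow]
  simp

lemma ce_a_ne_zero {N : ℕ} [NeZero N] {f : FC N} (hf : f ≠ 0) {a b : WH N} (hb : b ≠ 0)
    (hab : ιFC N f * algebraMap (WH N) (MF N) b = algebraMap (WH N) (MF N) a) : a ≠ 0 := by
  rintro rfl
  rw [map_zero, mul_eq_zero] at hab
  rcases hab with h | h
  · exact hf ((map_eq_zero (ιFC N)).1 h)
  · exact hb ((map_eq_zero_iff _ (IsFractionRing.injective (WH N) (MF N))).1 h)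

/-! ### Stage A: the root -/

theorem ce_exists_root {N n : ℕ} [NeZero N] (hn : 0 < n) (f : (FC N)ˣ)
    (hf : f ∈ Un ℂ (FC N) n) :
    ∃ (a b : WH N) (G : ℍ → ℂ), a ≠ 0 ∧ b ≠ 0 ∧ (∀ γ ∈ Gamma0 N, γ • a = a) ∧
      (∀ γ ∈ Gamma0 N, γ • b = b) ∧
      ιFC N (f : FC N) * algebraMap (WH N) (MF N) b = algebraMap (WH N) (MF N) a ∧
      MDiff G ∧ G ≠ 0 ∧ (∀ z, G z ^ n = (a : ℍ → ℂ) z * (b : ℍ → ℂ) z ^ (n - 1)) := by
  obtain ⟨a, p, hp, ha_inv, hab⟩ := FC_repr N (f : FC N)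
  set b := jpolyC N p with hbdef
  have hb : b ≠ 0 := jpolyC_ne_zero N hp
  have hb_inv : ∀ γ ∈ Gamma0 N, γ • b = b := fun γ _ => smul_jpolyC N γ p
  have ha : a ≠ 0 := ce_a_ne_zero f.ne_zero hb hab
  set h : WH N := a * b ^ (n - 1) with hh
  have hh0 : h ≠ 0 := mul_ne_zero ha (pow_ne_zero _ hb)
  have hord : ∀ τ : ℍ, n ∣ analyticOrderNatAt ((h : ℍ → ℂ) ∘ ofComplex) (τ : ℂ) := by
    intro τ
    obtain ⟨w, e, -, hform, -, -⟩ := dict_fin N τ
    have h1 := ce_order_h hn (expAt N τ) (expAt_injective N τ) f.ne_zero hb hab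
    rw [hform _ f.ne_zero, expAt_order] at h1
    obtain ⟨k, hk⟩ := hf w
    have h2 : ((n : ℤ)) ∣ (analyticOrderNatAt ((h : ℍ → ℂ) ∘ ofComplex) (τ : ℂ) : ℤ) := by
      rw [h1, hk]
      exact ⟨e * k + (expAt N τ b).order, by ring⟩
    exact Int.natCast_dvd_natCast.1 h2
  obtain ⟨G, hG, hGn⟩ := exists_mdiff_root n hn (h : ℍ → ℂ) (IsWH.mdiff h.2)
    (kc_coe_ne_zero hh0) hord
  refine ⟨a, b, G, ha, hb, ha_inv, hb_inv, hab, hG, ?_, ?_⟩
  · rintro rfl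
    obtain ⟨z, hz⟩ := kc_exists_ne (kc_coe_ne_zero hh0)
    apply hz
    rw [← hGn z]
    simp [hn.ne']
  · intro z
    rw [hGn z, hh]
    simp

/-! ### Stage B: the character of a root -/

lemma ce_mdiff_comp {G : ℍ → ℂ} (hG : MDiff G) (g : SL(2, ℤ)) : MDiff (fun z => G (g • z)) := by
  have h1 : MDiff (G ∣[(0 : ℤ)] g) := hG.slash 0 _
  have h2 : (G ∣[(0 : ℤ)] g) = fun z => G (g • z) := by
    funext z
    exact wh_slash_zero_apply G g z
  rwa [h2] at h1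

theorem ce_exists_char {N n : ℕ} (hn : 0 < n) {G : ℍ → ℂ} (hG : MDiff G) (hG0 : G ≠ 0)
    (hinv : ∀ (γ : ↥(Gamma0 N)) (z : ℍ), G ((γ : SL(2, ℤ)) • z) ^ n = G z ^ n) :
    ∃ χ : ↥(Gamma0 N) →* ℂˣ, ∀ (γ : ↥(Gamma0 N)) (z : ℍ),
      G ((γ : SL(2, ℤ)) • z) = ((χ γ : ℂˣ) : ℂ) * G z := by
  obtain ⟨z₀, hz₀⟩ := kc_exists_ne hG0
  have key : ∀ γ : ↥(Gamma0 N), ∃ ζ : ℂ, ζ ^ n = 1 ∧ ∀ z, G ((γ : SL(2, ℤ)) • z) = ζ * G z :=
    fun γ => kc_roots_differ hn (ce_mdiff_comp hG (γ : SL(2, ℤ))) hG hG0 (hinv γ)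
  choose c hc1 hc2 using key
  have hc0 : ∀ γ, c γ ≠ 0 := by
    intro γ h
    have := hc1 γ
    rw [h, zero_pow hn.ne'] at this
    exact zero_ne_one this
  have hmul : ∀ γ γ' : ↥(Gamma0 N), c (γ * γ') = c γ * c γ' := by
    intro γ γ'
    have e1 := hc2 (γ * γ') z₀
    have e2 : G (((γ * γ' : ↥(Gamma0 N)) : SL(2, ℤ)) • z₀) = c γ * (c γ' * G z₀) := by
      rw [Subgroup.coe_mul, mul_smul, hc2 γ, hc2 γ']
    rw [e1, ← mul_assoc] at e2
    exact mul_right_cancel₀ hz₀ e2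
  refine ⟨MonoidHom.mk' (fun γ => Units.mk0 (c γ) (hc0 γ)) (fun γ γ' => ?_), fun γ z => ?_⟩
  · apply Units.ext
    simp only [Units.val_mk0, Units.val_mul]
    exact hmul γ γ'
  · simp only [MonoidHom.mk'_apply, Units.val_mk0]
    exact hc2 γ z

/-! ### Stage C: the character is unramified -/

/-- elliptic elements (and `±1`): any `γ ∈ Γ₀(N)` with a fixed point has trivial multiplier -/
theorem ce_char_elliptic {N n : ℕ} [NeZero N] (hn : 0 < n) (f : (FC N)ˣ)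
    (hf : f ∈ Un ℂ (FC N) n) {a b : WH N} {G : ℍ → ℂ} (hb : b ≠ 0)
    (hb_inv : ∀ γ ∈ Gamma0 N, γ • b = b)
    (hab : ιFC N (f : FC N) * algebraMap (WH N) (MF N) b = algebraMap (WH N) (MF N) a)
    (hG : MDiff G) (hG0 : G ≠ 0) (hGn : ∀ z, G z ^ n = (a : ℍ → ℂ) z * (b : ℍ → ℂ) z ^ (n - 1))
    (γ : SL(2, ℤ)) (hγ : γ ∈ Gamma0 N) (τ : ℍ) (hγτ : γ • τ = τ) (c : ℂ)
    (hc : ∀ z : ℍ, G (γ • z) = c * G z) : c = 1 := by
  obtain ⟨w, e, he, hform, hdenom, hdvd⟩ := dict_fin N τ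
  set h : WH N := a * b ^ (n - 1) with hh
  have h1 := ce_order_h hn (expAt N τ) (expAt_injective N τ) f.ne_zero hb hab
  rw [hform _ f.ne_zero, expAt_order, expAt_order] at h1
  obtain ⟨k, hk⟩ := hf w
  -- `e ∣ ord_τ b`
  obtain ⟨k₂, hk₂⟩ := hdvd (b : ℍ → ℂ) (IsWH.mdiff b.2)
    (fun γ' hγ' _ z => dict_inv_apply N hb_inv γ' hγ' z)
  -- `ord_τ h = n * ord_τ G`
  have hpow : ((a * b ^ (n - 1) : WH N) : ℍ → ℂ) ∘ ofComplex = (G ∘ ofComplex) ^ n := by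
    funext z
    simp only [Function.comp_apply, Pi.pow_apply]
    rw [hGn]
    simp
  have h2 : analyticOrderNatAt (((a * b ^ (n - 1) : WH N) : ℍ → ℂ) ∘ ofComplex) (τ : ℂ)
      = n * analyticOrderNatAt (G ∘ ofComplex) (τ : ℂ) := by
    rw [hpow, analyticOrderNatAt_pow (expAt_analyticAt_of_mdiff hG τ), smul_eq_mul]
  rw [h2, hk, hk₂] at h1
  push_cast at h1
  have hn' : (n : ℤ) ≠ 0 := by exact_mod_cast hn.ne'
  have h3 : ((analyticOrderNatAt (G ∘ ofComplex) (τ : ℂ) : ℕ) : ℤ) = (e : ℤ) * (k + k₂) := by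
    apply mul_left_cancel₀ hn'
    rw [h1]
    ring
  have h4 : e ∣ analyticOrderNatAt (G ∘ ofComplex) (τ : ℂ) :=
    Int.natCast_dvd_natCast.1 ⟨_, h3⟩
  obtain ⟨m, hm⟩ := h4
  have h5 := elliptic_multiplier γ τ hγτ hG hG0 c hc
  rw [hm, ← mul_assoc, pow_mul, hdenom γ hγ hγτ, one_pow, mul_one] at h5
  exact h5

/-- the statement of LIM (piece C0) for one `H` -/
def LimAt (N : ℕ) [NeZero N] (H : WH N) : Prop :=
  Tendsto (fun z : ℍ => (H : ℍ → ℂ) z *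
      Complex.exp (-2 * Real.pi * Complex.I * (((expInf N H).order : ℤ) : ℂ) * (z : ℂ) / (N : ℂ)))
    atImInfty (𝓝 ((expInf N H).coeff (expInf N H).order))

/-- parabolic elements -/
theorem ce_char_parabolic {N n : ℕ} [NeZero N] (hn : 0 < n) (f : (FC N)ˣ)
    (hf : f ∈ Un ℂ (FC N) n) {a b : WH N} {G : ℍ → ℂ} (ha : a ≠ 0) (hb : b ≠ 0)
    (hb_inv : ∀ γ ∈ Gamma0 N, γ • b = b)
    (hab : ιFC N (f : FC N) * algebraMap (WH N) (MF N) b = algebraMap (WH N) (MF N) a)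
    (hG : MDiff G) (hGn : ∀ z, G z ^ n = (a : ℍ → ℂ) z * (b : ℍ → ℂ) z ^ (n - 1))
    (hLIM : ∀ H : WH N, H ≠ 0 → LimAt N H)
    (g : SL(2, ℤ)) (m : ℕ) (hγ : g⁻¹ * ModularGroup.T ^ m * g ∈ Gamma0 N) (c : ℂ)
    (hc : ∀ z : ℍ, G ((g⁻¹ * ModularGroup.T ^ m * g) • z) = c * G z) : c = 1 := by
  obtain ⟨w, e, he, hform, width, hwidth, hew, hiff⟩ := dict_inf N g
  have hwm : (width : ℤ) ∣ (m : ℤ) := (hiff (m : ℤ)).1 (by simpa using hγ)
  obtain ⟨m', hm'⟩ := hwm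
  have hE : Function.Injective (twist N (expInf N) g) := twist_injective N (expInf_injective N) g
  have hh0 : a * b ^ (n - 1) ≠ 0 := mul_ne_zero ha (pow_ne_zero _ hb)
  have hH0 : g • (a * b ^ (n - 1)) ≠ 0 := fib_smul_ne_zero N g hh0
  have h1 := ce_order_h hn (twist N (expInf N) g) hE f.ne_zero hb hab
  rw [hform _ f.ne_zero, twist_apply, twist_apply] at h1
  obtain ⟨k, hk⟩ := hf w
  -- `e ∣ order of b ∘ g⁻¹`
  have hfix : expInf N (ModularGroup.T ^ width • (g • b)) = expInf N (g • b) := by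
    congr 1
    rw [← mul_smul]
    have e1 : ModularGroup.T ^ width * g = g * (g⁻¹ * ModularGroup.T ^ width * g) := by group
    have e2 : g⁻¹ * ModularGroup.T ^ width * g ∈ Gamma0 N := by
      have := (hiff (width : ℤ)).2 (dvd_refl _)
      simpa using this
    rw [e1, mul_smul, hb_inv _ e2]
  have hEb0 : expInf N (g • b) ≠ 0 :=
    (map_ne_zero_iff _ (expInf_injective N)).2 (fib_smul_ne_zero N g hb)
  have hdv := finf_dvd_of_T_pow_fixed N (g • b) width hfix _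
    (fun h0 => hEb0 (HahnSeries.coeff_order_eq_zero.1 h0))
  have hwidth' : (width : ℤ) ≠ 0 := by exact_mod_cast hwidth.ne'
  have hNew : (N : ℤ) = (e : ℤ) * (width : ℤ) := by exact_mod_cast hew.symm
  obtain ⟨k₂, hk₂⟩ : (e : ℤ) ∣ (expInf N (g • b)).order := by
    rw [hNew, mul_comm (e : ℤ)] at hdv
    exact (mul_dvd_mul_iff_left hwidth').1 hdv
  set K : ℤ := k + k₂ with hK
  have ho : (expInf N (g • (a * b ^ (n - 1)))).order = (n : ℤ) * ((e : ℤ) * K) := by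
    rw [h1, hk, hk₂, hK]
    ring
  -- the normalised root
  set G2 : ℍ → ℂ := fun z => G (g⁻¹ • z) *
    Complex.exp (-2 * Real.pi * Complex.I * ((((e : ℤ) * K : ℤ)) : ℂ) * (z : ℂ) / (N : ℂ)) with hG2
  have hcont : Continuous G2 := by
    have h1 : Continuous fun z : ℍ => G (g⁻¹ • z) := (ce_mdiff_comp hG g⁻¹).continuous
    have h2 : Continuous fun z : ℍ =>
        Complex.exp (-2 * Real.pi * Complex.I * ((((e : ℤ) * K : ℤ)) : ℂ) * (z : ℂ) / (N : ℂ)) := by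
      have : Continuous fun z : ℍ => (z : ℂ) := UpperHalfPlane.continuous_coe
      fun_prop
    exact h1.mul h2
  have hN0 : (N : ℂ) ≠ 0 := by exact_mod_cast NeZero.ne N
  have hper : ∀ z : ℍ, G2 ((ModularGroup.T ^ m) • z) = c * G2 z := by
    intro z
    simp only [hG2]
    have e1 : g⁻¹ • (ModularGroup.T ^ m • z) = (g⁻¹ * ModularGroup.T ^ m * g) • (g⁻¹ • z) := by
      rw [← mul_smul, ← mul_smul]
      congr 1
      group
    have e2 : ((ModularGroup.T ^ m • z : ℍ) : ℂ) = (z : ℂ) + (m : ℂ) := by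
      have := ModularGroup.coe_T_zpow_smul_eq (z := z) (n := (m : ℤ))
      simpa using this
    rw [e1, hc, e2]
    have e3 : Complex.exp (-2 * Real.pi * Complex.I * ((((e : ℤ) * K : ℤ)) : ℂ) *
        ((z : ℂ) + (m : ℂ)) / (N : ℂ)) =
        Complex.exp (-2 * Real.pi * Complex.I * ((((e : ℤ) * K : ℤ)) : ℂ) * (z : ℂ) / (N : ℂ)) := by
      have e4 : -2 * Real.pi * Complex.I * ((((e : ℤ) * K : ℤ)) : ℂ) * ((z : ℂ) + (m : ℂ)) / (N : ℂ)
          = -2 * Real.pi * Complex.I * ((((e : ℤ) * K : ℤ)) : ℂ) * (z : ℂ) / (N : ℂ)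
            + ((-(K * m') : ℤ) : ℂ) * (2 * Real.pi * Complex.I) := by
        have hNc : (N : ℂ) = (e : ℂ) * (width : ℂ) := by exact_mod_cast hNew
        have hmc : (m : ℂ) = (width : ℂ) * (m' : ℂ) := by exact_mod_cast hm'
        have he0 : (e : ℂ) ≠ 0 := by exact_mod_cast he.ne'
        have hw0 : (width : ℂ) ≠ 0 := by exact_mod_cast hwidth.ne'
        rw [hNc, hmc]
        push_cast
        field_simp
        ring
      rw [e4, Complex.exp_add, Complex.exp_int_mul_two_pi_mul_I, mul_one]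
    rw [e3]
    ring
  have hlim : Tendsto (fun z : ℍ => G2 z ^ n) atImInfty
      (𝓝 ((expInf N (g • (a * b ^ (n - 1)))).coeff (expInf N (g • (a * b ^ (n - 1)))).order)) := by
    have hL := hLIM (g • (a * b ^ (n - 1))) hH0
    unfold LimAt at hL
    refine hL.congr (fun z => ?_)
    simp only [hG2]
    have e1 : ((g • (a * b ^ (n - 1)) : WH N) : ℍ → ℂ) z
        = (a : ℍ → ℂ) (g⁻¹ • z) * (b : ℍ → ℂ) (g⁻¹ • z) ^ (n - 1) := by
      rw [wh_smul_apply]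
      simp
    have e2 : -2 * Real.pi * Complex.I *
          (((expInf N (g • (a * b ^ (n - 1)))).order : ℤ) : ℂ) * (z : ℂ) / (N : ℂ)
        = (n : ℂ) * (-2 * Real.pi * Complex.I * ((((e : ℤ) * K : ℤ)) : ℂ) * (z : ℂ) / (N : ℂ)) := by
      rw [ho]
      push_cast
      ring
    rw [mul_pow, hGn, ← Complex.exp_nat_mul, e1, e2]
  exact cusp_multiplier n hn G2 hcont m c _
    (fun h0 => ((map_ne_zero_iff _ (expInf_injective N)).2 hH0) (HahnSeries.coeff_order_eq_zero.1 h0))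
    hper hlim

/-- parabolic elements, integer exponent -/
theorem ce_char_parabolic_int {N n : ℕ} [NeZero N] (hn : 0 < n) (f : (FC N)ˣ)
    (hf : f ∈ Un ℂ (FC N) n) {a b : WH N} {G : ℍ → ℂ} (ha : a ≠ 0) (hb : b ≠ 0)
    (hb_inv : ∀ γ ∈ Gamma0 N, γ • b = b)
    (hab : ιFC N (f : FC N) * algebraMap (WH N) (MF N) b = algebraMap (WH N) (MF N) a)
    (hG : MDiff G) (hGn : ∀ z, G z ^ n = (a : ℍ → ℂ) z * (b : ℍ → ℂ) z ^ (n - 1))
    (hLIM : ∀ H : WH N, H ≠ 0 → LimAt N H)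
    (g : SL(2, ℤ)) (m : ℤ) (hγ : g * ModularGroup.T ^ m * g⁻¹ ∈ Gamma0 N) (c : ℂ) (hc0 : c ≠ 0)
    (hc : ∀ z : ℍ, G ((g * ModularGroup.T ^ m * g⁻¹) • z) = c * G z) : c = 1 := by
  obtain ⟨k, rfl | rfl⟩ := Int.eq_nat_or_neg m
  · refine ce_char_parabolic hn f hf ha hb hb_inv hab hG hGn hLIM g⁻¹ k ?_ c ?_
    · simpa using hγ
    · simpa using hc
  · have e1 : (g * ModularGroup.T ^ (-(k : ℤ)) * g⁻¹)⁻¹ = g * ModularGroup.T ^ k * g⁻¹ := by
      rw [zpow_neg, zpow_natCast]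
      group
    have hγ' : g * ModularGroup.T ^ k * g⁻¹ ∈ Gamma0 N := by
      rw [← e1]
      exact inv_mem hγ
    have hc' : ∀ z : ℍ, G ((g * ModularGroup.T ^ k * g⁻¹) • z) = c⁻¹ * G z := by
      intro z
      have := hc ((g * ModularGroup.T ^ k * g⁻¹) • z)
      rw [← e1, smul_inv_smul] at this
      rw [← e1, this, ← mul_assoc, inv_mul_cancel₀ hc0, one_mul]
    have h1 : c⁻¹ = 1 := by
      refine ce_char_parabolic hn f hf ha hb hb_inv hab hG hGn hLIM g⁻¹ k ?_ c⁻¹ ?_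
      · simpa using hγ'
      · simpa using hc'
    exact inv_eq_one.1 h1

/-- **C2**: existence of the Kummer character, and it is unramified. -/
theorem exists_isKummerChar {N n : ℕ} [NeZero N] (hn : 0 < n) (f : (FC N)ˣ)
    (hf : f ∈ Un ℂ (FC N) n) :
    ∃ χ : ↥(Gamma0 N) →* ℂˣ, χ ∈ UnramHom N ℂˣ ∧ IsKummerChar N n (f : FC N) χ := by
  obtain ⟨a, b, G, ha, hb, ha_inv, hb_inv, hab, hG, hG0, hGn⟩ := ce_exists_root hn f hf
  have hinv : ∀ (γ : ↥(Gamma0 N)) (z : ℍ), G ((γ : SL(2, ℤ)) • z) ^ n = G z ^ n := by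
    intro γ z
    rw [hGn, hGn, kc_inv_apply ha_inv, kc_inv_apply hb_inv]
  obtain ⟨χ, hχ⟩ := ce_exists_char hn hG hG0 hinv
  have hLIM : ∀ H : WH N, H ≠ 0 → LimAt N H := fun H hH => tendsto_mul_exp_order H hH
  refine ⟨χ, ?_, ⟨a, b, G, hb, ha_inv, hb_inv, hab, hG, hG0, hGn, hχ⟩⟩
  intro γ htr
  apply Units.ext
  rw [Units.val_one]
  rcases lt_or_eq_of_le htr with hlt | heq
  · obtain ⟨τ, hτ⟩ := exists_fixed_of_abs_trace_lt_two (γ : SL(2, ℤ)) hlt
    exact ce_char_elliptic hn f hf hb hb_inv hab hG hG0 hGn (γ : SL(2, ℤ)) γ.2 τ hτ _ (hχ γ)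
  · obtain ⟨g, m, h | h⟩ := exists_conj_T_zpow_of_abs_trace_eq_two (γ : SL(2, ℤ)) heq
    · refine ce_char_parabolic_int hn f hf ha hb hb_inv hab hG hGn hLIM g m ?_ _ (χ γ).ne_zero ?_
      · rw [← h]; exact γ.2
      · intro z
        rw [← h]
        exact hχ γ z
    · have h' : g * ModularGroup.T ^ m * g⁻¹ = -(γ : SL(2, ℤ)) := by
        rw [h, neg_neg]
      refine ce_char_parabolic_int hn f hf ha hb hb_inv hab hG hGn hLIM g m ?_ _ (χ γ).ne_zero ?_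
      · rw [h', Gamma0_mem]
        have := Gamma0_mem.1 γ.2
        simpa using this
      · intro z
        rw [h', ModularGroup.SL_neg_smul]
        exact hχ γ z

end Fermat.Agent.AJlib
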