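/-
Item 69 (AJ), piece C3: injectivity of the analytic Kummer character: if the character of an
analytic `n`-th root of `f ∈ FC N` is trivial then `f` is an `n`-th power in `FC N`.  (helper22)
-/
import Mathlib
import Fermat.Agent.AJlib.KummerChar
import Fermat.Agent.AJlib.CK2

set_option autoImplicit false

open scoped MatrixGroups ModularForm Manifold Topology
open UpperHalfPlane ModularForm CongruenceSubgroup Filter AlgebraicCurve ModularCurve

namespace Fermat.Agent.AJlib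
open Fermat.Agent.S24lib Fermat.Agent.S20lib

/-- an `n`-th root of a function bounded at `i∞` is bounded at `i∞` -/
lemma ci_bounded_of_pow {n : ℕ} (hn : 0 < n) {F H : ℍ → ℂ} (hH : IsBoundedAtImInfty H)
    (h : ∀ z, F z ^ n = H z) : IsBoundedAtImInfty F := by
  rw [isBoundedAtImInfty_iff] at hH ⊢
  obtain ⟨M, A, hMA⟩ := hH
  refine ⟨max 1 M, A, fun z hz => ?_⟩
  have h1 := hMA z hz
  rw [← h z, norm_pow] at h1
  by_cases h2 : ‖F z‖ ≤ 1
  · exact h2.trans (le_max_left _ _)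
  · push Not at h2
    have h3 : ‖F z‖ ≤ ‖F z‖ ^ n := le_self_pow₀ h2.le hn.ne'
    exact (h3.trans h1).trans (le_max_right _ _)

/-- the slash of an `n`-th power -/
lemma ci_slash_pow (F : ℍ → ℂ) (k : ℤ) (n : ℕ) (g : SL(2, ℤ)) (z : ℍ) :
    ((F ∣[k] g) z) ^ n = ((F ^ n) ∣[(n : ℤ) * k] g) z := by
  rw [SL_slash_apply, SL_slash_apply, mul_pow, Pi.pow_apply, ← zpow_natCast (denom g z ^ (-k)) n,
    ← zpow_mul]
  congr 2
  ring

/-- a holomorphic `Γ₀(N)`-invariant `n`-th root of an element of `WH N` lies in `WH N` -/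
theorem ci_isWH_of_pow {N n : ℕ} [NeZero N] (hn : 0 < n) {G : ℍ → ℂ} (hG : MDiff G)
    (hinv : ∀ (γ : ↥(Gamma0 N)) (z : ℍ), G ((γ : SL(2, ℤ)) • z) = G z)
    (h : WH N) (hGh : ∀ z, G z ^ n = (h : ℍ → ℂ) z) : IsWH N G := by
  obtain ⟨m, hm⟩ := h.2
  refine ⟨m, ?_, ?_, ?_⟩
  · exact hG.mul ((CuspForm.discriminant.holo').pow m)
  · intro γ hγ
    have hγ0 : γ ∈ Gamma0 N := by
      rw [Gamma0_mem]
      exact (Gamma_mem.1 hγ).2.2.1
    have h1 := mul_slash_SL2 0 (12 * (m : ℤ)) γ G (discriminant ^ m)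
    rw [zero_add] at h1
    rw [h1, wh_discriminant_pow_slash]
    congr 1
    funext z
    rw [wh_slash_zero_apply]
    exact hinv ⟨γ, hγ0⟩ z
  · intro g
    -- `(G Δ^m)^n = (h Δ^m) · Δ^((n-1) m)` is a modular form
    have hMF : IsMF (Gamma N) (12 * ((m + (n - 1) * m : ℕ) : ℤ))
        ((h : ℍ → ℂ) * discriminant ^ (m + (n - 1) * m)) := IsWH.raise hm ((n - 1) * m)
    have hb := hMF.bdd g
    have hexp : m + (n - 1) * m = n * m := by
      obtain ⟨j, rfl⟩ : ∃ j, n = j + 1 := ⟨n - 1, by omega⟩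
      simp only [Nat.add_sub_cancel]
      ring
    rw [hexp] at hb
    refine ci_bounded_of_pow hn hb (fun z => ?_)
    rw [ci_slash_pow]
    have e1 : (G * discriminant ^ m) ^ n = (h : ℍ → ℂ) * discriminant ^ (n * m) := by
      funext w
      simp only [Pi.mul_apply, Pi.pow_apply]
      rw [mul_pow, hGh, ← pow_mul, mul_comm m n]
    have e2 : (n : ℤ) * (12 * (m : ℤ)) = 12 * ((n * m : ℕ) : ℤ) := by
      push_cast
      ring
    rw [e1, e2]

/-- **C3**: injectivity of the Kummer character. -/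
theorem exists_root_of_isKummerChar_one {N n : ℕ} [NeZero N] (hn : 0 < n) {f : FC N}
    (h : IsKummerChar N n f 1) : ∃ f₁ : FC N, f₁ ^ n = f := by
  obtain ⟨a, b, G, hb, ha_inv, hb_inv, hab, hG, hG0, hGn, hGχ⟩ := h
  have hinv : ∀ (γ : ↥(Gamma0 N)) (z : ℍ), G ((γ : SL(2, ℤ)) • z) = G z := by
    intro γ z
    rw [hGχ]
    simp
  have hWH : IsWH N G := ci_isWH_of_pow hn hG hinv (a * b ^ (n - 1)) (by
    intro z
    rw [hGn]
    simp)
  set G' : WH N := ⟨G, hWH⟩ with hG'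
  have hG'inv : ∀ γ ∈ Gamma0 N, γ • G' = G' := by
    intro γ hγ
    apply Subtype.ext
    funext z
    rw [wh_smul_apply]
    have := hinv (⟨γ, hγ⟩⁻¹ : ↥(Gamma0 N)) z
    simpa using this
  obtain ⟨φ, hφ⟩ := k2_mem_range N G' hG'inv
  obtain ⟨β, hβ⟩ := k2_mem_range N b hb_inv
  have hβ0 : β ≠ 0 := by
    rintro rfl
    rw [map_zero] at hβ
    exact hb ((map_eq_zero_iff _ (IsFractionRing.injective (WH N) (MF N))).1 hβ.symm)
  have hpow : G' ^ n = a * b ^ (n - 1) := by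
    apply Subtype.ext
    funext z
    simp only [Subring.coe_pow, Subring.coe_mul, Pi.pow_apply, Pi.mul_apply]
    exact hGn z
  have key : φ ^ n = f * β ^ n := by
    apply (ιFC N).injective
    rw [map_pow, map_mul, map_pow, hφ, hβ, ← map_pow, hpow, map_mul, ← hab, map_pow]
    obtain ⟨j, rfl⟩ : ∃ j, n = j + 1 := ⟨n - 1, by omega⟩
    simp only [Nat.add_sub_cancel]
    ring
  refine ⟨φ / β, ?_⟩
  rw [div_pow, key, mul_div_assoc, div_self (pow_ne_zero n hβ0), mul_one]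

end Fermat.Agent.AJlib
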