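/-
Item 69 (AJ), piece B3' (helper9): the order at a cusp of an `n`-th power is divisible by `n`.

Main result (namespace `Fermat.Agent.AJlib`):
* `cusp_order_dvd` : `G` holomorphic on `ℍ`, `G (T^w z) = G z`, `w > 0`,
  `G^n · exp(-2πi·o·z/w) → a ≠ 0` at `i∞` ⇒ `(n : ℤ) ∣ o`.
No sorry in this file.
-/
import Mathlib

set_option autoImplicit false

open scoped MatrixGroups ModularForm Manifold Topology Real
open UpperHalfPlane ModularForm Filter Metric Set

namespace Fermat.Agent.AJlib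

/-- a `T^w`-invariant function on `ℍ` gives a `w`-periodic function on `ℂ` -/
lemma periodic_comp_ofComplex_of_T_pow {G : ℍ → ℂ} (w : ℕ)
    (hper : ∀ z : ℍ, G ((ModularGroup.T ^ w) • z) = G z) :
    Function.Periodic (G ∘ ofComplex) (((w : ℝ) : ℂ)) := by
  intro z
  simp only [Function.comp_apply]
  by_cases hz : 0 < z.im
  · have hz' : 0 < (z + ((w : ℝ) : ℂ)).im := by simpa using hz
    have : ofComplex (z + ((w : ℝ) : ℂ)) = (ModularGroup.T ^ w) • ofComplex z := by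
      apply UpperHalfPlane.ext
      rw [ofComplex_apply_of_im_pos hz', ofComplex_apply_of_im_pos hz]
      have h := ModularGroup.coe_T_zpow_smul_eq (z := ⟨z, hz⟩) (n := (w : ℤ))
      rw [zpow_natCast] at h
      rw [h]
      simp
    rw [this, hper]
  · have hz1 : z.im ≤ 0 := not_lt.mp hz
    have hz' : (z + ((w : ℝ) : ℂ)).im ≤ 0 := by simpa using hz1
    rw [ofComplex_apply_of_im_nonpos hz', ofComplex_apply_of_im_nonpos hz1]

/-- `z ↦ exp (c z)` is holomorphic on `ℍ` -/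
lemma mdifferentiable_exp_mul_coe (c : ℂ) : MDiff (fun z : ℍ => Complex.exp (c * (z : ℂ))) := by
  rw [UpperHalfPlane.mdifferentiable_iff]
  have h1 : DifferentiableOn ℂ (fun z : ℂ => Complex.exp (c * z)) {z : ℂ | 0 < z.im} := by
    apply Differentiable.differentiableOn
    fun_prop
  refine h1.congr ?_
  intro z hz
  simp only [Function.comp_apply]
  rw [ofComplex_apply_of_im_pos hz]

/-- **B3'.** The order at the cusp of an `n`-th power is divisible by `n`. -/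
theorem cusp_order_dvd (n : ℕ) (hn : 0 < n) (G : ℍ → ℂ) (hG : MDiff G) (w : ℕ) (hw : 0 < w)
    (o : ℤ) (a : ℂ) (ha : a ≠ 0) (hper : ∀ z : ℍ, G ((ModularGroup.T ^ w) • z) = G z)
    (hlim : Tendsto (fun z : ℍ => G z ^ n *
      Complex.exp (-2 * π * Complex.I * (o : ℂ) * (z : ℂ) / (w : ℂ))) atImInfty (𝓝 a)) :
    (n : ℤ) ∣ o := by
  have hwR : (0 : ℝ) < (w : ℝ) := Nat.cast_pos.mpr hw
  have hwC : (w : ℂ) ≠ 0 := Nat.cast_ne_zero.mpr hw.ne'
  have hnZ : (0 : ℤ) < (n : ℤ) := by exact_mod_cast hn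
  -- euclidean division of `o` by `n`
  obtain ⟨k, hk⟩ : ∃ k : ℤ, k = -(o / n) := ⟨_, rfl⟩
  obtain ⟨r, hr⟩ : ∃ r : ℕ, (r : ℤ) = o % n :=
    ⟨(o % n).toNat, Int.toNat_of_nonneg (Int.emod_nonneg _ hnZ.ne')⟩
  have hrn : r < n := by
    have := Int.emod_lt_of_pos o hnZ
    omega
  have hok : (r : ℤ) - o = k * n := by
    have := Int.emod_add_ediv_mul o n
    rw [hk, hr]
    linarith
  -- the auxiliary function `F = G q^k`
  obtain ⟨F, hF⟩ : ∃ F : ℍ → ℂ, F = fun z =>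
      G z * Complex.exp ((2 * π * Complex.I * (k : ℂ) / (w : ℂ)) * (z : ℂ)) := ⟨_, rfl⟩
  obtain ⟨h, hh⟩ : ∃ h : ℍ → ℂ, h = fun z : ℍ => G z ^ n *
      Complex.exp (-2 * π * Complex.I * (o : ℂ) * (z : ℂ) / (w : ℂ)) := ⟨_, rfl⟩
  rw [← hh] at hlim
  have hFper : Function.Periodic (F ∘ ofComplex) (((w : ℝ) : ℂ)) := by
    apply periodic_comp_ofComplex_of_T_pow
    intro z
    rw [hF]
    simp only
    rw [hper]
    congr 1
    have hc := ModularGroup.coe_T_zpow_smul_eq (z := z) (n := (w : ℤ))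
    rw [zpow_natCast] at hc
    rw [hc]
    have : (2 * π * Complex.I * (k : ℂ) / (w : ℂ)) * ((z : ℂ) + ((w : ℤ) : ℂ)) =
        (2 * π * Complex.I * (k : ℂ) / (w : ℂ)) * (z : ℂ) + k * (2 * π * Complex.I) := by
      push_cast
      field_simp
    rw [this, Complex.exp_add, Complex.exp_int_mul_two_pi_mul_I, mul_one]
  have hFhol : MDiff F := by
    rw [hF]
    exact hG.mul (mdifferentiable_exp_mul_coe _)
  have hFn : ∀ z : ℍ, F z ^ n = h z * (Function.Periodic.qParam (w : ℝ) (z : ℂ)) ^ r := by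
    intro z
    rw [hF, hh]
    simp only
    have e1 : Complex.exp ((2 * π * Complex.I * (k : ℂ) / (w : ℂ)) * (z : ℂ)) ^ n =
        Complex.exp (n * ((2 * π * Complex.I * (k : ℂ) / (w : ℂ)) * (z : ℂ))) :=
      (Complex.exp_nat_mul _ _).symm
    have e2 : (Function.Periodic.qParam (w : ℝ) (z : ℂ)) ^ r =
        Complex.exp (r * (2 * π * Complex.I * (z : ℂ) / ((w : ℝ) : ℂ))) := by
      rw [Function.Periodic.qParam, ← Complex.exp_nat_mul]
    rw [mul_pow, e1, e2, mul_assoc (G z ^ n), ← Complex.exp_add]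
    congr 2
    have hokC : (r : ℂ) - (o : ℂ) = (k : ℂ) * (n : ℂ) := by exact_mod_cast hok
    push_cast
    linear_combination (-(2 * π * Complex.I * (z : ℂ) / (w : ℂ))) * hokC
  have hqle : ∀ z : ℍ, ‖Function.Periodic.qParam (w : ℝ) (z : ℂ)‖ ≤ 1 :=
    fun z => (Function.Periodic.norm_qParam_lt_one hwR z.im_pos).le
  have hFbdd : IsBoundedAtImInfty F := by
    rw [UpperHalfPlane.isBoundedAtImInfty_iff]
    have h1 : ∀ᶠ z in atImInfty, ‖h z‖ < ‖a‖ + 1 :=
      hlim.norm.eventually_lt_const (by linarith)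
    obtain ⟨A, hA⟩ := (UpperHalfPlane.atImInfty_mem _).mp h1
    refine ⟨‖a‖ + 1, A, fun z hz => ?_⟩
    have h2 : ‖h z‖ < ‖a‖ + 1 := hA z hz
    have hC1 : (1 : ℝ) ≤ ‖a‖ + 1 := by linarith [norm_nonneg a]
    have h3 : ‖F z‖ ^ n ≤ (‖a‖ + 1) ^ n := by
      rw [← norm_pow, hFn z, norm_mul, norm_pow]
      calc ‖h z‖ * ‖Function.Periodic.qParam (w : ℝ) (z : ℂ)‖ ^ r ≤ (‖a‖ + 1) * 1 := by
            apply mul_le_mul h2.le (pow_le_one₀ (norm_nonneg _) (hqle z)) (by positivity)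
              (by positivity)
        _ = ‖a‖ + 1 := mul_one _
        _ ≤ (‖a‖ + 1) ^ n := le_self_pow₀ hC1 hn.ne'
    exact (pow_le_pow_iff_left₀ (norm_nonneg _) (by positivity) hn.ne').mp h3
  have hφ : AnalyticAt ℂ (cuspFunction (w : ℝ) F) 0 :=
    UpperHalfPlane.analyticAt_cuspFunction_zero hwR hFper hFhol hFbdd
  obtain ⟨φ, hφdef⟩ : ∃ φ : ℂ → ℂ, φ = cuspFunction (w : ℝ) F := ⟨_, rfl⟩
  rw [← hφdef] at hφ
  -- the quotient `φ^n / q^r`
  have hev : ∀ᶠ q in 𝓝[≠] (0 : ℂ), φ q ^ n / q ^ r =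
      (h ∘ ofComplex ∘ Function.Periodic.invQParam (w : ℝ)) q := by
    filter_upwards [self_mem_nhdsWithin,
      nhdsWithin_le_nhds (Metric.ball_mem_nhds (0 : ℂ) one_pos)] with q hq0 hq1
    have hq0' : q ≠ 0 := hq0
    have hq1' : ‖q‖ < 1 := by simpa using hq1
    have him := Function.Periodic.im_invQParam_pos_of_norm_lt_one hwR hq1' hq0'
    simp only [Function.comp_apply]
    rw [ofComplex_apply_of_im_pos him]
    have hqq : Function.Periodic.qParam (w : ℝ) (Function.Periodic.invQParam (w : ℝ) q) = q :=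
      Function.Periodic.qParam_right_inv hwR.ne' hq0'
    have e1 := UpperHalfPlane.eq_cuspFunction (h := (w : ℝ)) (f := F)
      ⟨Function.Periodic.invQParam (w : ℝ) q, him⟩ hwR.ne' hFper
    have e2 := hFn ⟨Function.Periodic.invQParam (w : ℝ) q, him⟩
    simp only at e1 e2
    rw [hqq] at e1 e2
    rw [hφdef, e1, e2, mul_div_assoc, div_self (pow_ne_zero r hq0'), mul_one]
  have hψlim : Tendsto (fun q => φ q ^ n / q ^ r) (𝓝[≠] (0 : ℂ)) (𝓝 a) := by
    have := hlim.comp (tendsto_comap_im_ofComplex.comp (Function.Periodic.invQParam_tendsto hwR))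
    refine this.congr' ?_
    filter_upwards [hev] with q hq
    rw [hq]
  obtain ⟨ψ, hψ⟩ : ∃ ψ : ℂ → ℂ, ψ = Function.update (fun q => φ q ^ n / q ^ r) 0 a := ⟨_, rfl⟩
  have hψ0 : ψ 0 = a := by rw [hψ]; simp
  have hψne : ∀ q : ℂ, q ≠ 0 → ψ q = φ q ^ n / q ^ r := by
    intro q hq
    rw [hψ, Function.update_of_ne hq]
  have hψcont : ContinuousAt ψ 0 := by
    rw [hψ, continuousAt_update_same]
    exact hψlim
  have hφev : ∀ᶠ q in 𝓝 (0 : ℂ), AnalyticAt ℂ φ q := hφ.eventually_analyticAt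
  have hψdiff : ∀ᶠ q in 𝓝[≠] (0 : ℂ), DifferentiableAt ℂ ψ q := by
    filter_upwards [self_mem_nhdsWithin, nhdsWithin_le_nhds hφev] with q hq0 hqan
    have hq0' : q ≠ 0 := hq0
    have h1 : DifferentiableAt ℂ (fun q => φ q ^ n / q ^ r) q :=
      (hqan.differentiableAt.pow n).div (differentiableAt_id.pow r) (pow_ne_zero r hq0')
    refine h1.congr_of_eventuallyEq ?_
    filter_upwards [isOpen_ne.mem_nhds hq0'] with q' hq'
    exact hψne q' hq'
  have hψan : AnalyticAt ℂ ψ 0 :=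
    Complex.analyticAt_of_differentiable_on_punctured_nhds_of_continuousAt hψdiff hψcont
  have hφn : AnalyticAt ℂ (φ ^ n) 0 := hφ.pow n
  have hfac' : ∀ᶠ q in 𝓝[≠] (0 : ℂ), (φ ^ n) q = (fun q => (q - 0) ^ r • ψ q) q := by
    filter_upwards [self_mem_nhdsWithin] with q hq0
    have hq0' : q ≠ 0 := hq0
    simp only [Pi.pow_apply, sub_zero, smul_eq_mul]
    rw [hψne q hq0', mul_div_assoc', mul_comm, mul_div_assoc, div_self (pow_ne_zero r hq0'),
      mul_one]
  have hrhs : AnalyticAt ℂ (fun q => (q - 0) ^ r • ψ q) 0 := by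
    have h1 : AnalyticAt ℂ (fun q : ℂ => (q - 0) ^ r) 0 := by fun_prop
    exact h1.fun_smul hψan
  have hfac : ∀ᶠ q in 𝓝 (0 : ℂ), (φ ^ n) q = (q - 0) ^ r • ψ q := by
    have := (hφn.continuousAt.eventuallyEq_nhds_iff_eventuallyEq_nhdsNE hrhs.continuousAt).mp hfac'
    exact this
  have hord : analyticOrderAt (φ ^ n) 0 = (r : ℕ∞) :=
    hφn.analyticOrderAt_eq_natCast.mpr ⟨ψ, hψan, by rw [hψ0]; exact ha, hfac⟩
  have hord2 : analyticOrderAt (φ ^ n) 0 = n • analyticOrderAt φ 0 := analyticOrderAt_pow hφ n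
  rw [hord2] at hord
  have hfin : analyticOrderAt φ 0 ≠ ⊤ := by
    intro htop
    rw [htop] at hord
    simp [hn.ne'] at hord
  obtain ⟨m, hm⟩ := ENat.ne_top_iff_exists.mp hfin
  rw [← hm] at hord
  have hnm : n * m = r := by
    have : ((n * m : ℕ) : ℕ∞) = (r : ℕ∞) := by
      rw [← hord]
      simp
    exact_mod_cast this
  have hm0 : m = 0 := by
    by_contra hm0
    have : n ≤ n * m := Nat.le_mul_of_pos_right n (Nat.pos_of_ne_zero hm0)
    omega
  have hr0 : r = 0 := by rw [← hnm, hm0, mul_zero]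
  apply Int.dvd_of_emod_eq_zero
  rw [← hr, hr0]
  rfl

end Fermat.Agent.AJlib
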