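import Mathlib

/-
Item 69 (AJ), piece B2 (helper20): the weight-4 Eisenstein series with a unitary character.

For a character `χ : Γ₀(N) →* ℂˣ` of absolute value one which is trivial on the upper
triangular elements of `Γ₀(N)`, the series
  `E(z) = ∑_{(c,d)} χ(γ_{c,d})⁻¹ (c z + d)⁻⁴`,
summed over the bottom rows `(c,d)` of elements of `Γ₀(N)`, is holomorphic on `ℍ`, nonzero
(its value along `i·(n+1)` tends to `2`), satisfies `E ∣[4] γ = χ(γ) • E` for `γ ∈ Γ₀(N)` and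
every `E ∣[4] g`, `g ∈ SL(2,ℤ)`, is bounded at `i∞`.

Main result: `Fermat.Agent.AJlib.exists_eisChar` (exact signature of NOTES/AJ_signatures).
-/

set_option autoImplicit false

noncomputable section

namespace Fermat.Agent.AJlib

open scoped MatrixGroups ModularForm Manifold Topology
open UpperHalfPlane ModularForm CongruenceSubgroup Filter Matrix EisensteinSeries

/-- bottom rows of elements of `Γ₀(N)` -/
def eischS (N : ℕ) : Set (Fin 2 → ℤ) := {v | (N : ℤ) ∣ v 0 ∧ IsCoprime (v 0) (v 1)}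

theorem eisch_exists_gamma (N : ℕ) {v : Fin 2 → ℤ} (hv : v ∈ eischS N) :
    ∃ γ : ↥(Gamma0 N), (γ : SL(2, ℤ)) 1 0 = v 0 ∧ (γ : SL(2, ℤ)) 1 1 = v 1 := by
  obtain ⟨hN, a, b, hab⟩ := hv
  have hdet : (!![b, -a; v 0, v 1] : Matrix (Fin 2) (Fin 2) ℤ).det = 1 := by
    rw [Matrix.det_fin_two_of]
    linarith
  refine ⟨⟨⟨!![b, -a; v 0, v 1], hdet⟩, ?_⟩, rfl, rfl⟩
  rw [Gamma0_mem]
  show (((!![b, -a; v 0, v 1] : Matrix (Fin 2) (Fin 2) ℤ) 1 0 : ℤ) : ZMod N) = 0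
  simp only [Matrix.of_apply, Matrix.cons_val', Matrix.cons_val_zero, Matrix.cons_val_one]
  exact (ZMod.intCast_zmod_eq_zero_iff_dvd _ _).mpr hN

theorem eisch_bottom_mem (N : ℕ) (γ : ↥(Gamma0 N)) :
    (fun i => (γ : SL(2, ℤ)) 1 i) ∈ eischS N := by
  constructor
  · have := (Gamma0_mem (N := N) (A := (γ : SL(2, ℤ)))).mp γ.2
    exact (ZMod.intCast_zmod_eq_zero_iff_dvd _ _).mp this
  · have hdet := Matrix.SpecialLinearGroup.det_coe (γ : SL(2, ℤ))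
    rw [Matrix.det_fin_two] at hdet
    exact ⟨-(γ : SL(2, ℤ)) 0 1, (γ : SL(2, ℤ)) 0 0, by linarith⟩

/-- the bottom row of a product -/
theorem eisch_bottom_mul (A B : SL(2, ℤ)) (j : Fin 2) :
    (A * B) 1 j = ((fun i => A 1 i) ᵥ* (B : Matrix (Fin 2) (Fin 2) ℤ)) j := by
  rw [Matrix.SpecialLinearGroup.coe_mul, Matrix.mul_apply]
  simp [Matrix.vecMul, dotProduct, Fin.sum_univ_two]

theorem eisch_vecMul_mem (N : ℕ) {v : Fin 2 → ℤ} (hv : v ∈ eischS N) (γ : ↥(Gamma0 N)) :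
    v ᵥ* ((γ : SL(2, ℤ)) : Matrix (Fin 2) (Fin 2) ℤ) ∈ eischS N := by
  obtain ⟨γv, h0, h1⟩ := eisch_exists_gamma N hv
  have hv' : v = fun i => (γv : SL(2, ℤ)) 1 i := by
    ext i; fin_cases i
    · exact h0.symm
    · exact h1.symm
  have := eisch_bottom_mem N (γv * γ)
  have e : (fun i => ((γv * γ : ↥(Gamma0 N)) : SL(2, ℤ)) 1 i)
      = v ᵥ* ((γ : SL(2, ℤ)) : Matrix (Fin 2) (Fin 2) ℤ) := by
    ext j
    rw [hv']
    exact eisch_bottom_mul _ _ j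
  rwa [e] at this

/-- the permutation of `eischS N` given by `γ ∈ Γ₀(N)` -/
def eischEquiv (N : ℕ) (γ : ↥(Gamma0 N)) : eischS N ≃ eischS N where
  toFun v := ⟨v.1 ᵥ* ((γ : SL(2, ℤ)) : Matrix (Fin 2) (Fin 2) ℤ), eisch_vecMul_mem N v.2 γ⟩
  invFun v := ⟨v.1 ᵥ* (((γ⁻¹ : ↥(Gamma0 N)) : SL(2, ℤ)) : Matrix (Fin 2) (Fin 2) ℤ),
    eisch_vecMul_mem N v.2 γ⁻¹⟩
  left_inv v := by
    apply Subtype.ext
    have h : ((γ : SL(2, ℤ)) * ((γ⁻¹ : ↥(Gamma0 N)) : SL(2, ℤ))) = 1 := by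
      rw [← Subgroup.coe_mul, mul_inv_cancel]; rfl
    have : (v.1 ᵥ* ((γ : SL(2, ℤ)) : Matrix (Fin 2) (Fin 2) ℤ)) ᵥ*
        (((γ⁻¹ : ↥(Gamma0 N)) : SL(2, ℤ)) : Matrix (Fin 2) (Fin 2) ℤ) = v.1 := by
      rw [Matrix.vecMul_vecMul, ← Matrix.SpecialLinearGroup.coe_mul, h,
        Matrix.SpecialLinearGroup.coe_one, Matrix.vecMul_one]
    exact this
  right_inv v := by
    apply Subtype.ext
    have h : (((γ⁻¹ : ↥(Gamma0 N)) : SL(2, ℤ)) * (γ : SL(2, ℤ))) = 1 := by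
      rw [← Subgroup.coe_mul, inv_mul_cancel]; rfl
    have : (v.1 ᵥ* (((γ⁻¹ : ↥(Gamma0 N)) : SL(2, ℤ)) : Matrix (Fin 2) (Fin 2) ℤ)) ᵥ*
        ((γ : SL(2, ℤ)) : Matrix (Fin 2) (Fin 2) ℤ) = v.1 := by
      rw [Matrix.vecMul_vecMul, ← Matrix.SpecialLinearGroup.coe_mul, h,
        Matrix.SpecialLinearGroup.coe_one, Matrix.vecMul_one]
    exact this

variable {N : ℕ} (χ : ↥(Gamma0 N) →* ℂˣ)

/-- the coefficient `χ(γ_v)⁻¹` -/
def eischPsi (v : eischS N) : ℂ :=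
  (((χ (eisch_exists_gamma N v.2).choose)⁻¹ : ℂˣ) : ℂ)

theorem eischPsi_eq (hT : ∀ γ : ↥(Gamma0 N), (γ : SL(2, ℤ)) 1 0 = 0 → χ γ = 1)
    (v : eischS N) (γ : ↥(Gamma0 N)) (h0 : (γ : SL(2, ℤ)) 1 0 = v.1 0)
    (h1 : (γ : SL(2, ℤ)) 1 1 = v.1 1) : eischPsi χ v = (((χ γ)⁻¹ : ℂˣ) : ℂ) := by
  have hc := (eisch_exists_gamma N v.2).choose_spec
  set γv := (eisch_exists_gamma N v.2).choose with hγv
  have key : χ (γ * γv⁻¹) = 1 := by
    apply hT
    rw [Subgroup.coe_mul, Subgroup.coe_inv, Matrix.SpecialLinearGroup.coe_mul,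
      Matrix.SpecialLinearGroup.SL2_inv_expl, Matrix.mul_apply]
    simp only [Fin.sum_univ_two, Matrix.cons_val', Matrix.cons_val_zero,
      Matrix.cons_val_one]
    rw [h0, h1, hc.1, hc.2]
    simp
    ring
  rw [map_mul, map_inv, mul_inv_eq_one] at key
  rw [eischPsi, ← hγv, key]

theorem eischPsi_norm (hχ : ∀ γ, ‖((χ γ : ℂˣ) : ℂ)‖ = 1) (v : eischS N) : ‖eischPsi χ v‖ = 1 := by
  rw [eischPsi, Units.val_inv_eq_inv_val, norm_inv, hχ, inv_one]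

theorem eischPsi_equiv (hT : ∀ γ : ↥(Gamma0 N), (γ : SL(2, ℤ)) 1 0 = 0 → χ γ = 1)
    (γ : ↥(Gamma0 N)) (v : eischS N) :
    eischPsi χ v = ((χ γ : ℂˣ) : ℂ) * eischPsi χ (eischEquiv N γ v) := by
  obtain ⟨γv, h0, h1⟩ := eisch_exists_gamma N v.2
  rw [eischPsi_eq χ hT v γv h0 h1]
  have e : eischPsi χ (eischEquiv N γ v) = (((χ (γv * γ))⁻¹ : ℂˣ) : ℂ) := by
    apply eischPsi_eq χ hT
    · rw [Subgroup.coe_mul, eisch_bottom_mul]
      show _ = (v.1 ᵥ* _) 0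
      congr 2
      ext i; fin_cases i
      · exact h0
      · exact h1
    · rw [Subgroup.coe_mul, eisch_bottom_mul]
      show _ = (v.1 ᵥ* _) 1
      congr 2
      ext i; fin_cases i
      · exact h0
      · exact h1
  rw [e, map_mul, mul_inv, Units.val_mul, ← mul_assoc, mul_comm ((χ γ : ℂˣ) : ℂ), mul_assoc]
  simp

/-! ### the series -/

/-- the twisted sum over bottom rows, translated by `g` -/
def eischSum (g : SL(2, ℤ)) (z : ℍ) : ℂ :=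
  ∑' v : eischS N, eischPsi χ v * eisSummand 4 (v.1 ᵥ* (g : Matrix (Fin 2) (Fin 2) ℤ)) z

/-- the Eisenstein series with character -/
def eischE (z : ℍ) : ℂ := ∑' v : eischS N, eischPsi χ v * eisSummand 4 v.1 z

theorem eisch_vecMul_injective (g : SL(2, ℤ)) :
    Function.Injective (fun v : Fin 2 → ℤ => v ᵥ* (g : Matrix (Fin 2) (Fin 2) ℤ)) := by
  intro v w h
  have h' := congrArg (fun x => x ᵥ* ((g⁻¹ : SL(2, ℤ)) : Matrix (Fin 2) (Fin 2) ℤ)) h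
  simp only [Matrix.vecMul_vecMul, ← Matrix.SpecialLinearGroup.coe_mul, mul_inv_cancel,
    Matrix.SpecialLinearGroup.coe_one, Matrix.vecMul_one] at h'
  exact h'

theorem eisch_summable_norm (hχ : ∀ γ, ‖((χ γ : ℂˣ) : ℂ)‖ = 1) (g : SL(2, ℤ)) (z : ℍ) :
    Summable (fun v : eischS N =>
      ‖eischPsi χ v * eisSummand 4 (v.1 ᵥ* (g : Matrix (Fin 2) (Fin 2) ℤ)) z‖) := by
  have h1 : Summable (fun v : eischS N =>
      ‖eisSummand 4 (v.1 ᵥ* (g : Matrix (Fin 2) (Fin 2) ℤ)) z‖) := by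
    have hinj : Function.Injective
        (fun v : eischS N => v.1 ᵥ* (g : Matrix (Fin 2) (Fin 2) ℤ)) :=
      (eisch_vecMul_injective g).comp Subtype.val_injective
    exact (summable_norm_eisSummand (k := 4) (by norm_num) z).comp_injective hinj
  refine h1.congr fun v => ?_
  rw [norm_mul, eischPsi_norm χ hχ, one_mul]

theorem eisch_summable (hχ : ∀ γ, ‖((χ γ : ℂˣ) : ℂ)‖ = 1) (g : SL(2, ℤ)) (z : ℍ) :
    Summable (fun v : eischS N =>
      eischPsi χ v * eisSummand 4 (v.1 ᵥ* (g : Matrix (Fin 2) (Fin 2) ℤ)) z) :=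
  (eisch_summable_norm χ hχ g z).of_norm

theorem eischSum_one (z : ℍ) : eischSum χ 1 z = eischE χ z := by
  simp [eischSum, eischE]

/-- slash action -/
theorem eisch_slash (g : SL(2, ℤ)) (z : ℍ) :
    (eischE χ ∣[(4 : ℤ)] g) z = eischSum χ g z := by
  rw [SL_slash_apply, eischE, eischSum, ← tsum_mul_right]
  congr 1
  ext v
  rw [eisSummand_SL2_apply, mul_assoc, mul_comm (denom g z ^ (4 : ℤ)), mul_assoc,
    ← zpow_add₀ (denom_ne_zero g z)]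
  simp

/-- transformation under `Γ₀(N)` -/
theorem eischSum_gamma (hT : ∀ γ : ↥(Gamma0 N), (γ : SL(2, ℤ)) 1 0 = 0 → χ γ = 1)
    (γ : ↥(Gamma0 N)) (z : ℍ) :
    eischSum χ (γ : SL(2, ℤ)) z = ((χ γ : ℂˣ) : ℂ) * eischE χ z := by
  have h1 : eischSum χ (γ : SL(2, ℤ)) z = ∑' v : eischS N, ((χ γ : ℂˣ) : ℂ) *
      (eischPsi χ (eischEquiv N γ v) * eisSummand 4 (eischEquiv N γ v).1 z) := by
    rw [eischSum]
    refine tsum_congr fun v => ?_
    rw [eischPsi_equiv χ hT γ v, mul_assoc]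
    rfl
  have h2 : ∑' v : eischS N, eischPsi χ (eischEquiv N γ v) * eisSummand 4 (eischEquiv N γ v).1 z
      = eischE χ z :=
    (eischEquiv N γ).tsum_eq (fun w : eischS N => eischPsi χ w * eisSummand 4 w.1 z)
  rw [h1, tsum_mul_left, h2]

/-- bound by the full lattice sum -/
theorem eischSum_norm_le (hχ : ∀ γ, ‖((χ γ : ℂˣ) : ℂ)‖ = 1) (g : SL(2, ℤ)) (z : ℍ) :
    ‖eischSum χ g z‖ ≤ ∑' x : Fin 2 → ℤ, ‖eisSummand 4 x z‖ := by
  rw [eischSum]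
  refine (norm_tsum_le_tsum_norm (eisch_summable_norm χ hχ g z)).trans ?_
  have hinj : Function.Injective
      (fun v : eischS N => v.1 ᵥ* (g : Matrix (Fin 2) (Fin 2) ℤ)) :=
    (eisch_vecMul_injective g).comp Subtype.val_injective
  have e : (fun v : eischS N =>
      ‖eischPsi χ v * eisSummand 4 (v.1 ᵥ* (g : Matrix (Fin 2) (Fin 2) ℤ)) z‖)
      = (fun x : Fin 2 → ℤ => ‖eisSummand 4 x z‖) ∘
        (fun v : eischS N => v.1 ᵥ* (g : Matrix (Fin 2) (Fin 2) ℤ)) := by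
    ext v
    simp only [Function.comp_apply, norm_mul, eischPsi_norm χ hχ, one_mul]
  rw [e]
  exact tsum_comp_le_tsum_of_inj (summable_norm_eisSummand (k := 4) (by norm_num) z)
    (fun _ => norm_nonneg _) hinj

/-! ### boundedness at the cusps -/

/-- the full lattice norm sum -/
def eischF (z : ℍ) : ℝ := ∑' x : Fin 2 → ℤ, ‖eisSummand 4 x z‖

/-- the shear `x ↦ (x₀, x₀ n + x₁)` -/
def eischShear (n : ℤ) : (Fin 2 → ℤ) ≃ (Fin 2 → ℤ) where
  toFun x := ![x 0, x 0 * n + x 1]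
  invFun x := ![x 0, x 1 - x 0 * n]
  left_inv x := by
    ext i; fin_cases i <;> simp
  right_inv x := by
    ext i; fin_cases i <;> simp

theorem eisch_eisSummand_T (n : ℤ) (x : Fin 2 → ℤ) (z : ℍ) :
    eisSummand 4 x (ModularGroup.T ^ n • z) = eisSummand 4 (eischShear n x) z := by
  simp only [eisSummand, eischShear, Equiv.coe_fn_mk, Matrix.cons_val_zero, Matrix.cons_val_one,
    ModularGroup.coe_T_zpow_smul_eq]
  congr 1
  push_cast
  ring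

theorem eischF_T (n : ℤ) (z : ℍ) : eischF (ModularGroup.T ^ n • z) = eischF z := by
  rw [eischF, eischF]
  simp_rw [eisch_eisSummand_T]
  exact (eischShear n).tsum_eq (fun x => ‖eisSummand 4 x z‖)

theorem eischF_le {A B : ℝ} (hB : 0 < B) {z : ℍ} (hz : z ∈ verticalStrip A B) :
    eischF z ≤ ∑' x : Fin 2 → ℤ, r ⟨⟨A, B⟩, hB⟩ ^ (-(4 : ℝ)) * ‖x‖ ^ (-(4 : ℝ)) := by
  rw [eischF]
  have hk' : (2 : ℝ) < (4 : ℝ) := by norm_num
  apply (summable_norm_eisSummand (k := 4) (by norm_num) z).tsum_le_tsum _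
  · exact (summable_one_div_norm_rpow hk').mul_left _
  · intro x
    simp_rw [eisSummand, norm_zpow]
    exact_mod_cast summand_bound_of_mem_verticalStrip (k := 4) (by norm_num) x hB hz

theorem eisch_bounded (hχ : ∀ γ, ‖((χ γ : ℂˣ) : ℂ)‖ = 1) (g : SL(2, ℤ)) :
    IsBoundedAtImInfty (eischE χ ∣[(4 : ℤ)] g) := by
  rw [UpperHalfPlane.isBoundedAtImInfty_iff]
  refine ⟨∑' x : Fin 2 → ℤ, r ⟨⟨1, 2⟩, two_pos⟩ ^ (-(4 : ℝ)) * ‖x‖ ^ (-(4 : ℝ)), 2, ?_⟩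
  intro z hz
  obtain ⟨n, hn⟩ := ModularGroup_T_zpow_mem_verticalStrip z (N := 1) one_pos
  rw [eisch_slash]
  refine (eischSum_norm_le χ hχ g z).trans ?_
  show eischF z ≤ _
  rw [← eischF_T (((1 : ℕ) : ℤ) * n) z]
  refine eischF_le two_pos ?_
  have := verticalStrip_anti_right (1 : ℕ) hz hn
  simpa using this

/-! ### holomorphy -/

theorem eisch_tendstoLocallyUniformly (hχ : ∀ γ, ‖((χ γ : ℂˣ) : ℂ)‖ = 1) :
    TendstoLocallyUniformly
      (fun (s : Finset (eischS N)) (z : ℍ) => ∑ v ∈ s, eischPsi χ v * eisSummand 4 v.1 z)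
      (eischE χ) Filter.atTop := by
  have hk' : (2 : ℝ) < (4 : ℝ) := by norm_num
  have p_sum : Summable fun x : eischS N => ‖x.val‖ ^ (-(4 : ℝ)) :=
    (summable_one_div_norm_rpow hk').subtype (· ∈ eischS N)
  rw [tendstoLocallyUniformly_iff_forall_isCompact]
  intro K hK
  obtain ⟨A, B, hB, HABK⟩ := subset_verticalStrip_of_isCompact hK
  refine (tendstoUniformlyOn_tsum (hu := p_sum.mul_left <| r ⟨⟨A, B⟩, hB⟩ ^ (-(4 : ℝ)))
    (fun p z hz ↦ ?_)).mono HABK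
  rw [norm_mul, eischPsi_norm χ hχ, one_mul]
  simp_rw [eisSummand, norm_zpow]
  exact_mod_cast summand_bound_of_mem_verticalStrip (k := 4) (by norm_num) p.1 hB hz

theorem eisch_tendstoLocallyUniformlyOn (hχ : ∀ γ, ‖((χ γ : ℂˣ) : ℂ)‖ = 1) :
    TendstoLocallyUniformlyOn
      (fun (s : Finset (eischS N)) =>
        ↑ₕ(fun (z : ℍ) => ∑ v ∈ s, eischPsi χ v * eisSummand 4 v.1 z))
      (↑ₕ(eischE χ)) Filter.atTop {z : ℂ | 0 < z.im} := by
  rw [← upperHalfPlaneSet, ← range_coe, ← Set.image_univ]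
  apply TendstoLocallyUniformlyOn.comp (s := ⊤) _ _ _ (OpenPartialHomeomorph.continuousOn_symm _)
  · simp only [Set.top_eq_univ, tendstoLocallyUniformlyOn_univ]
    exact eisch_tendstoLocallyUniformly χ hχ
  · exact Set.mapsTo_univ _ _

theorem eisch_summand_differentiableOn (v : eischS N) :
    DifferentiableOn ℂ (↑ₕ(fun z : ℍ => eischPsi χ v * eisSummand 4 v.1 z)) {z : ℂ | 0 < z.im} := by
  have h := (eisSummand_extension_differentiableOn 4 v.1).const_mul (eischPsi χ v)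
  refine h.congr fun z _ => ?_
  simp

theorem eisch_mdiff (hχ : ∀ γ, ‖((χ γ : ℂˣ) : ℂ)‖ = 1) : MDiff (eischE χ) := by
  intro τ
  suffices DifferentiableAt ℂ (↑ₕ(eischE χ)) τ.1 by
    convert!
      MDifferentiableAt.comp τ (DifferentiableAt.mdifferentiableAt this) τ.mdifferentiable_coe
    exact funext fun z ↦ (comp_ofComplex (eischE χ) z).symm
  refine DifferentiableOn.differentiableAt ?_ (isOpen_upperHalfPlaneSet.mem_nhds τ.2)
  refine (eisch_tendstoLocallyUniformlyOn χ hχ).differentiableOn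
    (Eventually.of_forall fun s ↦ ?_) isOpen_upperHalfPlaneSet
  have h : DifferentiableOn ℂ
      (fun w : ℂ => ∑ v ∈ s, (↑ₕ(fun z : ℍ => eischPsi χ v * eisSummand 4 v.1 z)) w)
      {z : ℂ | 0 < z.im} :=
    DifferentiableOn.fun_sum fun v _ => eisch_summand_differentiableOn χ v
  refine h.congr fun w _ => ?_
  simp

/-! ### nonvanishing -/

/-- the points `i (n + 1)` -/
def eischPt (n : ℕ) : ℍ := ⟨⟨0, (n : ℝ) + 1⟩, by positivity⟩

theorem eischPt_mem (n : ℕ) : eischPt n ∈ verticalStrip 0 1 := by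
  refine ⟨?_, ?_⟩
  · show |(0 : ℝ)| ≤ 0
    simp
  · show (1 : ℝ) ≤ (n : ℝ) + 1
    linarith [Nat.cast_nonneg (α := ℝ) n]

theorem eisch_v1_of_v0 (v : eischS N) (h : v.1 0 = 0) : v.1 1 = 1 ∨ v.1 1 = -1 := by
  have := v.2.2
  rw [h] at this
  have hu : IsUnit (v.1 1) := isCoprime_zero_left.mp this
  exact Int.isUnit_iff.mp hu

theorem eischPsi_of_v0 (hT : ∀ γ : ↥(Gamma0 N), (γ : SL(2, ℤ)) 1 0 = 0 → χ γ = 1)
    (v : eischS N) (h : v.1 0 = 0) : eischPsi χ v = 1 := by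
  obtain ⟨γ, h0, h1⟩ := eisch_exists_gamma N v.2
  rw [eischPsi_eq χ hT v γ h0 h1, hT γ (h0.trans h)]
  simp

theorem eisch_term_of_v0 (hT : ∀ γ : ↥(Gamma0 N), (γ : SL(2, ℤ)) 1 0 = 0 → χ γ = 1)
    (v : eischS N) (h : v.1 0 = 0) (z : ℍ) : eischPsi χ v * eisSummand 4 v.1 z = 1 := by
  rw [eischPsi_of_v0 χ hT v h, one_mul, eisSummand, h]
  rcases eisch_v1_of_v0 v h with h1 | h1 <;> rw [h1] <;> norm_num

theorem eisch_term_tendsto (hχ : ∀ γ, ‖((χ γ : ℂˣ) : ℂ)‖ = 1) (v : eischS N) (h : v.1 0 ≠ 0) :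
    Tendsto (fun n : ℕ => eischPsi χ v * eisSummand 4 v.1 (eischPt n)) atTop (𝓝 0) := by
  rw [tendsto_zero_iff_norm_tendsto_zero]
  have hb : ∀ n : ℕ, ‖eischPsi χ v * eisSummand 4 v.1 (eischPt n)‖ ≤ ((n : ℝ) + 1)⁻¹ := by
    intro n
    rw [norm_mul, eischPsi_norm χ hχ, one_mul, eisSummand, norm_zpow, _root_.zpow_neg]
    have hn : (0 : ℝ) < (n : ℝ) + 1 := by positivity
    have h1 : (n : ℝ) + 1 ≤ ‖((v.1 0 : ℤ) : ℂ) * ((eischPt n : ℍ) : ℂ) + ((v.1 1 : ℤ) : ℂ)‖ := by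
      have him : (((v.1 0 : ℤ) : ℂ) * ((eischPt n : ℍ) : ℂ) + ((v.1 1 : ℤ) : ℂ)).im
          = (v.1 0 : ℝ) * ((n : ℝ) + 1) := by
        simp [eischPt]
      have h2 := Complex.abs_im_le_norm
        (((v.1 0 : ℤ) : ℂ) * ((eischPt n : ℍ) : ℂ) + ((v.1 1 : ℤ) : ℂ))
      rw [him, abs_mul, abs_of_pos hn] at h2
      have h3 : (1 : ℝ) ≤ |((v.1 0 : ℤ) : ℝ)| := by
        have : (1 : ℤ) ≤ |v.1 0| := Int.one_le_abs h
        exact_mod_cast this
      nlinarith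
    have h4 : (n : ℝ) + 1 ≤
        ‖((v.1 0 : ℤ) : ℂ) * ((eischPt n : ℍ) : ℂ) + ((v.1 1 : ℤ) : ℂ)‖ ^ (4 : ℤ) := by
      have h5 : (1 : ℝ) ≤ ‖((v.1 0 : ℤ) : ℂ) * ((eischPt n : ℍ) : ℂ) + ((v.1 1 : ℤ) : ℂ)‖ := by
        linarith [Nat.cast_nonneg (α := ℝ) n]
      calc (n : ℝ) + 1 ≤ ‖((v.1 0 : ℤ) : ℂ) * ((eischPt n : ℍ) : ℂ) + ((v.1 1 : ℤ) : ℂ)‖ := h1
        _ = ‖((v.1 0 : ℤ) : ℂ) * ((eischPt n : ℍ) : ℂ) + ((v.1 1 : ℤ) : ℂ)‖ ^ (1 : ℤ) := by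
            rw [zpow_one]
        _ ≤ _ := zpow_le_zpow_right₀ h5 (by norm_num)
    exact inv_anti₀ hn h4
  refine squeeze_zero (fun _ => norm_nonneg _) hb ?_
  exact tendsto_inv_atTop_zero.comp (tendsto_atTop_add_const_right _ _ tendsto_natCast_atTop_atTop)

theorem eisch_limit (hχ : ∀ γ, ‖((χ γ : ℂˣ) : ℂ)‖ = 1)
    (hT : ∀ γ : ↥(Gamma0 N), (γ : SL(2, ℤ)) 1 0 = 0 → χ γ = 1) :
    Tendsto (fun n : ℕ => eischE χ (eischPt n)) atTop
      (𝓝 (∑' v : eischS N, if v.1 0 = 0 then (1 : ℂ) else 0)) := by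
  have hk' : (2 : ℝ) < (4 : ℝ) := by norm_num
  have p_sum : Summable fun x : eischS N => ‖x.val‖ ^ (-(4 : ℝ)) :=
    (summable_one_div_norm_rpow hk').subtype (· ∈ eischS N)
  refine tendsto_tsum_of_dominated_convergence
    (bound := fun v : eischS N => r ⟨⟨0, 1⟩, one_pos⟩ ^ (-(4 : ℝ)) * ‖v.val‖ ^ (-(4 : ℝ)))
    (p_sum.mul_left _) (fun v => ?_) (Eventually.of_forall fun n v => ?_)
  · by_cases h : v.1 0 = 0
    · rw [if_pos h]
      simp_rw [eisch_term_of_v0 χ hT v h]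
      exact tendsto_const_nhds
    · rw [if_neg h]
      exact eisch_term_tendsto χ hχ v h
  · rw [norm_mul, eischPsi_norm χ hχ, one_mul]
    simp_rw [eisSummand, norm_zpow]
    exact_mod_cast summand_bound_of_mem_verticalStrip (k := 4) (by norm_num) v.1 one_pos
      (eischPt_mem n)

theorem eisch_mem_01 : (![0, 1] : Fin 2 → ℤ) ∈ eischS N :=
  ⟨by simp, by simp [isCoprime_zero_left]⟩

theorem eisch_limit_ne (N : ℕ) : (∑' v : eischS N, if v.1 0 = 0 then (1 : ℂ) else 0) ≠ 0 := by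
  have hsupp : (Function.support fun v : eischS N => if v.1 0 = 0 then (1 : ℝ) else 0).Finite := by
    have : (Function.support fun v : eischS N => if v.1 0 = 0 then (1 : ℝ) else 0) ⊆
        {v : eischS N | v.1 0 = 0} := by
      intro v hv
      by_contra h
      exact hv (if_neg h)
    refine Set.Finite.subset ?_ this
    have hfin : ({![0, 1], ![0, -1]} : Set (Fin 2 → ℤ)).Finite := by simp
    refine Set.Finite.of_finite_image (f := Subtype.val) (hfin.subset ?_)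
      Subtype.val_injective.injOn
    rintro _ ⟨v, hv, rfl⟩
    rcases eisch_v1_of_v0 v hv with h1 | h1
    · left
      ext i; fin_cases i
      · exact hv
      · exact h1
    · right
      ext i; fin_cases i
      · exact hv
      · exact h1
  have hsum : Summable fun v : eischS N => if v.1 0 = 0 then (1 : ℝ) else 0 :=
    summable_of_hasFiniteSupport (show Set.Finite _ from hsupp)
  have hpos : 0 < ∑' v : eischS N, if v.1 0 = 0 then (1 : ℝ) else 0 :=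
    hsum.tsum_pos (fun v => by split_ifs <;> norm_num) ⟨![0, 1], eisch_mem_01⟩ (by simp)
  have hcast : (∑' v : eischS N, if v.1 0 = 0 then (1 : ℂ) else 0)
      = ((∑' v : eischS N, if v.1 0 = 0 then (1 : ℝ) else 0 : ℝ) : ℂ) := by
    rw [Complex.ofReal_tsum]
    refine tsum_congr fun v => ?_
    split_ifs <;> simp
  rw [hcast]
  exact_mod_cast hpos.ne'

theorem eischE_ne_zero (hχ : ∀ γ, ‖((χ γ : ℂˣ) : ℂ)‖ = 1)
    (hT : ∀ γ : ↥(Gamma0 N), (γ : SL(2, ℤ)) 1 0 = 0 → χ γ = 1) : eischE χ ≠ 0 := by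
  intro h0
  have h := eisch_limit χ hχ hT
  rw [h0] at h
  have h' : Tendsto (fun _ : ℕ => (0 : ℂ)) atTop
      (𝓝 (∑' v : eischS N, if v.1 0 = 0 then (1 : ℂ) else 0)) := h
  exact eisch_limit_ne N (tendsto_nhds_unique h' tendsto_const_nhds)

/-- **B2**: the weight-4 Eisenstein series with character. -/
theorem exists_eisChar (N : ℕ) [NeZero N] (χ : ↥(Gamma0 N) →* ℂˣ)
    (hχ : ∀ γ, ‖((χ γ : ℂˣ) : ℂ)‖ = 1)
    (hT : ∀ γ : ↥(Gamma0 N), (γ : SL(2, ℤ)) 1 0 = 0 → χ γ = 1) :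
    ∃ E : ℍ → ℂ, MDiff E ∧ E ≠ 0 ∧
      (∀ γ : ↥(Gamma0 N), E ∣[(4 : ℤ)] (γ : SL(2, ℤ)) = ((χ γ : ℂˣ) : ℂ) • E) ∧
      (∀ g : SL(2, ℤ), IsBoundedAtImInfty (E ∣[(4 : ℤ)] g)) := by
  refine ⟨eischE χ, eisch_mdiff χ hχ, eischE_ne_zero χ hχ hT, fun γ => ?_, fun g => eisch_bounded χ hχ g⟩
  funext z
  rw [eisch_slash, eischSum_gamma χ hT γ z]
  rfl

end Fermat.Agent.AJlib

end
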