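/-
Item 69 (AJ), piece C4 (helper20), core: surjectivity of the analytic Kummer character.

For an unramified character `χ` of `Γ₀(N)` with `χ^n = 1` let `E_χ` be the weight-4 Eisenstein
series with character `χ` (`AJlib/EisChar.lean`), `H := E_χ · E₄²` (weight 12, character `χ`),
`G := H / Δ` (holomorphic on `ℍ`, `G ∘ γ = χ(γ) G`), `a := G^n ∈ WH N` (`Γ₀(N)`-invariant) and
`f ∈ FC N` with `ιFC f = a` (K2).  Then `f ∈ U_n(F_ℂ)`, `χ` is the Kummer character of `f`, and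
`ord_w f ≥ n · min(0, ord_w j)` at every place.
* finite places (`cs_fin`): dictionary `dict_fin'` (helper4) — `e ∣ ord_τ G`;
* cusps (`cs_inf`): dictionary `dict_inf'` + `cusp_order_dvd` (helper9) + the limit statement
  `CsLim N` (= helper9's `tendsto_mul_exp_order`, a hypothesis in this file).
Main result: `exists_of_unramHom_of_lim`.
-/
import Mathlib
import Fermat.Agent.AJlib.EisChar
import Fermat.Agent.AJlib.CK2
import Fermat.Agent.AJlib.KummerCharDef
import Fermat.Agent.AJlib.CountDefs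
import Fermat.Agent.AJlib.AuxRC
import Fermat.Agent.AJlib.AuxElliptic
import Fermat.Agent.AJlib.CDict
import Fermat.Agent.AJlib.CDictInf
import Fermat.Agent.AJlib.Kummer
import Fermat.Agent.AJlib.CuspOrder

set_option autoImplicit false

open scoped MatrixGroups ModularForm Manifold Topology
open UpperHalfPlane ModularForm CongruenceSubgroup Filter ModularCurve AlgebraicCurve

namespace Fermat.Agent.AJlib

open Fermat.Agent.S24lib Fermat.Agent.S20lib


/-! ### modular forms with character (function level) -/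

/-- `f` is a modular form of weight `k` with character `χ` on `Γ₀(N)` (function level). -/
structure IsMFChar (N : ℕ) (χ : ↥(Gamma0 N) →* ℂˣ) (k : ℤ) (f : ℍ → ℂ) : Prop where
  holo : MDiff f
  inv : ∀ γ : ↥(Gamma0 N), f ∣[k] (γ : SL(2, ℤ)) = ((χ γ : ℂˣ) : ℂ) • f
  bdd : ∀ g : SL(2, ℤ), IsBoundedAtImInfty (f ∣[k] g)

variable {N : ℕ} {χ χ' : ↥(Gamma0 N) →* ℂˣ} {k k' : ℤ} {f f' : ℍ → ℂ}

lemma IsMFChar.mul (h : IsMFChar N χ k f) (h' : IsMFChar N χ' k' f') :
    IsMFChar N (χ * χ') (k + k') (f * f') where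
  holo := h.holo.mul h'.holo
  inv γ := by
    rw [mul_slash_SL2, h.inv, h'.inv]
    funext z
    simp only [Pi.mul_apply, Pi.smul_apply, smul_eq_mul, MonoidHom.mul_apply, Units.val_mul]
    ring
  bdd g := by
    rw [mul_slash_SL2]
    exact (h.bdd g).mul (h'.bdd g)

lemma IsMFChar.of_isMF (h : IsMF ⊤ k f) : IsMFChar N 1 k f where
  holo := h.holo
  inv γ := by
    rw [h.inv _ trivial]
    simp
  bdd := h.bdd

lemma IsMFChar.congr (h : IsMFChar N χ k f) (hχ : χ = χ') (hk : k = k') : IsMFChar N χ' k' f := by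
  subst hχ; subst hk; exact h

lemma IsMFChar.pow (h : IsMFChar N χ k f) (m : ℕ) :
    IsMFChar N (χ ^ m) ((m : ℤ) * k) (f ^ m) := by
  induction m with
  | zero =>
    have h1 := IsMFChar.of_isMF (N := N) (isMF_const ⊤ 1)
    have e : f ^ 0 = Function.const ℍ (1 : ℂ) := by
      funext z; simp
    rw [e]
    exact h1.congr (pow_zero χ).symm (by simp)
  | succ m ih =>
    have h1 := ih.mul h
    rw [pow_succ]
    exact h1.congr (pow_succ χ m).symm (by push_cast; ring)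

lemma IsMFChar.isMF (h : IsMFChar N 1 k f) : IsMF (Gamma0 N) k f where
  holo := h.holo
  inv γ hγ := by
    have := h.inv ⟨γ, hγ⟩
    simpa using this
  bdd := h.bdd

/-! ### the construction -/

/-- the ring of holomorphic functions on `ℍ` has no zero divisors -/
lemma cs_mul_ne_zero {F₁ F₂ : ℍ → ℂ} (h₁ : MDiff F₁) (h₂ : MDiff F₂) (hne₁ : F₁ ≠ 0)
    (hne₂ : F₂ ≠ 0) : F₁ * F₂ ≠ 0 := by
  intro h0
  have a₁ : AnalyticAt ℂ (F₁ ∘ ofComplex) ((UpperHalfPlane.I : ℍ) : ℂ) :=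
    analyticOnNhd_comp_ofComplex h₁ _ UpperHalfPlane.I.im_pos
  have a₂ : AnalyticAt ℂ (F₂ ∘ ofComplex) ((UpperHalfPlane.I : ℍ) : ℂ) :=
    analyticOnNhd_comp_ofComplex h₂ _ UpperHalfPlane.I.im_pos
  have hprod : (F₁ ∘ ofComplex) * (F₂ ∘ ofComplex) = 0 := by
    funext w
    have := congrFun h0 (ofComplex w)
    simpa using this
  have htop : analyticOrderAt ((F₁ ∘ ofComplex) * (F₂ ∘ ofComplex))
      ((UpperHalfPlane.I : ℍ) : ℂ) = ⊤ := by
    rw [hprod, analyticOrderAt_eq_top]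
    exact Eventually.of_forall fun _ => rfl
  rw [analyticOrderAt_mul a₁ a₂] at htop
  have hz : MDiff (0 : ℍ → ℂ) := mdifferentiable_const
  have htop' : analyticOrderAt (F₁ ∘ ofComplex) ((UpperHalfPlane.I : ℍ) : ℂ) = ⊤ ∨
      analyticOrderAt (F₂ ∘ ofComplex) ((UpperHalfPlane.I : ℍ) : ℂ) = ⊤ :=
    WithTop.add_eq_top.mp htop
  rcases htop' with h | h
  · rw [analyticOrderAt_eq_top] at h
    apply hne₁
    refine eq_of_eventuallyEq_comp_ofComplex h₁ hz UpperHalfPlane.I ?_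
    filter_upwards [h] with w hw
    simpa using hw
  · rw [analyticOrderAt_eq_top] at h
    apply hne₂
    refine eq_of_eventuallyEq_comp_ofComplex h₂ hz UpperHalfPlane.I ?_
    filter_upwards [h] with w hw
    simpa using hw

lemma cs_Gamma_le_Gamma0 (N : ℕ) : Gamma N ≤ Gamma0 N := by
  intro γ hγ
  rw [Gamma_mem] at hγ
  rw [Gamma0_mem]
  exact hγ.2.2.1

/-- characters of finite order are unitary -/
lemma cs_norm_eq_one {n : ℕ} (hn : 0 < n) (hχn : χ ^ n = 1) (γ : ↥(Gamma0 N)) :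
    ‖((χ γ : ℂˣ) : ℂ)‖ = 1 := by
  have h : (χ γ) ^ n = 1 := by
    have := congrArg (fun ψ : ↥(Gamma0 N) →* ℂˣ => ψ γ) hχn
    simpa using this
  have h2 : ((χ γ : ℂˣ) : ℂ) ^ n = 1 := by
    have := congrArg Units.val h
    simpa using this
  have h3 : ‖((χ γ : ℂˣ) : ℂ)‖ ^ n = 1 := by rw [← norm_pow, h2, norm_one]
  exact (pow_eq_one_iff_of_nonneg (norm_nonneg _) hn.ne').mp h3

lemma cs_coe_pow_eq_one {n : ℕ} (hχn : χ ^ n = 1) (γ : ↥(Gamma0 N)) :
    ((χ γ : ℂˣ) : ℂ) ^ n = 1 := by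
  have h : (χ γ) ^ n = 1 := by
    have := congrArg (fun ψ : ↥(Gamma0 N) →* ℂˣ => ψ γ) hχn
    simpa using this
  have := congrArg Units.val h
  simpa using this

/-- unramified characters are trivial on upper triangular elements -/
lemma cs_trivial_upper (hχ : χ ∈ UnramHom N ℂˣ) (γ : ↥(Gamma0 N))
    (h : (γ : SL(2, ℤ)) 1 0 = 0) : χ γ = 1 := by
  apply hχ
  have hdet := Matrix.SpecialLinearGroup.det_coe (γ : SL(2, ℤ))
  rw [Matrix.det_fin_two] at hdet
  rw [Matrix.trace_fin_two]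
  have h' : ((γ : SL(2, ℤ)) : Matrix (Fin 2) (Fin 2) ℤ) 1 0 = 0 := h
  rw [h', mul_zero, sub_zero] at hdet
  rcases Int.eq_one_or_neg_one_of_mul_eq_one hdet with h1 | h1
  · rw [h1, one_mul] at hdet
    rw [h1, hdet]
    norm_num
  · rw [h1] at hdet
    have h2 : ((γ : SL(2, ℤ)) : Matrix (Fin 2) (Fin 2) ℤ) 1 1 = -1 := by linarith
    rw [h1, h2]
    norm_num

/-- the weight-`12` form `E · E₄²` with character `χ` -/
lemma cs_exists_H {n : ℕ} (hn : 0 < n) [NeZero N] (hχ : χ ∈ UnramHom N ℂˣ) (hχn : χ ^ n = 1) :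
    ∃ H : ℍ → ℂ, IsMFChar N χ 12 H ∧ H ≠ 0 := by
  obtain ⟨E, hE1, hE2, hE3, hE4⟩ := exists_eisChar N χ (cs_norm_eq_one hn hχn)
    (cs_trivial_upper hχ)
  have hE : IsMFChar N χ 4 E := ⟨hE1, hE3, hE4⟩
  have h4 : IsMFChar N 1 4 (⇑E₄) := IsMFChar.of_isMF isMF_E₄
  have hH := ((hE.mul h4).mul h4).congr (χ' := χ) (k' := 12) (by ext γ; simp)
    (by norm_num)
  refine ⟨E * ⇑E₄ * ⇑E₄, hH, ?_⟩
  have hE₄ : (⇑E₄ : ℍ → ℂ) ≠ 0 := by
    intro h0
    have := congrFun h0 UpperHalfPlane.I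
    exact E₄_I_ne_zero this
  exact cs_mul_ne_zero (hE1.mul h4.holo) h4.holo (cs_mul_ne_zero hE1 h4.holo hE2 hE₄) hE₄

/-- the function `G = H / Δ` -/
noncomputable def csG (H : ℍ → ℂ) : ℍ → ℂ := fun z => H z / discriminant z

lemma csG_mdiff {H : ℍ → ℂ} (hH : MDiff H) : MDiff (csG H) :=
  hH.div isCF_discriminant.holo discriminant_ne_zero

lemma csG_ne_zero {H : ℍ → ℂ} (hH : H ≠ 0) : csG H ≠ 0 := by
  intro h0
  apply hH
  funext z
  have := congrFun h0 z
  simp only [csG, Pi.zero_apply, div_eq_zero_iff] at this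
  exact this.resolve_right (discriminant_ne_zero z)

lemma csG_smul (H : ℍ → ℂ) (g : SL(2, ℤ)) (z : ℍ) :
    csG H (g • z) = (H ∣[(12 : ℤ)] g) z / discriminant z := by
  have hΔ := congrFun (isCF_discriminant.inv g trivial) z
  rw [SL_slash_apply] at hΔ ⊢
  unfold csG
  have hd : denom g z ^ (-(12 : ℤ)) ≠ 0 := zpow_ne_zero _ (denom_ne_zero g z)
  rw [← hΔ, mul_div_mul_right _ _ hd]

lemma csG_gamma {H : ℍ → ℂ} (hH : IsMFChar N χ 12 H) (γ : ↥(Gamma0 N)) (z : ℍ) :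
    csG H ((γ : SL(2, ℤ)) • z) = ((χ γ : ℂˣ) : ℂ) * csG H z := by
  rw [csG_smul, hH.inv]
  simp only [csG, Pi.smul_apply, smul_eq_mul]
  ring

lemma cs_pow_slash (H : ℍ → ℂ) (k : ℤ) (g : SL(2, ℤ)) (n : ℕ) :
    (H ^ n) ∣[(n : ℤ) * k] g = (H ∣[k] g) ^ n := by
  induction n with
  | zero =>
    funext z
    rw [SL_slash_apply]
    simp
  | succ n ih =>
    have e : ((n + 1 : ℕ) : ℤ) * k = (n : ℤ) * k + k := by push_cast; ring
    rw [e, pow_succ, mul_slash_SL2, ih, pow_succ]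

/-- `(G ∘ g)^n · Δ^n = (H ∣ g)^n` is a modular form on `Γ(N)` -/
lemma csG_isMF {H : ℍ → ℂ} (hH : IsMFChar N χ 12 H) {n : ℕ} (hχn : χ ^ n = 1)
    (g : SL(2, ℤ)) :
    IsMF (Gamma N) (12 * (n : ℤ)) ((fun z => csG H (g • z) ^ n) * discriminant ^ n) := by
  have h1 : IsMF (Gamma N) ((n : ℤ) * 12) (H ^ n) :=
    (((hH.pow n).congr hχn rfl).isMF).mono (cs_Gamma_le_Gamma0 N)
  have hnorm := Gamma_normal N
  have h2 := wh_isMF_slash h1 g
  rw [cs_pow_slash] at h2
  have e : (fun z => csG H (g • z) ^ n) * discriminant ^ n = (H ∣[(12 : ℤ)] g) ^ n := by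
    funext z
    simp only [Pi.mul_apply, Pi.pow_apply]
    rw [csG_smul, div_pow, div_mul_cancel₀ _ (pow_ne_zero n (discriminant_ne_zero z))]
  rw [e]
  exact h2.congr_weight (mul_comm _ _)

lemma csG_isWH {H : ℍ → ℂ} (hH : IsMFChar N χ 12 H) {n : ℕ} (hχn : χ ^ n = 1) :
    IsWH N ((csG H) ^ n) := by
  refine ⟨n, ?_⟩
  have h := csG_isMF hH hχn 1
  have e : (fun z => csG H ((1 : SL(2, ℤ)) • z) ^ n) = (csG H) ^ n := by
    funext z
    simp
  rwa [e] at h

/-- the element `a = G^n` of `WH N` -/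
noncomputable def csA {H : ℍ → ℂ} (hH : IsMFChar N χ 12 H) {n : ℕ} (hχn : χ ^ n = 1) : WH N :=
  ⟨(csG H) ^ n, csG_isWH hH hχn⟩

lemma csA_apply {H : ℍ → ℂ} (hH : IsMFChar N χ 12 H) {n : ℕ} (hχn : χ ^ n = 1) (z : ℍ) :
    (csA hH hχn : ℍ → ℂ) z = csG H z ^ n := rfl

lemma csA_smul_apply {H : ℍ → ℂ} (hH : IsMFChar N χ 12 H) {n : ℕ} (hχn : χ ^ n = 1)
    (g : SL(2, ℤ)) (z : ℍ) :
    ((g • csA hH hχn : WH N) : ℍ → ℂ) z = csG H (g⁻¹ • z) ^ n := by
  rw [wh_smul_apply, csA_apply]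

lemma csA_inv {H : ℍ → ℂ} (hH : IsMFChar N χ 12 H) {n : ℕ} (hχn : χ ^ n = 1) :
    ∀ γ ∈ Gamma0 N, γ • csA hH hχn = csA hH hχn := by
  intro γ hγ
  apply Subtype.ext
  funext z
  rw [csA_smul_apply, csA_apply]
  have := csG_gamma hH (⟨γ, hγ⟩⁻¹ : ↥(Gamma0 N)) z
  rw [show (((⟨γ, hγ⟩⁻¹ : ↥(Gamma0 N)) : SL(2, ℤ))) = γ⁻¹ from rfl] at this
  rw [this, mul_pow, cs_coe_pow_eq_one hχn, one_mul]

lemma csA_ne_zero {H : ℍ → ℂ} (hH : IsMFChar N χ 12 H) (hH0 : H ≠ 0) {n : ℕ}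
    (hχn : χ ^ n = 1) : csA hH hχn ≠ 0 := by
  intro h0
  obtain ⟨z, hz⟩ : ∃ z, csG H z ≠ 0 := by
    by_contra hcon
    push Not at hcon
    exact csG_ne_zero hH0 (funext hcon)
  have := congrArg (fun a : WH N => (a : ℍ → ℂ) z) h0
  simp only [csA_apply] at this
  exact pow_ne_zero n hz this

/-! ### the function `f` -/

section main

variable [NeZero N]

omit [NeZero N] in
lemma cs_chi_eq_one_of_fixed (hχ : χ ∈ UnramHom N ℂˣ) (γ : ↥(Gamma0 N)) (τ : ℍ)
    (h : (γ : SL(2, ℤ)) • τ = τ) : χ γ = 1 := by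
  apply hχ
  rcases abs_trace_lt_two_of_fixed (γ : SL(2, ℤ)) τ h with h1 | h1 | h1
  · exact h1.le
  · rw [h1]
    simp
  · rw [h1]
    simp

/-- the embedding of `f` is the expansion of `a` -/
lemma cs_embFC_eq {f : FC N} {a : WH N} (hf : ιFC N f = algebraMap (WH N) (MF N) a)
    (E : WH N →+* LaurentSeries ℂ) (hE : Function.Injective E) :
    embFC N E hE f = E a := by
  have := embFC_of_ιFC_mul N E hE f a 1 (by rw [map_one, mul_one, hf])
  rwa [map_one, mul_one] at this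

/-- finite places -/
theorem cs_fin {H : ℍ → ℂ} (hH : IsMFChar N χ 12 H) {n : ℕ}
    (hχ : χ ∈ UnramHom N ℂˣ) (hχn : χ ^ n = 1) {f : FC N} (hf0 : f ≠ 0)
    (hf : ιFC N f = algebraMap (WH N) (MF N) (csA hH hχn))
    (w : Place ℂ (FC N)) (hw : 0 ≤ w.ord (jFC N)) :
    (n : ℤ) ∣ w.ord f ∧ 0 ≤ w.ord f := by
  obtain ⟨τ, e, he, hord, -, hG⟩ := dict_fin' N w hw
  have h1 := hord f hf0
  rw [cs_embFC_eq hf, expAt_order] at h1
  have han : AnalyticAt ℂ (csG H ∘ ofComplex) (τ : ℂ) :=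
    analyticOnNhd_comp_ofComplex (csG_mdiff hH.holo) _ τ.im_pos
  have e1 : ((csA hH hχn : WH N) : ℍ → ℂ) ∘ ofComplex = (csG H ∘ ofComplex) ^ n := by
    funext z
    simp [csA_apply]
  rw [e1, analyticOrderNatAt_pow han] at h1
  have hdvd : e ∣ analyticOrderNatAt (csG H ∘ ofComplex) (τ : ℂ) := by
    apply hG _ (csG_mdiff hH.holo)
    intro γ hγ hγτ z
    have := csG_gamma hH ⟨γ, hγ⟩ z
    rw [cs_chi_eq_one_of_fixed hχ ⟨γ, hγ⟩ τ hγτ] at this
    simpa using this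
  obtain ⟨k, hk⟩ := hdvd
  rw [hk] at h1
  have he' : (e : ℤ) ≠ 0 := by exact_mod_cast he.ne'
  have h2 : w.ord f = (n : ℤ) * (k : ℤ) := by
    have h3 : (e : ℤ) * w.ord f = (e : ℤ) * ((n : ℤ) * (k : ℤ)) := by
      rw [← h1]
      simp only [smul_eq_mul]
      push_cast
      ring
    exact mul_left_cancel₀ he' h3
  rw [h2]
  exact ⟨dvd_mul_right _ _, by positivity⟩

/-! ### the cusps -/

open scoped Real in
/-- the limit statement at `i∞` for elements of `WH N` (helper9's `tendsto_mul_exp_order`) -/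
def CsLim (N : ℕ) [NeZero N] : Prop :=
  ∀ H : WH N, H ≠ 0 →
    Tendsto (fun z : ℍ => (H : ℍ → ℂ) z *
      Complex.exp (-2 * π * Complex.I * (((expInf N H).order : ℤ) : ℂ) * (z : ℂ) / (N : ℂ)))
      atImInfty (𝓝 ((expInf N H).coeff (expInf N H).order))

lemma cs_deltaL_coeff : (deltaL N).coeff (N : ℤ) = 1 := by
  have hper : Function.Periodic ((discriminant : ℍ → ℂ) ∘ ofComplex) (1 : ℝ) := by
    have := ei_periodic (N := 1) (isCF_discriminant.isMF.of_top (Γ := Gamma 1))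
    simpa using this
  have hbdd : IsBoundedAtImInfty (discriminant : ℍ → ℂ) := by
    have := isCF_discriminant.isMF.bdd 1
    simpa using this
  have h := UpperHalfPlane.qExpansion_coeff_nat_mul (h := 1) one_pos (F := discriminant) hper
    isCF_discriminant.holo hbdd (M := N) (Nat.pos_of_ne_zero (NeZero.ne N)) N
  rw [mul_one, if_pos dvd_rfl, Nat.div_self (Nat.pos_of_ne_zero (NeZero.ne N)),
    discriminant_qExpansion_coeff_one] at h
  unfold deltaL
  rw [HahnSeries.ofPowerSeries_apply_coeff]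
  exact h

lemma cs_deltaL_order_le : (deltaL N).order ≤ (N : ℤ) :=
  HahnSeries.order_le_of_coeff_ne_zero (by rw [cs_deltaL_coeff]; exact one_ne_zero)

/-- pole order bound at the cusps -/
lemma cs_order_ge {H : ℍ → ℂ} (hH : IsMFChar N χ 12 H) (hH0 : H ≠ 0) {n : ℕ}
    (hχn : χ ^ n = 1) (g : SL(2, ℤ)) :
    -((n : ℤ) * (N : ℤ)) ≤ (expInf N (g • csA hH hχn)).order := by
  have hk : IsMF (Gamma N) (12 * (n : ℤ))
      (((g • csA hH hχn : WH N) : ℍ → ℂ) * discriminant ^ n) := by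
    have h1 := csG_isMF hH hχn g⁻¹
    have e : ((g • csA hH hχn : WH N) : ℍ → ℂ) = fun z => csG H (g⁻¹ • z) ^ n := by
      funext z
      exact csA_smul_apply hH hχn g z
    rw [e]
    exact h1
  have h2 := expInf_mul_pow (g • csA hH hχn) n hk
  have hne : g • csA hH hχn ≠ 0 := fib_smul_ne_zero N g (csA_ne_zero hH hH0 hχn)
  have hne' : expInf N (g • csA hH hχn) ≠ 0 := fun h0 =>
    hne (expInf_injective N (by rw [h0, map_zero]))
  have h3 := congrArg HahnSeries.order h2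
  rw [HahnSeries.order_mul hne' (pow_ne_zero n (deltaL_ne_zero N)),
    HahnSeries.order_pow, expAt_order_ofPowerSeries] at h3
  have h4 : (0 : ℤ) ≤ ((qExpansion (N : ℝ)
      (((g • csA hH hχn : WH N) : ℍ → ℂ) * discriminant ^ n)).order.toNat : ℤ) := by positivity
  have h5 := cs_deltaL_order_le (N := N)
  have h6 : (n : ℤ) * (deltaL N).order ≤ (n : ℤ) * (N : ℤ) :=
    mul_le_mul_of_nonneg_left h5 (by positivity)
  rw [nsmul_eq_mul] at h3
  linarith

open scoped Real in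
/-- places at the cusps -/
theorem cs_inf (hL : CsLim N) {H : ℍ → ℂ} (hH : IsMFChar N χ 12 H) (hH0 : H ≠ 0) {n : ℕ}
    (hn : 0 < n)
    (hχ : χ ∈ UnramHom N ℂˣ) (hχn : χ ^ n = 1) {f : FC N} (hf0 : f ≠ 0)
    (hf : ιFC N f = algebraMap (WH N) (MF N) (csA hH hχn))
    (w : Place ℂ (FC N)) (hw : w.ord (jFC N) < 0) :
    (n : ℤ) ∣ w.ord f ∧ (n : ℤ) * w.ord (jFC N) ≤ w.ord f := by
  obtain ⟨g, e, he, hord, width, hwpos, hew, hmem⟩ := dict_inf' N w hw
  have he' : (0 : ℤ) < (e : ℤ) := by exact_mod_cast he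
  have h1 := hord f hf0
  rw [cs_embFC_eq hf, twist_apply] at h1
  have hne : g • csA hH hχn ≠ 0 := fib_smul_ne_zero N g (csA_ne_zero hH hH0 hχn)
  constructor
  · -- divisibility
    have hlim := hL (g • csA hH hχn) hne
    have hcoeff : (expInf N (g • csA hH hχn)).coeff (expInf N (g • csA hH hχn)).order ≠ 0 := by
      apply HahnSeries.coeff_order_eq_zero.not.mpr
      intro h0
      exact hne (expInf_injective N (by rw [h0, map_zero]))
    refine cusp_order_dvd n hn (fun z => csG H (g⁻¹ • z)) ?_ width hwpos (w.ord f) _ hcoeff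
      ?_ ?_
    · have e0 : (fun z => csG H (g⁻¹ • z)) = (csG H) ∣[(0 : ℤ)] g⁻¹ := by
        funext z
        rw [wh_slash_zero_apply]
      rw [e0]
      exact (csG_mdiff hH.holo).slash 0 _
    · intro z
      have hγ : g⁻¹ * ModularGroup.T ^ (width : ℤ) * g ∈ Gamma0 N := (hmem width).2 dvd_rfl
      have h2 := csG_gamma hH ⟨_, hγ⟩ (g⁻¹ • z)
      have h3 : χ ⟨_, hγ⟩ = 1 := by
        apply hχ
        show |(((g⁻¹ * ModularGroup.T ^ (width : ℤ) * g : SL(2, ℤ)) :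
          Matrix (Fin 2) (Fin 2) ℤ)).trace| ≤ 2
        have e2 : (((g⁻¹ * ModularGroup.T ^ (width : ℤ) * g : SL(2, ℤ)) :
            Matrix (Fin 2) (Fin 2) ℤ)).trace
            = ((ModularGroup.T ^ (width : ℤ) : SL(2, ℤ)) : Matrix (Fin 2) (Fin 2) ℤ).trace := by
          rw [Matrix.SpecialLinearGroup.coe_mul, Matrix.SpecialLinearGroup.coe_mul,
            Matrix.trace_mul_comm, ← mul_assoc, ← Matrix.SpecialLinearGroup.coe_mul,
            mul_inv_cancel, Matrix.SpecialLinearGroup.coe_one, one_mul]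
        rw [e2, ModularGroup.coe_T_zpow, Matrix.trace_fin_two]
        simp
      rw [h3] at h2
      simp only [Units.val_one, one_mul] at h2
      rw [← h2]
      congr 1
      simp only [zpow_natCast, ← mul_smul]
      congr 1
      group
    · refine hlim.congr fun z => ?_
      rw [csA_smul_apply, h1]
      congr 2
      have hN : (N : ℂ) = (e : ℂ) * (width : ℂ) := by
        rw [← hew]; push_cast; ring
      have hec : (e : ℂ) ≠ 0 := by exact_mod_cast he.ne'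
      have hwc : (width : ℂ) ≠ 0 := by exact_mod_cast hwpos.ne'
      rw [hN]
      push_cast
      field_simp
  · -- integrality
    have h2 := cs_order_ge hH hH0 hχn g
    rw [h1] at h2
    have hj := hord (jFC N) (by
      intro h0
      rw [h0, w.ord_zero] at hw
      exact lt_irrefl _ hw)
    rw [embFC_jFC, twist_apply, smul_jWH, expInf_jWH, finf_order_J] at hj
    have hN : (N : ℤ) = (e : ℤ) * (width : ℤ) := by rw [← hew]; push_cast; ring
    have h3 : (e : ℤ) * ((n : ℤ) * w.ord (jFC N)) ≤ (e : ℤ) * w.ord f := by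
      have : (e : ℤ) * ((n : ℤ) * w.ord (jFC N)) = -((n : ℤ) * (N : ℤ)) := by
        rw [mul_left_comm, ← hj]; ring
      rw [this]
      exact h2
    exact le_of_mul_le_mul_left h3 he'

end main

/-- **C4** (from the limit statement): every unramified character of order dividing `n` is the
Kummer character of an integral element of `U_n(F_ℂ)`. -/
theorem exists_of_unramHom_of_lim {N n : ℕ} [NeZero N] (hL : CsLim N) (hn : 0 < n)
    (χ : ↥(Gamma0 N) →* ℂˣ) (hχ : χ ∈ UnramHom N ℂˣ) (hχn : χ ^ n = 1) :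
    ∃ f : (FC N)ˣ, f ∈ Un ℂ (FC N) n ∧ IsKummerChar N n (f : FC N) χ ∧
      ∀ w : Place ℂ (FC N), (n : ℤ) * min 0 (w.ord (jFC N)) ≤ w.ord (f : FC N) := by
  obtain ⟨H, hH, hH0⟩ := cs_exists_H hn hχ hχn
  obtain ⟨f, hf⟩ := k2_mem_range N (csA hH hχn) (csA_inv hH hχn)
  have hf0 : f ≠ 0 := by
    intro h0
    rw [h0, map_zero] at hf
    exact csA_ne_zero hH hH0 hχn
      ((IsFractionRing.injective (WH N) (MF N)) (by rw [← hf, map_zero]))
  refine ⟨Units.mk0 f hf0, ?_, ?_, ?_⟩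
  · intro w
    rw [Units.val_mk0]
    by_cases hw : 0 ≤ w.ord (jFC N)
    · exact (cs_fin hH hχ hχn hf0 hf w hw).1
    · exact (cs_inf hL hH hH0 hn hχ hχn hf0 hf w (not_le.mp hw)).1
  · rw [Units.val_mk0]
    refine ⟨csA hH hχn, 1, csG H, one_ne_zero, csA_inv hH hχn, fun γ _ => smul_one γ,
      by rw [map_one, mul_one, hf], csG_mdiff hH.holo, csG_ne_zero hH0, fun z => ?_,
      fun γ z => csG_gamma hH γ z⟩
    simp [csA_apply]
  · intro w
    rw [Units.val_mk0]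
    by_cases hw : 0 ≤ w.ord (jFC N)
    · rw [min_eq_left hw, mul_zero]
      exact (cs_fin hH hχ hχn hf0 hf w hw).2
    · rw [min_eq_right (not_le.mp hw).le]
      exact (cs_inf hL hH hH0 hn hχ hχn hf0 hf w (not_le.mp hw)).2

end Fermat.Agent.AJlib
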