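/-
Item 69 (AJ), piece C4 (helper20): surjectivity of the analytic Kummer character, with an integral
representative.  Exact signature of NOTES/AJ_signatures.lean.txt.

`exists_of_unramHom` = `exists_of_unramHom_of_lim` (AJlib/CharSurjCore.lean) applied to helper9's
limit statement `tendsto_mul_exp_order` (AJlib/AuxLim.lean).
-/
import Mathlib
import Fermat.Agent.AJlib.CharSurjCore
import Fermat.Agent.AJlib.AuxLim

set_option autoImplicit false

open scoped MatrixGroups ModularForm Manifold Topology
open UpperHalfPlane ModularForm CongruenceSubgroup Filter AlgebraicCurve ModularCurve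

namespace Fermat.Agent.AJlib

open Fermat.Agent.S24lib

/-- the limit statement holds (helper9) -/
theorem csLim (N : ℕ) [NeZero N] : CsLim N := fun H hH => tendsto_mul_exp_order H hH

/-- **C4**: surjectivity, with an integral representative (regular on `ℍ`, poles at the cusps
bounded by those of `j`). -/
theorem exists_of_unramHom {N n : ℕ} [NeZero N] (hn : 0 < n) (χ : ↥(Gamma0 N) →* ℂˣ)
    (hχ : χ ∈ UnramHom N ℂˣ) (hχn : χ ^ n = 1) :
    ∃ f : (FC N)ˣ, f ∈ Un ℂ (FC N) n ∧ IsKummerChar N n (f : FC N) χ ∧
      ∀ w : Place ℂ (FC N), (n : ℤ) * min 0 (w.ord (jFC N)) ≤ w.ord (f : FC N) :=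
  exists_of_unramHom_of_lim (csLim N) hn χ hχ hχn

end Fermat.Agent.AJlib
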