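import Mathlib
import Fermat.Prelude.Def_ModularCurve_PeriodHomPair
import Fermat.Agent.S21
import Fermat.Agent.AJlib.CountDefs

set_option autoImplicit false

/-!
# Item 69 (AJ), piece A2 (L1–L3): the lattice of integer-valued unramified characters
-/

open CongruenceSubgroup ModularCurve ModularCurve.Period
open scoped MatrixGroups

namespace Fermat.Agent.AJlib

section Gen

variable {Γ : Type*} [Group Γ]

/-- a hom to an additive group whose values on a generating set lie in a subgroup has all its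
values in that subgroup -/
theorem addHom_mem_of_gen {A : Type*} [AddCommGroup A] (s : Set Γ)
    (hs : Subgroup.closure s = ⊤) (φ : Additive Γ →+ A) (B : AddSubgroup A)
    (h : ∀ g ∈ s, φ (Additive.ofMul g) ∈ B) (γ : Γ) : φ (Additive.ofMul γ) ∈ B := by
  have hγ : γ ∈ Subgroup.closure s := by rw [hs]; trivial
  induction hγ using Subgroup.closure_induction with
  | mem g hg => exact h g hg
  | one => rw [ofMul_one, map_zero]; exact B.zero_mem
  | mul a b _ _ iha ihb => rw [ofMul_mul, map_add]; exact B.add_mem iha ihb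
  | inv a _ iha => rw [ofMul_inv, map_neg]; exact B.neg_mem iha

/-- a hom to an additive group vanishing on a generating set vanishes -/
theorem addHom_eq_zero_of_gen {A : Type*} [AddCommGroup A] (s : Set Γ)
    (hs : Subgroup.closure s = ⊤) (φ : Additive Γ →+ A)
    (h : ∀ g ∈ s, φ (Additive.ofMul g) = 0) : φ = 0 := by
  refine AddMonoidHom.ext fun γ' => ?_
  obtain ⟨γ, rfl⟩ : ∃ γ : Γ, Additive.ofMul γ = γ' := ⟨Additive.toMul γ', rfl⟩
  have := addHom_mem_of_gen s hs φ ⊥ (fun g hg => by rw [AddSubgroup.mem_bot]; exact h g hg) γ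
  rwa [AddSubgroup.mem_bot] at this

end Gen

section Elliptic

/-- Cayley–Hamilton for `SL(2, ℤ)`. -/
theorem SL2_sq (γ : SL(2, ℤ)) :
    (γ : Matrix (Fin 2) (Fin 2) ℤ) * (γ : Matrix (Fin 2) (Fin 2) ℤ)
      = (γ : Matrix (Fin 2) (Fin 2) ℤ).trace • (γ : Matrix (Fin 2) (Fin 2) ℤ) - 1 := by
  have hdet : (γ : Matrix (Fin 2) (Fin 2) ℤ) 0 0 * (γ : Matrix (Fin 2) (Fin 2) ℤ) 1 1
      - (γ : Matrix (Fin 2) (Fin 2) ℤ) 0 1 * (γ : Matrix (Fin 2) (Fin 2) ℤ) 1 0 = 1 := by
    have := γ.2
    rwa [Matrix.det_fin_two] at this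
  ext i j
  fin_cases i <;> fin_cases j <;>
    simp only [Matrix.mul_apply, Fin.sum_univ_two, Matrix.trace_fin_two, Matrix.sub_apply,
      Matrix.smul_apply, smul_eq_mul, Matrix.one_apply, Fin.zero_eta, Fin.mk_one, Fin.isValue,
      if_true, one_ne_zero, zero_ne_one, if_false] <;>
    first
    | linear_combination (-1 : ℤ) * hdet
    | linear_combination (0 : ℤ) * hdet

theorem SL2_pow_twelve (γ : SL(2, ℤ))
    (h : |((γ : SL(2, ℤ)) : Matrix (Fin 2) (Fin 2) ℤ).trace| ≤ 1) : γ ^ 12 = 1 := by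
  apply Subtype.ext
  rw [Matrix.SpecialLinearGroup.coe_pow, Matrix.SpecialLinearGroup.coe_one]
  have hsq := SL2_sq γ
  generalize (γ : Matrix (Fin 2) (Fin 2) ℤ) = M at hsq h
  have ht : M.trace = -1 ∨ M.trace = 0 ∨ M.trace = 1 := by
    have := abs_le.mp h
    omega
  rcases ht with ht | ht | ht
  · have hsq' : M * M = -M - 1 := by rw [hsq, ht]; simp
    have h3 : M ^ 3 = 1 := by
      calc M ^ 3 = M * M * M := by rw [pow_succ, pow_two]
        _ = (-M - 1) * M := by rw [hsq']
        _ = -(M * M) - M := by noncomm_ring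
        _ = -(-M - 1) - M := by rw [hsq']
        _ = 1 := by abel
    have : (12 : ℕ) = 3 * 4 := rfl
    rw [this, pow_mul, h3, one_pow]
  · have hsq' : M * M = -1 := by rw [hsq, ht]; simp
    have h2 : M ^ 2 = -1 := by rw [pow_two, hsq']
    have : (12 : ℕ) = 2 * 6 := rfl
    rw [this, pow_mul, h2]
    norm_num
  · have hsq' : M * M = M - 1 := by rw [hsq, ht]; simp
    have h3 : M ^ 3 = -1 := by
      calc M ^ 3 = M * M * M := by rw [pow_succ, pow_two]
        _ = (M - 1) * M := by rw [hsq']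
        _ = (M * M) - M := by noncomm_ring
        _ = (M - 1) - M := by rw [hsq']
        _ = -1 := by abel
    have : (12 : ℕ) = 3 * 4 := rfl
    rw [this, pow_mul, h3]
    norm_num

end Elliptic

section Lattice

variable (N : ℕ)

/-- the `ℤ`-valued additive hom attached to an element of the lattice -/
def latHom : Additive (UnramHom N (Multiplicative ℤ)) →+ (Additive ↥(Gamma0 N) →+ ℤ) where
  toFun χ := MonoidHom.toAdditiveLeft (Additive.toMul χ).1
  map_zero' := rfl
  map_add' _ _ := rfl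

theorem latHom_apply (χ : Additive (UnramHom N (Multiplicative ℤ))) (γ : ↥(Gamma0 N)) :
    latHom N χ (Additive.ofMul γ) = Multiplicative.toAdd ((Additive.toMul χ).1 γ) := rfl

theorem latHom_injective : Function.Injective (latHom N) := by
  intro χ χ' h
  have h1 : (Additive.toMul χ).1 = (Additive.toMul χ').1 := by
    ext γ
    have := congrArg (fun f : Additive ↥(Gamma0 N) →+ ℤ => f (Additive.ofMul γ)) h
    exact this
  exact Additive.toMul.injective (Subtype.ext h1)

theorem latHom_unram (χ : Additive (UnramHom N (Multiplicative ℤ))) (γ : ↥(Gamma0 N))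
    (h : |((γ : SL(2, ℤ)) : Matrix (Fin 2) (Fin 2) ℤ).trace| ≤ 2) :
    latHom N χ (Additive.ofMul γ) = 0 := by
  rw [latHom_apply, (Additive.toMul χ).2 γ h]
  rfl

/-- an integer valued hom killing the elements of trace in `[-2,2]` comes from the lattice -/
theorem exists_latHom_eq (ψ : Additive ↥(Gamma0 N) →+ ℤ)
    (hψ : ∀ γ : ↥(Gamma0 N), |((γ : SL(2, ℤ)) : Matrix (Fin 2) (Fin 2) ℤ).trace| ≤ 2 →
      ψ (Additive.ofMul γ) = 0) :
    ∃ χ : Additive (UnramHom N (Multiplicative ℤ)), latHom N χ = ψ := by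
  refine ⟨Additive.ofMul ⟨AddMonoidHom.toMultiplicativeRight ψ, fun γ h => ?_⟩, ?_⟩
  · show Multiplicative.ofAdd (ψ (Additive.ofMul γ)) = 1
    rw [hψ γ h]
    rfl
  · rfl

/-- an integer valued parabolic hom comes from the lattice -/
theorem exists_latHom_eq_of_parabolic (ψ : Additive ↥(Gamma0 N) →+ ℤ)
    (hψ : IsParabolicHom (Gamma0 N) ψ) :
    ∃ χ : Additive (UnramHom N (Multiplicative ℤ)), latHom N χ = ψ := by
  refine exists_latHom_eq N ψ fun γ h => ?_
  by_cases h2 : ((γ : SL(2, ℤ)) : Matrix (Fin 2) (Fin 2) ℤ).trace ^ 2 = 4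
  · exact hψ γ h2
  · have h1 : |((γ : SL(2, ℤ)) : Matrix (Fin 2) (Fin 2) ℤ).trace| ≤ 1 := by
      have := abs_le.mp h
      rw [abs_le]
      have hne2 : ((γ : SL(2, ℤ)) : Matrix (Fin 2) (Fin 2) ℤ).trace ≠ 2 := by
        intro h'; apply h2; rw [h']; norm_num
      have hnem2 : ((γ : SL(2, ℤ)) : Matrix (Fin 2) (Fin 2) ℤ).trace ≠ -2 := by
        intro h'; apply h2; rw [h']; norm_num
      omega
    have h12 : γ ^ 12 = 1 := Subtype.ext (by
      rw [Subgroup.coe_pow, SL2_pow_twelve _ h1]; rfl)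
    have : (12 : ℕ) • ψ (Additive.ofMul γ) = 0 := by
      rw [← map_nsmul, ← ofMul_pow, h12, ofMul_one, map_zero]
    simpa using this

end Lattice

section L3

/-- **(L3)** the kernel of reduction mod `n` consists of the `n`-th powers. -/
theorem redMod_eq_one_iff (N : ℕ) [NeZero N] (n : ℕ) (χ : UnramHom N (Multiplicative ℤ)) :
    redMod N n χ = 1 ↔ ∃ ψ : UnramHom N (Multiplicative ℤ), χ = ψ ^ n := by
  constructor
  · intro h
    have hdvd : ∀ γ : ↥(Gamma0 N), (n : ℤ) ∣ Multiplicative.toAdd (χ.1 γ) := by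
      intro γ
      have h1 : (redMod N n χ).1 γ = 1 := by rw [h]; rfl
      have h2 : ((Multiplicative.toAdd (χ.1 γ) : ℤ) : ZMod n) = 0 := h1
      exact (ZMod.intCast_zmod_eq_zero_iff_dvd _ _).mp h2
    let ψ0 : ↥(Gamma0 N) →* Multiplicative ℤ :=
      { toFun := fun γ => Multiplicative.ofAdd (Multiplicative.toAdd (χ.1 γ) / (n : ℤ))
        map_one' := by
          rw [map_one]
          show Multiplicative.ofAdd ((0 : ℤ) / (n : ℤ)) = 1
          rw [Int.zero_ediv]
          rfl
        map_mul' := fun γ δ => by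
          rw [map_mul]
          show Multiplicative.ofAdd ((Multiplicative.toAdd (χ.1 γ) + Multiplicative.toAdd (χ.1 δ))
            / (n : ℤ)) = Multiplicative.ofAdd (Multiplicative.toAdd (χ.1 γ) / (n : ℤ)
              + Multiplicative.toAdd (χ.1 δ) / (n : ℤ))
          rw [Int.add_ediv_of_dvd_left (hdvd γ)] }
    refine ⟨⟨ψ0, fun γ hγ => ?_⟩, ?_⟩
    · show Multiplicative.ofAdd (Multiplicative.toAdd (χ.1 γ) / (n : ℤ)) = 1
      rw [χ.2 γ hγ]
      show Multiplicative.ofAdd ((0 : ℤ) / (n : ℤ)) = 1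
      rw [Int.zero_ediv]
      rfl
    · apply Subtype.ext
      ext γ
      show χ.1 γ = (ψ0 γ) ^ n
      show χ.1 γ = Multiplicative.ofAdd (n • (Multiplicative.toAdd (χ.1 γ) / (n : ℤ)))
      rw [nsmul_eq_mul, Int.mul_ediv_cancel' (hdvd γ)]
      rfl
  · rintro ⟨ψ, rfl⟩
    apply Subtype.ext
    ext γ
    show (((Multiplicative.toAdd ((ψ ^ n).1 γ) : ℤ) : ZMod n)) = 0
    have : (ψ ^ n).1 γ = (ψ.1 γ) ^ n := rfl
    rw [this, toAdd_pow]
    simp

end L3

section L1

theorem gamma0_fg (N : ℕ) [NeZero N] :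
    ∃ s : Finset ↥(Gamma0 N), Subgroup.closure (s : Set ↥(Gamma0 N)) = ⊤ := by
  have : Group.FG SL(2, ℤ) := Group.fg_iff.mpr
    ⟨{ModularGroup.S, ModularGroup.T}, SpecialLinearGroup.SL2Z_generators, Set.toFinite _⟩
  have : Group.FG ↥(Gamma0 N) := Subgroup.fg_of_index_ne_zero (Gamma0 N)
  obtain ⟨S, hS, hfin⟩ := Group.fg_iff.mp (inferInstance : Group.FG ↥(Gamma0 N))
  exact ⟨hfin.toFinset, by rw [Set.Finite.coe_toFinset]; exact hS⟩

/-- evaluation of the lattice at a finite set -/
def evalLat (N : ℕ) (s : Finset ↥(Gamma0 N)) :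
    Additive (UnramHom N (Multiplicative ℤ)) →ₗ[ℤ] (↥s → ℤ) :=
  AddMonoidHom.toIntLinearMap
    { toFun := fun χ g => latHom N χ (Additive.ofMul g.1)
      map_zero' := rfl
      map_add' := fun _ _ => rfl }

theorem evalLat_injective (N : ℕ) (s : Finset ↥(Gamma0 N))
    (hs : Subgroup.closure (s : Set ↥(Gamma0 N)) = ⊤) : Function.Injective (evalLat N s) := by
  rw [injective_iff_map_eq_zero]
  intro χ hχ
  apply latHom_injective N
  rw [map_zero]
  apply addHom_eq_zero_of_gen (s : Set ↥(Gamma0 N)) hs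
  intro g hg
  exact congrFun hχ ⟨g, hg⟩

/-- **(L1)** the lattice of integer valued unramified characters is finite free. -/
theorem lattice_finite_free (N : ℕ) [NeZero N] :
    Module.Finite ℤ (Additive (UnramHom N (Multiplicative ℤ))) ∧
      Module.Free ℤ (Additive (UnramHom N (Multiplicative ℤ))) := by
  obtain ⟨s, hs⟩ := gamma0_fg N
  have hinj := evalLat_injective N s hs
  have : Module.Finite ℤ (Additive (UnramHom N (Multiplicative ℤ))) :=
    Module.Finite.of_injective (evalLat N s) hinj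
  have : Module.IsTorsionFree ℤ (Additive (UnramHom N (Multiplicative ℤ))) :=
    Function.Injective.moduleIsTorsionFree (evalLat N s) hinj (fun r m => map_smul _ r m)
  exact ⟨inferInstance, Module.free_of_finite_type_torsion_free'⟩

end L1

section L2

/-- the `ℂ`-valued hom attached to a lattice element -/
noncomputable def latHomC (N : ℕ) :
    Additive (UnramHom N (Multiplicative ℤ)) →ₗ[ℤ] (Additive ↥(Gamma0 N) →+ ℂ) :=
  AddMonoidHom.toIntLinearMap
    { toFun := fun χ => (Int.castAddHom ℂ).comp (latHom N χ)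
      map_zero' := by
        ext γ
        simp
      map_add' := fun a b => by
        ext γ
        simp }

theorem latHomC_apply (N : ℕ) (χ : Additive (UnramHom N (Multiplicative ℤ)))
    (γ : Additive ↥(Gamma0 N)) : latHomC N χ γ = ((latHom N χ γ : ℤ) : ℂ) := rfl

theorem parabolic_le_span (N : ℕ) [NeZero N] :
    (parabolicHoms ℂ (Gamma0 N) ℂ) ≤ Submodule.span ℂ (Set.range (latHomC N)) := by
  intro φ hφ
  obtain ⟨s, hs⟩ := gamma0_fg N
  classical
  let b := Module.Basis.ofVectorSpace ℚ ℂ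
  -- coordinates
  let c : Module.Basis.ofVectorSpaceIndex ℚ ℂ → (Additive ↥(Gamma0 N) →+ ℚ) :=
    fun i => ((b.coord i).toAddMonoidHom).comp φ
  have hc : ∀ i γ, c i γ = b.repr (φ γ) i := fun i γ => rfl
  let I : Finset (Module.Basis.ofVectorSpaceIndex ℚ ℂ) :=
    s.biUnion (fun g => (b.repr (φ (Additive.ofMul g))).support)
  have h1 : ∀ i, i ∉ I → c i = 0 := by
    intro i hi
    apply addHom_eq_zero_of_gen (s : Set ↥(Gamma0 N)) hs
    intro g hg
    rw [hc]
    by_contra hne
    apply hi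
    rw [Finset.mem_biUnion]
    exact ⟨g, hg, Finsupp.mem_support_iff.mpr hne⟩
  have h2 : ∀ γ, φ γ = ∑ i ∈ I, (c i γ) • (b i : ℂ) := by
    intro γ
    conv_lhs => rw [← b.linearCombination_repr (φ γ)]
    rw [Finsupp.linearCombination_apply, Finsupp.sum]
    apply Finset.sum_subset
    · intro i hi
      by_contra hI
      have h0 := h1 i hI
      rw [Finsupp.mem_support_iff] at hi
      apply hi
      rw [← hc, h0]
      rfl
    · intro i _ hi
      rw [Finsupp.notMem_support_iff] at hi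
      rw [hi, zero_smul]
  -- denominators
  let D : Module.Basis.ofVectorSpaceIndex ℚ ℂ → ℕ :=
    fun i => ∏ g ∈ s, (c i (Additive.ofMul g)).den
  have hD : ∀ i, D i ≠ 0 := fun i => Finset.prod_ne_zero_iff.mpr fun g _ => (c i _).den_nz
  have h3 : ∀ i (γ : Additive ↥(Gamma0 N)), ∃ z : ℤ, (z : ℚ) = (D i : ℚ) * c i γ := by
    intro i γ'
    obtain ⟨γ, rfl⟩ : ∃ γ : ↥(Gamma0 N), Additive.ofMul γ = γ' := ⟨Additive.toMul γ', rfl⟩
    have hmem := addHom_mem_of_gen (s : Set ↥(Gamma0 N)) hs ((D i) • c i)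
      (Int.castAddHom ℚ).range ?_ γ
    · obtain ⟨z, hz⟩ := hmem
      refine ⟨z, ?_⟩
      rw [AddMonoidHom.smul_apply, nsmul_eq_mul] at hz
      exact hz
    · intro g hg
      obtain ⟨k, hk⟩ : (c i (Additive.ofMul g)).den ∣ D i := Finset.dvd_prod_of_mem _ hg
      refine ⟨(k : ℤ) * (c i (Additive.ofMul g)).num, ?_⟩
      rw [AddMonoidHom.smul_apply, nsmul_eq_mul, hk]
      have hq := Rat.den_mul_eq_num (c i (Additive.ofMul g))
      rw [Int.coe_castAddHom]
      push_cast
      rw [← hq]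
      ring
  have h4 : ∀ i, ∃ ψ : Additive ↥(Gamma0 N) →+ ℤ,
      ∀ γ, ((ψ γ : ℤ) : ℚ) = (D i : ℚ) * c i γ := by
    intro i
    choose z hz using h3 i
    refine ⟨{ toFun := z, map_zero' := ?_, map_add' := ?_ }, hz⟩
    · apply Int.cast_injective (α := ℚ)
      rw [hz, map_zero, mul_zero, Int.cast_zero]
    · intro a b
      apply Int.cast_injective (α := ℚ)
      rw [Int.cast_add, hz, hz, hz, map_add, mul_add]
  choose ψ hψ using h4
  have h5 : ∀ i, IsParabolicHom (Gamma0 N) (ψ i) := by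
    intro i γ hγ
    apply Int.cast_injective (α := ℚ)
    rw [hψ, hc, hφ γ hγ, map_zero, Finsupp.zero_apply, mul_zero, Int.cast_zero]
  choose χ hχ using fun i => exists_latHom_eq_of_parabolic N (ψ i) (h5 i)
  have h6 : φ = ∑ i ∈ I, ((b i : ℂ) * ((D i : ℂ))⁻¹) • latHomC N (χ i) := by
    refine AddMonoidHom.ext fun γ => ?_
    rw [h2, AddMonoidHom.finsetSum_apply]
    refine Finset.sum_congr rfl fun i _ => ?_
    rw [AddMonoidHom.smul_apply, latHomC_apply, hχ]
    have hDi : (D i : ℂ) ≠ 0 := by exact_mod_cast hD i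
    have hcast : ((ψ i γ : ℤ) : ℂ) = (D i : ℂ) * ((c i γ : ℚ) : ℂ) := by
      have := congrArg (fun q : ℚ => (q : ℂ)) (hψ i γ)
      push_cast at this
      exact this
    rw [hcast, Rat.smul_def, smul_eq_mul]
    field_simp
  rw [h6]
  exact Submodule.sum_mem _ fun i _ =>
    Submodule.smul_mem _ _ (Submodule.subset_span ⟨χ i, rfl⟩)

/-- **(L2)** the rank of the lattice is at least `2g`. -/
theorem le_finrank_lattice (N : ℕ) [NeZero N] :
    2 * Module.finrank ℂ (CuspForm (Gamma0 N) 2)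
      ≤ Module.finrank ℤ (Additive (UnramHom N (Multiplicative ℤ))) := by
  obtain ⟨hfin, hfree⟩ := lattice_finite_free N
  obtain ⟨hinj, hrange⟩ := Fermat.Agent.S21.result N
  have e1 : Module.finrank ℂ (parabolicHoms ℂ (Gamma0 N) ℂ)
      = Module.finrank ℂ (CuspForm (Gamma0 N) 2 × CuspForm (Gamma0 N) 2) := by
    rw [← hrange]
    exact LinearMap.finrank_range_of_inj hinj
  by_cases hfd : Module.Finite ℂ (CuspForm (Gamma0 N) 2)
  · have e2 : Module.finrank ℂ (CuspForm (Gamma0 N) 2 × CuspForm (Gamma0 N) 2)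
        = 2 * Module.finrank ℂ (CuspForm (Gamma0 N) 2) := by
      rw [Module.finrank_prod]
      ring
    let e := Module.Free.chooseBasis ℤ (Additive (UnramHom N (Multiplicative ℤ)))
    have hspan : Submodule.span ℂ (Set.range (latHomC N))
        ≤ Submodule.span ℂ (Set.range (fun j => latHomC N (e j))) := by
      rw [Submodule.span_le]
      rintro _ ⟨χ, rfl⟩
      have hsum := e.sum_repr χ
      rw [← hsum, map_sum]
      refine Submodule.sum_mem _ fun j _ => ?_
      rw [map_smul]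
      exact (Submodule.span ℂ (Set.range (fun j => latHomC N (e j)))).toAddSubgroup.zsmul_mem
        (Submodule.subset_span ⟨j, rfl⟩) _
    have hle := (parabolic_le_span N).trans hspan
    have : Module.Finite ℂ (Submodule.span ℂ (Set.range (fun j => latHomC N (e j)))) :=
      FiniteDimensional.span_of_finite ℂ (Set.finite_range _)
    calc 2 * Module.finrank ℂ (CuspForm (Gamma0 N) 2)
        = Module.finrank ℂ (parabolicHoms ℂ (Gamma0 N) ℂ) := by rw [e1, e2]
      _ ≤ Module.finrank ℂ (Submodule.span ℂ (Set.range (fun j => latHomC N (e j)))) :=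
          Submodule.finrank_mono hle
      _ ≤ Fintype.card (Module.Free.ChooseBasisIndex ℤ (Additive (UnramHom N (Multiplicative ℤ)))) :=
          finrank_range_le_card _
      _ = Module.finrank ℤ (Additive (UnramHom N (Multiplicative ℤ))) :=
          (Module.finrank_eq_card_chooseBasisIndex ℤ _).symm
  · have h0 : Module.finrank ℂ (CuspForm (Gamma0 N) 2) = 0 := Module.finrank_of_not_finite hfd
    rw [h0]
    simp

end L2

end Fermat.Agent.AJlib
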