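import Mathlib
import Fermat.Agent.S21_CohomAbstract

set_option autoImplicit false

namespace Fermat.Agent.AJlib

open Fermat.Agent.S21lib

section Cocycle

variable {G : Type*} [Group G] (Γ : Subgroup G) {M : Type*} [AddCommGroup M]
variable (φ : Additive Γ →+ M)

/-- The twisted cocycle `a_g(x) = φ(c(g, x)) + b(g x) - b(x)` with values in `M`. -/
noncomputable def zcoc (b : G ⧸ Γ → M) (g : G) (x : G ⧸ Γ) : M :=
  φ (Additive.ofMul (coc Γ g x)) + b (g • x) - b x

theorem zcoc_mul (b : G ⧸ Γ → M) (g h : G) (x : G ⧸ Γ) :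
    zcoc Γ φ b (g * h) x = zcoc Γ φ b g (h • x) + zcoc Γ φ b h x := by
  simp only [zcoc, coc_mul, ofMul_mul, map_add, mul_smul]
  abel

theorem zcoc_one (b : G ⧸ Γ → M) (x : G ⧸ Γ) : zcoc Γ φ b 1 x = 0 := by
  simp [zcoc, coc_one]

theorem zcoc_inv (b : G ⧸ Γ → M) (g : G) (x : G ⧸ Γ) :
    zcoc Γ φ b g⁻¹ x = - zcoc Γ φ b g (g⁻¹ • x) := by
  have h := zcoc_mul Γ φ b g g⁻¹ x
  rw [mul_inv_cancel, zcoc_one] at h
  exact eq_neg_of_add_eq_zero_right h.symm

theorem zcoc_pow (b : G ⧸ Γ → M) (g : G) (n : ℕ) (x : G ⧸ Γ) :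
    zcoc Γ φ b (g ^ n) x = ∑ j ∈ Finset.range n, zcoc Γ φ b g (g ^ j • x) := by
  induction n generalizing x with
  | zero => simp [zcoc_one]
  | succ n ih =>
    rw [pow_succ, zcoc_mul, Finset.sum_range_succ', ih (g • x)]
    simp only [pow_succ, mul_smul, pow_zero, one_smul]

/-- If `a_S = 0` and `a_T = 0` for generators `S, T`, then `a_g = 0` for all `g`. -/
theorem zcoc_eq_zero_of_gen (S T : G) (hgen : Subgroup.closure {S, T} = ⊤) (b : G ⧸ Γ → M)
    (hS : ∀ x, zcoc Γ φ b S x = 0) (hT : ∀ x, zcoc Γ φ b T x = 0) (g : G) :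
    ∀ x, zcoc Γ φ b g x = 0 := by
  have hg : g ∈ Subgroup.closure {S, T} := by rw [hgen]; trivial
  induction hg using Subgroup.closure_induction with
  | mem g hg =>
    rcases hg with rfl | hg
    · exact hS
    · rw [Set.mem_singleton_iff] at hg
      subst hg
      exact hT
  | one => exact zcoc_one Γ φ b
  | mul g h _ _ ihg ihh => intro x; rw [zcoc_mul, ihg, ihh, add_zero]
  | inv g _ ih => intro x; rw [zcoc_inv, ih, neg_zero]

/-- If all `a_g` vanish then `φ = 0`. -/
theorem eq_zero_of_zcoc_eq_zero (b : G ⧸ Γ → M) (h : ∀ g x, zcoc Γ φ b g x = 0) : φ = 0 := by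
  refine AddMonoidHom.ext fun γ' => ?_
  obtain ⟨γ, rfl⟩ : ∃ γ : Γ, Additive.ofMul γ = γ' := ⟨Additive.toMul γ', rfl⟩
  obtain ⟨δ, hδ⟩ := coc_base Γ γ
  have hfix : (γ : G) • (QuotientGroup.mk 1 : G ⧸ Γ) = QuotientGroup.mk 1 := by
    rw [MulAction.Quotient.smul_mk, QuotientGroup.eq]
    simp
  have h1 := h (γ : G) (QuotientGroup.mk 1)
  simp only [zcoc, hδ, hfix, add_sub_cancel_right] at h1
  simpa [ofMul_mul, map_add] using h1

omit [AddCommGroup M] in
/-- A function invariant under all of `G` is constant. -/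
theorem zconst_of_smul_invariant (b : G ⧸ Γ → M) (h : ∀ (g : G) x, b (g • x) = b x)
    (x : G ⧸ Γ) : b x = b (QuotientGroup.mk 1) := by
  induction x using QuotientGroup.induction_on with
  | H g =>
    have := h g (QuotientGroup.mk 1)
    rw [MulAction.Quotient.smul_mk] at this
    simpa using this

omit [AddCommGroup M] in
/-- A function invariant under generators `S, T` is invariant under `G`. -/
theorem zsmul_invariant_of_gen (S T : G) (hgen : Subgroup.closure {S, T} = ⊤) (b : G ⧸ Γ → M)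
    (hS : ∀ x, b (S • x) = b x) (hT : ∀ x, b (T • x) = b x) (g : G) :
    ∀ x, b (g • x) = b x := by
  have hg : g ∈ Subgroup.closure {S, T} := by rw [hgen]; trivial
  induction hg using Subgroup.closure_induction with
  | mem g hg =>
    rcases hg with rfl | hg
    · exact hS
    · rw [Set.mem_singleton_iff] at hg
      subst hg
      exact hT
  | one => intro x; rw [one_smul]
  | mul g h _ _ ihg ihh => intro x; rw [mul_smul, ihg, ihh]
  | inv g _ ih => intro x; rw [← ih (g⁻¹ • x), smul_inv_smul]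

/-- `φ` kills the cocycle values at all fixed points of powers of `g`. -/
def KillsFix (g : G) : Prop :=
  ∀ (m : ℕ) (x : G ⧸ Γ), g ^ m • x = x → φ (Additive.ofMul (coc Γ (g ^ m) x)) = 0

variable {Γ φ} in
theorem zcoc_period_sum {g : G} (hk : KillsFix Γ φ g) (b : G ⧸ Γ → M) (x : G ⧸ Γ) :
    ∑ j ∈ Finset.range (MulAction.period g x), zcoc Γ φ b g (g ^ j • x) = 0 := by
  rw [← zcoc_pow]
  have hx := MulAction.pow_period_smul g x
  simp [zcoc, hk _ x hx, hx]

end Cocycle

section OrbitSum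

variable {G : Type*} [Group G] {X : Type*} [MulAction G X] [Fintype X]
  {M : Type*} [AddCommGroup M]

/-- If all sums of `f` over the `g`-periods vanish, the total sum of `f` vanishes. -/
theorem sum_eq_zero_of_period_sums (g : G) (f : X → M)
    (h : ∀ x, ∑ j ∈ Finset.range (MulAction.period g x), f (g ^ j • x) = 0) :
    ∑ x, f x = 0 := by
  classical
  rw [Finset.sum_partition (MulAction.orbitRel (Subgroup.zpowers g) X)]
  refine Finset.sum_eq_zero fun xbar _ => ?_
  induction xbar using Quotient.inductionOn with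
  | h x₀ =>
    rw [← h x₀]
    symm
    have hpos : 0 < MulAction.period g x₀ := by
      have hfin : IsOfFinOrder (MulAction.toPerm g : Equiv.Perm X) := isOfFinOrder_of_finite _
      obtain ⟨n, hn, hn'⟩ := hfin.exists_pow_eq_one
      refine MulAction.period_pos_of_fixed hn ?_
      have h5 : (MulAction.toPerm g : Equiv.Perm X) ^ n = MulAction.toPerm (g ^ n) :=
        (map_pow (MulAction.toPermHom G X) g n).symm
      rw [h5] at hn'
      have := congrArg (fun e : Equiv.Perm X => e x₀) hn'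
      simpa using this
    refine Finset.sum_bij (fun j _ => g ^ j • x₀) ?_ ?_ ?_ ?_
    · intro j _
      simp only [Finset.mem_filter, Finset.mem_univ, true_and]
      apply Quotient.sound
      show g ^ j • x₀ ∈ MulAction.orbit (Subgroup.zpowers g) x₀
      exact ⟨⟨g ^ j, Subgroup.pow_mem _ (Subgroup.mem_zpowers g) j⟩, rfl⟩
    · have key : ∀ i j : ℕ, i ≤ j → j < MulAction.period g x₀ →
          g ^ i • x₀ = g ^ j • x₀ → i = j := by
        intro i j hle hj hij
        have h1 : g ^ (j - i) • x₀ = x₀ := by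
          have : g ^ j • x₀ = g ^ i • g ^ (j - i) • x₀ := by
            rw [← mul_smul, ← pow_add, Nat.add_sub_cancel' hle]
          rw [this] at hij
          exact (smul_left_cancel _ hij).symm
        have h2 := MulAction.pow_smul_eq_iff_period_dvd.mp h1
        have h3 : j - i < MulAction.period g x₀ := lt_of_le_of_lt (Nat.sub_le j i) hj
        have h4 : j - i = 0 := Nat.eq_zero_of_dvd_of_lt h2 h3
        omega
      intro i hi j hj hij
      simp only [Finset.mem_range] at hi hj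
      rcases le_total i j with hle | hle
      · exact key i j hle hj hij
      · exact (key j i hle hi hij.symm).symm
    · intro y hy
      simp only [Finset.mem_filter, Finset.mem_univ, true_and] at hy
      have hy' : y ∈ MulAction.orbit (Subgroup.zpowers g) x₀ := Quotient.exact hy
      obtain ⟨⟨_, k, rfl⟩, hk⟩ := hy'
      refine ⟨(k % (MulAction.period g x₀ : ℤ)).toNat, ?_, ?_⟩
      · simp only [Finset.mem_range]
        have h1 := Int.emod_lt_of_pos k (Int.natCast_pos.mpr hpos)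
        have h2 := Int.emod_nonneg k (Int.natCast_pos.mpr hpos).ne'
        omega
      · have h2 := Int.emod_nonneg k (Int.natCast_pos.mpr hpos).ne'
        have h3 : g ^ (k % (MulAction.period g x₀ : ℤ)).toNat • x₀
            = g ^ (k % (MulAction.period g x₀ : ℤ)) • x₀ := by
          conv_rhs => rw [← Int.toNat_of_nonneg h2]
          rw [zpow_natCast]
        rw [h3]
        have h4 := MulAction.zpow_smul_mod_minimalPeriod g x₀ k
        rw [← MulAction.period_eq_minimalPeriod] at h4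
        rw [h4]
        exact hk
    · intro j _
      rfl

end OrbitSum
section Duality

variable {Y : Type*} [Fintype Y] (n : ℕ) [NeZero n]

/-- the dot product with `k`, as an additive map -/
def dotHom (k : Y → ZMod n) : (Y → ZMod n) →+ ZMod n where
  toFun g := ∑ y, k y * g y
  map_zero' := by simp
  map_add' a b := by simp [mul_add, Finset.sum_add_distrib]

omit [NeZero n] in
@[simp] theorem dotHom_apply (k g : Y → ZMod n) : dotHom n k g = ∑ y, k y * g y := rfl

/-- an injective character of `ZMod n` -/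
noncomputable def zmodUnitChar : Multiplicative (ZMod n) →* ℂˣ :=
  Circle.toUnits.comp (ZMod.toCircle (N := n)).toMonoidHom

theorem zmodUnitChar_injective : Function.Injective (zmodUnitChar n) := by
  intro a b h
  have h1 : (ZMod.toCircle (N := n)).toMonoidHom a = (ZMod.toCircle (N := n)).toMonoidHom b := by
    have := congrArg (fun u : ℂˣ => (u : ℂ)) h
    simp only [zmodUnitChar, MonoidHom.comp_apply] at this
    exact Circle.ext (by simpa using this)
  have h2 := ZMod.injective_toCircle (N := n) (a₁ := Multiplicative.toAdd a)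
    (a₂ := Multiplicative.toAdd b) (by simpa using h1)
  exact congrArg Multiplicative.ofAdd h2

/-- **Duality count**: two orthogonal subgroups of `(ℤ/n)^Y` have `|K|·|L| ≤ n^|Y|`. -/
theorem card_mul_card_le_of_orth (K L : AddSubgroup (Y → ZMod n))
    (h : ∀ k ∈ K, ∀ l ∈ L, ∑ y, k y * l y = 0) :
    Nat.card K * Nat.card L ≤ n ^ Fintype.card Y := by
  classical
  let G₀ := Multiplicative (Y → ZMod n)
  let L' : Subgroup G₀ := AddSubgroup.toSubgroup L
  -- the character attached to `k`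
  let ψ : (Y → ZMod n) → (G₀ →* ℂˣ) := fun k =>
    (zmodUnitChar n).comp (AddMonoidHom.toMultiplicative (dotHom n k))
  have hψ_inj : Function.Injective ψ := by
    intro k k' hk
    funext y
    have h1 := DFunLike.congr_fun hk (Multiplicative.ofAdd (Pi.single y (1 : ZMod n)))
    simp only [ψ, MonoidHom.comp_apply] at h1
    have h2 := zmodUnitChar_injective n h1
    have h3 : dotHom n k (Pi.single y 1) = dotHom n k' (Pi.single y 1) := by
      simpa using congrArg Multiplicative.toAdd h2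
    simpa [dotHom_apply, Pi.single_apply] using h3
  have hψ_mem : ∀ k ∈ K, ψ k ∈ (MonoidHom.domRestrictHom L' ℂˣ).ker := by
    intro k hk
    rw [MonoidHom.mem_ker]
    refine MonoidHom.ext fun ⟨l, hl⟩ => ?_
    have hl' : Multiplicative.toAdd l ∈ L := hl
    have := h k hk _ hl'
    have h0 : (AddMonoidHom.toMultiplicative (dotHom n k)) l = 1 := by
      show Multiplicative.ofAdd (dotHom n k (Multiplicative.toAdd l)) = 1
      rw [dotHom_apply, this]
      rfl
    show (zmodUnitChar n) ((AddMonoidHom.toMultiplicative (dotHom n k)) l) = 1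
    rw [h0, map_one]
  have hcard : Nat.card K ≤ Nat.card (MonoidHom.domRestrictHom L' ℂˣ).ker := by
    refine Nat.card_le_card_of_injective
      (fun k : K => (⟨ψ k.1, hψ_mem k.1 k.2⟩ : (MonoidHom.domRestrictHom L' ℂˣ).ker)) ?_
    intro a b hab
    exact Subtype.ext (hψ_inj (congrArg Subtype.val hab))
  have hker := CommGroup.card_domRestrictHom_ker (G := G₀) ℂ L'
  have hidx := L'.card_eq_card_quotient_mul_card_subgroup
  have hG : Nat.card G₀ = n ^ Fintype.card Y := by
    show Nat.card (Multiplicative (Y → ZMod n)) = _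
    rw [Nat.card_eq_fintype_card]
    simp [Fintype.card_pi, ZMod.card]
  have hL : Nat.card L' = Nat.card L := rfl
  rw [hker] at hcard
  calc Nat.card K * Nat.card L ≤ Nat.card (G₀ ⧸ L') * Nat.card L' := by
        rw [hL]; exact Nat.mul_le_mul_right _ hcard
    _ = n ^ Fintype.card Y := by rw [← hidx, hG]

end Duality

section Main

variable {G : Type*} [Group G] (Γ : Subgroup G) (S T : G) (n : ℕ)

/-- `ℤ/n`-valued functions on `G ⧸ Γ` invariant under `g`. -/
def invAdd (g : G) : AddSubgroup (G ⧸ Γ → ZMod n) where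
  carrier := {β | ∀ x, β (g • x) = β x}
  zero_mem' := fun _ => rfl
  add_mem' := by
    intro a b ha hb x
    show a (g • x) + b (g • x) = a x + b x
    rw [ha x, hb x]
  neg_mem' := by
    intro a ha x
    show - a (g • x) = - a x
    rw [ha x]

variable {Γ n} in
theorem mem_invAdd {g : G} {β : G ⧸ Γ → ZMod n} : β ∈ invAdd Γ n g ↔ ∀ x, β (g • x) = β x :=
  Iff.rfl

variable {Γ n} in
theorem invAdd_pow {g : G} {β : G ⧸ Γ → ZMod n} (hβ : β ∈ invAdd Γ n g) (j : ℕ) (x : G ⧸ Γ) :
    β (g ^ j • x) = β x := by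
  induction j with
  | zero => simp
  | succ j ih => rw [pow_succ', mul_smul, hβ, ih]

variable (H : AddSubgroup (Additive Γ →+ ZMod n))

/-- `(φ, b) ↦ (a_S, a_{ST})`. -/
noncomputable def thetaZ :
    (↥H × (G ⧸ Γ → ZMod n)) →+ ((G ⧸ Γ) ⊕ (G ⧸ Γ) → ZMod n) where
  toFun p := Sum.elim (fun x => zcoc Γ (p.1 : Additive Γ →+ ZMod n) p.2 S x)
    (fun x => zcoc Γ (p.1 : Additive Γ →+ ZMod n) p.2 (S * T) x)
  map_zero' := by
    funext y
    rcases y with x | x <;> simp [zcoc]
  map_add' p q := by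
    funext y
    rcases y with x | x <;>
    · simp only [zcoc, Prod.fst_add, Prod.snd_add, AddSubgroup.coe_add, AddMonoidHom.add_apply,
        Pi.add_apply, Sum.elim_inl, Sum.elim_inr]
      abel

/-- `(β, β', τ) ↦ (β - τ, β' + τ)`. -/
def jZ : (↥(invAdd Γ n S) × ↥(invAdd Γ n (S * T)) × ↥(invAdd Γ n T)) →+
    ((G ⧸ Γ) ⊕ (G ⧸ Γ) → ZMod n) where
  toFun p := Sum.elim (fun x => (p.1 : G ⧸ Γ → ZMod n) x - (p.2.2 : G ⧸ Γ → ZMod n) x)
    (fun x => (p.2.1 : G ⧸ Γ → ZMod n) x + (p.2.2 : G ⧸ Γ → ZMod n) x)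
  map_zero' := by
    funext y
    rcases y with x | x <;> simp
  map_add' p q := by
    funext y
    rcases y with x | x <;>
    · simp only [Prod.fst_add, Prod.snd_add, AddSubgroup.coe_add, Pi.add_apply, Sum.elim_inl,
        Sum.elim_inr]
      abel

variable {Γ S T n H}

theorem sum_mul_zcoc_eq_zero [Fintype (G ⧸ Γ)] {g : G} {φ : Additive Γ →+ ZMod n}
    (hk : KillsFix Γ φ g) (b β : G ⧸ Γ → ZMod n) (hβ : β ∈ invAdd Γ n g) :
    ∑ x, zcoc Γ φ b g x * β x = 0 := by
  refine sum_eq_zero_of_period_sums g (fun x => zcoc Γ φ b g x * β x) fun x => ?_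
  have : ∀ j ∈ Finset.range (MulAction.period g x),
      zcoc Γ φ b g (g ^ j • x) * β (g ^ j • x) = zcoc Γ φ b g (g ^ j • x) * β x := by
    intro j _
    rw [invAdd_pow hβ]
  rw [Finset.sum_congr rfl this, ← Finset.sum_mul, zcoc_period_sum hk, zero_mul]

theorem orthZ [Fintype (G ⧸ Γ)]
    (hS : ∀ φ ∈ H, KillsFix Γ φ S) (hU : ∀ φ ∈ H, KillsFix Γ φ (S * T))
    (hT : ∀ φ ∈ H, KillsFix Γ φ T)
    (p : ↥H × (G ⧸ Γ → ZMod n))
    (q : ↥(invAdd Γ n S) × ↥(invAdd Γ n (S * T)) × ↥(invAdd Γ n T)) :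
    ∑ y, thetaZ Γ S T n H p y * jZ Γ S T n q y = 0 := by
  obtain ⟨⟨φ, hφ⟩, b⟩ := p
  obtain ⟨⟨β, hβ⟩, ⟨β', hβ'⟩, ⟨τ, hτ⟩⟩ := q
  rw [Fintype.sum_sum_type]
  simp only [thetaZ, jZ, AddMonoidHom.coe_mk, ZeroHom.coe_mk, Sum.elim_inl, Sum.elim_inr]
  have h1 := sum_mul_zcoc_eq_zero (hS φ hφ) b β hβ
  have h2 := sum_mul_zcoc_eq_zero (hU φ hφ) b β' hβ'
  have h3 := sum_mul_zcoc_eq_zero (hT φ hφ) b τ hτ
  have h4 : ∑ x, zcoc Γ φ b (S * T) x * τ x = ∑ x, zcoc Γ φ b S x * τ x := by
    have h5 : ∑ x, zcoc Γ φ b S (T • x) * τ x = ∑ x, zcoc Γ φ b S x * τ x := by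
      rw [← Equiv.sum_comp (MulAction.toPerm T) (fun x => zcoc Γ φ b S x * τ x)]
      refine Finset.sum_congr rfl fun x _ => ?_
      simp only [MulAction.toPerm_apply]
      rw [hτ x]
    calc ∑ x, zcoc Γ φ b (S * T) x * τ x
        = ∑ x, zcoc Γ φ b S (T • x) * τ x + ∑ x, zcoc Γ φ b T x * τ x := by
          rw [← Finset.sum_add_distrib]
          refine Finset.sum_congr rfl fun x _ => ?_
          rw [zcoc_mul]
          ring
      _ = ∑ x, zcoc Γ φ b S x * τ x := by rw [h5, h3, add_zero]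
  simp only [mul_sub, mul_add, Finset.sum_sub_distrib, Finset.sum_add_distrib]
  rw [h1, h2, h4]
  ring

/-- The kernel of `thetaZ` consists of pairs `(0, constant)`. -/
theorem eq_zero_of_thetaZ_eq_zero (hgen : Subgroup.closure {S, T} = ⊤)
    (p : ↥H × (G ⧸ Γ → ZMod n)) (h : thetaZ Γ S T n H p = 0) :
    p.1 = 0 ∧ ∀ x, p.2 x = p.2 (QuotientGroup.mk 1) := by
  have hS : ∀ x, zcoc Γ (p.1 : Additive Γ →+ ZMod n) p.2 S x = 0 := fun x =>
    congrFun h (Sum.inl x)
  have hU : ∀ x, zcoc Γ (p.1 : Additive Γ →+ ZMod n) p.2 (S * T) x = 0 := fun x =>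
    congrFun h (Sum.inr x)
  have hT : ∀ x, zcoc Γ (p.1 : Additive Γ →+ ZMod n) p.2 T x = 0 := fun x => by
    have := hU x
    rw [zcoc_mul, hS, zero_add] at this
    exact this
  have hall := zcoc_eq_zero_of_gen Γ (p.1 : Additive Γ →+ ZMod n) S T hgen p.2 hS hT
  have hφ := eq_zero_of_zcoc_eq_zero Γ (p.1 : Additive Γ →+ ZMod n) p.2 hall
  refine ⟨Subtype.ext hφ, ?_⟩
  refine zconst_of_smul_invariant Γ p.2 fun g x => ?_
  have := hall g x
  rw [hφ] at this
  simp only [zcoc, AddMonoidHom.zero_apply, zero_add] at this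
  exact sub_eq_zero.mp this

theorem card_ker_thetaZ_le [NeZero n] [Fintype (G ⧸ Γ)] (hgen : Subgroup.closure {S, T} = ⊤) :
    Nat.card (thetaZ Γ S T n H).ker ≤ n := by
  have hinj : Function.Injective
      (fun p : (thetaZ Γ S T n H).ker => (p.1.2 (QuotientGroup.mk 1) : ZMod n)) := by
    intro p q hpq
    obtain ⟨hp1, hp2⟩ := eq_zero_of_thetaZ_eq_zero hgen p.1 p.2
    obtain ⟨hq1, hq2⟩ := eq_zero_of_thetaZ_eq_zero hgen q.1 q.2
    apply Subtype.ext
    refine Prod.ext (hp1.trans hq1.symm) ?_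
    funext x
    rw [hp2 x, hq2 x]
    exact hpq
  have h := Nat.card_le_card_of_injective _ hinj
  rw [Nat.card_zmod] at h
  exact h

theorem card_ker_jZ_le [NeZero n] (hgen : Subgroup.closure {S, T} = ⊤) :
    Nat.card (jZ Γ S T n).ker ≤ n := by
  have hinj : Function.Injective
      (fun p : (jZ Γ S T n).ker => ((p.1.2.2 : G ⧸ Γ → ZMod n) (QuotientGroup.mk 1) : ZMod n)) := by
    have key : ∀ p : (jZ Γ S T n).ker,
        (∀ x, (p.1.1 : G ⧸ Γ → ZMod n) x = (p.1.2.2 : G ⧸ Γ → ZMod n) x) ∧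
        (∀ x, (p.1.2.1 : G ⧸ Γ → ZMod n) x = - (p.1.2.2 : G ⧸ Γ → ZMod n) x) ∧
        (∀ x, (p.1.2.2 : G ⧸ Γ → ZMod n) x = (p.1.2.2 : G ⧸ Γ → ZMod n) (QuotientGroup.mk 1)) := by
      rintro ⟨⟨β, β', τ⟩, hker⟩
      have hker' : jZ Γ S T n (β, β', τ) = 0 := hker
      have h1 : ∀ x, β.1 x = τ.1 x := fun x =>
        sub_eq_zero.mp (congrFun hker' (Sum.inl x))
      have h2 : ∀ x, β'.1 x = - τ.1 x := fun x =>
        eq_neg_of_add_eq_zero_left (congrFun hker' (Sum.inr x))
      have hτS : ∀ x, τ.1 (S • x) = τ.1 x := fun x => by rw [← h1, ← h1, β.2 x]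
      exact ⟨h1, h2, fun x => zconst_of_smul_invariant Γ τ.1
        (zsmul_invariant_of_gen Γ S T hgen τ.1 hτS τ.2) x⟩
    intro p q hpq
    obtain ⟨hp1, hp2, hp3⟩ := key p
    obtain ⟨hq1, hq2, hq3⟩ := key q
    have hτ : (p.1.2.2 : G ⧸ Γ → ZMod n) = (q.1.2.2 : G ⧸ Γ → ZMod n) := by
      funext x
      rw [hp3 x, hq3 x]
      exact hpq
    apply Subtype.ext
    refine Prod.ext (Subtype.ext ?_) (Prod.ext (Subtype.ext ?_) (Subtype.ext hτ))
    · funext x
      rw [hp1 x, hq1 x, hτ]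
    · funext x
      rw [hp2 x, hq2 x, hτ]
  have h := Nat.card_le_card_of_injective _ hinj
  rw [Nat.card_zmod] at h
  exact h

/-- **The abstract count.** -/
theorem card_mul_le [NeZero n] [Fintype (G ⧸ Γ)] (hgen : Subgroup.closure {S, T} = ⊤)
    (hS : ∀ φ ∈ H, KillsFix Γ φ S) (hU : ∀ φ ∈ H, KillsFix Γ φ (S * T))
    (hT : ∀ φ ∈ H, KillsFix Γ φ T) :
    Finite H ∧
    Nat.card H * (Nat.card (invAdd Γ n S) * Nat.card (invAdd Γ n (S * T))
      * Nat.card (invAdd Γ n T)) ≤ n ^ (Fintype.card (G ⧸ Γ) + 2) := by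
  classical
  have hfinH : Finite H := by
    let f : H → ((G ⧸ Γ) ⊕ (G ⧸ Γ) → ZMod n) := fun φ => thetaZ Γ S T n H (φ, 0)
    have hinj : Function.Injective f := by
      intro φ ψ hφψ
      have h0 : thetaZ Γ S T n H ((φ, 0) - (ψ, 0)) = 0 := by
        rw [map_sub]
        exact sub_eq_zero.mpr hφψ
      have := (eq_zero_of_thetaZ_eq_zero hgen _ h0).1
      simpa [sub_eq_zero] using this
    exact Finite.of_injective f hinj
  refine ⟨hfinH, ?_⟩
  have hn : 0 < n := Nat.pos_of_ne_zero (NeZero.ne n)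
  -- cardinalities
  have e1 := (thetaZ Γ S T n H).ker.card_mul_index
  rw [AddSubgroup.index_ker] at e1
  have e2 := (jZ Γ S T n).ker.card_mul_index
  rw [AddSubgroup.index_ker] at e2
  have k1 := card_ker_thetaZ_le (H := H) hgen
  have k2 := card_ker_jZ_le (Γ := Γ) (n := n) hgen
  have hdual := card_mul_card_le_of_orth n (thetaZ Γ S T n H).range (jZ Γ S T n).range (by
    rintro _ ⟨p, rfl⟩ _ ⟨q, rfl⟩
    exact orthZ hS hU hT p q)
  have cA : Nat.card (↥H × (G ⧸ Γ → ZMod n)) = Nat.card H * n ^ Fintype.card (G ⧸ Γ) := by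
    rw [Nat.card_prod]
    congr 1
    rw [Nat.card_eq_fintype_card, Fintype.card_pi]
    simp [ZMod.card]
  have cB : Nat.card (↥(invAdd Γ n S) × ↥(invAdd Γ n (S * T)) × ↥(invAdd Γ n T))
      = Nat.card (invAdd Γ n S) * Nat.card (invAdd Γ n (S * T)) * Nat.card (invAdd Γ n T) := by
    rw [Nat.card_prod, Nat.card_prod, mul_assoc]
  have cY : Fintype.card ((G ⧸ Γ) ⊕ (G ⧸ Γ)) = 2 * Fintype.card (G ⧸ Γ) := by
    rw [Fintype.card_sum]; ring
  rw [cY] at hdual
  rw [cA] at e1
  rw [cB] at e2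
  set a := Nat.card H
  set B := Nat.card (invAdd Γ n S) * Nat.card (invAdd Γ n (S * T)) * Nat.card (invAdd Γ n T)
  set kθ := Nat.card (thetaZ Γ S T n H).ker
  set rθ := Nat.card (thetaZ Γ S T n H).range
  set kj := Nat.card (jZ Γ S T n).ker
  set rj := Nat.card (jZ Γ S T n).range
  set X := Fintype.card (G ⧸ Γ)
  have hpos : 0 < n ^ X := Nat.pos_of_ne_zero (pow_ne_zero _ hn.ne')
  have key : (a * B) * n ^ X ≤ n ^ (X + 2) * n ^ X := by
    calc (a * B) * n ^ X = (a * n ^ X) * B := by ring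
      _ = (kθ * rθ) * (kj * rj) := by rw [e1, e2]
      _ = (kθ * kj) * (rθ * rj) := by ring
      _ ≤ (n * n) * n ^ (2 * X) := Nat.mul_le_mul (Nat.mul_le_mul k1 k2) hdual
      _ = n ^ (X + 2) * n ^ X := by ring
  exact Nat.le_of_mul_le_mul_right key hpos

end Main

end Fermat.Agent.AJlib
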