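import Mathlib
import Fermat.Prelude.Def_ModularCurve_PeriodHomPair
import Fermat.Prelude.Def_ModularCurve_GenusNumerics
import Fermat.Agent.S20
import Fermat.Agent.S21_Cohomology
import Fermat.Agent.AJlib.CountDefs
import Fermat.Agent.AJlib.CountAbstract

set_option autoImplicit false

/-!
# Item 69 (AJ), piece A2 (U): `|UnramHom N (ℤ/n)| ≤ n^{2g}`
-/

open CongruenceSubgroup ModularCurve
open scoped MatrixGroups

namespace Fermat.Agent.AJlib

open Fermat.Agent.S21lib

section Orbits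

variable {G : Type*} [Group G]

theorem pow_card_orbits_le_card_invAdd (Γ : Subgroup G) (n : ℕ) [NeZero n] [Finite (G ⧸ Γ)]
    (g : G) :
    n ^ Nat.card (MulAction.orbitRel.Quotient (Subgroup.zpowers g) (G ⧸ Γ))
      ≤ Nat.card (invAdd Γ n g) := by
  classical
  let F : (MulAction.orbitRel.Quotient (Subgroup.zpowers g) (G ⧸ Γ) → ZMod n) → invAdd Γ n g :=
    fun f => ⟨fun x => f (Quotient.mk'' x), by
      intro x
      show f (Quotient.mk'' (g • x)) = f (Quotient.mk'' x)
      congr 1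
      apply Quotient.sound'
      rw [MulAction.orbitRel_apply]
      exact ⟨⟨g, Subgroup.mem_zpowers g⟩, rfl⟩⟩
  have hinj : Function.Injective F := by
    intro f f' h
    funext q
    obtain ⟨x, rfl⟩ := Quotient.mk''_surjective q
    exact congrFun (congrArg Subtype.val h) x
  have h := Nat.card_le_card_of_injective F hinj
  rw [Nat.card_fun, Nat.card_zmod] at h
  exact h

theorem finrank_invSub_le_card_orbits {X : Type*} [MulAction G X] [Finite X] (g : G) :
    Module.finrank ℂ (invSub g : Submodule ℂ (X → ℂ))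
      ≤ Nat.card (MulAction.orbitRel.Quotient (Subgroup.zpowers g) X) := by
  classical
  have : Fintype X := Fintype.ofFinite _
  have : Fintype (MulAction.orbitRel.Quotient (Subgroup.zpowers g) X) := Fintype.ofFinite _
  have hrange : (invSub g : Submodule ℂ (X → ℂ)) ≤ LinearMap.range (LinearMap.funLeft ℂ ℂ
      (Quotient.mk'' : X → MulAction.orbitRel.Quotient (Subgroup.zpowers g) X)) := by
    intro b hb
    let K : Subgroup G :=
      { carrier := {h | ∀ x, b (h • x) = b x}
        one_mem' := fun x => by rw [one_smul]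
        mul_mem' := fun {a c} ha hc x => by rw [mul_smul, ha, hc]
        inv_mem' := fun {a} ha x => by rw [← ha (a⁻¹ • x), smul_inv_smul] }
    have hK : Subgroup.zpowers g ≤ K := (Subgroup.zpowers_le).mpr hb
    have hinv : ∀ h ∈ Subgroup.zpowers g, ∀ x, b (h • x) = b x := fun h hh => hK hh
    refine ⟨Quotient.lift b ?_, ?_⟩
    · rintro x y ⟨⟨h, hh⟩, rfl⟩
      exact hinv h hh y
    · funext x
      rfl
  calc Module.finrank ℂ (invSub g : Submodule ℂ (X → ℂ))
      ≤ Module.finrank ℂ (LinearMap.range (LinearMap.funLeft ℂ ℂ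
          (Quotient.mk'' : X → MulAction.orbitRel.Quotient (Subgroup.zpowers g) X))) :=
        Submodule.finrank_mono hrange
    _ ≤ Module.finrank ℂ (MulAction.orbitRel.Quotient (Subgroup.zpowers g) X → ℂ) :=
        LinearMap.finrank_range_le _
    _ = Nat.card (MulAction.orbitRel.Quotient (Subgroup.zpowers g) X) := by
        simp [Nat.card_eq_fintype_card]

end Orbits

section Concrete

variable (N : ℕ) (n : ℕ)

/-- additive version of `UnramHom N (Multiplicative (ZMod n))` -/
def unramAdd : AddSubgroup (Additive ↥(Gamma0 N) →+ ZMod n) where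
  carrier := {φ | ∀ γ : ↥(Gamma0 N),
    |((γ : SL(2, ℤ)) : Matrix (Fin 2) (Fin 2) ℤ).trace| ≤ 2 → φ (Additive.ofMul γ) = 0}
  zero_mem' := fun _ _ => rfl
  add_mem' := by
    intro a b ha hb γ h
    rw [AddMonoidHom.add_apply, ha γ h, hb γ h, add_zero]
  neg_mem' := by
    intro a ha γ h
    rw [AddMonoidHom.neg_apply, ha γ h, neg_zero]

/-- the bijection between multiplicative and additive unramified characters -/
def unramHomEquivAdd : UnramHom N (Multiplicative (ZMod n)) ≃ unramAdd N n where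
  toFun χ := ⟨MonoidHom.toAdditiveLeft χ.1, fun γ h => by
    have h1 := χ.2 γ h
    show Multiplicative.toAdd (χ.1 γ) = 0
    rw [h1]
    rfl⟩
  invFun φ := ⟨AddMonoidHom.toMultiplicativeRight φ.1, fun γ h => by
    have h1 := φ.2 γ h
    show Multiplicative.ofAdd (φ.1 (Additive.ofMul γ)) = 1
    rw [h1]
    rfl⟩
  left_inv χ := by
    apply Subtype.ext
    rfl
  right_inv φ := by
    apply Subtype.ext
    rfl

theorem trace_S_pow_le (m : ℕ) :
    |((ModularGroup.S ^ m : SL(2, ℤ)) : Matrix (Fin 2) (Fin 2) ℤ).trace| ≤ 2 := by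
  have h4 : (ModularGroup.S : SL(2, ℤ)) ^ 4 = 1 := by
    have : (4 : ℕ) = 2 * 2 := rfl
    rw [this, pow_mul, S_sq_eq_neg_one]
    simp
  rw [pow_eq_pow_mod m h4]
  have hlt : m % 4 < 4 := Nat.mod_lt _ (by norm_num)
  interval_cases (m % 4)
  · simp [Matrix.trace]
  · simp [Matrix.trace, ModularGroup.S]
  · rw [S_sq_eq_neg_one, trace_neg_one_SL]; norm_num
  · have : (3 : ℕ) = 2 + 1 := rfl
    rw [this, pow_succ, S_sq_eq_neg_one]
    simp [Matrix.trace, ModularGroup.S]

theorem trace_ST_pow_le (m : ℕ) :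
    |(((ModularGroup.S * ModularGroup.T) ^ m : SL(2, ℤ)) : Matrix (Fin 2) (Fin 2) ℤ).trace| ≤ 2 := by
  have h6 : ((ModularGroup.S : SL(2, ℤ)) * ModularGroup.T) ^ 6 = 1 := by
    have : (6 : ℕ) = 3 * 2 := rfl
    rw [this, pow_mul, ST_cube_eq_neg_one]
    simp
  have hST : (((ModularGroup.S * ModularGroup.T : SL(2, ℤ))) : Matrix (Fin 2) (Fin 2) ℤ)
      = !![0, -1; 1, 1] := by
    simp [ModularGroup.S, ModularGroup.T]
  have hST2 : ((((ModularGroup.S * ModularGroup.T) ^ 2 : SL(2, ℤ))) : Matrix (Fin 2) (Fin 2) ℤ)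
      = !![-1, -1; 1, 0] := by
    rw [pow_two, Matrix.SpecialLinearGroup.coe_mul, hST]
    simp
  rw [pow_eq_pow_mod m h6]
  have hlt : m % 6 < 6 := Nat.mod_lt _ (by norm_num)
  interval_cases (m % 6)
  · simp [Matrix.trace]
  · rw [pow_one, hST]; simp [Matrix.trace]
  · rw [hST2]; simp [Matrix.trace]
  · rw [ST_cube_eq_neg_one, trace_neg_one_SL]; norm_num
  · have : (4 : ℕ) = 3 + 1 := rfl
    rw [this, pow_succ, ST_cube_eq_neg_one, Matrix.SpecialLinearGroup.coe_mul, hST]
    simp [Matrix.trace]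
  · have : (5 : ℕ) = 3 + 2 := rfl
    rw [this, pow_add, ST_cube_eq_neg_one, Matrix.SpecialLinearGroup.coe_mul, hST2]
    simp [Matrix.trace]

variable {N n} in
theorem killsFix_of_trace {φ : Additive ↥(Gamma0 N) →+ ZMod n} (hφ : φ ∈ unramAdd N n)
    (g : SL(2, ℤ))
    (hg : ∀ m : ℕ, |((g ^ m : SL(2, ℤ)) : Matrix (Fin 2) (Fin 2) ℤ).trace| ≤ 2) :
    KillsFix (Gamma0 N) φ g := by
  intro m x hx
  apply hφ
  rw [coc_fix _ _ _ hx, trace_conj_SL]
  exact hg m

/-- **(U)** the upper bound `|Hom_unr(Γ₀(N), ℤ/n)| ≤ n^{2g}`. -/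
theorem unramHom_finite_and_card_le [NeZero N] (hn : 0 < n) :
    Finite (UnramHom N (Multiplicative (ZMod n))) ∧
    Nat.card (UnramHom N (Multiplicative (ZMod n)))
      ≤ n ^ (2 * Module.finrank ℂ (CuspForm (Gamma0 N) 2)) := by
  classical
  have : NeZero n := ⟨hn.ne'⟩
  have hfin : Finite (SL(2, ℤ) ⧸ Gamma0 N) := Subgroup.finite_quotient_of_finiteIndex
  have hft : Fintype (SL(2, ℤ) ⧸ Gamma0 N) := Fintype.ofFinite _
  have hS : ∀ φ ∈ unramAdd N n, KillsFix (Gamma0 N) φ ModularGroup.S :=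
    fun φ hφ => killsFix_of_trace hφ _ trace_S_pow_le
  have hU : ∀ φ ∈ unramAdd N n, KillsFix (Gamma0 N) φ (ModularGroup.S * ModularGroup.T) :=
    fun φ hφ => killsFix_of_trace hφ _ trace_ST_pow_le
  have hT : ∀ φ ∈ unramAdd N n, KillsFix (Gamma0 N) φ ModularGroup.T :=
    fun φ hφ => killsFix_of_trace hφ _ fun m => by rw [trace_T_pow]; norm_num
  obtain ⟨h1, h2⟩ := card_mul_le (Γ := Gamma0 N) (n := n) (H := unramAdd N n)
    SpecialLinearGroup.SL2Z_generators hS hU hT
  have hfinU : Finite (UnramHom N (Multiplicative (ZMod n))) :=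
    Finite.of_equiv _ (unramHomEquivAdd N n).symm
  refine ⟨hfinU, ?_⟩
  rw [Nat.card_congr (unramHomEquivAdd N n)]
  -- orbit counts
  have oS := pow_card_orbits_le_card_invAdd (Gamma0 N) n ModularGroup.S
  have oU := pow_card_orbits_le_card_invAdd (Gamma0 N) n (ModularGroup.S * ModularGroup.T)
  have oT := pow_card_orbits_le_card_invAdd (Gamma0 N) n ModularGroup.T
  rw [Fermat.Agent.S20lib.card_orbits_T N] at oT
  have fS := finrank_invSub_le_card_orbits (X := SL(2, ℤ) ⧸ Gamma0 N) ModularGroup.S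
  have fU := finrank_invSub_le_card_orbits (X := SL(2, ℤ) ⧸ Gamma0 N)
    (ModularGroup.S * ModularGroup.T)
  have e2 := two_mul_finrank_invSub (X := SL(2, ℤ) ⧸ Gamma0 N) ModularGroup.S
    (fun x => by rw [S_sq_eq_neg_one]; exact neg_one_smul_quot N x)
  have e3 := three_mul_finrank_invSub (X := SL(2, ℤ) ⧸ Gamma0 N)
    (ModularGroup.S * ModularGroup.T)
    (fun x => by rw [ST_cube_eq_neg_one]; exact neg_one_smul_quot N x)
  rw [Fermat.Agent.S20lib.card_fixed_S, Fermat.Agent.S20lib.card_quot_Gamma0] at e2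
  rw [Fermat.Agent.S20lib.card_fixed_ST, Fermat.Agent.S20lib.card_quot_Gamma0] at e3
  rw [← Nat.card_eq_fintype_card, Fermat.Agent.S20lib.card_quot_Gamma0] at h2
  have hg := Fermat.Agent.S20.result N
  unfold genusFormula at hg
  set fS' := Module.finrank ℂ
    (invSub ModularGroup.S : Submodule ℂ (SL(2, ℤ) ⧸ Gamma0 N → ℂ)) with hfS'
  set fU' := Module.finrank ℂ
    (invSub (ModularGroup.S * ModularGroup.T) : Submodule ℂ (SL(2, ℤ) ⧸ Gamma0 N → ℂ)) with hfU'
  set g := Module.finrank ℂ (CuspForm (Gamma0 N) 2) with hgdef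
  -- the arithmetic identity `fS + fU + c + 2g = ψ + 2`
  have harith : fS' + fU' + cuspCount N + 2 * g = dedekindPsi N + 2 := by
    have e2' : (2 : ℚ) * fS' = dedekindPsi N + nuTwo N := by exact_mod_cast e2
    have e3' : (3 : ℚ) * fU' = dedekindPsi N + 2 * nuThree N := by exact_mod_cast e3
    have : ((fS' + fU' + cuspCount N + 2 * g : ℕ) : ℚ) = ((dedekindPsi N + 2 : ℕ) : ℚ) := by
      push_cast
      linarith
    exact_mod_cast this
  have hnpos : ∀ k : ℕ, 0 < n ^ k := fun k => Nat.pos_of_ne_zero (pow_ne_zero _ hn.ne')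
  have hlow : n ^ (fS' + fU' + cuspCount N)
      ≤ Nat.card (invAdd (Gamma0 N) n ModularGroup.S)
        * Nat.card (invAdd (Gamma0 N) n (ModularGroup.S * ModularGroup.T))
        * Nat.card (invAdd (Gamma0 N) n ModularGroup.T) := by
    rw [pow_add, pow_add]
    refine Nat.mul_le_mul (Nat.mul_le_mul ?_ ?_) oT
    · exact (Nat.pow_le_pow_right hn fS).trans oS
    · exact (Nat.pow_le_pow_right hn fU).trans oU
  have key : Nat.card (unramAdd N n) * n ^ (fS' + fU' + cuspCount N)
      ≤ n ^ (2 * g) * n ^ (fS' + fU' + cuspCount N) := by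
    calc Nat.card (unramAdd N n) * n ^ (fS' + fU' + cuspCount N)
        ≤ Nat.card (unramAdd N n) * (Nat.card (invAdd (Gamma0 N) n ModularGroup.S)
          * Nat.card (invAdd (Gamma0 N) n (ModularGroup.S * ModularGroup.T))
          * Nat.card (invAdd (Gamma0 N) n ModularGroup.T)) := Nat.mul_le_mul_left _ hlow
      _ ≤ n ^ (dedekindPsi N + 2) := h2
      _ = n ^ (2 * g) * n ^ (fS' + fU' + cuspCount N) := by
        rw [← pow_add, ← harith]
        congr 1
        ring
  exact Nat.le_of_mul_le_mul_right key (hnpos _)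

end Concrete

end Fermat.Agent.AJlib
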