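import Mathlib
import Fermat.Prelude.Def_ModularCurve_PeriodHomPair
import Fermat.Agent.AJlib.CountDefs
import Fermat.Agent.AJlib.CountUpper
import Fermat.Agent.AJlib.CountLattice

set_option autoImplicit false

/-!
# Item 69 (AJ), piece A2 (Count): assembly

* `card_unramHom`     : `|Hom_unr(Γ₀(N), ℤ/n)| = n^{2g}`
* `finrank_lattice`   : `rank_ℤ Hom_unr(Γ₀(N), ℤ) = 2g`
* `redMod_surjective` : reduction mod `n` is surjective
-/

open CongruenceSubgroup ModularCurve ModularCurve.Period
open scoped MatrixGroups

namespace Fermat.Agent.AJlib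

/-- the image of reduction mod `n` has at least `n ^ rank` elements -/
theorem pow_finrank_le_card_range (N : ℕ) [NeZero N] (n : ℕ) (hn : 0 < n) :
    n ^ Module.finrank ℤ (Additive (UnramHom N (Multiplicative ℤ)))
      ≤ Nat.card (Set.range (redMod N n)) := by
  classical
  have : NeZero n := ⟨hn.ne'⟩
  obtain ⟨hfin, hfree⟩ := lattice_finite_free N
  obtain ⟨hfinU, -⟩ := unramHom_finite_and_card_le N n hn
  let e := Module.Free.chooseBasis ℤ (Additive (UnramHom N (Multiplicative ℤ)))
  let lift : (Module.Free.ChooseBasisIndex ℤ (Additive (UnramHom N (Multiplicative ℤ))) → ZMod n)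
      → Additive (UnramHom N (Multiplicative ℤ)) :=
    fun f => ∑ j, ((f j).val : ℤ) • e j
  let F : (Module.Free.ChooseBasisIndex ℤ (Additive (UnramHom N (Multiplicative ℤ))) → ZMod n)
      → Set.range (redMod N n) :=
    fun f => ⟨redMod N n (Additive.toMul (lift f)), ⟨_, rfl⟩⟩
  have hinj : Function.Injective F := by
    intro f f' h
    have h1 : redMod N n (Additive.toMul (lift f)) = redMod N n (Additive.toMul (lift f')) :=
      congrArg Subtype.val h
    have h2 : redMod N n (Additive.toMul (lift f - lift f')) = 1 := by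
      rw [toMul_sub, map_div, h1, div_self']
    obtain ⟨ψ, hψ⟩ := (redMod_eq_one_iff N n _).mp h2
    have h3 : lift f - lift f' = (n : ℤ) • Additive.ofMul ψ := by
      apply Additive.toMul.injective
      rw [hψ, natCast_zsmul, toMul_nsmul, toMul_ofMul]
    funext j
    have h4 := congrArg (fun x => e.repr x j) h3
    simp only [lift, map_sub, map_sum, map_smul, Module.Basis.repr_self, Finsupp.coe_sub,
      Pi.sub_apply, Finsupp.coe_finsetSum, Finset.sum_apply, Finsupp.smul_apply,
      Finsupp.single_apply, smul_eq_mul, mul_ite, mul_one, mul_zero, Finset.sum_ite_eq',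
      Finset.mem_univ, if_true] at h4
    have h5 := congrArg (fun z : ℤ => (z : ZMod n)) h4
    simp only [Int.cast_sub, Int.cast_natCast, ZMod.natCast_zmod_val, Int.cast_mul,
      ZMod.natCast_self, zero_mul] at h5
    exact sub_eq_zero.mp h5
  have hfinR : Finite (Set.range (redMod N n)) := inferInstance
  have h := Nat.card_le_card_of_injective F hinj
  rw [Nat.card_fun, Nat.card_zmod, Nat.card_eq_fintype_card,
    ← Module.finrank_eq_card_chooseBasisIndex] at h
  exact h

/-- **(b)** the lattice of integer valued unramified characters has rank `2g`. -/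
theorem finrank_lattice (N : ℕ) [NeZero N] :
    Module.finrank ℤ (Additive (UnramHom N (Multiplicative ℤ)))
      = 2 * Module.finrank ℂ (CuspForm (Gamma0 N) 2) := by
  refine le_antisymm ?_ (le_finrank_lattice N)
  obtain ⟨hfinU, hU⟩ := unramHom_finite_and_card_le N 2 (by norm_num)
  have h1 := pow_finrank_le_card_range N 2 (by norm_num)
  have h2 : Nat.card (Set.range (redMod N 2)) ≤ Nat.card (UnramHom N (Multiplicative (ZMod 2))) :=
    Finite.card_subtype_le _
  exact (Nat.pow_le_pow_iff_right (by norm_num : 1 < 2)).mp (h1.trans (h2.trans hU))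

/-- **(a)** `|Hom_unr(Γ₀(N), ℤ/n)| = n^{2g}`. -/
theorem card_unramHom (N : ℕ) [NeZero N] (n : ℕ) (hn : 0 < n) :
    Nat.card (UnramHom N (Multiplicative (ZMod n)))
      = n ^ (2 * Module.finrank ℂ (CuspForm (Gamma0 N) 2)) := by
  obtain ⟨hfinU, hU⟩ := unramHom_finite_and_card_le N n hn
  refine le_antisymm hU ?_
  have h1 := pow_finrank_le_card_range N n hn
  rw [finrank_lattice] at h1
  exact h1.trans (Finite.card_subtype_le _)

/-- **(c)** reduction mod `n` of unramified characters is surjective. -/
theorem redMod_surjective (N : ℕ) [NeZero N] (n : ℕ) (hn : 0 < n) :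
    Function.Surjective (redMod N n) := by
  obtain ⟨hfinU, hU⟩ := unramHom_finite_and_card_le N n hn
  have h1 := pow_finrank_le_card_range N n hn
  rw [finrank_lattice] at h1
  have hbij : Function.Bijective (Subtype.val : Set.range (redMod N n) → _) :=
    Function.Injective.bijective_of_nat_card_le Subtype.val_injective (hU.trans h1)
  intro χ
  obtain ⟨⟨_, ⟨ψ, rfl⟩⟩, rfl⟩ := hbij.2 χ
  exact ⟨ψ, rfl⟩

/-- the lattice is finite free of rank `2g` (packaged) -/
theorem lattice_finite_free_rank (N : ℕ) [NeZero N] :
    Module.Finite ℤ (Additive (UnramHom N (Multiplicative ℤ))) ∧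
      Module.Free ℤ (Additive (UnramHom N (Multiplicative ℤ))) ∧
      Module.finrank ℤ (Additive (UnramHom N (Multiplicative ℤ)))
        = 2 * Module.finrank ℂ (CuspForm (Gamma0 N) 2) :=
  ⟨(lattice_finite_free N).1, (lattice_finite_free N).2, finrank_lattice N⟩

end Fermat.Agent.AJlib
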