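/-
Item 69 (AJ), piece D4 (helper4): the orders at the places of `FF N` (over `ℚ̄`) and of `FC N`
(over `ℂ`) agree along the base change `bcF`, because the ramification indices of the analytic
expansions are EXACT on both sides (`fiber_exact_index`).  Hence `bcF f ∈ U_n(FC N) ⇒ f ∈ U_n(FF N)`.
-/
import Mathlib
import Fermat.Agent.S24lib.Final
import Fermat.Agent.AJlib.BcF
import Fermat.Agent.AJlib.Kummer
import Fermat.Agent.AJlib.CFibersFin
import Fermat.Agent.AJlib.CFibersInf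
import Fermat.Agent.AJlib.AlgExact

set_option autoImplicit false

open scoped MatrixGroups ModularForm Manifold Topology
open UpperHalfPlane ModularForm CongruenceSubgroup Filter ModularGroup ModularCurve
  IntermediateField AlgebraicCurve

namespace Fermat.Agent.AJlib

open Fermat.Agent.S24lib

variable (N : ℕ) [NeZero N]

/-- Two fibre data over `ℚ̄` and over `ℂ` with the same expansions give the same orders. -/
theorem descOrd_of_fibers {u : FF N} {uC : FC N} {g : SL(2, ℤ)}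
    (D : letI : Algebra Kbar ℂ := ιC.toAlgebra
      FiberData Kbar (FF N) ℂ u (SL(2, ℤ) ⧸ Gamma0 N) g)
    (DC : FiberData ℂ (FC N) ℂ uC (SL(2, ℤ) ⧸ Gamma0 N) g)
    (hs : letI : Algebra Kbar ℂ := ιC.toAlgebra
      D.s = DC.s)
    (hσ : letI : Algebra Kbar ℂ := ιC.toAlgebra
      ∀ (i : SL(2, ℤ) ⧸ Gamma0 N) (f : FF N), DC.σ i (bcF N f) = D.σ i f)
    (i : SL(2, ℤ) ⧸ Gamma0 N) (f : FF N) (hf : f ≠ 0) :
    letI : Algebra Kbar ℂ := ιC.toAlgebra
    (DC.place i).ord (bcF N f) = (D.place i).ord f := by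
  letI : Algebra Kbar ℂ := ιC.toAlgebra
  haveI : Nonempty (SL(2, ℤ) ⧸ Gamma0 N) := ⟨QuotientGroup.mk 1⟩
  obtain ⟨e, he, hes, hform⟩ := fiber_exact_index D i
  obtain ⟨e', he', hes', hform'⟩ := fiber_exact_index DC i
  have hee : e = e' := by
    refine Nat.eq_of_mul_eq_mul_right ?_ (hes.trans (hs.trans hes'.symm))
    by_contra h
    have h0 := Nat.le_zero.1 (not_lt.1 h)
    rw [h0, mul_zero] at hes
    have := D.s_pos
    omega
  have hbf : bcF N f ≠ 0 := fun h => hf ((bcF N).injective (by rw [h, map_zero]))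
  have h1 := hform f hf
  have h2 := hform' (bcF N f) hbf
  rw [hσ i f, h1, ← hee] at h2
  have he0 : (e : ℤ) ≠ 0 := by exact_mod_cast he.ne'
  exact (mul_left_cancel₀ he0 h2).symm

/-- **D4**, pointwise form: every place `v` of `FF N` has a place `w` of `FC N` above it with
`w.ord (bcF f) = v.ord f`. -/
theorem descOrd_exists_place (v : Place Kbar (FF N)) :
    ∃ w : Place ℂ (FC N), ∀ f : FF N, f ≠ 0 → w.ord (bcF N f) = v.ord f := by
  letI : Algebra Kbar ℂ := ιC.toAlgebra
  haveI := fin_ffData N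
  haveI : Nonempty (SL(2, ℤ) ⧸ Gamma0 N) := ⟨QuotientGroup.mk 1⟩
  by_cases hv : 0 ≤ v.ord (jF N)
  · obtain ⟨c, hc⟩ := ffExists_center v (FFData.trans (K := Kbar) (x := jF N)) hv
    by_cases h0 : c = 0
    · subst h0
      obtain ⟨i, m, hm, h⟩ := (fiberRho N).exists_index v hc
      have hpl := (fiberRho N).place_eq_of_index hm h
      refine ⟨(fiberRhoC N).place i, fun f hf => ?_⟩
      rw [← hpl]
      exact descOrd_of_fibers N (fiberRho N) (fiberRhoC N) rfl
        (fun i f => embFC_bcF N _ _ f) i f hf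
    by_cases h1 : c = 1728
    · subst h1
      obtain ⟨i, m, hm, h⟩ := (fiberI N).exists_index v hc
      have hpl := (fiberI N).place_eq_of_index hm h
      refine ⟨(fiberIC N).place i, fun f hf => ?_⟩
      rw [← hpl]
      exact descOrd_of_fibers N (fiberI N) (fiberIC N) rfl
        (fun i f => embFC_bcF N _ _ f) i f hf
    obtain ⟨τ₀, hτ⟩ := exists_jH_eq_ιC c
    obtain ⟨i, m, hm, h⟩ := (fiberGeneric N c τ₀ hτ (fin_ιC_ne_zero h0)
      (fin_ιC_ne_ofNat h1)).exists_index v hc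
    have hpl := (fiberGeneric N c τ₀ hτ (fin_ιC_ne_zero h0)
      (fin_ιC_ne_ofNat h1)).place_eq_of_index hm h
    refine ⟨(fiberGenericC N (ιC c) τ₀ hτ (fin_ιC_ne_zero h0)
      (fin_ιC_ne_ofNat h1)).place i, fun f hf => ?_⟩
    rw [← hpl]
    exact descOrd_of_fibers N (fiberGeneric N c τ₀ hτ (fin_ιC_ne_zero h0) (fin_ιC_ne_ofNat h1))
      (fiberGenericC N (ιC c) τ₀ hτ (fin_ιC_ne_zero h0) (fin_ιC_ne_ofNat h1)) rfl
      (fun i f => embFC_bcF N _ _ f) i f hf
  · have hv' : 0 < v.ord (jF N)⁻¹ := by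
      rw [v.ord_inv]; omega
    obtain ⟨i, m, hm, h⟩ := (fiberInf N).exists_index v hv'
    have hpl := (fiberInf N).place_eq_of_index hm h
    refine ⟨(fiberInfC N).place i, fun f hf => ?_⟩
    rw [← hpl]
    exact descOrd_of_fibers N (fiberInf N) (fiberInfC N) rfl
      (fun i f => embFC_bcF N _ _ f) i f hf

/-- **D4.** -/
theorem mem_Un_of_bcF_mem_Un {N n : ℕ} [NeZero N] (_hn : 0 < n) (f : (FF N)ˣ)
    (hf : Units.map (bcF N : FF N →* FC N) f ∈ Un ℂ (FC N) n) : f ∈ Un Kbar (FF N) n := by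
  intro v
  obtain ⟨w, hw⟩ := descOrd_exists_place N v
  rw [← hw (f : FF N) f.ne_zero]
  exact hf w

end Fermat.Agent.AJlib
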