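/-
Item 69, piece A4 (helper1): `n`-th roots of Laurent series over an algebraically closed field of
characteristic `0`: they exist iff `n` divides the order, and are unique up to `μ_n`.
-/
import Mathlib
import Fermat.Prelude.Def_ModularCurve_LaurentCoeff

set_option autoImplicit false

noncomputable section

namespace Fermat.Agent.AJlib

open Polynomial in
/-- `n`-th roots of power series with nonzero constant coefficient (Hensel). -/
theorem powerSeries_exists_root (L : Type*) [Field L] [IsAlgClosed L] [CharZero L] (n : ℕ)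
    (hn : 0 < n) (u : PowerSeries L) (hu : PowerSeries.constantCoeff u ≠ 0) :
    ∃ v : PowerSeries L, v ^ n = u := by
  obtain ⟨b, hb⟩ := IsAlgClosed.exists_pow_nat_eq (PowerSeries.constantCoeff u) hn
  have hb0 : b ≠ 0 := by
    rintro rfl
    rw [zero_pow hn.ne'] at hb
    exact hu hb.symm
  have hH : HenselianRing (PowerSeries L) (Ideal.span {PowerSeries.X}) := inferInstance
  have hmem : ∀ w : PowerSeries L, w ∈ Ideal.span {(PowerSeries.X : PowerSeries L)} ↔
      PowerSeries.constantCoeff w = 0 := by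
    intro w
    rw [Ideal.mem_span_singleton, PowerSeries.X_dvd_iff]
  have hmonic : (X ^ n - C u : (PowerSeries L)[X]).Monic := by
    apply Polynomial.monic_X_pow_sub_C _ hn.ne'
  obtain ⟨a, ha, -⟩ := hH.is_henselian (X ^ n - C u) hmonic (PowerSeries.C b) (by
    rw [hmem]
    simp [hb]) (by
    apply IsUnit.map
    rw [PowerSeries.isUnit_iff_constantCoeff]
    simp only [derivative_sub, derivative_X_pow, derivative_C, sub_zero, eval_mul, eval_pow,
      eval_X, map_mul, map_pow, PowerSeries.constantCoeff_C]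
    simp [hb0, hn.ne'])
  refine ⟨a, ?_⟩
  have := ha
  simp only [IsRoot.def, eval_sub, eval_pow, eval_X, eval_C, sub_eq_zero] at this
  exact this

theorem laurent_exists_root (L : Type*) [Field L] [IsAlgClosed L] [CharZero L] (n : ℕ) (hn : 0 < n)
    (s : LaurentSeries L) (hs : s ≠ 0) (hord : (n : ℤ) ∣ s.order) :
    ∃ r : LaurentSeries L, r ^ n = s := by
  obtain ⟨k, hk⟩ := hord
  have hu : PowerSeries.constantCoeff s.powerSeriesPart ≠ 0 := by
    rw [← PowerSeries.coeff_zero_eq_constantCoeff_apply, LaurentSeries.powerSeriesPart_coeff]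
    simpa using (HahnSeries.coeff_order_eq_zero (x := s)).not.mpr hs
  obtain ⟨v, hv⟩ := powerSeries_exists_root L n hn s.powerSeriesPart hu
  refine ⟨HahnSeries.single k 1 * HahnSeries.ofPowerSeries ℤ L v, ?_⟩
  rw [mul_pow, HahnSeries.single_pow, one_pow, ← map_pow (HahnSeries.ofPowerSeries ℤ L), hv,
    nsmul_eq_mul, ← hk]
  exact LaurentSeries.single_order_mul_powerSeriesPart s

/-- an element of `L((X))` which is a root of unity is a constant. -/
theorem laurent_eq_C_of_pow_eq_one (L : Type*) [Field L] [IsAlgClosed L] (n : ℕ)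
    (hn : 0 < n) (w : LaurentSeries L) (h : w ^ n = 1) :
    ∃ ζ : L, ζ ^ n = 1 ∧ w = HahnSeries.C ζ := by
  have hint : IsIntegral L w := by
    refine ⟨Polynomial.X ^ n - 1, Polynomial.monic_X_pow_sub_C (1 : L) hn.ne', ?_⟩
    simp [h]
  have hdeg := IsAlgClosed.degree_eq_one_of_irreducible L (minpoly.irreducible hint)
  obtain ⟨ζ, hζ⟩ := minpoly.mem_range_of_degree_eq_one L w hdeg
  have hC : ∀ c : L, algebraMap L (LaurentSeries L) c = HahnSeries.C c := by
    intro c
    have h1 : algebraMap L (PowerSeries L) c = PowerSeries.C c := by simp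
    rw [HahnSeries.algebraMap_apply', h1, HahnSeries.ofPowerSeries_C]
  rw [hC] at hζ
  refine ⟨ζ, ?_, hζ.symm⟩
  have h1 : (HahnSeries.C (ζ ^ n) : LaurentSeries L) = HahnSeries.C 1 := by
    rw [map_pow, hζ, h, map_one]
  exact HahnSeries.C_injective h1

theorem laurent_root_unique (L : Type*) [Field L] [IsAlgClosed L] [CharZero L] (n : ℕ) (hn : 0 < n)
    (r r' : LaurentSeries L) (h : r ^ n = r' ^ n) :
    ∃ ζ : L, ζ ^ n = 1 ∧ r = HahnSeries.C ζ * r' := by
  by_cases hr' : r' = 0
  · subst hr'
    rw [zero_pow hn.ne'] at h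
    have hr : r = 0 := pow_eq_zero_iff hn.ne' |>.mp h
    exact ⟨1, one_pow n, by rw [hr, mul_zero]⟩
  · have hw : (r / r') ^ n = 1 := by
      rw [div_pow, h, div_self (pow_ne_zero n hr')]
    obtain ⟨ζ, hζ, hζw⟩ := laurent_eq_C_of_pow_eq_one L n hn (r / r') hw
    refine ⟨ζ, hζ, ?_⟩
    rw [← hζw, div_mul_cancel₀ _ hr']

open ModularCurve in
theorem lr_coeffMap_injective {K L : Type*} [Field K] [Field L] (ι : K →+* L) :
    Function.Injective (coeffMap ι) := by
  intro x y hxy
  ext k
  have := congrArg (fun z => z.coeff k) hxy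
  simp only [coeffMap_coeff] at this
  exact ι.injective this

open ModularCurve in
theorem lr_order_coeffMap {K L : Type*} [Field K] [Field L] (ι : K →+* L)
    (y : LaurentSeries K) : (coeffMap ι y).order = y.order := by
  by_cases hy : y = 0
  · subst hy
    rw [map_zero]
    simp
  · have hy' : coeffMap ι y ≠ 0 := fun h => hy (lr_coeffMap_injective ι (by rw [h, map_zero]))
    have hsupp : (coeffMap ι y).support = y.support := by
      ext k
      simp only [HahnSeries.mem_support, coeffMap_coeff, ne_eq, map_eq_zero]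
    rw [HahnSeries.order_of_ne hy', HahnSeries.order_of_ne hy]
    congr 1

open ModularCurve in
/-- generic form of `laurent_root_rational`. -/
theorem laurent_root_rational_aux (K L : Type*) [Field K] [IsAlgClosed K] [CharZero K]
    [Field L] [IsAlgClosed L] [CharZero L] (ι : K →+* L) (n : ℕ) (hn : 0 < n)
    (r : LaurentSeries L) (y : LaurentSeries K) (hy : y ≠ 0) (h : r ^ n = coeffMap ι y) :
    ∃ (c : L) (y' : LaurentSeries K), c ≠ 0 ∧ r = HahnSeries.C c * coeffMap ι y' := by
  have hord : (n : ℤ) ∣ y.order := by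
    rw [← lr_order_coeffMap ι y, ← h, HahnSeries.order_pow, nsmul_eq_mul]
    exact dvd_mul_right _ _
  obtain ⟨y₀, hy₀⟩ := laurent_exists_root K n hn y hy hord
  have h2 : r ^ n = (coeffMap ι y₀) ^ n := by
    rw [h, ← map_pow, hy₀]
  obtain ⟨ζ, hζ, hr⟩ := laurent_root_unique L n hn r (coeffMap ι y₀) h2
  refine ⟨ζ, y₀, ?_, hr⟩
  rintro rfl
  rw [zero_pow hn.ne'] at hζ
  exact zero_ne_one hζ

end Fermat.Agent.AJlib

end
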