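/-
Item 69, piece A4, corollary (helper1): an `n`-th root in `ℂ((q))` of a `ℚ̄`-rational Laurent
series is a constant times a `ℚ̄`-rational Laurent series.
-/
import Mathlib
import Fermat.Agent.S24lib.ExpInf
import Fermat.Agent.AJlib.LaurentRoot

set_option autoImplicit false

namespace Fermat.Agent.AJlib

open Fermat.Agent.S24lib ModularCurve

theorem laurent_root_rational (n : ℕ) (hn : 0 < n) (r : LaurentSeries ℂ) (y : LaurentSeries Kbar)
    (hy : y ≠ 0) (h : r ^ n = coeffMap ιC y) :
    ∃ (c : ℂ) (y' : LaurentSeries Kbar), c ≠ 0 ∧ r = HahnSeries.C c * coeffMap ιC y' :=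
  laurent_root_rational_aux Kbar ℂ ιC n hn r y hy h

end Fermat.Agent.AJlib
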