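/-
Item 69 (AJ), piece A5: descent of the constant field for Laurent series.  If `K ⊆ L` are fields
(of characteristic `0`) and the coefficientwise image of `y ∈ K((q))` lies in `L·F₀ ⊆ L((q))`,
then `y ∈ K·F₀` (linear disjointness of `K((q))` and `L` over `K`) (helper27).
Blueprint: NOTES/AJ_blueprint.md; signatures: NOTES/AJ_signatures.lean.txt.
-/
import Mathlib
import Fermat.Prelude.Def_ModularCurve_LaurentCoeff

set_option autoImplicit false

open ModularCurve

namespace Fermat.Agent.AJlib

section Rational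

variable {K L : Type*} [Field K] [Field L]

/-- coefficients of `algebraMap l * x` -/
theorem rat_coeff_algebraMap_mul (l : L) (x : LaurentSeries L) (k : ℤ) :
    (algebraMap L (LaurentSeries L) l * x).coeff k = l * x.coeff k := by
  rw [algebraMap_laurentSeries_eq_single, ← HahnSeries.C_apply, HahnSeries.C_mul_eq_smul,
    HahnSeries.coeff_smul, smul_eq_mul]

/-- coefficientwise application of an additive map -/
noncomputable def ratMap (lam : L →+ K) : LaurentSeries L →+ LaurentSeries K where
  toFun x := x.map lam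
  map_zero' := by
    ext k
    simp
  map_add' x y := by
    ext k
    simp

@[simp] theorem ratMap_coeff (lam : L →+ K) (x : LaurentSeries L) (k : ℤ) :
    (ratMap lam x).coeff k = lam (x.coeff k) := rfl

/-- the functional `x ↦ lam (l * x)` -/
noncomputable def ratTwist (lam : L →+ K) (l : L) : L →+ K :=
  lam.comp (AddMonoidHom.mulLeft l)

@[simp] theorem ratTwist_apply (lam : L →+ K) (l x : L) : ratTwist lam l x = lam (l * x) := rfl

theorem ratMap_algebraMap_mul (lam : L →+ K) (l : L) (x : LaurentSeries L) :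
    ratMap lam (algebraMap L (LaurentSeries L) l * x) = ratMap (ratTwist lam l) x := by
  ext k
  rw [ratMap_coeff, ratMap_coeff, rat_coeff_algebraMap_mul, ratTwist_apply]

/-- `Λ(φ f) = λ(1) · f` -/
theorem ratMap_coeffMap (ι : K →+* L) (lam : L →+ K)
    (hlam : ∀ (c : K) (l : L), lam (ι c * l) = c * lam l) (f : LaurentSeries K) :
    ratMap lam (coeffMap ι f) = algebraMap K (LaurentSeries K) (lam 1) * f := by
  ext k
  have h := hlam (f.coeff k) 1
  rw [mul_one] at h
  rw [ratMap_coeff, coeffMap_coeff, rat_coeff_algebraMap_mul, h, mul_comm]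

/-- the property proved by induction on the `L`-span of `φ(F_K)` -/
def RatGood (F₀ : IntermediateField ℚ (LaurentSeries ℚ)) [Algebra ℚ K] (ι : K →+* L)
    (r : LaurentSeries L) : Prop :=
  ∀ lam : L →+ K, (∀ (c : K) (l : L), lam (ι c * l) = c * lam l) →
    ratMap lam r ∈ laurentBaseChange K F₀ ∧
      ∀ y : LaurentSeries K, ratMap lam (coeffMap ι y * r) = y * ratMap lam r

theorem ratGood_coeffMap (F₀ : IntermediateField ℚ (LaurentSeries ℚ)) [Algebra ℚ K]
    (ι : K →+* L) {f : LaurentSeries K} (hf : f ∈ laurentBaseChange K F₀) :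
    RatGood F₀ ι (coeffMap ι f) := by
  intro lam hlam
  refine ⟨?_, fun y => ?_⟩
  · rw [ratMap_coeffMap ι lam hlam]
    exact mul_mem ((laurentBaseChange K F₀).algebraMap_mem _) hf
  · rw [← map_mul, ratMap_coeffMap ι lam hlam, ratMap_coeffMap ι lam hlam]
    ring

theorem ratGood_zero (F₀ : IntermediateField ℚ (LaurentSeries ℚ)) [Algebra ℚ K]
    (ι : K →+* L) : RatGood F₀ ι (0 : LaurentSeries L) := by
  intro lam _
  refine ⟨?_, fun y => ?_⟩
  · rw [map_zero]
    exact zero_mem _
  · rw [mul_zero, map_zero, mul_zero]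

theorem ratGood_add (F₀ : IntermediateField ℚ (LaurentSeries ℚ)) [Algebra ℚ K]
    (ι : K →+* L) {r s : LaurentSeries L} (hr : RatGood F₀ ι r) (hs : RatGood F₀ ι s) :
    RatGood F₀ ι (r + s) := by
  intro lam hlam
  obtain ⟨h1, h2⟩ := hr lam hlam
  obtain ⟨h3, h4⟩ := hs lam hlam
  refine ⟨?_, fun y => ?_⟩
  · rw [map_add]
    exact add_mem h1 h3
  · rw [mul_add, map_add, map_add, h2, h4, mul_add]

theorem ratGood_smul (F₀ : IntermediateField ℚ (LaurentSeries ℚ)) [Algebra ℚ K]
    (ι : K →+* L) (l : L) {r : LaurentSeries L} (hr : RatGood F₀ ι r) :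
    RatGood F₀ ι (algebraMap L (LaurentSeries L) l * r) := by
  intro lam hlam
  have htw : ∀ (c : K) (x : L), ratTwist lam l (ι c * x) = c * ratTwist lam l x := by
    intro c x
    rw [ratTwist_apply, ratTwist_apply, ← hlam, mul_left_comm]
  obtain ⟨h1, h2⟩ := hr (ratTwist lam l) htw
  refine ⟨?_, fun y => ?_⟩
  · rw [ratMap_algebraMap_mul]
    exact h1
  · rw [mul_left_comm, ratMap_algebraMap_mul, ratMap_algebraMap_mul, h2]

/-- `φ(F_K)` as a submonoid of `L((q))` -/
noncomputable def ratImage (F₀ : IntermediateField ℚ (LaurentSeries ℚ)) [Algebra ℚ K]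
    (ι : K →+* L) : Submonoid (LaurentSeries L) :=
  (laurentBaseChange K F₀).toSubalgebra.toSubsemiring.toSubmonoid.map
    ((coeffMap ι : LaurentSeries K →+* LaurentSeries L) : LaurentSeries K →* LaurentSeries L)

theorem coe_ratImage (F₀ : IntermediateField ℚ (LaurentSeries ℚ)) [Algebra ℚ K]
    (ι : K →+* L) :
    (ratImage F₀ ι : Set (LaurentSeries L))
      = ⇑(coeffMap ι) '' ((laurentBaseChange K F₀ : IntermediateField K (LaurentSeries K)) :
          Set (LaurentSeries K)) := rfl

theorem ratGood_of_mem_adjoin (F₀ : IntermediateField ℚ (LaurentSeries ℚ)) [Algebra ℚ K]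
    (ι : K →+* L) {r : LaurentSeries L}
    (hr : r ∈ Algebra.adjoin L (ratImage F₀ ι : Set (LaurentSeries L))) :
    RatGood F₀ ι r := by
  have hspan : Subalgebra.toSubmodule (Algebra.adjoin L (ratImage F₀ ι : Set (LaurentSeries L)))
      = @Submodule.span L (LaurentSeries L) _ _ Algebra.toModule
          (ratImage F₀ ι : Set (LaurentSeries L)) := by
    apply Algebra.adjoin_eq_span_of_subset
    rw [Submonoid.closure_eq]
    exact @Submodule.subset_span L (LaurentSeries L) _ _ Algebra.toModule _
  have hr' : r ∈ @Submodule.span L (LaurentSeries L) _ _ Algebra.toModule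
      (ratImage F₀ ι : Set (LaurentSeries L)) := by
    rw [← hspan]
    exact hr
  clear hr hspan
  induction hr' using Submodule.span_induction with
  | mem x hx =>
    rw [coe_ratImage] at hx
    obtain ⟨f, hf, rfl⟩ := hx
    exact ratGood_coeffMap F₀ ι hf
  | zero => exact ratGood_zero F₀ ι
  | add x y _ _ hx hy => exact ratGood_add F₀ ι hx hy
  | smul l x _ hx =>
    rw [Algebra.smul_def]
    exact ratGood_smul F₀ ι l hx

theorem rat_coeffMap_injective (ι : K →+* L) : Function.Injective (coeffMap ι) := by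
  intro x y h
  ext k
  have := congrArg (fun z => z.coeff k) h
  simp only [coeffMap_coeff] at this
  exact ι.injective this

/-- general form of A5 -/
theorem mem_laurentBaseChange_of_coeffMap_aux (F₀ : IntermediateField ℚ (LaurentSeries ℚ))
    [Algebra ℚ K] [Algebra ℚ L] (ι : K →+* L)
    (y : LaurentSeries K) (hy : coeffMap ι y ∈ laurentBaseChange L F₀) :
    y ∈ laurentBaseChange K F₀ := by
  -- `F_L ≤ L(φ(F_K))`
  have hι : ι.comp (algebraMap ℚ K) = algebraMap ℚ L := Subsingleton.elim _ _
  have hle : laurentBaseChange L F₀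
      ≤ IntermediateField.adjoin L (ratImage F₀ ι : Set (LaurentSeries L)) := by
    apply IntermediateField.adjoin.mono
    rintro _ ⟨x, hx, rfl⟩
    rw [coe_ratImage]
    refine ⟨coeffEmb K x, coeffEmb_mem_laurentBaseChange K hx, ?_⟩
    rw [coeffEmb, coeffMap_coeffMap, hι]
    rfl
  obtain ⟨r, hr, s, hs, hz⟩ := IntermediateField.mem_adjoin_iff_div.mp (hle hy)
  have hR := ratGood_of_mem_adjoin F₀ ι hr
  have hS := ratGood_of_mem_adjoin F₀ ι hs
  rcases eq_or_ne s 0 with rfl | hs0
  · rw [div_zero] at hz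
    have : y = 0 := rat_coeffMap_injective ι (by rw [hz, map_zero])
    rw [this]
    exact zero_mem _
  -- a coefficient of `s` which is nonzero, and a functional not vanishing on it
  obtain ⟨k, hk⟩ : ∃ k : ℤ, s.coeff k ≠ 0 := by
    by_contra hcon
    apply hs0
    ext k
    by_contra hk
    exact hcon ⟨k, hk⟩
  let _ : Algebra K L := ι.toAlgebra
  obtain ⟨lam', hlam'⟩ : ∃ lam' : Module.Dual K L, lam' (s.coeff k) ≠ 0 := by
    by_contra hcon
    apply hk
    refine (Module.forall_dual_apply_eq_zero_iff K (s.coeff k)).mp fun φ => ?_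
    by_contra hφ
    exact hcon ⟨φ, hφ⟩
  have hlam : ∀ (c : K) (l : L), lam'.toAddMonoidHom (ι c * l) = c * lam'.toAddMonoidHom l := by
    intro c l
    have h1 : ι c * l = c • l := by
      rw [Algebra.smul_def]
      rfl
    rw [h1]
    exact lam'.map_smul c l
  obtain ⟨hr1, -⟩ := hR lam'.toAddMonoidHom hlam
  obtain ⟨hs1, hs2⟩ := hS lam'.toAddMonoidHom hlam
  have hne : ratMap lam'.toAddMonoidHom s ≠ 0 := by
    intro h0
    apply hlam'
    have := congrArg (fun z => z.coeff k) h0
    simpa using this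
  have hprod : coeffMap ι y * s = r := by
    rw [hz, div_mul_cancel₀ _ hs0]
  have hyeq : y * ratMap lam'.toAddMonoidHom s = ratMap lam'.toAddMonoidHom r := by
    rw [← hs2 y, hprod]
  have hy' : y = ratMap lam'.toAddMonoidHom r / ratMap lam'.toAddMonoidHom s := by
    rw [eq_div_iff hne, hyeq]
  rw [hy']
  exact div_mem hr1 hs1

end Rational

/-! ## A5  descent of the constant field -/
theorem mem_laurentBaseChange_of_coeffMap (F₀ : IntermediateField ℚ (LaurentSeries ℚ))
    (K L : Type) [Field K] [Field L] [Algebra ℚ K] [Algebra ℚ L] (ι : K →+* L)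
    (y : LaurentSeries K) (hy : coeffMap ι y ∈ laurentBaseChange L F₀) :
    y ∈ laurentBaseChange K F₀ :=
  mem_laurentBaseChange_of_coeffMap_aux F₀ ι y hy

end Fermat.Agent.AJlib
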