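/-
Item 69, piece D2 (helper1): if the base change to `ℂ` of `f ∈ F_ℚ̄` is an `n`-th power in `F_ℂ`,
then `f` is an `n`-th power in `F_ℚ̄`.
-/
import Mathlib
import Fermat.Agent.AJlib.BcF
import Fermat.Agent.AJlib.Rational
import Fermat.Agent.AJlib.LaurentRootRat

set_option autoImplicit false

open ModularCurve

namespace Fermat.Agent.AJlib

open Fermat.Agent.S24lib

/-- generic form of D2 on Laurent series. -/
theorem exists_root_of_coeffMap_eq_pow (F₀ : IntermediateField ℚ (LaurentSeries ℚ))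
    (K L : Type) [Field K] [IsAlgClosed K] [CharZero K] [Field L] [IsAlgClosed L] [CharZero L]
    [Algebra ℚ K] [Algebra ℚ L] (ι : K →+* L) (n : ℕ) (hn : 0 < n)
    (f : LaurentSeries K) (hf : f ≠ 0)
    (ψ : LaurentSeries L) (hψ : ψ ∈ laurentBaseChange L F₀) (h : ψ ^ n = coeffMap ι f) :
    ∃ f₁ : LaurentSeries K, f₁ ∈ laurentBaseChange K F₀ ∧ f₁ ^ n = f := by
  obtain ⟨c, y', hc, hcy⟩ := laurent_root_rational_aux K L ι n hn ψ f hf h
  have hCalg : ∀ a : L, (HahnSeries.C a : LaurentSeries L) = algebraMap L (LaurentSeries L) a := by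
    intro a
    rw [algebraMap_laurentSeries_eq_single, HahnSeries.C_apply]
  have hCalgK : ∀ a : K, (HahnSeries.C a : LaurentSeries K) = algebraMap K (LaurentSeries K) a := by
    intro a
    rw [algebraMap_laurentSeries_eq_single, HahnSeries.C_apply]
  have hCc : (HahnSeries.C c : LaurentSeries L) ≠ 0 := by
    intro h0
    apply hc
    exact HahnSeries.C_injective (by rw [h0, map_zero])
  -- `coeffMap ι y' ∈ F_L`
  have hy'L : coeffMap ι y' ∈ laurentBaseChange L F₀ := by
    have : coeffMap ι y' = (HahnSeries.C c)⁻¹ * ψ := by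
      rw [hcy, ← mul_assoc, inv_mul_cancel₀ hCc, one_mul]
    rw [this]
    refine mul_mem (inv_mem ?_) hψ
    rw [hCalg]
    exact (laurentBaseChange L F₀).algebraMap_mem c
  have hy'K : y' ∈ laurentBaseChange K F₀ :=
    mem_laurentBaseChange_of_coeffMap F₀ K L ι y' hy'L
  -- compare coefficients
  have hpow : HahnSeries.C (c ^ n) * coeffMap ι (y' ^ n) = coeffMap ι f := by
    rw [← h, hcy, mul_pow, map_pow, map_pow]
  obtain ⟨k, hk⟩ : ∃ k : ℤ, f.coeff k ≠ 0 := by
    by_contra hcon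
    apply hf
    ext k
    by_contra hk
    exact hcon ⟨k, hk⟩
  have hcoef : ∀ m : ℤ, c ^ n * ι ((y' ^ n).coeff m) = ι (f.coeff m) := by
    intro m
    have h1 := hpow
    rw [HahnSeries.C_mul_eq_smul] at h1
    have := congrArg (fun z => z.coeff m) h1
    simp only [HahnSeries.coeff_smul, coeffMap_coeff, smul_eq_mul] at this
    exact this
  have hcn : c ^ n ≠ 0 := pow_ne_zero n hc
  have hyk : (y' ^ n).coeff k ≠ 0 := by
    intro h0
    have := hcoef k
    rw [h0, map_zero, mul_zero] at this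
    exact hk (ι.injective (by rw [← this, map_zero]))
  -- `c ^ n = ι d`
  set d : K := f.coeff k / (y' ^ n).coeff k with hd
  have hd0 : d ≠ 0 := div_ne_zero hk hyk
  have hcd : c ^ n = ι d := by
    rw [hd, map_div₀, ← hcoef k, mul_div_assoc, div_self ((map_ne_zero ι).mpr hyk), mul_one]
  have hfy : HahnSeries.C d * y' ^ n = f := by
    apply rat_coeffMap_injective ι
    rw [map_mul, ← hpow, hcd]
    congr 1
    rw [HahnSeries.C_apply, HahnSeries.C_apply, coeffMap_single]
  obtain ⟨e, he⟩ := IsAlgClosed.exists_pow_nat_eq d hn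
  refine ⟨HahnSeries.C e * y', mul_mem ?_ hy'K, ?_⟩
  · rw [hCalgK]
    exact (laurentBaseChange K F₀).algebraMap_mem e
  · rw [mul_pow, ← map_pow, he, hfy]

/-- D2 -/
theorem exists_root_of_bcF_eq_pow {N n : ℕ} [NeZero N] (hn : 0 < n) (f : FF N) (hf : f ≠ 0)
    (ψ : FC N) (h : ψ ^ n = bcF N f) : ∃ f₁ : FF N, f₁ ^ n = f := by
  have h' : (ψ : LaurentSeries ℂ) ^ n = coeffMap ιC (f : LaurentSeries Kbar) := by
    have := congrArg (fun z : FC N => (z : LaurentSeries ℂ)) h
    simpa using this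
  have hf' : (f : LaurentSeries Kbar) ≠ 0 := fun h0 => hf (Subtype.ext h0)
  obtain ⟨f₁, hf₁, hpow⟩ := exists_root_of_coeffMap_eq_pow (modularFunctionFieldFull N) Kbar ℂ ιC
    n hn (f : LaurentSeries Kbar) hf' (ψ : LaurentSeries ℂ) ψ.2 h'
  exact ⟨⟨f₁, hf₁⟩, Subtype.ext hpow⟩

end Fermat.Agent.AJlib
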