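/-
Item 69, piece D1 (helper1): the base change `F_ℚ̄ → F_ℂ` maps `U_n` into `U_n`
(the restriction of a place to a subfield is a multiple of a place, or trivial).
-/
import Mathlib
import Fermat.Agent.AJlib.BcF
import Fermat.Agent.AJlib.Kummer
import Fermat.Agent.S24lib.FFPlaceVal

set_option autoImplicit false

open ModularCurve AlgebraicCurve WithZero

namespace Fermat.Agent.AJlib

open Fermat.Agent.S24lib

/-- the order of a place at the image of a subfield is a multiple of the order of a place of the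
subfield, or zero. -/
theorem un_ord_map_dvd {K F K' F' : Type*} [Field K] [Field F] [Algebra K F] [Field K']
    [Field F'] [Algebra K' F'] (β : F →+* F')
    (hβ : ∀ a : K, ∃ a' : K', β (algebraMap K F a) = algebraMap K' F' a')
    (w : Place K' F') (n : ℤ) (f : F) (hf0 : f ≠ 0) (hf : ∀ v : Place K F, n ∣ v.ord f) :
    n ∣ w.ord (β f) := by
  let W : Valuation F ℤᵐ⁰ := w.adicValuation.comap β
  have hW : ∀ g : F, W g = w.adicValuation (β g) := fun _ => rfl
  have hord : ∀ g : F, w.ord (β g) = -log (W g) := fun _ => rfl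
  have hmem : ∀ x : F', x ∈ w.toValuationSubring → w.adicValuation x ≤ 1 := by
    intro x hx
    have := w.adicValuation_coe ⟨x, hx⟩
    rw [this]
    exact IsDedekindDomain.HeightOneSpectrum.intValuation_le_one _ _
  have hK : ∀ a : K, W (algebraMap K F a) ≤ 1 := by
    intro a
    obtain ⟨a', ha'⟩ := hβ a
    rw [hW, ha']
    exact hmem _ (w.algebraMap_mem' a')
  by_cases hnt : ∃ g : F, 1 < W g
  · obtain ⟨e, -, he⟩ := ffExists_index (ffPlaceOfVal W hK hnt) W rfl
    rw [hord, he f hf0]
    exact Dvd.dvd.mul_left (hf _) _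
  · have hle : ∀ g : F, W g ≤ 1 := fun g => not_lt.mp fun h => hnt ⟨g, h⟩
    have h1 : W f = 1 := by
      apply le_antisymm (hle f)
      have h2 := hle f⁻¹
      rw [map_inv₀] at h2
      have hWf : W f ≠ 0 := (Valuation.ne_zero_iff W).mpr hf0
      by_contra hlt
      have hlt' : W f < 1 := not_le.mp hlt
      have : 1 < (W f)⁻¹ := (one_lt_inv₀ (zero_lt_iff.mpr hWf)).mpr hlt'
      exact absurd h2 (not_le.mpr this)
    rw [hord, h1]
    simp

/-- generic form of D1 -/
theorem un_map_mem {K F K' F' : Type*} [Field K] [Field F] [Algebra K F] [Field K']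
    [Field F'] [Algebra K' F'] (β : F →+* F')
    (hβ : ∀ a : K, ∃ a' : K', β (algebraMap K F a) = algebraMap K' F' a')
    (n : ℕ) (f : Fˣ) (hf : f ∈ Un K F n) : Units.map (β : F →* F') f ∈ Un K' F' n := by
  intro w
  exact un_ord_map_dvd β hβ w n (f : F) f.ne_zero hf

/-- D1 -/
theorem bcF_mem_Un {N n : ℕ} [NeZero N] (f : (FF N)ˣ) (hf : f ∈ Un Kbar (FF N) n) :
    Units.map (bcF N : FF N →* FC N) f ∈ Un ℂ (FC N) n :=
  un_map_mem (bcF N) (fun a => ⟨ιC a, bcF_const N a⟩) n f hf

end Fermat.Agent.AJlib
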