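/-
Item 69, piece D3b (helper1): in a finite-dimensional nonzero subspace of `L((q))` there is a
unique element of maximal order with leading coefficient `1`, and it is transported by
coefficientwise automorphisms.
-/
import Mathlib
import Fermat.Prelude.Def_ModularCurve_LaurentCoeff

set_option autoImplicit false

open ModularCurve

namespace Fermat.Agent.AJlib

/-- `s` is the normalised element of maximal order of the subspace `V`. -/
def IsMaxOrderElt {L : Type*} [Field L] (V : Submodule L (LaurentSeries L))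
    (s : LaurentSeries L) : Prop :=
  s ∈ V ∧ s.coeff s.order = 1 ∧ ∀ s' ∈ V, s' ≠ 0 → s'.order ≤ s.order

theorem IsMaxOrderElt.ne_zero {L : Type*} [Field L] {V : Submodule L (LaurentSeries L)}
    {s : LaurentSeries L} (h : IsMaxOrderElt V s) : s ≠ 0 := by
  rintro rfl
  have := h.2.1
  simp at this

/-- the orders of the nonzero elements of a finite-dimensional subspace are bounded above. -/
theorem finOrd_exists_bound {L : Type*} [Field L] (d : ℕ) :
    ∀ (V : Submodule L (LaurentSeries L)), FiniteDimensional L V → Module.finrank L V = d →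
      ∃ B : ℤ, ∀ s ∈ V, s ≠ 0 → s.order < B := by
  induction d using Nat.strong_induction_on with
  | _ d ih =>
    intro V hfin hd
    by_cases hV : V = ⊥
    · refine ⟨0, fun s hs hs0 => ?_⟩
      rw [hV, Submodule.mem_bot] at hs
      exact absurd hs hs0
    · obtain ⟨s₀, hs₀V, hs₀⟩ := Submodule.exists_mem_ne_zero_of_ne_bot hV
      -- the coefficient functional at the order of `s₀`
      let φ : LaurentSeries L →ₗ[L] L :=
        { toFun := fun s => s.coeff s₀.order
          map_add' := fun _ _ => rfl
          map_smul' := fun _ _ => rfl }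
      have hφ : ∀ s, φ s = s.coeff s₀.order := fun _ => rfl
      let V' : Submodule L (LaurentSeries L) := V ⊓ LinearMap.ker φ
      have hV'le : V' ≤ V := inf_le_left
      have hV'lt : V' < V := by
        refine lt_of_le_of_ne hV'le fun heq => ?_
        have h1 : s₀ ∈ V' := by rw [heq]; exact hs₀V
        have h2 : φ s₀ = 0 := h1.2
        rw [hφ] at h2
        exact hs₀ (HahnSeries.coeff_order_eq_zero.mp h2)
      have hfin' : FiniteDimensional L V' := Submodule.finiteDimensional_of_le hV'le
      have hlt : Module.finrank L V' < d := by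
        rw [← hd]
        exact Submodule.finrank_lt_finrank_of_lt hV'lt
      obtain ⟨B', hB'⟩ := ih _ hlt V' hfin' rfl
      refine ⟨max B' (s₀.order + 1), fun s hs hs0 => ?_⟩
      by_cases hc : s.coeff s₀.order = 0
      · exact lt_of_lt_of_le (hB' s ⟨hs, hc⟩ hs0) (le_max_left _ _)
      · have : s.order ≤ s₀.order := HahnSeries.order_le_of_coeff_ne_zero hc
        exact lt_of_le_of_lt this (lt_of_lt_of_le (lt_add_one _) (le_max_right _ _))

theorem exists_isMaxOrderElt {L : Type*} [Field L] (V : Submodule L (LaurentSeries L))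
    [FiniteDimensional L V] (hV : V ≠ ⊥) : ∃ s, IsMaxOrderElt V s := by
  obtain ⟨B, hB⟩ := finOrd_exists_bound (Module.finrank L V) V inferInstance rfl
  obtain ⟨s₀, hs₀V, hs₀⟩ := Submodule.exists_mem_ne_zero_of_ne_bot hV
  -- the greatest order
  obtain ⟨o, ⟨s, hsV, hs0, hso⟩, ho⟩ := Int.exists_greatest_of_bdd
    (P := fun o => ∃ s ∈ V, s ≠ 0 ∧ s.order = o)
    ⟨B, fun o ⟨s, hsV, hs0, hso⟩ => hso ▸ (hB s hsV hs0).le⟩ ⟨s₀.order, s₀, hs₀V, hs₀, rfl⟩
  have hlc : s.coeff s.order ≠ 0 := fun h => hs0 (HahnSeries.coeff_order_eq_zero.mp h)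
  have hne : (s.coeff s.order)⁻¹ • s ≠ 0 := smul_ne_zero (inv_ne_zero hlc) hs0
  have hord : ((s.coeff s.order)⁻¹ • s).order = s.order := by
    apply le_antisymm
    · apply HahnSeries.order_le_of_coeff_ne_zero
      rw [HahnSeries.coeff_smul, smul_eq_mul]
      exact mul_ne_zero (inv_ne_zero hlc) hlc
    · by_contra hlt'
      have hlt := not_le.mp hlt'
      have h1 := HahnSeries.coeff_eq_zero_of_lt_order hlt
      have h2 : ((s.coeff s.order)⁻¹ • s).coeff ((s.coeff s.order)⁻¹ • s).order ≠ 0 :=
        fun h => hne (HahnSeries.coeff_order_eq_zero.mp h)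
      rw [HahnSeries.coeff_smul, h1, smul_zero] at h2
      exact h2 rfl
  refine ⟨(s.coeff s.order)⁻¹ • s, V.smul_mem _ hsV, ?_, fun s' hs' hs'0 => ?_⟩
  · rw [hord, HahnSeries.coeff_smul, smul_eq_mul, inv_mul_cancel₀ hlc]
  · rw [hord, hso]
    exact ho _ ⟨s', hs', hs'0, rfl⟩

theorem IsMaxOrderElt.unique {L : Type*} [Field L] {V : Submodule L (LaurentSeries L)}
    {s s' : LaurentSeries L} (h : IsMaxOrderElt V s) (h' : IsMaxOrderElt V s') : s = s' := by
  by_contra hne
  have hsub : s - s' ≠ 0 := sub_ne_zero.mpr hne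
  have ho : s.order = s'.order :=
    le_antisymm (h'.2.2 s h.1 h.ne_zero) (h.2.2 s' h'.1 h'.ne_zero)
  have hle : (s - s').order ≤ s.order := h.2.2 _ (V.sub_mem h.1 h'.1) hsub
  have hc : (s - s').coeff (s - s').order ≠ 0 :=
    fun h0 => hsub (HahnSeries.coeff_order_eq_zero.mp h0)
  apply hc
  rcases hle.lt_or_eq with hlt | heq
  · rw [HahnSeries.coeff_sub, HahnSeries.coeff_eq_zero_of_lt_order hlt,
      HahnSeries.coeff_eq_zero_of_lt_order (ho ▸ hlt), sub_zero]
  · rw [heq, HahnSeries.coeff_sub, h.2.1]
    have := h'.2.1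
    rw [← ho] at this
    rw [this, sub_self]

theorem existsUnique_isMaxOrderElt {L : Type*} [Field L] (V : Submodule L (LaurentSeries L))
    [FiniteDimensional L V] (hV : V ≠ ⊥) : ∃! s, IsMaxOrderElt V s := by
  obtain ⟨s, hs⟩ := exists_isMaxOrderElt V hV
  exact ⟨s, hs, fun s' hs' => hs'.unique hs⟩

theorem finOrd_order_coeffMap {L : Type*} [Field L] (σ : L →+* L) (y : LaurentSeries L) :
    (coeffMap σ y).order = y.order := by
  by_cases hy : y = 0
  · subst hy
    rw [map_zero]
  · have hy' : coeffMap σ y ≠ 0 := by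
      intro h
      apply hy
      ext k
      have := congrArg (fun z => z.coeff k) h
      simpa using this
    have hsupp : (coeffMap σ y).support = y.support := by
      ext k
      simp only [HahnSeries.mem_support, coeffMap_coeff, ne_eq, map_eq_zero]
    rw [HahnSeries.order_of_ne hy', HahnSeries.order_of_ne hy]
    congr 1

/-- transport of the normalised element of maximal order by a coefficientwise automorphism. -/
theorem IsMaxOrderElt.coeffMap {L : Type*} [Field L] (σ : L ≃+* L)
    {V V' : Submodule L (LaurentSeries L)}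
    (hVV' : ∀ s, s ∈ V ↔ ModularCurve.coeffMap (σ : L →+* L) s ∈ V')
    {s : LaurentSeries L} (h : IsMaxOrderElt V s) :
    IsMaxOrderElt V' (ModularCurve.coeffMap (σ : L →+* L) s) := by
  refine ⟨(hVV' s).mp h.1, ?_, fun s' hs' hs'0 => ?_⟩
  · rw [finOrd_order_coeffMap, coeffMap_coeff, h.2.1, map_one]
  · rw [finOrd_order_coeffMap]
    have hs'eq : s' = ModularCurve.coeffMap (σ : L →+* L)
        (ModularCurve.coeffMap (σ.symm : L →+* L) s') := by
      ext k
      simp
    have hmem : ModularCurve.coeffMap (σ.symm : L →+* L) s' ∈ V := by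
      rw [hVV', ← hs'eq]
      exact hs'
    have hne : ModularCurve.coeffMap (σ.symm : L →+* L) s' ≠ 0 := by
      intro h0
      apply hs'0
      rw [hs'eq, h0, map_zero]
    have := h.2.2 _ hmem hne
    rwa [finOrd_order_coeffMap] at this

end Fermat.Agent.AJlib
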