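/-
Item 69 (AJ), piece D3a (helper23): the coefficientwise action of `Aut(ℂ)` on the function field
`FC N` of `X₀(N)` over `ℂ` and on its places; the place at the cusp `∞` (the `q`-order).
-/
import Mathlib
import Fermat.Prelude.Def_ModularCurve_ArithmeticGalois
import Fermat.Agent.AJlib.BcF
import Fermat.Agent.AJlib.Kummer
import Fermat.Agent.S24lib.FFPlaceVal
import Fermat.Agent.S24lib.AlgIndex

set_option autoImplicit false

open scoped MatrixGroups ModularForm Manifold Topology
open UpperHalfPlane ModularForm CongruenceSubgroup Filter ModularCurve IntermediateField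
  AlgebraicCurve

namespace Fermat.Agent.AJlib

open Fermat.Agent.S24lib

section Action

variable (N : ℕ) (σ : ℂ ≃+* ℂ)

/-- the semilinear automorphism of `FC N` attached to `σ : ℂ ≃+* ℂ` (coefficientwise action) -/
noncomputable def sigS : SemilinearAut ℂ (FC N) :=
  arithmeticGalois (modularFunctionFieldFull N) σ.toRatAlgEquiv

theorem coe_sigS_smul (f : FC N) :
    ((sigS N σ • f : FC N) : LaurentSeries ℂ) = coeffMap (σ : ℂ →+* ℂ) (f : LaurentSeries ℂ) :=
  rfl

theorem sigS_inv : (sigS N σ)⁻¹ = sigS N σ.symm := by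
  unfold sigS
  rw [← map_inv]
  rfl

theorem sigS_symm_smul_smul (f : FC N) : sigS N σ.symm • sigS N σ • f = f := by
  rw [← sigS_inv, inv_smul_smul]

theorem sigS_smul_symm_smul (f : FC N) : sigS N σ • sigS N σ.symm • f = f := by
  rw [← sigS_inv, smul_inv_smul]

theorem sigS_smul_const (c : ℂ) :
    sigS N σ • algebraMap ℂ (FC N) c = algebraMap ℂ (FC N) (σ c) :=
  SemilinearAut.smul_algebraMap (sigS N σ) c

theorem sigS_smul_jFC : sigS N σ • jFC N = jFC N := by
  apply Subtype.ext
  rw [coe_sigS_smul, coe_jFC]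
  exact coeffMap_coeffEmb σ.toRatAlgEquiv jq

theorem sigS_smul_bcF (hσ : ∀ c : Kbar, σ (ιC c) = ιC c) (f : FF N) :
    sigS N σ • bcF N f = bcF N f := by
  apply Subtype.ext
  rw [coe_sigS_smul, coe_bcF, coeffMap_coeffMap]
  exact coeffMap_congr (RingHom.ext fun c => hσ c) _

theorem sigS_smul_zero : sigS N σ • (0 : FC N) = 0 := smul_zero _

theorem sigS_smul_mul (f g : FC N) : sigS N σ • (f * g) = sigS N σ • f * sigS N σ • g :=
  smul_mul' _ _ _

theorem sigS_smul_pow (f : FC N) (n : ℕ) : sigS N σ • (f ^ n) = (sigS N σ • f) ^ n :=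
  smul_pow' _ _ _

theorem sigS_smul_ne_zero {f : FC N} (hf : f ≠ 0) : sigS N σ • f ≠ 0 := by
  intro h
  apply hf
  have := congrArg (fun x => sigS N σ.symm • x) h
  simpa [sigS_symm_smul_smul] using this

theorem ord_sigS_smul (w : Place ℂ (FC N)) (f : FC N) :
    w.ord (sigS N σ • f) = ((sigS N σ)⁻¹ • w).ord f := by
  have h := SemilinearAut.ord_smul (sigS N σ) ((sigS N σ)⁻¹ • w) f
  rwa [smul_inv_smul] at h

/-- the action on units -/
noncomputable def sigU : (FC N)ˣ →* (FC N)ˣ :=
  Units.map ((SemilinearAut.toRingAut (sigS N σ) : FC N ≃+* FC N) : FC N →* FC N)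

theorem coe_sigU (f : (FC N)ˣ) : ((sigU N σ f : (FC N)ˣ) : FC N) = sigS N σ • (f : FC N) := rfl

theorem sigU_symm_sigU (f : (FC N)ˣ) : sigU N σ.symm (sigU N σ f) = f :=
  Units.ext (by rw [coe_sigU, coe_sigU, sigS_symm_smul_smul])

theorem sigU_sigU_symm (f : (FC N)ˣ) : sigU N σ (sigU N σ.symm f) = f :=
  Units.ext (by rw [coe_sigU, coe_sigU, sigS_smul_symm_smul])

theorem sigU_mem_Un {n : ℕ} {f : (FC N)ˣ} (hf : f ∈ Un ℂ (FC N) n) :
    sigU N σ f ∈ Un ℂ (FC N) n := by
  intro w
  rw [coe_sigU, ord_sigS_smul]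
  exact hf _

end Action

section Infinity

variable (N : ℕ)

/-- the inclusion of `FC N` into Laurent series -/
noncomputable def inclFC : FC N →+* LaurentSeries ℂ :=
  (laurentBaseChange ℂ (modularFunctionFieldFull N)).toSubfield.subtype

theorem inclFC_apply (f : FC N) : inclFC N f = (f : LaurentSeries ℂ) := rfl

theorem order_jFC : ((jFC N : FC N) : LaurentSeries ℂ).order = -1 := by
  rw [coe_jFC]
  have h1 : (coeffEmb ℂ jq).coeff (-1) = 1 := by
    rw [coeffEmb_coeff, coeff_jq_neg_one, map_one]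
  have hne : coeffEmb ℂ jq ≠ 0 := by
    intro h
    rw [h, HahnSeries.coeff_zero] at h1
    exact zero_ne_one h1
  apply le_antisymm
  · exact HahnSeries.order_le_of_coeff_ne_zero (by rw [h1]; exact one_ne_zero)
  · by_contra hlt
    have hlt' := not_le.mp hlt
    have h2 : (coeffEmb ℂ jq).coeff (coeffEmb ℂ jq).order = 0 := by
      rw [coeffEmb_coeff, coeff_jq_of_lt hlt', map_zero]
    exact hne (HahnSeries.coeff_order_eq_zero.mp h2)

theorem jFC_ne_zero : jFC N ≠ 0 := by
  intro h
  have := order_jFC N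
  rw [h] at this
  simp at this

/-- the place of `FC N` at the cusp `∞` -/
noncomputable def wInf : Place ℂ (FC N) :=
  ffPlaceOfVal (algVal (inclFC N))
    (fun a => by
      by_cases ha : a = 0
      · rw [ha, map_zero, map_zero]
        exact zero_le_one
      · have hne : algebraMap ℂ (FC N) a ≠ 0 := (map_ne_zero _).mpr ha
        rw [algVal_apply_of_ne _ hne]
        have : (inclFC N (algebraMap ℂ (FC N) a)).order = 0 := by
          rw [inclFC_apply]
          show (algebraMap ℂ (LaurentSeries ℂ) a).order = 0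
          rw [algebraMap_laurentSeries_eq_single]
          exact HahnSeries.order_single ha
        rw [this]
        simp)
    ⟨jFC N, by
      rw [algVal_apply_of_ne _ (jFC_ne_zero N), inclFC_apply, order_jFC]
      simp [← WithZero.exp_zero]⟩

theorem wInf_ord {f : FC N} (hf : f ≠ 0) : (wInf N).ord f = ((f : FC N) : LaurentSeries ℂ).order := by
  have h := ffOrd_eq_neg_log (wInf N) (algVal (inclFC N)) rfl ⟨(jFC N)⁻¹, by
    have hne : (jFC N)⁻¹ ≠ 0 := inv_ne_zero (jFC_ne_zero N)
    rw [algVal_apply_of_ne _ hne, map_inv₀, inclFC_apply]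
    have : ((jFC N : FC N) : LaurentSeries ℂ)⁻¹.order = 1 := by
      have hj : ((jFC N : FC N) : LaurentSeries ℂ) ≠ 0 := fun h0 =>
        jFC_ne_zero N (Subtype.ext h0)
      have hmul := HahnSeries.order_mul hj (inv_ne_zero hj)
      rw [mul_inv_cancel₀ hj, HahnSeries.order_one, order_jFC] at hmul
      omega
    rw [this]⟩ f
  rw [h, algVal_log _ hf, inclFC_apply]

end Infinity

end Fermat.Agent.AJlib
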