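/-
Item 69 (AJ), piece D3c (helper23): the finite-orbit descent.  Every class of `U_n(F_ℂ)` modulo
`n`-th powers has a `ℚ̄`-rational representative.
-/
import Mathlib
import Fermat.Agent.AJlib.Galois
import Fermat.Agent.AJlib.FinOrd
import Fermat.Agent.AJlib.AutC
import Fermat.Agent.AJlib.LaurentRoot
import Fermat.Agent.AJlib.Rational
import Fermat.Agent.AJlib.CK2
import Fermat.Agent.S24lib.FFPrincipal

set_option autoImplicit false

open scoped MatrixGroups ModularForm Manifold Topology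
open UpperHalfPlane ModularForm CongruenceSubgroup Filter ModularCurve IntermediateField
  AlgebraicCurve

namespace Fermat.Agent.AJlib

open Fermat.Agent.S24lib

section Spaces

variable {N : ℕ} {n : ℕ}

/-- integrality: regular outside the poles of `j`, poles bounded by `n` times those of `j` -/
def IsIntegralRep (N n : ℕ) (f : FC N) : Prop :=
  ∀ w : Place ℂ (FC N), (n : ℤ) * min 0 (w.ord (jFC N)) ≤ w.ord f

/-- the set of `n`-th roots (in `ℂ((q))`) of the integral representatives of the class of `φ` -/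
def rrSet (N n : ℕ) (φ : (FC N)ˣ) : Set (LaurentSeries ℂ) :=
  {s | s = 0 ∨ ∃ ψ : (FC N)ˣ, s ^ n = (((φ * ψ ^ n : (FC N)ˣ) : FC N) : LaurentSeries ℂ) ∧
    IsIntegralRep N n ((φ * ψ ^ n : (FC N)ˣ) : FC N)}

theorem rr_ord_unit_mul (w : Place ℂ (FC N)) (a b : (FC N)ˣ) :
    w.ord ((a * b : (FC N)ˣ) : FC N) = w.ord (a : FC N) + w.ord (b : FC N) := by
  rw [Units.val_mul, w.ord_mul a.ne_zero b.ne_zero]

theorem rr_ord_unit_pow (w : Place ℂ (FC N)) (a : (FC N)ˣ) (k : ℕ) :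
    w.ord ((a ^ k : (FC N)ˣ) : FC N) = k * w.ord (a : FC N) := by
  rw [Units.val_pow_eq_pow_val, ← zpow_natCast, w.ord_zpow]

theorem rrSet_zero_mem (φ : (FC N)ˣ) : (0 : LaurentSeries ℂ) ∈ rrSet N n φ := Or.inl rfl

theorem rrSet_smul_mem (φ : (FC N)ˣ) (c : ℂ) {s : LaurentSeries ℂ}
    (hs : s ∈ rrSet N n φ) : c • s ∈ rrSet N n φ := by
  rcases hs with rfl | ⟨ψ, hψ, hint⟩
  · left; simp
  by_cases hc : c = 0
  · left
    rw [hc]
    exact zero_smul ℂ s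
  right
  have hcu : algebraMap ℂ (FC N) c ≠ 0 := (map_ne_zero _).mpr hc
  refine ⟨ψ * Units.mk0 _ hcu, ?_, ?_⟩
  · rw [← HahnSeries.C_mul_eq_smul, mul_pow, hψ]
    have hC : ((algebraMap ℂ (FC N) c : FC N) : LaurentSeries ℂ) = HahnSeries.C c := by
      show algebraMap ℂ (LaurentSeries ℂ) c = HahnSeries.C c
      rw [algebraMap_laurentSeries_eq_single]
      rfl
    have h1 : (((φ * (ψ * Units.mk0 _ hcu) ^ n : (FC N)ˣ) : FC N) : LaurentSeries ℂ)
        = (HahnSeries.C c) ^ n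
          * (((φ * ψ ^ n : (FC N)ˣ) : FC N) : LaurentSeries ℂ) := by
      have h2 : ((φ * (ψ * Units.mk0 _ hcu) ^ n : (FC N)ˣ) : FC N)
          = (algebraMap ℂ (FC N) c) ^ n * ((φ * ψ ^ n : (FC N)ˣ) : FC N) := by
        simp only [Units.val_mul, Units.val_pow_eq_pow_val, Units.val_mk0, mul_pow]
        ring
      rw [h2, ← hC]
      rfl
    rw [h1]
  · intro w
    have h1 : w.ord ((φ * (ψ * Units.mk0 _ hcu) ^ n : (FC N)ˣ) : FC N)
        = w.ord ((φ * ψ ^ n : (FC N)ˣ) : FC N) := by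
      simp only [rr_ord_unit_mul, rr_ord_unit_pow, Units.val_mk0, ffOrd_algebraMap, add_zero]
    rw [h1]
    exact hint w

theorem rrSet_add_mem (hn : 0 < n) (φ : (FC N)ˣ) {s₁ s₂ : LaurentSeries ℂ}
    (h₁ : s₁ ∈ rrSet N n φ) (h₂ : s₂ ∈ rrSet N n φ) : s₁ + s₂ ∈ rrSet N n φ := by
  rcases h₁ with rfl | ⟨ψ₁, hψ₁, hint₁⟩
  · rw [zero_add]; exact h₂
  rcases h₂ with rfl | ⟨ψ₂, hψ₂, hint₂⟩
  · rw [add_zero]; exact Or.inr ⟨ψ₁, hψ₁, hint₁⟩
  by_cases hsum : s₁ + s₂ = 0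
  · exact Or.inl hsum
  right
  -- `s₁ = ζ · s₂ · ρ` with `ρ = ψ₁ / ψ₂`
  set ρ : (FC N)ˣ := ψ₁ * ψ₂⁻¹ with hρ
  have hpow : s₁ ^ n = (s₂ * ((ρ : FC N) : LaurentSeries ℂ)) ^ n := by
    rw [mul_pow, hψ₁, hψ₂]
    have h2 : ((φ * ψ₁ ^ n : (FC N)ˣ) : FC N)
        = ((φ * ψ₂ ^ n : (FC N)ˣ) : FC N) * (ρ : FC N) ^ n := by
      rw [← Units.val_pow_eq_pow_val, ← Units.val_mul]
      congr 1
      rw [hρ, mul_pow, inv_pow]
      rw [mul_assoc, mul_comm (ψ₁ ^ n), ← mul_assoc (ψ₂ ^ n), mul_inv_cancel, one_mul]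
    rw [h2]
    rfl
  obtain ⟨ζ, hζ, hs₁⟩ := laurent_root_unique ℂ n hn _ _ hpow
  have hζ0 : ζ ≠ 0 := by
    rintro rfl
    rw [zero_pow hn.ne'] at hζ
    exact zero_ne_one hζ
  -- the function `t = 1 + ζ ρ`
  set t : FC N := 1 + algebraMap ℂ (FC N) ζ * (ρ : FC N) with ht
  have hst : s₁ + s₂ = s₂ * ((t : FC N) : LaurentSeries ℂ) := by
    rw [hs₁, ht]
    have : ((1 + algebraMap ℂ (FC N) ζ * (ρ : FC N) : FC N) : LaurentSeries ℂ)
        = 1 + HahnSeries.C ζ * ((ρ : FC N) : LaurentSeries ℂ) := by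
      have hC : ((algebraMap ℂ (FC N) ζ : FC N) : LaurentSeries ℂ) = HahnSeries.C ζ := by
        show algebraMap ℂ (LaurentSeries ℂ) ζ = HahnSeries.C ζ
        rw [algebraMap_laurentSeries_eq_single]
        rfl
      rw [← hC]
      rfl
    rw [this]
    ring
  have ht0 : t ≠ 0 := by
    intro h0
    apply hsum
    rw [hst, h0]
    simp
  refine ⟨ψ₂ * Units.mk0 t ht0, ?_, ?_⟩
  · rw [hst, mul_pow, hψ₂]
    have h2 : ((φ * (ψ₂ * Units.mk0 t ht0) ^ n : (FC N)ˣ) : FC N)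
        = ((φ * ψ₂ ^ n : (FC N)ˣ) : FC N) * t ^ n := by
      simp only [Units.val_mul, Units.val_pow_eq_pow_val, Units.val_mk0, mul_pow]
      ring
    rw [h2]
    rfl
  · intro w
    have h1 : w.ord ((φ * (ψ₂ * Units.mk0 t ht0) ^ n : (FC N)ˣ) : FC N)
        = w.ord ((φ * ψ₂ ^ n : (FC N)ˣ) : FC N) + n * w.ord t := by
      simp only [rr_ord_unit_mul, rr_ord_unit_pow, Units.val_mk0]
      ring
    have h3 : w.ord ((φ * ψ₁ ^ n : (FC N)ˣ) : FC N)
        = w.ord ((φ * ψ₂ ^ n : (FC N)ˣ) : FC N) + n * w.ord (ρ : FC N) := by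
      simp only [hρ, rr_ord_unit_mul, rr_ord_unit_pow, Units.val_inv_eq_inv_val, w.ord_inv]
      ring
    have hζρ : w.ord (algebraMap ℂ (FC N) ζ * (ρ : FC N)) = w.ord (ρ : FC N) := by
      rw [w.ord_mul ((map_ne_zero _).mpr hζ0) ρ.ne_zero, ffOrd_algebraMap, zero_add]
    have h4 : min 0 (w.ord (ρ : FC N)) ≤ w.ord t := by
      rw [ht]
      refine ffOrd_add_ge w (by rw [← ht]; exact ht0) (Or.inr ?_) (Or.inr ?_)
      · rw [Place.ord_one]; exact min_le_left _ _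
      · rw [hζρ]; exact min_le_right _ _
    have i1 := hint₁ w
    have i2 := hint₂ w
    rw [h3] at i1
    rw [h1]
    have hn0 : (0 : ℤ) ≤ n := Int.natCast_nonneg n
    rcases le_total 0 (w.ord (ρ : FC N)) with hpos | hneg
    · rw [min_eq_left hpos] at h4
      have := mul_nonneg hn0 h4
      linarith
    · rw [min_eq_right hneg] at h4
      have := mul_le_mul_of_nonneg_left h4 hn0
      linarith

/-- the space of `n`-th roots of the integral representatives of the class of `φ` -/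
def rrSub (hn : 0 < n) (φ : (FC N)ˣ) : Submodule ℂ (LaurentSeries ℂ) where
  carrier := rrSet N n φ
  zero_mem' := rrSet_zero_mem φ
  add_mem' := fun h₁ h₂ => rrSet_add_mem hn φ h₁ h₂
  smul_mem' := fun c _ hs => rrSet_smul_mem φ c hs

theorem mem_rrSub (hn : 0 < n) (φ : (FC N)ˣ) (s : LaurentSeries ℂ) :
    s ∈ rrSub hn φ ↔ s ∈ rrSet N n φ := Iff.rfl

/-- `rrSet` only depends on the class of `φ` modulo `n`-th powers -/
theorem rrSet_mul_pow (φ χ : (FC N)ˣ) : rrSet N n (φ * χ ^ n) = rrSet N n φ := by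
  ext s
  constructor
  · rintro (rfl | ⟨ψ, hψ, hint⟩)
    · exact Or.inl rfl
    · have h : φ * χ ^ n * ψ ^ n = φ * (χ * ψ) ^ n := by rw [mul_pow, mul_assoc]
      rw [h] at hψ hint
      exact Or.inr ⟨χ * ψ, hψ, hint⟩
  · rintro (rfl | ⟨ψ, hψ, hint⟩)
    · exact Or.inl rfl
    · have h : φ * ψ ^ n = φ * χ ^ n * (χ⁻¹ * ψ) ^ n := by
        rw [mul_pow, mul_assoc, ← mul_assoc (χ ^ n), ← mul_pow, mul_inv_cancel, one_pow, one_mul]
      rw [h] at hψ hint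
      exact Or.inr ⟨χ⁻¹ * ψ, hψ, hint⟩

/-- Galois transport of integrality -/
theorem isIntegralRep_sigS (σ : ℂ ≃+* ℂ) {f : FC N} (hf : IsIntegralRep N n f) :
    IsIntegralRep N n (sigS N σ • f) := by
  intro w
  rw [ord_sigS_smul]
  have h := hf ((sigS N σ)⁻¹ • w)
  have hj : ((sigS N σ)⁻¹ • w).ord (jFC N) = w.ord (jFC N) := by
    rw [← ord_sigS_smul, sigS_smul_jFC]
  rwa [hj] at h

/-- Galois transport of `rrSet` (one direction) -/
theorem coeffMap_mem_rrSet (σ : ℂ ≃+* ℂ) (φ : (FC N)ˣ) {s : LaurentSeries ℂ}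
    (hs : s ∈ rrSet N n φ) : coeffMap (σ : ℂ →+* ℂ) s ∈ rrSet N n (sigU N σ φ) := by
  rcases hs with rfl | ⟨ψ, hψ, hint⟩
  · left
    rw [map_zero]
  · right
    refine ⟨sigU N σ ψ, ?_, ?_⟩
    · rw [← map_pow, hψ, ← map_pow, ← map_mul, coe_sigU]
      rfl
    · rw [← map_pow, ← map_mul, coe_sigU]
      exact isIntegralRep_sigS σ hint

theorem coeffMap_symm_coeffMap (σ : ℂ ≃+* ℂ) (s : LaurentSeries ℂ) :
    coeffMap (σ.symm : ℂ →+* ℂ) (coeffMap (σ : ℂ →+* ℂ) s) = s := by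
  ext k
  simp

/-- Galois transport of `rrSet` -/
theorem coeffMap_mem_rrSet_iff (σ : ℂ ≃+* ℂ) (φ : (FC N)ˣ) (s : LaurentSeries ℂ) :
    s ∈ rrSet N n φ ↔ coeffMap (σ : ℂ →+* ℂ) s ∈ rrSet N n (sigU N σ φ) := by
  refine ⟨coeffMap_mem_rrSet σ φ, fun h => ?_⟩
  have h2 := coeffMap_mem_rrSet (n := n) σ.symm (sigU N σ φ) h
  rwa [coeffMap_symm_coeffMap, sigU_symm_sigU] at h2

end Spaces

section Bounds

variable {N : ℕ} {n : ℕ}

/-- `rrSet` contains a nonzero element -/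
theorem exists_ne_zero_mem_rrSet (hn : 0 < n) (φ : (FC N)ˣ) (hφ : φ ∈ Un ℂ (FC N) n)
    (hint : ∃ (f ψ : (FC N)ˣ), (f : FC N) = φ * ψ ^ n ∧ IsIntegralRep N n f) :
    ∃ s ∈ rrSet N n φ, s ≠ 0 := by
  obtain ⟨f, ψ, hfψ, hfint⟩ := hint
  have hf : f = φ * ψ ^ n := Units.ext (by
    rw [hfψ, Units.val_mul, Units.val_pow_eq_pow_val])
  have hψU : ψ ^ n ∈ Un ℂ (FC N) n := by
    intro v
    rw [rr_ord_unit_pow]
    exact dvd_mul_right _ _
  have hfU : f ∈ Un ℂ (FC N) n := by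
    rw [hf]
    exact mul_mem hφ hψU
  have hord : (n : ℤ) ∣ ((f : FC N) : LaurentSeries ℂ).order := by
    rw [← wInf_ord N f.ne_zero]
    exact hfU (wInf N)
  have hne : ((f : FC N) : LaurentSeries ℂ) ≠ 0 := fun h => f.ne_zero (Subtype.ext h)
  obtain ⟨r, hr⟩ := laurent_exists_root ℂ n hn _ hne hord
  refine ⟨r, Or.inr ⟨ψ, ?_, ?_⟩, ?_⟩
  · rw [hr, hf]
  · rw [← hf]
    exact hfint
  · rintro rfl
    rw [zero_pow hn.ne'] at hr
    exact hne hr.symm

variable [NeZero N]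

/-- an integral function has bounded order at every place -/
theorem ord_le_of_isIntegralRep {f : FC N} (hf : IsIntegralRep N n f) (w₀ : Place ℂ (FC N)) :
    w₀.ord f ≤ n * (Module.finrank ℂ⟮jFC N⟯ (FC N) : ℤ) := by
  classical
  have : FFData ℂ (jFC N) := k2_ffData_FC N
  have hd : (0 : ℤ) ≤ n * (Module.finrank ℂ⟮jFC N⟯ (FC N) : ℤ) := by positivity
  by_cases hc : ∃ c : ℂ, algebraMap ℂ (FC N) c = f
  · obtain ⟨c, rfl⟩ := hc
    rw [ffOrd_algebraMap]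
    exact hd
  · have ht : Transcendental ℂ f := ffTranscendental_of_not_const (fun c hcf => hc ⟨c, hcf⟩)
    have : FFData ℂ f := FFData.of_transcendental (x := jFC N) ht
    obtain ⟨Z, hZ, hZsum⟩ := ffExists_zeros (K := ℂ) (x := f) 0
    obtain ⟨P, hP, hPsum⟩ := ffExists_poles (K := ℂ) (x := f)
    obtain ⟨Pj, hPj, hPjsum⟩ := ffExists_poles (K := ℂ) (x := jFC N)
    simp only [map_zero, sub_zero] at hZ hZsum
    by_cases hw : w₀.ord f ≤ 0
    · exact hw.trans hd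
    · have hwZ : w₀ ∈ Z := (hZ w₀).2 (not_le.mp hw)
      have h1 : w₀.ord f ≤ ∑ v ∈ Z, v.ord f :=
        Finset.single_le_sum (f := fun v => v.ord f) (fun v hv => ((hZ v).1 hv).le) hwZ
      have h2 : ∑ v ∈ Z, v.ord f = - ∑ v ∈ P, v.ord f := by rw [hZsum, hPsum, neg_neg]
      have hkey : ∀ v ∈ P, v.ord (jFC N) < 0 ∧ (n : ℤ) * v.ord (jFC N) ≤ v.ord f := by
        intro v hv
        have hvf := (hP v).1 hv
        have hfv := hf v
        have hn0 : (0 : ℤ) ≤ n := Int.natCast_nonneg n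
        rcases le_total 0 (v.ord (jFC N)) with hpos | hneg
        · rw [min_eq_left hpos, mul_zero] at hfv
          omega
        · rw [min_eq_right hneg] at hfv
          refine ⟨?_, hfv⟩
          rcases hneg.lt_or_eq with hlt | heq
          · exact hlt
          · rw [heq, mul_zero] at hfv
            omega
      have h3 : - ∑ v ∈ P, v.ord f ≤ ∑ v ∈ P, -((n : ℤ) * v.ord (jFC N)) := by
        rw [← Finset.sum_neg_distrib]
        apply Finset.sum_le_sum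
        intro v hv
        have := (hkey v hv).2
        omega
      have h4 : ∑ v ∈ P, -((n : ℤ) * v.ord (jFC N)) ≤ ∑ v ∈ Pj, -((n : ℤ) * v.ord (jFC N)) := by
        apply Finset.sum_le_sum_of_subset_of_nonneg
        · intro v hv
          rw [hPj]
          exact (hkey v hv).1
        · intro v hv _
          have hv' := (hPj v).1 hv
          have hn0 : (0 : ℤ) ≤ n := Int.natCast_nonneg n
          have := mul_nonneg hn0 (neg_nonneg.mpr hv'.le)
          linarith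
      have h5 : ∑ v ∈ Pj, -((n : ℤ) * v.ord (jFC N))
          = n * (Module.finrank ℂ⟮jFC N⟯ (FC N) : ℤ) := by
        rw [Finset.sum_neg_distrib, ← Finset.mul_sum, hPjsum]
        ring
      linarith

/-- the orders of the nonzero elements of `rrSet` are bounded -/
theorem order_le_of_mem_rrSet (hn : 0 < n) (φ : (FC N)ˣ) {s : LaurentSeries ℂ}
    (hs : s ∈ rrSet N n φ) (hs0 : s ≠ 0) :
    s.order ≤ (Module.finrank ℂ⟮jFC N⟯ (FC N) : ℤ) := by
  rcases hs with rfl | ⟨ψ, hψ, hint⟩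
  · exact absurd rfl hs0
  have h1 := ord_le_of_isIntegralRep hint (wInf N)
  rw [wInf_ord N (φ * ψ ^ n : (FC N)ˣ).ne_zero, ← hψ] at h1
  have h2 : (s ^ n).order = n * s.order := by
    rw [HahnSeries.order_pow, nsmul_eq_mul]
  rw [h2] at h1
  exact le_of_mul_le_mul_left h1 (by exact_mod_cast hn)

end Bounds

section MaxOrd

/-- existence of the normalised element of maximal order when the orders are bounded -/
theorem exists_isMaxOrderElt_of_bdd {L : Type*} [Field L] (V : Submodule L (LaurentSeries L))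
    (hV : ∃ s ∈ V, s ≠ 0) (B : ℤ) (hB : ∀ s ∈ V, s ≠ 0 → s.order ≤ B) :
    ∃ s, IsMaxOrderElt V s := by
  obtain ⟨s₀, hs₀V, hs₀⟩ := hV
  obtain ⟨o, ⟨s, hsV, hs0, hso⟩, ho⟩ := Int.exists_greatest_of_bdd
    (P := fun o => ∃ s ∈ V, s ≠ 0 ∧ s.order = o)
    ⟨B, fun o ⟨s, hsV, hs0, hso⟩ => hso ▸ hB s hsV hs0⟩ ⟨s₀.order, s₀, hs₀V, hs₀, rfl⟩
  have hlc : s.coeff s.order ≠ 0 := fun h => hs0 (HahnSeries.coeff_order_eq_zero.mp h)
  have hne : (s.coeff s.order)⁻¹ • s ≠ 0 := smul_ne_zero (inv_ne_zero hlc) hs0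
  have hord : ((s.coeff s.order)⁻¹ • s).order = s.order := by
    apply le_antisymm
    · apply HahnSeries.order_le_of_coeff_ne_zero
      rw [HahnSeries.coeff_smul, smul_eq_mul]
      exact mul_ne_zero (inv_ne_zero hlc) hlc
    · by_contra hlt'
      have hlt := not_le.mp hlt'
      have h1 := HahnSeries.coeff_eq_zero_of_lt_order hlt
      have h2 : ((s.coeff s.order)⁻¹ • s).coeff ((s.coeff s.order)⁻¹ • s).order ≠ 0 :=
        fun h => hne (HahnSeries.coeff_order_eq_zero.mp h)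
      rw [HahnSeries.coeff_smul, h1, smul_zero] at h2
      exact h2 rfl
  refine ⟨(s.coeff s.order)⁻¹ • s, V.smul_mem _ hsV, ?_, fun s' hs' hs'0 => ?_⟩
  · rw [hord, HahnSeries.coeff_smul, smul_eq_mul, inv_mul_cancel₀ hlc]
  · rw [hord, hso]
    exact ho _ ⟨s', hs', hs'0, rfl⟩

/-- a Laurent series with coefficients in the range of `ι` comes from a Laurent series -/
theorem exists_coeffMap_eq_of_coeff_mem_range {K L : Type*} [Field K] [Field L] (ι : K →+* L)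
    (s : LaurentSeries L) (h : ∀ k, s.coeff k ∈ ι.range) :
    ∃ y : LaurentSeries K, coeffMap ι y = s := by
  classical
  choose c hc using h
  have hsupp : Function.support c = s.support := by
    ext k
    simp only [Function.mem_support, HahnSeries.mem_support, ne_eq]
    rw [← hc k, map_eq_zero]
  refine ⟨⟨c, by rw [hsupp]; exact s.isPWO_support⟩, ?_⟩
  ext k
  rw [coeffMap_coeff]
  exact hc k

end MaxOrd

section Main

variable {N : ℕ} [NeZero N] {n : ℕ}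

/-- **D3 (finite-orbit descent).** Every class of `U_n(F_ℂ)` modulo `n`-th powers has a
`ℚ̄`-rational representative. -/
theorem exists_rational_rep_of (hn : 0 < n)
    (hfin : Finite (Un ℂ (FC N) n ⧸ Pn ℂ (FC N) n))
    (hint : ∀ φ : (FC N)ˣ, φ ∈ Un ℂ (FC N) n → ∃ (f ψ : (FC N)ˣ), (f : FC N) = φ * ψ ^ n ∧
        ∀ w : Place ℂ (FC N), (n : ℤ) * min 0 (w.ord (jFC N)) ≤ w.ord (f : FC N))
    (φ : (FC N)ˣ) (hφ : φ ∈ Un ℂ (FC N) n) :
    ∃ (f : (FF N)ˣ) (ψ : (FC N)ˣ), (bcF N (f : FF N) : FC N) = (φ : FC N) * (ψ : FC N) ^ n := by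
  classical
  -- existence of the normalised elements
  have hex : ∀ φ' : Un ℂ (FC N) n, ∃ s, IsMaxOrderElt (rrSub hn (φ' : (FC N)ˣ)) s := by
    intro φ'
    have hint' : ∃ (f ψ : (FC N)ˣ), (f : FC N) = (φ' : (FC N)ˣ) * ψ ^ n ∧ IsIntegralRep N n f :=
      hint φ' φ'.2
    obtain ⟨s₀, hs₀, hs₀0⟩ := exists_ne_zero_mem_rrSet hn (φ' : (FC N)ˣ) φ'.2 hint'
    have hV : ∃ s ∈ rrSub hn (φ' : (FC N)ˣ), s ≠ 0 := ⟨s₀, hs₀, hs₀0⟩
    have hB : ∀ s ∈ rrSub hn (φ' : (FC N)ˣ), s ≠ 0 →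
        s.order ≤ (Module.finrank ℂ⟮jFC N⟯ (FC N) : ℤ) :=
      fun s hs hs0 => order_le_of_mem_rrSet hn (φ' : (FC N)ˣ) hs hs0
    exact exists_isMaxOrderElt_of_bdd (rrSub hn (φ' : (FC N)ˣ)) hV _ hB
  choose sStar hsStar using hex
  -- the finite set of all normalised elements
  let g : (Un ℂ (FC N) n ⧸ Pn ℂ (FC N) n) → LaurentSeries ℂ := fun c => sStar c.out
  have hT : ∀ (φ' : Un ℂ (FC N) n) (t : LaurentSeries ℂ),
      IsMaxOrderElt (rrSub hn (φ' : (FC N)ˣ)) t → t ∈ Set.range g := by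
    intro φ' t ht
    refine ⟨QuotientGroup.mk φ', ?_⟩
    have hrel : ((QuotientGroup.mk φ' : Un ℂ (FC N) n ⧸ Pn ℂ (FC N) n).out)⁻¹ * φ'
        ∈ Pn ℂ (FC N) n := by
      rw [← QuotientGroup.eq]
      exact QuotientGroup.out_eq' _
    obtain ⟨χ, hχ⟩ := kum_mem_Pn_iff.mp hrel
    have hφ' : (φ' : (FC N)ˣ)
        = (((QuotientGroup.mk φ' : Un ℂ (FC N) n ⧸ Pn ℂ (FC N) n).out : Un ℂ (FC N) n) :
            (FC N)ˣ) * χ ^ n := by
      rw [hχ]
      simp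
    have hsub : rrSub hn (φ' : (FC N)ˣ)
        = rrSub hn (((QuotientGroup.mk φ' : Un ℂ (FC N) n ⧸ Pn ℂ (FC N) n).out :
            Un ℂ (FC N) n) : (FC N)ˣ) := by
      refine Submodule.ext fun s => ?_
      rw [mem_rrSub, mem_rrSub]
      conv_lhs => rw [hφ']
      rw [rrSet_mul_pow]
    rw [hsub] at ht
    exact (hsStar _).unique ht
  have hTfin : (Set.range g).Finite := Set.finite_range g
  -- our element
  have hsmax := hsStar ⟨φ, hφ⟩
  -- Galois orbits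
  have horb : ∀ σ : ℂ ≃+* ℂ, coeffMap (σ : ℂ →+* ℂ) (sStar ⟨φ, hφ⟩) ∈ Set.range g := by
    intro σ
    have h1 : IsMaxOrderElt (rrSub hn (sigU N σ φ)) (coeffMap (σ : ℂ →+* ℂ) (sStar ⟨φ, hφ⟩)) :=
      IsMaxOrderElt.coeffMap σ (fun t => coeffMap_mem_rrSet_iff σ φ t) hsmax
    exact hT ⟨sigU N σ φ, sigU_mem_Un N σ hφ⟩ _ h1
  -- the coefficients are in `ιC(ℚ̄)`
  have hcoeff : ∀ k : ℤ, (sStar ⟨φ, hφ⟩).coeff k ∈ ιC.range := by
    intro k
    apply mem_range_of_finite_orbit Kbar ιC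
    refine Set.Finite.subset (hTfin.image (fun t => t.coeff k)) ?_
    rintro x ⟨σ, -, rfl⟩
    exact ⟨coeffMap (σ : ℂ →+* ℂ) (sStar ⟨φ, hφ⟩), horb σ, rfl⟩
  obtain ⟨y, hy⟩ := exists_coeffMap_eq_of_coeff_mem_range ιC _ hcoeff
  have hs0 : sStar ⟨φ, hφ⟩ ≠ 0 := hsmax.ne_zero
  rcases hsmax.1 with h0 | ⟨ψ, hψ, -⟩
  · exact absurd h0 hs0
  have hmem : coeffMap ιC (y ^ n) ∈ laurentBaseChange ℂ (modularFunctionFieldFull N) := by
    rw [map_pow, hy, hψ]
    exact ((φ * ψ ^ n : (FC N)ˣ) : FC N).2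
  have hyF := mem_laurentBaseChange_of_coeffMap _ Kbar ℂ ιC (y ^ n) hmem
  have hbc : bcF N ⟨y ^ n, hyF⟩ = ((φ * ψ ^ n : (FC N)ˣ) : FC N) := Subtype.ext (by
    rw [coe_bcF]
    show coeffMap ιC (y ^ n) = _
    rw [map_pow, hy, hψ])
  have hf₀ : (⟨y ^ n, hyF⟩ : FF N) ≠ 0 := by
    intro h
    rw [h, map_zero] at hbc
    exact (φ * ψ ^ n : (FC N)ˣ).ne_zero hbc.symm
  refine ⟨Units.mk0 _ hf₀, ψ, ?_⟩
  rw [Units.val_mk0, hbc, Units.val_mul, Units.val_pow_eq_pow_val]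

end Main

end Fermat.Agent.AJlib
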