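/-
Item 69 (AJ), piece T1 (final wiring): `Nat.card (Pic0.torsion ℚ̄ (FF N) n) = n ^ (2g)`,
unconditional, together with the unconditional `KummerInputs`.  (helper22)
-/
import Mathlib
import Fermat.Agent.AJlib.Assembly
import Fermat.Agent.AJlib.KummerChar
import Fermat.Agent.AJlib.CharExists
import Fermat.Agent.AJlib.CharInj
import Fermat.Agent.AJlib.CharSurj
import Fermat.Agent.AJlib.DescentUn
import Fermat.Agent.AJlib.DescentRoot
import Fermat.Agent.AJlib.DescentOrd
import Fermat.Agent.AJlib.RationalRep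
import Fermat.Agent.AJlib.Count

set_option autoImplicit false

open scoped MatrixGroups ModularForm Manifold Topology
open UpperHalfPlane ModularForm CongruenceSubgroup Filter AlgebraicCurve ModularCurve

namespace Fermat.Agent.AJlib
open Fermat.Agent.S24lib

section overC

variable {N n : ℕ} [NeZero N]

/-- the Kummer character of a function with divisor divisible by `n` (over `ℂ`) -/
noncomputable def charFunC (hn : 0 < n) (f : Un ℂ (FC N) n) : ↥(Gamma0 N) →* ℂˣ :=
  (exists_isKummerChar hn f.1 f.2).choose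

lemma charFunC_mem (hn : 0 < n) (f : Un ℂ (FC N) n) : charFunC hn f ∈ UnramHom N ℂˣ :=
  (exists_isKummerChar hn f.1 f.2).choose_spec.1

lemma charFunC_spec (hn : 0 < n) (f : Un ℂ (FC N) n) :
    IsKummerChar N n (((f : (FC N)ˣ)) : FC N) (charFunC hn f) :=
  (exists_isKummerChar hn f.1 f.2).choose_spec.2

lemma charFunC_eq_of (hn : 0 < n) (f : Un ℂ (FC N) n) {χ : ↥(Gamma0 N) →* ℂˣ}
    (h : IsKummerChar N n (((f : (FC N)ˣ)) : FC N) χ) : charFunC hn f = χ :=
  isKummerChar_unique hn (charFunC_spec hn f) h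

/-- the Kummer character as a homomorphism (over `ℂ`) -/
noncomputable def charHomC (hn : 0 < n) : Un ℂ (FC N) n →* (↥(Gamma0 N) →* ℂˣ) :=
  MonoidHom.mk' (charFunC hn) (fun f g => by
    apply charFunC_eq_of
    exact isKummerChar_mul hn (charFunC_spec hn f) (charFunC_spec hn g))

lemma charHomC_apply (hn : 0 < n) (f : Un ℂ (FC N) n) : charHomC hn f = charFunC hn f := rfl

lemma charHomC_ker (hn : 0 < n) : (charHomC (N := N) hn).ker = Pn ℂ (FC N) n := by
  ext f
  rw [MonoidHom.mem_ker, kum_mem_Pn_iff, charHomC_apply]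
  constructor
  · intro h
    have h1 := charFunC_spec hn f
    rw [h] at h1
    obtain ⟨ψ, hψ⟩ := exists_root_of_isKummerChar_one hn h1
    have hψ0 : ψ ≠ 0 := by
      rintro rfl
      apply (f : (FC N)ˣ).ne_zero
      rw [← hψ]
      exact zero_pow hn.ne'
    exact ⟨Units.mk0 ψ hψ0, Units.ext (by simpa using hψ)⟩
  · rintro ⟨g, hg⟩
    apply charFunC_eq_of
    rw [← hg, Units.val_pow_eq_pow_val]
    exact isKummerChar_pow hn g.ne_zero

lemma charHomC_mem_tors (hn : 0 < n) (f : Un ℂ (FC N) n) :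
    charHomC hn f ∈ UnramHomTors N n :=
  ⟨charFunC_mem hn f, isKummerChar_pow_eq_one hn (charFunC_spec hn f)⟩

theorem finite_unramHomTors (N n : ℕ) [NeZero N] (hn : 0 < n) : Finite (UnramHomTors N n) := by
  haveI : NeZero n := ⟨hn.ne'⟩
  apply Nat.finite_of_card_ne_zero
  rw [card_unramHomTors, card_unramHom N n hn]
  exact pow_ne_zero _ hn.ne'

theorem finite_Un_mod_Pn_C (N n : ℕ) [NeZero N] (hn : 0 < n) :
    Finite (Un ℂ (FC N) n ⧸ Pn ℂ (FC N) n) := by
  haveI := finite_unramHomTors N n hn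
  let e1 : Un ℂ (FC N) n ⧸ Pn ℂ (FC N) n ≃* Un ℂ (FC N) n ⧸ (charHomC (N := N) hn).ker :=
    QuotientGroup.quotientMulEquivOfEq (charHomC_ker hn).symm
  let e2 : Un ℂ (FC N) n ⧸ (charHomC (N := N) hn).ker ≃* (charHomC (N := N) hn).range :=
    QuotientGroup.quotientKerEquivRange (charHomC hn)
  let F : Un ℂ (FC N) n ⧸ Pn ℂ (FC N) n → UnramHomTors N n := fun q =>
    ⟨(e2 (e1 q)).1, by
      obtain ⟨f, hf⟩ := (e2 (e1 q)).2
      rw [← hf]
      exact charHomC_mem_tors hn f⟩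
  have hF : Function.Injective F := by
    intro q q' h
    have h1 : (e2 (e1 q)).1 = (e2 (e1 q')).1 :=
      congrArg (fun x : UnramHomTors N n => (x : ↥(Gamma0 N) →* ℂˣ)) h
    exact e1.injective (e2.injective (Subtype.ext h1))
  exact Finite.of_injective F hF

/-- every class of `U_n(F_ℂ)` has an integral representative -/
theorem exists_integral_rep (hn : 0 < n) (φ : (FC N)ˣ) (hφ : φ ∈ Un ℂ (FC N) n) :
    ∃ (f ψ : (FC N)ˣ), (f : FC N) = φ * ψ ^ n ∧
      ∀ w : Place ℂ (FC N), (n : ℤ) * min 0 (w.ord (jFC N)) ≤ w.ord (f : FC N) := by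
  obtain ⟨f, hf, hfχ, hint⟩ := exists_of_unramHom hn (charFunC hn ⟨φ, hφ⟩)
    (charFunC_mem hn ⟨φ, hφ⟩) (isKummerChar_pow_eq_one hn (charFunC_spec hn ⟨φ, hφ⟩))
  have h1 : charHomC hn ⟨f, hf⟩ = charHomC hn ⟨φ, hφ⟩ := charFunC_eq_of hn ⟨f, hf⟩ hfχ
  have h2 : (⟨φ, hφ⟩ : Un ℂ (FC N) n)⁻¹ * ⟨f, hf⟩ ∈ (charHomC (N := N) hn).ker := by
    rw [MonoidHom.mem_ker, map_mul, map_inv, h1, inv_mul_cancel]
  rw [charHomC_ker hn, kum_mem_Pn_iff] at h2
  obtain ⟨ψ, hψ⟩ := h2
  refine ⟨f, ψ, ?_, hint⟩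
  have h3 : (f : (FC N)ˣ) = φ * ψ ^ n := by
    rw [hψ]
    simp
  have := congrArg (fun u : (FC N)ˣ => (u : FC N)) h3
  simpa using this

end overC

/-- **D3** (unconditional) -/
theorem exists_rational_rep {N n : ℕ} [NeZero N] (hn : 0 < n) (φ : (FC N)ˣ)
    (hφ : φ ∈ Un ℂ (FC N) n) :
    ∃ (f : (FF N)ˣ) (ψ : (FC N)ˣ), (bcF N (f : FF N) : FC N) = (φ : FC N) * (ψ : FC N) ^ n :=
  exists_rational_rep_of hn (finite_Un_mod_Pn_C N n hn) (fun φ hφ => exists_integral_rep hn φ hφ)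
    φ hφ

/-- all inputs of the Kummer description of `J₀(N)[n]` -/
theorem kummerInputs (N n : ℕ) [NeZero N] (hn : 0 < n) : KummerInputs N n where
  unique := fun h h' => isKummerChar_unique hn h h'
  mul := fun h h' => isKummerChar_mul hn h h'
  pow := fun hf => isKummerChar_pow hn hf
  pow_eq_one := fun h => isKummerChar_pow_eq_one hn h
  exists_char := fun f hf => exists_isKummerChar hn f hf
  root_of_one := fun h => exists_root_of_isKummerChar_one hn h
  exists_fun := fun χ hχ hχn => by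
    obtain ⟨f, hf, hfχ, -⟩ := exists_of_unramHom hn χ hχ hχn
    exact ⟨f, hf, hfχ⟩
  bc_mem := fun f hf => bcF_mem_Un f hf
  bc_root := fun f hf ψ h => exists_root_of_bcF_eq_pow hn f hf ψ h
  rational_rep := fun φ hφ => exists_rational_rep hn φ hφ
  mem_of_bc_mem := fun f hf => mem_Un_of_bcF_mem_Un hn f hf

/-- **T1**: the number of `n`-torsion points of `J₀(N)` over `ℚ̄`. -/
theorem card_torsion (N : ℕ) [NeZero N] (n : ℕ) (hn : 0 < n) :
    Nat.card (Pic0.torsion Kbar (FF N) n) = n ^ (2 * Module.finrank ℂ (CuspForm (Gamma0 N) 2)) :=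
  (kummerInputs N n hn).card_torsion hn (card_unramHom N n hn)

end Fermat.Agent.AJlib
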